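import Fermat.Agent.CFT.EMain

set_option autoImplicit false
set_option maxHeartbeats 400000

/-! Roots of `S`-elements; divisors become `p`-divisible up to principal divisors. -/

namespace Fermat.Agent.CFT

open Finset Fermat.Agent.CFTSec
open scoped NumberField

noncomputable section

variable {S : Finset Nat.Primes} {p : ℕ} [hp : Fact p.Prime]

theorem exists_root_QS (hpS : pP p ∈ S) (x : QS S)
    (hd : ∀ q ∉ S, ∀ σ, (p : ℤ) ∣ (divQ x).1 q σ) : ∃ y : QS S, p • y = x := by
  obtain ⟨F, hF, hxF⟩ := exists_field_mem x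
  have hζ : IsPrimitiveRoot (zN p 0) p := by simpa using zN_spec p 0
  have hZ : (Zf p 0).IsUnramifiedOutside S := (Zf_unram p 0).mono (sub0 hpS)
  have hF' : (F ⊔ Zf p 0).IsUnramifiedOutside S := hF.sup hZ
  have hζF : zN p 0 ∈ F ⊔ Zf p 0 := le_sup_right (a := F) (zN_mem p 0)
  have hx' : qv x ∈ F ⊔ Zf p 0 := le_sup_left (b := Zf p 0) hxF
  have hK := KF_unram hζ hζF hF' hpS (Finset.Subset.refl S) hx' hd
  refine ⟨mkU hK (rt p (qv x)) (rt_mem_KF _) (rt_ne_zero p (qv_ne_zero x)), ?_⟩
  apply qv_injective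
  rw [qv_nsmul, qv_mkU, rt_pow]

theorem divG_ext {D D' : DivG S} (h : ∀ q σ, D.1 q σ = D'.1 q σ) : D = D' :=
  Subtype.ext (funext fun q => funext fun σ => h q σ)

theorem divG_nsmul_apply (n : ℕ) (D : DivG S) (q : Nat.Primes) (σ : GQ) :
    (n • D : DivG S).1 q σ = n * D.1 q σ := by
  have h : ((n • D : DivG S).1 : Nat.Primes → GQ → ℤ) = n • D.1 := rfl
  rw [h]
  show n • D.1 q σ = n * D.1 q σ
  rw [nsmul_eq_mul]

theorem divG_tf {n : ℕ} (hn : n ≠ 0) {D D' : DivG S} (h : n • D = n • D') : D = D' := by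
  apply divG_ext
  intro q σ
  have h1 : (n • D : DivG S).1 q σ = (n • D' : DivG S).1 q σ := by rw [h]
  rw [divG_nsmul_apply, divG_nsmul_apply] at h1
  exact mul_left_cancel₀ (by exact_mod_cast hn) h1

theorem exists_root_of_div (hpS : pP p ∈ S) (x : QS S) (D : DivG S) (hD : divQ x = p • D) :
    ∃ y : QS S, p • y = x ∧ divQ y = D := by
  obtain ⟨y, hy⟩ := exists_root_QS hpS x (fun q _ σ => by
    rw [hD, divG_nsmul_apply]
    exact dvd_mul_right _ _)
  refine ⟨y, hy, ?_⟩
  apply divG_tf hp.out.ne_zero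
  rw [← hD, ← hy]
  exact (map_nsmul (divH S) p y).symm

theorem exists_root_pow (hpS : pP p ∈ S) (k : ℕ) : ∀ (x : QS S) (D : DivG S),
    divQ x = p ^ k • D → ∃ y : QS S, divQ y = D := by
  induction k with
  | zero => intro x D h; exact ⟨x, by rw [h, pow_zero, one_smul]⟩
  | succ k ih =>
    intro x D h
    obtain ⟨y, -, hy⟩ := exists_root_of_div hpS x (p ^ k • D) (by rw [h, pow_succ', mul_smul])
    exact ih y D hy

/-- capitulation -/
theorem cap (hpS : pP p ∈ S) (j : Jm S) :
    ∃ (x : QS S) (D : DivG S), j.1.2 = divQ x + p • D := by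
  obtain ⟨F, hF, hj⟩ := j.2
  haveI := hF.1
  let j' : ↥(fix (Jm S) F.fixingSubgroup) := ⟨j, fun g hg => Subtype.ext (hj g hg)⟩
  have hidx := princ_index (R := 𝓞 F) (K := F)
  obtain ⟨x, hx, hxu⟩ := exists_sub_mem_UF hF (j := (princ (𝓞 F) F).index • j') (by
    rw [map_nsmul]
    exact AddSubgroup.nsmul_index_mem _ _)
  have h1 : (princ (𝓞 F) F).index • j.1.2 = divQ x := by
    have := hxu.2.2
    have h2 : (((princ (𝓞 F) F).index • j').1 - diag S x).1.2 =
      (princ (𝓞 F) F).index • j.1.2 - divQ x := rfl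
    rw [h2, sub_eq_zero] at this
    exact this
  obtain ⟨k, m, hm, hkm⟩ := Nat.exists_eq_pow_mul_and_not_dvd hidx p hp.out.ne_one
  obtain ⟨y, hy⟩ := exists_root_pow hpS k x (m • j.1.2) (by rw [← h1, hkm, mul_smul])
  obtain ⟨a, b, hab⟩ := Nat.isCoprime_iff_coprime.mpr
    ((Nat.Prime.coprime_iff_not_dvd hp.out).mpr hm)
  refine ⟨b • y, a • j.1.2, ?_⟩
  have h2 : divQ (b • y) = b • divQ y := map_zsmul (divH S) b y
  have h3 : j.1.2 = (a * (p : ℤ) + b * (m : ℤ)) • j.1.2 := by rw [hab, one_smul]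
  rw [h2, hy]
  conv_lhs => rw [h3]
  rw [add_smul, mul_smul, mul_smul, natCast_zsmul, natCast_zsmul, add_comm, smul_comm a p]

/-- every element of the local algebraic closure is fixed by a subgroup coming from a global field -/
theorem exists_level_local (q : Nat.Primes) (y : PadicAlgCl (q : ℕ)) :
    ∃ F : IntermediateField ℚ Qb, FiniteDimensional ℚ F ∧
      ∀ t : LG q, localGaloisToGlobal (q : ℕ) t ∈ F.fixingSubgroup → t y = y := by
  classical
  have hfin : ∀ s : Finset (PadicAlgCl (q : ℕ)), ∃ ε : ℝ, 0 < ε ∧ ∀ x ∈ s, y ≠ x → ε ≤ ‖y - x‖ := by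
    intro s
    induction s using Finset.induction_on with
    | empty => exact ⟨1, one_pos, fun x hx => absurd hx (Finset.notMem_empty x)⟩
    | insert a s _ ih =>
      obtain ⟨ε, hε, h⟩ := ih
      by_cases hya : y = a
      · refine ⟨ε, hε, fun x hx hne => ?_⟩
        rcases Finset.mem_insert.mp hx with rfl | hx
        · exact absurd hya hne
        · exact h x hx hne
      · refine ⟨min ε ‖y - a‖, lt_min hε (norm_pos_iff.mpr (sub_ne_zero.mpr hya)),
          fun x hx hne => ?_⟩
        rcases Finset.mem_insert.mp hx with rfl | hx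
        · exact min_le_right _ _
        · exact (min_le_left _ _).trans (h x hx hne)
  have hint : IsIntegral ℚ_[(q : ℕ)] y := Algebra.IsIntegral.isIntegral y
  obtain ⟨ε, hε, h⟩ := hfin ((minpoly ℚ_[(q : ℕ)] y).aroots (PadicAlgCl (q : ℕ))).toFinset
  obtain ⟨a, ha⟩ := exists_qb_approx (q : ℕ) y hε
  have hsep : (minpoly ℚ_[(q : ℕ)] y).Separable := (minpoly.irreducible hint).separable
  have hmem : y ∈ IntermediateField.adjoin ℚ_[(q : ℕ)] {padicEmbedding (q : ℕ) a} := by
    refine IsKrasner.krasner hsep (IsAlgClosed.splits _) (Algebra.IsIntegral.isIntegral _) ?_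
    intro x hx hne
    refine ha.trans_le (h x ?_ hne)
    rw [Multiset.mem_toFinset, Polynomial.mem_aroots]
    refine ⟨minpoly.ne_zero hint, ?_⟩
    have h1 : minpoly ℚ_[(q : ℕ)] y = minpoly ℚ_[(q : ℕ)] x := hx
    rw [h1]
    exact minpoly.aeval _ _
  refine ⟨IntermediateField.adjoin ℚ {a}, ?_, fun t ht => ?_⟩
  · exact IntermediateField.adjoin.finiteDimensional (Algebra.IsIntegral.isIntegral a)
  · have h1 : t (padicEmbedding (q : ℕ) a) = padicEmbedding (q : ℕ) a := by
      rw [← padicEmbedding_localGaloisToGlobal]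
      congr 1
      exact (IntermediateField.mem_fixingSubgroup_iff _ _).mp ht a
        (IntermediateField.mem_adjoin_simple_self ℚ a)
    clear hfin hint h ha hsep
    induction hmem using IntermediateField.adjoin_induction with
    | mem x hx =>
      rw [Set.mem_singleton_iff] at hx
      rw [hx]; exact h1
    | algebraMap x => exact AlgEquiv.commutes t x
    | add x y _ _ hx hy => rw [map_add, hx, hy]
    | inv x _ hx => rw [map_inv₀, hx]
    | mul x y _ _ hx hy => rw [map_mul, hx, hy]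

end

end Fermat.Agent.CFT
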