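import Fermat.Agent.CFT.Shapiro

set_option autoImplicit false
set_option maxHeartbeats 400000

/-! Class formation layers, cup products with characters. -/

namespace Fermat.Agent.CFT

open Finset

section order

theorem exists_int_mul_sub {A : Type*} [AddCommGroup A] {B Z : AddSubgroup A} (hBZ : B ≤ Z) {n : ℕ}
    (hn : 0 < n) (hfin : RelFin B Z n) {u : A} (hu : u ∈ Z) (hord : ∀ k : ℤ, k • u ∈ B → (n : ℤ) ∣ k)
    {x : A} (hx : x ∈ Z) : ∃ k : ℤ, x - k • u ∈ B := by
  let Q := Z ⧸ B.addSubgroupOf Z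
  have hcard : Nat.card Q = B.relIndex Z := rfl
  haveI : Finite Q := Nat.finite_of_card_ne_zero (by rw [hcard]; exact hfin.1)
  haveI : Fintype Q := Fintype.ofFinite Q
  let ub : Q := QuotientAddGroup.mk ⟨u, hu⟩
  have hord2 : ∀ k : ℤ, k • ub = 0 → (n : ℤ) ∣ k := by
    intro k hk
    apply hord
    have : (QuotientAddGroup.mk (k • (⟨u, hu⟩ : Z)) : Q) = 0 := hk
    rw [QuotientAddGroup.eq_zero_iff, AddSubgroup.mem_addSubgroupOf] at this
    exact this
  have h1 : n ≤ addOrderOf ub := by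
    have h2 : (n : ℤ) ∣ (addOrderOf ub : ℤ) := hord2 _ (by
      rw [natCast_zsmul]; exact addOrderOf_nsmul_eq_zero ub)
    exact Nat.le_of_dvd (addOrderOf_pos ub) (by exact_mod_cast h2)
  have h3 : Nat.card (AddSubgroup.zmultiples ub) = addOrderOf ub := Nat.card_zmultiples ub
  have h4 : AddSubgroup.zmultiples ub = ⊤ := by
    apply AddSubgroup.eq_top_of_le_card
    rw [h3, hcard]
    exact hfin.2.trans h1
  have h5 : (QuotientAddGroup.mk (⟨x, hx⟩ : Z) : Q) ∈ AddSubgroup.zmultiples ub := by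
    rw [h4]; trivial
  obtain ⟨k, hk⟩ := AddSubgroup.mem_zmultiples_iff.mp h5
  refine ⟨k, ?_⟩
  have h6 : (QuotientAddGroup.mk ((⟨x, hx⟩ : Z) - k • (⟨u, hu⟩ : Z)) : Q) = 0 := by
    have : (QuotientAddGroup.mk ((⟨x, hx⟩ : Z) - k • (⟨u, hu⟩ : Z)) : Q) =
      (QuotientAddGroup.mk (⟨x, hx⟩ : Z) : Q) - k • ub := rfl
    rw [this, hk, sub_self]
  rw [QuotientAddGroup.eq_zero_iff, AddSubgroup.mem_addSubgroupOf] at h6
  exact h6

end order

variable {G : Type*} [Group G] {A : Type*} [AddCommGroup A] [DistribMulAction G A]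

theorem card_dvd_of_pow_dvd {p : ℕ} [hp : Fact p.Prime] [Finite G] (P : Subgroup G)
    (hP : IsPGroup p P) {k : ℤ}
    (h : ((p ^ (Nat.card G).factorization p : ℕ) : ℤ) ∣ (P.index : ℤ) * k) :
    (Nat.card P : ℤ) ∣ k := by
  rcases eq_or_ne k 0 with rfl | hk
  · exact dvd_zero _
  obtain ⟨n, hn⟩ := IsPGroup.iff_card.mp hP
  have hG : Nat.card P * P.index = Nat.card G := P.card_mul_index
  have hi : P.index ≠ 0 := Subgroup.index_ne_zero_of_finite
  have hPc : Nat.card P ≠ 0 := Nat.card_pos.ne'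
  have hfac : (Nat.card G).factorization p = n + P.index.factorization p := by
    rw [← hG, Nat.factorization_mul hPc hi, hn, Finsupp.add_apply, hp.out.factorization_pow,
      Finsupp.single_eq_same]
  have h1 : p ^ (Nat.card G).factorization p ∣ P.index * k.natAbs := by
    have := Int.natAbs_dvd_natAbs.mpr h
    rwa [Int.natAbs_natCast, Int.natAbs_mul, Int.natAbs_natCast] at this
  have hk' : k.natAbs ≠ 0 := Int.natAbs_ne_zero.mpr hk
  have h2 := (hp.out.pow_dvd_iff_le_factorization (mul_ne_zero hi hk')).mp h1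
  rw [Nat.factorization_mul hi hk', Finsupp.add_apply, hfac] at h2
  have h3 : n ≤ k.natAbs.factorization p := by omega
  rw [hn]
  have h4 := (hp.out.pow_dvd_iff_le_factorization hk').mpr h3
  exact Int.natCast_dvd.mpr h4

theorem CFLayer.mk' {p : ℕ} [hp : Fact p.Prime] [Finite G] (hlay : LayerHyp p G A)
    {u : G → G → A} (hu : u ∈ Z2 G A)
    (hord : ∀ k : ℤ, k • u ∈ B2 G A → ((p ^ (Nat.card G).factorization p : ℕ) : ℤ) ∣ k) :
    CFLayer p G A u := by
  have hord' : ∀ P : Subgroup G, IsPGroup p P → ∀ k : ℤ, k • res2 P u ∈ B2 P A →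
      (Nat.card P : ℤ) ∣ k := by
    intro P hP k hk
    apply card_dvd_of_pow_dvd P hP
    apply hord
    have h1 : P.index • (k • u) ∈ B2 G A := cor_res2 P ((Z2 G A).zsmul_mem hu k) hk
    rw [mul_smul, natCast_zsmul]
    exact h1
  refine ⟨hu, fun P hP => (layers hlay P hP).1, fun P hP x hx => ?_, hord'⟩
  have hu' : res2 P u ∈ Z2 P A := fun g h k => hu g h k
  exact exists_int_mul_sub B2_le_Z2 Nat.card_pos (layers hlay P hP).2 hu' (hord' P hP) hx

/-- coboundary is killed by the order of the group -/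
theorem card_smul_mem_B2 [Finite G] {x : G → G → A} (hx : x ∈ Z2 G A) :
    Nat.card G • x ∈ B2 G A := by
  have h1 : res2 (⊥ : Subgroup G) x ∈ B2 (⊥ : Subgroup G) A := by
    refine ⟨fun _ => x 1 1, fun g h => ?_⟩
    rw [Subsingleton.elim g 1, Subsingleton.elim h 1, one_smul]
    show x 1 1 = _
    abel
  have h2 := cor_res2 (⊥ : Subgroup G) hx h1
  rwa [Subgroup.index_bot] at h2

/-- coboundary is killed by the order of the group -/
theorem card_smul_mem_B1 [Finite G] {x : G → A} (hx : x ∈ Z1 G A) :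
    Nat.card G • x ∈ B1 G A := by
  have h1 : (fun g : (⊥ : Subgroup G) => x g) ∈ B1 (⊥ : Subgroup G) A := by
    refine ⟨0, fun g => ?_⟩
    rw [Subsingleton.elim g 1]
    show x 1 = _
    rw [Z1.one hx]; simp
  have h2 := cor_res1 (⊥ : Subgroup G) hx h1
  rwa [Subgroup.index_bot] at h2

/-- cup product of an invariant element with the Bockstein of a character given by an integer lift -/
def cup (n : ℕ) (f : G → ℤ) (a : A) : G → G → A :=
  fun g h => ((f g + f h - f (g * h)) / n) • a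

theorem cup_mem_Z2 {n : ℕ} (hn : 0 < n) {f : G → ℤ}
    (hf : ∀ g h, (n : ℤ) ∣ f g + f h - f (g * h)) {a : A} (ha : a ∈ fix A (⊤ : Subgroup G)) :
    cup n f a ∈ Z2 G A := by
  have hn' : (n : ℤ) ≠ 0 := by exact_mod_cast hn.ne'
  intro g h k
  have h1 : g • a = a := ha g trivial
  simp only [cup]
  have h2 : g • (((f h + f k - f (h * k)) / (n : ℤ)) • a) = ((f h + f k - f (h * k)) / (n : ℤ)) • a := by
    rw [smul_comm, h1]
  rw [h2, ← add_smul, ← add_smul]
  congr 1
  obtain ⟨c1, e1⟩ := hf g h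
  obtain ⟨c2, e2⟩ := hf (g * h) k
  obtain ⟨c3, e3⟩ := hf h k
  obtain ⟨c4, e4⟩ := hf g (h * k)
  rw [e1, e2, e3, e4, Int.mul_ediv_cancel_left _ hn', Int.mul_ediv_cancel_left _ hn',
    Int.mul_ediv_cancel_left _ hn', Int.mul_ediv_cancel_left _ hn']
  have : (n : ℤ) * (c1 + c2) = n * (c3 + c4) := by
    rw [mul_add, mul_add, ← e1, ← e2, ← e3, ← e4, mul_assoc]; ring
  exact mul_left_cancel₀ hn' this

theorem cup_add_right {n : ℕ} {f : G → ℤ} (a b : A) : cup n f (a + b) = cup n f a + cup n f b := by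
  funext g h; simp [cup]

theorem cup_zsmul_right {n : ℕ} {f : G → ℤ} (k : ℤ) (a : A) : cup n f (k • a) = k • cup n f a := by
  funext g h; simp [cup, smul_comm k]

theorem cup_congr {n : ℕ} (hn : 0 < n) {f f' : G → ℤ}
    (hf : ∀ g h, (n : ℤ) ∣ f g + f h - f (g * h)) (hff : ∀ g, (n : ℤ) ∣ f g - f' g)
    {a : A} (ha : a ∈ fix A (⊤ : Subgroup G)) :
    cup n f a - cup n f' a ∈ B2 G A := by
  have hn' : (n : ℤ) ≠ 0 := by exact_mod_cast hn.ne'
  refine ⟨fun g => ((f g - f' g) / (n : ℤ)) • a, fun g h => ?_⟩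
  have h1 : g • a = a := ha g trivial
  simp only [Pi.sub_apply, cup]
  rw [smul_comm g, h1, ← add_smul, ← sub_smul, ← sub_smul]
  congr 1
  obtain ⟨c1, e1⟩ := hf g h
  obtain ⟨c2, e2⟩ := hff g
  obtain ⟨c3, e3⟩ := hff h
  obtain ⟨c4, e4⟩ := hff (g * h)
  have e5 : f' g + f' h - f' (g * h) = n * (c1 - c2 - c3 + c4) := by
    linear_combination e1 - e2 - e3 + e4
  rw [e5, e1, e2, e3, e4, Int.mul_ediv_cancel_left _ hn', Int.mul_ediv_cancel_left _ hn',
    Int.mul_ediv_cancel_left _ hn', Int.mul_ediv_cancel_left _ hn', Int.mul_ediv_cancel_left _ hn']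
  ring

theorem cup_add_left {n : ℕ} {f f' : G → ℤ}
    (hf : ∀ g h, (n : ℤ) ∣ f g + f h - f (g * h)) (a : A) :
    cup n (f + f') a = cup n f a + cup n f' a := by
  funext g h
  simp only [cup, Pi.add_apply]
  rw [← add_smul]
  congr 1
  rw [← Int.add_ediv_of_dvd_left (hf g h)]
  congr 1; ring

section cyclic

variable {n : ℕ} [NeZero n] (χ : G → ZMod n) (hχ : ∀ g h, χ (g * h) = χ g + χ h)

/-- the standard integer lift -/
def lft (g : G) : ℤ := ((χ g).val : ℤ)

include hχ in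
theorem lft_dvd (g h : G) : (n : ℤ) ∣ lft χ g + lft χ h - lft χ (g * h) := by
  rw [← ZMod.intCast_zmod_eq_zero_iff_dvd]
  simp [lft, hχ]

include hχ in
theorem chi_one : χ 1 = 0 := by
  have := hχ 1 1
  rw [one_mul] at this
  simpa using this

include hχ in
theorem chi_pow (s : G) (i : ℕ) : χ (s ^ i) = i * χ s := by
  induction i with
  | zero => simp [chi_one χ hχ]
  | succ i ih => rw [pow_succ, hχ, ih]; push_cast; ring

include hχ in
theorem hconj_aux {s : G} (hs : χ s = 1) {H : Subgroup G} (hH : ∀ g, g ∈ H ↔ χ g = 0)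
    {b : A} (hb : b ∈ fix A H) (g : G) : g • b = s ^ (χ g).val • b := by
  have h1 : (s ^ (χ g).val)⁻¹ * g ∈ H := by
    rw [hH, hχ]
    have h2 : χ ((s ^ (χ g).val)⁻¹) = -χ g := by
      have h3 := hχ (s ^ (χ g).val) (s ^ (χ g).val)⁻¹
      rw [mul_inv_cancel, chi_one χ hχ, chi_pow χ hχ, hs, mul_one, ZMod.natCast_zmod_val] at h3
      rw [eq_neg_iff_add_eq_zero, add_comm]; exact h3.symm
    rw [h2]; simp
  conv_lhs => rw [show g = s ^ (χ g).val * ((s ^ (χ g).val)⁻¹ * g) by group]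
  rw [mul_smul, hb _ h1]

include hχ in
theorem cup_mem_B2_of_norm {s : G} (hs : χ s = 1) {H : Subgroup G} (hH : ∀ g, g ∈ H ↔ χ g = 0)
    {a b : A} (hb : b ∈ fix A H) (hab : a = ∑ i ∈ range n, s ^ i • b) :
    cup n (lft χ) a ∈ B2 G A := by
  have hn : (n : ℤ) ≠ 0 := by exact_mod_cast (NeZero.ne n)
  have hsn : s ^ n ∈ H := by rw [hH, chi_pow χ hχ]; simp
  -- partial sums
  let β : ℕ → A := fun m => ∑ j ∈ range m, s ^ j • b
  have hβadd : ∀ m k : ℕ, β (m + k) = β m + s ^ m • β k := by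
    intro m k
    simp only [β, sum_range_add, smul_sum, smul_smul, ← pow_add]
  have hβn : β n = a := hab.symm
  have hfixβ : ∀ m, ∀ g : G, g • β m = s ^ (χ g).val • β m := by
    intro m g
    simp only [β, smul_sum, smul_smul]
    refine sum_congr rfl fun j _ => ?_
    rw [hconj_aux χ hχ hs hH hb (g * s ^ j), hconj_aux χ hχ hs hH hb (s ^ (χ g).val * s ^ j)]
    simp only [hχ, chi_pow χ hχ, hs, mul_one, ZMod.natCast_zmod_val]
  refine ⟨fun g => β (χ g).val, fun g h => ?_⟩
  simp only [cup, lft]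
  rw [hfixβ, ← hβadd]
  rcases lt_or_ge ((χ g).val + (χ h).val) n with hlt | hge
  · rw [hχ, ZMod.val_add_of_lt hlt]
    simp
  · have h1 : (χ (g * h)).val + n = (χ g).val + (χ h).val := by
      rw [hχ]; exact (ZMod.val_add_val_of_le hge).symm
    have h2 : (((χ g).val : ℤ) + (χ h).val - (χ (g * h)).val) / (n : ℤ) = 1 := by
      have : ((χ g).val : ℤ) + (χ h).val - (χ (g * h)).val = n := by
        have := congrArg (Nat.cast : ℕ → ℤ) h1
        push_cast at this
        linarith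
      rw [this, Int.ediv_self hn]
    rw [h2, one_smul, ← h1, add_comm (χ (g * h)).val n, hβadd, hβn]
    have h3 : s ^ n • β (χ (g * h)).val = β (χ (g * h)).val := by
      rw [hfixβ, chi_pow χ hχ]; simp
    rw [h3]; abel

include hχ in
/-- if the cup product with an invariant element is a coboundary, the element is a norm -/
theorem norm_of_cup_mem_B2 {s : G} (hs : χ s = 1) {H : Subgroup G} [hHn : H.Normal]
    (hH : ∀ g, g ∈ H ↔ χ g = 0) (hH1 : Z1 H A ≤ B1 H A) {a : A}
    (ha : a ∈ fix A (⊤ : Subgroup G)) (hcup : cup n (lft χ) a ∈ B2 G A) :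
    ∃ b ∈ fix A H, a = ∑ i ∈ range n, s ^ i • b := by
  by_cases hn1 : n = 1
  · exact ⟨a, fun k _ => ha k trivial, by rw [hn1]; simp⟩
  have hn : (n : ℤ) ≠ 0 := by exact_mod_cast (NeZero.ne n)
  have hχH : ∀ g, ∀ k ∈ H, χ (g * k) = χ g := by
    intro g k hk; rw [hχ, (hH k).mp hk, add_zero]
  have hlev : IsLevel2 H (cup n (lft χ) a) := by
    refine ⟨fun g h k hk => ?_, fun g h k hk => ?_, fun g h => ?_⟩
    · have h1 : χ (g * k * h) = χ (g * h) := by rw [hχ, hχH g k hk, hχ]
      simp only [cup, lft, hχH g k hk, h1]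
    · have h1 : χ (g * (h * k)) = χ (g * h) := by rw [hχ, hχH h k hk, hχ]
      simp only [cup, lft, hχH h k hk, h1]
    · intro k _
      simp only [cup]
      rw [smul_comm, ha k trivial]
  obtain ⟨β, hβ, hβl, hβf⟩ := inf_inj2 H hH1 hlev hcup
  have hcast : ∀ i : ℕ, i < n → (χ (s ^ i)).val = i := by
    intro i hi
    rw [chi_pow χ hχ, hs, mul_one, ZMod.val_natCast, Nat.mod_eq_of_lt hi]
  have hβ1 : β 1 = 0 := by
    have h1 := hβ 1 1
    simp only [cup, one_mul, one_smul, add_sub_cancel_right] at h1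
    rw [← h1]
    simp [lft, chi_one χ hχ]
  refine ⟨β s, hβf s, ?_⟩
  -- telescoping
  have hstep : ∀ i : ℕ, β (s ^ (i + 1)) = β (s ^ i) + s ^ i • β s - cup n (lft χ) a (s ^ i) s := by
    intro i
    rw [hβ (s ^ i) s, ← pow_succ]; abel
  have hsum : ∀ m : ℕ, β (s ^ m) = ∑ i ∈ range m, s ^ i • β s -
      ∑ i ∈ range m, cup n (lft χ) a (s ^ i) s := by
    intro m
    induction m with
    | zero => simp [hβ1]
    | succ m ih => rw [hstep, ih, sum_range_succ, sum_range_succ]; abel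
  have hsn : s ^ n ∈ H := by rw [hH, chi_pow χ hχ]; simp
  have h2 := hsum n
  have h3 : β (s ^ n) = 0 := by
    have := hβl 1 _ hsn
    rw [one_mul] at this
    rw [this, hβ1]
  have hval1 : (χ s).val = 1 := by
    have h := Nat.one_le_iff_ne_zero.mpr (NeZero.ne n)
    have := hcast 1 (by omega)
    rwa [pow_one] at this
  have h4 : ∑ i ∈ range n, cup n (lft χ) a (s ^ i) s = a := by
    have key : ∀ i ∈ range n, cup n (lft χ) a (s ^ i) s = if i + 1 = n then a else 0 := by
      intro i hi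
      have hi' := mem_range.mp hi
      have h1 := hval1
      split_ifs with h5
      · have h6 : χ (s ^ i * s) = 0 := by
          rw [← pow_succ, chi_pow χ hχ, h5]; simp
        simp only [cup, lft, hcast i hi', h1, h6, ZMod.val_zero]
        have h7 : ((i : ℤ) + (1 : ℕ) - (0 : ℕ)) / (n : ℤ) = 1 := by
          have : ((i : ℤ) + (1 : ℕ) - (0 : ℕ)) = n := by
            rw [← h5]; push_cast; ring
          rw [this, Int.ediv_self hn]
        rw [h7, one_smul]
      · have h6 : (χ (s ^ i * s)).val = i + 1 := by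
          rw [← pow_succ]; exact hcast _ (by omega)
        simp only [cup, lft, hcast i hi', h1, h6]
        have h7 : ((i : ℤ) + (1 : ℕ) - ((i + 1 : ℕ) : ℤ)) / (n : ℤ) = 0 := by
          push_cast; simp
        rw [h7, zero_smul]
    rw [sum_congr rfl key]
    obtain ⟨m, hm⟩ : ∃ m, n = m + 1 := ⟨n - 1, by have := NeZero.ne n; omega⟩
    rw [hm, sum_range_succ, if_pos rfl, sum_eq_zero, zero_add]
    intro i hi
    rw [if_neg (by have := mem_range.mp hi; omega)]
  rw [h3, h4] at h2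
  have h5 : a = ∑ i ∈ range n, s ^ i • β s := by
    rw [eq_comm, ← sub_eq_zero]; exact h2.symm
  exact h5

end cyclic

end Fermat.Agent.CFT
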