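import Fermat.Agent.CFT.TN3

set_option autoImplicit false
set_option maxHeartbeats 400000

/-! Tate-Nakayama, part 4: nondegeneracy. -/

namespace Fermat.Agent.CFT

open Finset

section lifts

variable {F : Type*} [AddCommGroup F] {p : ℕ} [hp : Fact p.Prime]

theorem exists_lift_hom [Module.Free ℤ F] (f : F →+ ZMod p) :
    ∃ ft : F →+ ℤ, ∀ x, ((ft x : ℤ) : ZMod p) = f x := by
  let π : ℤ →ₗ[ℤ] ZMod p := (Int.castAddHom (ZMod p)).toIntLinearMap
  have hπ : Function.Surjective π := ZMod.intCast_surjective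
  obtain ⟨h, hh⟩ := Module.projective_lifting_property π f.toIntLinearMap hπ
  exact ⟨h.toAddMonoidHom, fun x => congrArg (fun l : F →ₗ[ℤ] ZMod p => l x) hh⟩

end lifts

section T

variable {G : Type*} [Group G] [Fintype G] {F : Type*} [AddCommGroup F] [DistribMulAction G F]
  {C : Type*} [AddCommGroup C] [DistribMulAction G C] {p : ℕ} [hp : Fact p.Prime]
  {R : AddSubgroup F} [hR : Stab G R]

theorem prime_dvd_of_card {P : Subgroup G} (hP : ¬ p ∣ P.index) {a s : ℤ}
    (h1 : (p : ℤ) * a = Fintype.card G * s) (h2 : (Nat.card P : ℤ) ∣ a) : (p : ℤ) ∣ s := by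
  obtain ⟨b, rfl⟩ := h2
  have h3 : (Nat.card P * P.index : ℕ) = Fintype.card G := by
    rw [P.card_mul_index, Nat.card_eq_fintype_card]
  rw [← h3, Nat.cast_mul, mul_left_comm, mul_assoc] at h1
  have h4 : (Nat.card P : ℤ) ≠ 0 := by exact_mod_cast Nat.card_pos.ne'
  have h5 := mul_left_cancel₀ h4 h1
  have h6 : (p : ℤ) ∣ (P.index : ℤ) * s := ⟨b, h5.symm⟩
  rcases (Nat.prime_iff_prime_int.mp hp.out).dvd_or_dvd h6 with h | h
  · exact absurd (by exact_mod_cast h) hP
  · exact h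

omit [Fintype G] in
theorem res_mem_B2 {x : G → G → C} (hx : x ∈ B2 G C) (P : Subgroup G) : res2 P x ∈ B2 P C := by
  obtain ⟨b, hb⟩ := hx
  exact ⟨fun g => b g, fun g h => hb g h⟩

theorem exists_sylow_index (G : Type*) [Group G] [Finite G] (p : ℕ) [hp : Fact p.Prime] :
    ∃ P : Subgroup G, IsPGroup p P ∧ ¬ p ∣ P.index := by
  obtain ⟨P⟩ := (inferInstance : Nonempty (Sylow p G))
  exact ⟨P, P.isPGroup', P.not_dvd_index⟩

/-- **right nondegeneracy** -/
theorem T1 [Module.Free ℤ F] {u : G → G → C} (hcf : CFLayer p G C u) (hpR : ∀ f : F, p • f ∈ R)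
    (e : F →+ F) (he : ∀ f, ∑ x : G, x • e (x⁻¹ • f) = f)
    (c : G → F) (hc : ∀ g h, dd c g h ∈ R) (hnc : ¬ ∃ m : F, ∀ g, c g - (g • m - m) ∈ R) :
    ∃ φ : R →+ C, (∀ (g : G) (r : R), φ (g • r) = g • φ r) ∧
      (fun g h => φ (rr c hc g h)) ∉ B2 G C := by
  obtain ⟨f, hf1, hf2, hf3⟩ := exists_functional1 hpR c hnc
  choose ft hft using fun y => exists_lift_hom (f y)
  have hp0 : (p : ℤ) ≠ 0 := by exact_mod_cast hp.out.ne_zero
  -- correction
  obtain ⟨k, hk⟩ := exists_div_hom hp0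
    (∑ y, ((ft y).comp (DistribSMul.toAddMonoidHom F y) - ft y)) (fun s => by
      rw [← ZMod.intCast_zmod_eq_zero_iff_dvd, AddMonoidHom.finsetSum_apply]
      push_cast
      have h1 : ∀ y : G, ((((ft y).comp (DistribSMul.toAddMonoidHom F y) - ft y) s : ℤ) : ZMod p) =
          f y (y • s) - f y s := by
        intro y
        rw [AddMonoidHom.sub_apply]
        push_cast
        rw [← hft, ← hft]; rfl
      rw [sum_congr rfl fun y _ => h1 y, sum_sub_distrib, hf2, sub_self])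
  have hk' : ∀ s, ∑ y, (ft y (y • s) - ft y s) = p * k s := by
    intro s
    rw [← hk, AddMonoidHom.finsetSum_apply]; rfl
  have hNk : ∀ s : F, ∑ y : G, k (y⁻¹ • s) = 0 := by
    intro s
    apply mul_left_cancel₀ hp0
    rw [mul_sum, mul_zero, sum_congr rfl fun y _ => (hk' (y⁻¹ • s)).symm, sum_comm]
    refine sum_eq_zero fun y _ => ?_
    rw [sum_sub_distrib, sub_eq_zero]
    refine Fintype.sum_equiv (Equiv.mulRight y⁻¹) _ _ (fun x => ?_)
    simp only [Equiv.coe_mulRight]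
    rw [smul_smul, show (x * y⁻¹)⁻¹ = y * x⁻¹ by group]
  let κ : G → F →+ ℤ := fun y => k.comp ((DistribSMul.toAddMonoidHom F y⁻¹).comp e)
  have hκ : ∀ s, ∑ y, (κ y (y • s) - κ y s) = k s := by
    intro s
    rw [sum_sub_distrib]
    have h1 : ∑ y, κ y s = 0 := hNk (e s)
    have h2 : ∑ y, κ y (y • s) = k s := by
      conv_rhs => rw [← he s]
      rw [map_sum]
      refine Fintype.sum_equiv (Equiv.inv G) _ _ (fun y => ?_)
      show k (y⁻¹ • e (y • s)) = k (y⁻¹ • e ((y⁻¹)⁻¹ • s))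
      rw [inv_inv]
    rw [h1, h2, sub_zero]
  let g : G → F →+ ℤ := fun y => ft y - (p : ℤ) • κ y
  have hg : ∀ y s, g y s = ft y s - p * κ y s := fun y s => rfl
  have hgi : ∀ s, ∑ y, g y (y • s) = ∑ y, g y s := by
    intro s
    rw [← sub_eq_zero, ← sum_sub_distrib]
    have h1 : ∀ y, g y (y • s) - g y s = (ft y (y • s) - ft y s) - p * (κ y (y • s) - κ y s) := by
      intro y; rw [hg, hg]; ring
    rw [sum_congr rfl fun y _ => h1 y, sum_sub_distrib, hk', ← mul_sum, hκ, sub_self]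
  have hgf : ∀ y s, ((g y s : ℤ) : ZMod p) = f y s := by
    intro y s
    rw [hg, ← hft]
    push_cast
    rw [ZMod.natCast_self]; ring
  have hρ : ∀ y, ∃ ρ : R →+ ℤ, ∀ r : R, g y r = p * ρ r := by
    intro y
    refine exists_div_hom hp0 ((g y).comp R.subtype) (fun r => ?_)
    rw [← ZMod.intCast_zmod_eq_zero_iff_dvd]
    show ((g y r : ℤ) : ZMod p) = 0
    rw [hgf]; exact hf1 y r r.2
  choose ρ hρ using hρ
  have hρi : ∀ s : R, ∑ y, ρ y (y • s) = ∑ y, ρ y s := by
    intro s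
    apply mul_left_cancel₀ hp0
    rw [mul_sum, mul_sum, sum_congr rfl fun y _ => (hρ y (y • s)).symm,
      sum_congr rfl fun y _ => (hρ y s).symm]
    exact hgi s
  refine ⟨phiR u ρ, fun x r => phiR_equi hcf.mem hρi x r, fun hB => ?_⟩
  have h1 := cap_identity hcf.mem (rr_mem c hc) hρi
  have h2 := (B2 G C).sub_mem hB h1
  rw [sub_sub_cancel] at h2
  obtain ⟨P, hP, hPi⟩ := exists_sylow_index G p
  have h3 := hcf.ord P hP _ (res_mem_B2 h2 P)
  have h4 := cap_identity2 (p := p) hc hgi (fun y s => (hρ y s).symm)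
  have h5 := prime_dvd_of_card hPi h4 h3
  apply hf3
  rw [← ZMod.intCast_zmod_eq_zero_iff_dvd] at h5
  push_cast at h5
  rw [← h5]
  exact sum_congr rfl fun y _ => (hgf y (c y)).symm

theorem sum_quot (P : Subgroup G) [Fintype P] {A : Type*} [AddCommGroup A] (f : G → A) :
    ∑ g, f g = ∑ᶠ q : G ⧸ P, ∑ x : P, f (q.out * x) := by
  classical
  haveI : Fintype (G ⧸ P) := Fintype.ofFinite _
  rw [finsum_eq_sum_of_fintype, ← Fintype.sum_prod_type']
  refine (Fintype.sum_bijective (fun qx : (G ⧸ P) × P => (qx.1.out * qx.2 : G)) ?_ _ _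
    (fun qx => rfl)).symm
  constructor
  · rintro ⟨q, x⟩ ⟨q', x'⟩ h
    have h0 : (q.out * x : G) = q'.out * x' := h
    have h1 : q = q' := by
      rw [← QuotientGroup.out_eq' q, ← QuotientGroup.out_eq' q', QuotientGroup.eq]
      have : (q.out : G)⁻¹ * q'.out = x * (x' : G)⁻¹ := by
        rw [inv_mul_eq_iff_eq_mul, ← mul_assoc, h0]; group
      rw [this]; exact P.mul_mem x.2 (P.inv_mem x'.2)
    subst h1
    rw [Subtype.ext (mul_left_cancel h0)]
  · intro g
    refine ⟨((g : G ⧸ P), ⟨((g : G ⧸ P).out)⁻¹ * g, ?_⟩), ?_⟩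
    · rw [← QuotientGroup.eq, QuotientGroup.out_eq']
    · simp

/-- **left nondegeneracy** -/
theorem T2 [Module.Free ℤ F] [Module.Finite ℤ F] [Finite (F ⧸ R)] {u : G → G → C}
    (hcf : CFLayer p G C u) (hpR : ∀ f : F, p • f ∈ R)
    (e : F →+ F) (he : ∀ f, ∑ x : G, x • e (x⁻¹ • f) = f)
    (φ : R →+ C) (hφ : ∀ (g : G) (r : R), φ (g • r) = g • φ r)
    (hpair : ∀ (c : G → F) (hc : ∀ g h, dd c g h ∈ R), (fun g h => φ (rr c hc g h)) ∈ B2 G C) :
    ∃ m : ℕ, ¬ p ∣ m ∧ ∃ γ : R →+ C, ∀ r, m • φ r = ∑ x : G, x • γ (x⁻¹ • r) := by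
  classical
  have hp0 : (p : ℤ) ≠ 0 := by exact_mod_cast hp.out.ne_zero
  obtain ⟨P, hP, hPi⟩ := exists_sylow_index G p
  haveI : Fintype P := Fintype.ofFinite P
  haveI : Fintype (G ⧸ P) := Fintype.ofFinite _
  refine ⟨P.index, hPi, ?_⟩
  let U : Z2 G C := ⟨u, hcf.mem⟩
  -- relative projectivity for P
  let eP : F →+ F := ∑ q : G ⧸ P, (DistribSMul.toAddMonoidHom F (q.out)⁻¹).comp
    (e.comp (DistribSMul.toAddMonoidHom F q.out))
  have heP' : ∀ f, eP f = ∑ q : G ⧸ P, (q.out)⁻¹ • e (q.out • f) := by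
    intro f
    rw [AddMonoidHom.finsetSum_apply]; rfl
  have heP : ∀ f, ∑ x : P, x • eP (x⁻¹ • f) = f := by
    intro f
    conv_rhs => rw [← he f]
    have h1 : ∑ x : G, x • e (x⁻¹ • f) = ∑ x : G, x⁻¹ • e (x • f) := by
      refine Fintype.sum_equiv (Equiv.inv G) _ _ (fun x => ?_)
      simp
    rw [h1, sum_quot P, finsum_eq_sum_of_fintype, sum_comm]
    have h2 : ∀ x : P, x • eP (x⁻¹ • f) = ∑ q : G ⧸ P, (q.out * (x⁻¹ : P) : G)⁻¹ •
        e ((q.out * (x⁻¹ : P) : G) • f) := by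
      intro x
      rw [heP', smul_sum]
      refine sum_congr rfl fun q _ => ?_
      rw [mul_inv_rev, mul_smul, mul_smul, Subgroup.coe_inv, inv_inv]
      rfl
    rw [sum_congr rfl fun x _ => h2 x]
    exact Fintype.sum_equiv (Equiv.inv P) _ _ (fun x => rfl)
  -- norm in YM
  let φ' : R →+ YM U := AddMonoidHom.mk' (fun r => ymk U (φ r) 0) (fun a b => by
    refine Prod.ext ?_ rfl
    exact map_add φ a b)
  have hφ' : ∀ (g : G) (r : R), φ' (g • r) = g • φ' r := by
    intro g r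
    refine Prod.ext ?_ (Subtype.ext ?_)
    · show φ (g • r) = g • φ r + ∑ y, ((0 : G → ℤ) y) • u g y
      simp only [Pi.zero_apply, zero_smul, sum_const_zero, add_zero]
      exact hφ g r
    · rfl
  have hY0 : ∀ a ∈ fix (YM U) (⊤ : Subgroup P), ∃ b : YM U, a = ∑ x : P, x • b := by
    intro a ha
    exact ym_h0 U hcf P hP a (fun g hg => ha ⟨g, hg⟩ trivial)
  obtain ⟨γ, hγ⟩ := normProp_all (Q := P) (F := F) (Y := YM U) hP hY0 (ym_h1 U hcf P hP) eP heP _ R
    hpR rfl φ' (fun g r => hφ' g r)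
  -- norm for G
  have hγG : ∀ r, P.index • φ' r = ∑ x : G, x • γ (x⁻¹ • r) := by
    intro r
    rw [sum_quot P, finsum_eq_sum_of_fintype]
    have h1 : ∀ q : G ⧸ P, ∑ x : P, (q.out * x : G) • γ ((q.out * x : G)⁻¹ • r) = φ' r := by
      intro q
      have h2 : φ' r = q.out • φ' ((q.out)⁻¹ • r) := by
        rw [← hφ', smul_inv_smul]
      rw [h2, hγ, smul_sum]
      refine sum_congr rfl fun x _ => ?_
      rw [mul_smul, mul_inv_rev, mul_smul]
      rfl
    rw [sum_congr rfl fun q _ => h1 q, sum_const, card_univ, ← Nat.card_eq_fintype_card]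
    rfl
  -- components
  let γC : R →+ C := (AddMonoidHom.fst C (I0 G)).comp γ
  let ρ : G → R →+ ℤ := fun y => (Pi.evalAddMonoidHom (fun _ : G => ℤ) y).comp
    ((I0 G).subtype.comp ((AddMonoidHom.snd C (I0 G)).comp γ))
  have hρ : ∀ y r, ρ y r = (γ r).2.1 y := fun _ _ => rfl
  have hproj1 : ∀ (s : Finset G) (f : G → YM U), (∑ x ∈ s, f x).1 = ∑ x ∈ s, (f x).1 :=
    fun s f => map_sum (AddMonoidHom.fst C (I0 G)) f s
  have hproj2 : ∀ (s : Finset G) (f : G → YM U) t, (∑ x ∈ s, f x).2.1 t = ∑ x ∈ s, (f x).2.1 t :=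
    fun s f t => map_sum ((Pi.evalAddMonoidHom (fun _ : G => ℤ) t).comp
      ((I0 G).subtype.comp (AddMonoidHom.snd C (I0 G)))) f s
  have hm : ∀ r, P.index • φ r = ∑ x : G, x • γC (x⁻¹ • r) + phiR u ρ r := by
    intro r
    have h1 := congrArg (fun z : YM U => z.1) (hγG r)
    have h2 : P.index • φ r = (∑ x : G, x • γ (x⁻¹ • r)).1 := h1
    rw [h2, hproj1, phiR_apply, ← sum_add_distrib]
    rfl
  have hρ0 : ∀ r, ∑ y, ρ y (y • r) = 0 := by
    intro r
    have h1 : (P.index • φ' r).2.1 1 = (∑ x : G, x • γ (x⁻¹ • r)).2.1 1 :=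
      congrArg (fun z : YM U => z.2.1 1) (hγG r)
    rw [hproj2] at h1
    have h2 : (P.index • φ' r).2.1 1 = 0 := by
      have : (P.index • φ' r).2 = 0 := by
        show P.index • (0 : I0 G) = 0
        exact smul_zero _
      rw [this]; rfl
    rw [h2] at h1
    rw [h1]
    refine Fintype.sum_equiv (Equiv.inv G) _ _ (fun x => ?_)
    show (γ (x • r)).2.1 x = trn x⁻¹ ((γ ((x⁻¹)⁻¹ • r)).2.1) 1
    rw [inv_inv]
    show _ = (γ (x • r)).2.1 ((x⁻¹)⁻¹ * 1)
    rw [inv_inv, mul_one]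
  have hρ1 : ∀ r, ∑ y, ρ y r = 0 := fun r => (γ r).2.2
  have hρi : ∀ r, ∑ y, ρ y (y • r) = ∑ y, ρ y r := fun r => by rw [hρ0, hρ1]
  -- pairing with phiR u ρ
  have hpair' : ∀ (c : G → F) (hc : ∀ g h, dd c g h ∈ R),
      (fun g h => phiR u ρ (rr c hc g h)) ∈ B2 G C := by
    intro c hc
    have h1 := (B2 G C).nsmul_mem (hpair c hc) P.index
    have h2 := nrm_pair (rr_mem c hc) γC
    have h3 : (fun g h => phiR u ρ (rr c hc g h)) = P.index • (fun g h => φ (rr c hc g h)) -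
        (fun g h => ∑ x : G, x • γC (x⁻¹ • rr c hc g h)) := by
      funext g h
      show _ = P.index • φ (rr c hc g h) - _
      rw [hm]; abel
    rw [h3]
    exact (B2 G C).sub_mem h1 h2
  -- functionals
  let gh : G → F →+ ℤ := fun y => (ρ y).comp (AddMonoidHom.mk' (fun f => (⟨p • f, hpR f⟩ : R))
    (fun a b => Subtype.ext (smul_add p a b)))
  have hgh : ∀ y f, gh y f = ρ y ⟨p • f, hpR f⟩ := fun _ _ => rfl
  have hghρ : ∀ y (r : R), (p : ℤ) * ρ y r = gh y r := by
    intro y r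
    rw [hgh, ← nsmul_eq_mul, ← map_nsmul]
    rfl
  have hghi : ∀ s, ∑ y, gh y (y • s) = ∑ y, gh y s := by
    intro s
    have h1 := hρi ⟨p • s, hpR s⟩
    rw [show ∑ y, gh y s = ∑ y, ρ y ⟨p • s, hpR s⟩ from rfl, ← h1]
    refine sum_congr rfl fun y _ => ?_
    rw [hgh]
    congr 1
    exact Subtype.ext (smul_comm p y s)
  have hdvd : ∀ (c : G → F) (hc : ∀ g h, dd c g h ∈ R), (p : ℤ) ∣ ∑ y, gh y (c y) := by
    intro c hc
    have h1 := cap_identity hcf.mem (rr_mem c hc) hρi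
    have h2 := (B2 G C).sub_mem (hpair' c hc) h1
    rw [sub_sub_cancel] at h2
    have h3 := hcf.ord P hP _ (res_mem_B2 h2 P)
    exact prime_dvd_of_card hPi (cap_identity2 (p := p) hc hghi hghρ) h3
  obtain ⟨hh, hh1, hh2⟩ := exists_functional2 (G := G) (F := F) (R := R) hpR
    (fun y => (Int.castAddHom (ZMod p)).comp (gh y))
    (fun y r hr => by
      show ((gh y r : ℤ) : ZMod p) = 0
      rw [show gh y r = p * ρ y ⟨r, hr⟩ from (hghρ y ⟨r, hr⟩).symm]
      push_cast
      rw [ZMod.natCast_self, zero_mul])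
    (fun c hc => by
      show ∑ y, ((gh y (c y) : ℤ) : ZMod p) = 0
      have := hdvd c hc
      rw [← ZMod.intCast_zmod_eq_zero_iff_dvd] at this
      push_cast at this
      exact this)
  choose ht hht using fun y z => exists_lift_hom (hh y z)
  have hη : ∀ y z, ∃ η : R →+ ℤ, ∀ r : R, ht y z r = p * η r := by
    intro y z
    refine exists_div_hom hp0 ((ht y z).comp R.subtype) (fun r => ?_)
    rw [← ZMod.intCast_zmod_eq_zero_iff_dvd]
    show ((ht y z r : ℤ) : ZMod p) = 0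
    rw [hht]; exact hh1 y z r r.2
  choose η hη using hη
  -- boundary of η on R and of ht on F
  let bt : G → F →+ ℤ := fun y => ∑ z, ht y z + ∑ x, (ht x y).comp (DistribSMul.toAddMonoidHom F x) -
    ∑ x, ht x (x⁻¹ * y)
  have hbt : ∀ y v, bt y v = ∑ z, ht y z v + ∑ x, ht x y (x • v) - ∑ x, ht x (x⁻¹ * y) v := by
    intro y v
    simp only [bt, AddMonoidHom.sub_apply, AddMonoidHom.add_apply, AddMonoidHom.finsetSum_apply]
    rfl
  let bη : G → R →+ ℤ := fun y => ∑ z, η y z + ∑ x, (η x y).comp (DistribSMul.toAddMonoidHom R x) -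
    ∑ x, η x (x⁻¹ * y)
  have hbη : ∀ y v, bη y v = ∑ z, η y z v + ∑ x, η x y (x • v) - ∑ x, η x (x⁻¹ * y) v := by
    intro y v
    simp only [bη, AddMonoidHom.sub_apply, AddMonoidHom.add_apply, AddMonoidHom.finsetSum_apply]
    rfl
  have hbtη : ∀ y (r : R), bt y r = p * bη y r := by
    intro y r
    rw [hbt, hbη]
    simp only [mul_sub, mul_add, mul_sum, ← hη]
    rfl
  have hkk : ∀ y, ∃ k : F →+ ℤ, ∀ f, gh y f - bt y f = p * k f := by
    intro y
    refine exists_div_hom hp0 (gh y - bt y) (fun f => ?_)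
    rw [← ZMod.intCast_zmod_eq_zero_iff_dvd, AddMonoidHom.sub_apply, hbt]
    have h1 : ((gh y f : ℤ) : ZMod p) = _ := hh2 y f
    push_cast
    rw [h1]
    simp only [hht]
    ring
  choose k hk using hkk
  have hρk : ∀ y (r : R), ρ y r = bη y r + k y r := by
    intro y r
    apply mul_left_cancel₀ hp0
    have h1 := hk y r
    rw [hbtη, ← hghρ] at h1
    rw [mul_add, ← h1]; ring
  -- the boundary is a norm
  let γ' : R →+ C := ∑ y, ∑ z, (zmultiplesHom C (u y z)).comp (η y z)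
  have hγ' : ∀ r, γ' r = ∑ y, ∑ z, η y z r • u y z := by
    intro r
    simp only [γ', AddMonoidHom.finsetSum_apply]
    rfl
  have hbound : ∀ r, phiR u bη r = ∑ x : G, x • γ' (x⁻¹ • r) := by
    intro r
    rw [phiR_apply]
    have h1 : ∀ x : G, x • γ' (x⁻¹ • r) = ∑ y, ∑ z, (η y z (x⁻¹ • r) • u (x * y) z +
        (η y z (x⁻¹ • r) • u x y - η y z (x⁻¹ • r) • u x (y * z))) := by
      intro x
      rw [hγ', smul_sum]
      refine sum_congr rfl fun y _ => ?_
      rw [smul_sum]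
      refine sum_congr rfl fun z _ => ?_
      rw [smul_comm x, ← smul_sub, ← smul_add]
      congr 1
      have := hcf.mem x y z
      rw [← add_sub_assoc, add_comm (u (x * y) z), this]; abel
    rw [sum_congr rfl fun x _ => h1 x]
    have h2 : ∀ x y : G, bη y (x⁻¹ • r) • u x y = (∑ z, η y z (x⁻¹ • r) • u x y +
        ∑ w, η w y (w • x⁻¹ • r) • u x y) - ∑ w, η w (w⁻¹ * y) (x⁻¹ • r) • u x y := by
      intro x y
      rw [hbη, sub_smul, add_smul, sum_smul, sum_smul, sum_smul]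
    rw [sum_congr rfl fun x _ => sum_congr rfl fun y _ => h2 x y]
    simp only [sum_add_distrib, sum_sub_distrib]
    have h3 : ∑ x : G, ∑ y : G, ∑ w : G, η w y (w • x⁻¹ • r) • u x y =
        ∑ x : G, ∑ y : G, ∑ z : G, η y z (x⁻¹ • r) • u (x * y) z := by
      have h4 : ∀ w y : G, ∑ x : G, η w y (w • x⁻¹ • r) • u x y =
          ∑ x : G, η w y (x⁻¹ • r) • u (x * w) y := by
        intro w y
        refine (Fintype.sum_equiv (Equiv.mulRight w) _ _ (fun x => ?_)).symm
        simp only [Equiv.coe_mulRight]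
        rw [smul_smul, show w * (x * w)⁻¹ = x⁻¹ by group]
      calc ∑ x : G, ∑ y : G, ∑ w : G, η w y (w • x⁻¹ • r) • u x y
          = ∑ w : G, ∑ y : G, ∑ x : G, η w y (w • x⁻¹ • r) • u x y := by
            rw [sum_comm]
            rw [sum_congr rfl fun y _ => sum_comm]
            rw [sum_comm]
        _ = ∑ w : G, ∑ y : G, ∑ x : G, η w y (x⁻¹ • r) • u (x * w) y :=
            sum_congr rfl fun w _ => sum_congr rfl fun y _ => h4 w y
        _ = _ := by
            rw [sum_congr rfl fun w _ => sum_comm]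
            rw [sum_comm]
    have h5 : ∑ x : G, ∑ y : G, ∑ w : G, η w (w⁻¹ * y) (x⁻¹ • r) • u x y =
        ∑ x : G, ∑ y : G, ∑ z : G, η y z (x⁻¹ • r) • u x (y * z) := by
      refine sum_congr rfl fun x _ => ?_
      rw [sum_comm]
      refine sum_congr rfl fun w _ => ?_
      refine Fintype.sum_equiv (Equiv.mulLeft w⁻¹) _ _ (fun y => ?_)
      simp only [Equiv.coe_mulLeft]
      rw [mul_inv_cancel_left]
    rw [h3, h5]
    abel
  -- the rest is a norm
  have hki : ∀ s, ∑ y, k y (y • s) = ∑ y, k y s := by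
    -- first on R
    have h1 : ∀ r : R, ∑ y, bη y (y • r) = ∑ y, bη y r := by
      intro r
      simp only [hbη, sum_add_distrib, sum_sub_distrib]
      have e1 : ∑ y : G, ∑ z : G, η y z (y • r) = ∑ y : G, ∑ x : G, η x y (x • r) := by
        rw [sum_comm]
      have e2 : ∑ y : G, ∑ x : G, η x (x⁻¹ * y) (y • r) = ∑ y : G, ∑ x : G, η x y (x • y • r) := by
        rw [sum_comm]
        conv_rhs => rw [sum_comm]
        refine sum_congr rfl fun x _ => ?_
        refine Fintype.sum_equiv (Equiv.mulLeft x⁻¹) _ _ (fun y => ?_)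
        simp only [Equiv.coe_mulLeft]
        rw [smul_smul, mul_inv_cancel_left]
      have e3 : ∑ y : G, ∑ x : G, η x (x⁻¹ * y) r = ∑ y : G, ∑ z : G, η y z r := by
        rw [sum_comm]
        refine sum_congr rfl fun x _ => ?_
        refine Fintype.sum_equiv (Equiv.mulLeft x⁻¹) _ _ (fun y => ?_)
        simp only [Equiv.coe_mulLeft]
      rw [e1, e2, e3]; ring
    have h2 : ∀ r : R, ∑ y, k y ((y • r : R) : F) = ∑ y, k y (r : F) := by
      intro r
      have h3 : ∀ (r : R) y, k y r = ρ y r - bη y r := fun r y => by rw [hρk]; ring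
      rw [sum_congr rfl fun y _ => h3 (y • r) y, sum_congr rfl fun y _ => h3 r y, sum_sub_distrib,
        sum_sub_distrib, hρi, h1]
    intro s
    apply mul_left_cancel₀ hp0
    have h3 := h2 ⟨p • s, hpR s⟩
    rw [mul_sum, mul_sum]
    have h4 : ∀ (y : G) (v : F), (p : ℤ) * k y v = k y (p • v) := by
      intro y v
      rw [map_nsmul, nsmul_eq_mul]
    rw [sum_congr rfl fun y _ => h4 y (y • s), sum_congr rfl fun y _ => h4 y s]
    rw [← h3]
    refine sum_congr rfl fun y _ => ?_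
    congr 1
    exact smul_comm p y s
  refine ⟨γC + γ' + ((phiR u k).comp e).comp R.subtype, fun r => ?_⟩
  have hlast : phiR u (fun y => (k y).comp R.subtype) r = ∑ x : G, x • phiR u k (e (x⁻¹ • (r : F))) := by
    have h1 : phiR u (fun y => (k y).comp R.subtype) r = phiR u k (r : F) := rfl
    rw [h1]
    conv_lhs => rw [← he (r : F)]
    rw [map_sum]
    exact sum_congr rfl fun x _ => phiR_equi hcf.mem hki x _
  have hsplit : phiR u ρ r = phiR u bη r + phiR u (fun y => (k y).comp R.subtype) r := by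
    simp only [phiR_apply, ← sum_add_distrib, ← add_smul]
    refine sum_congr rfl fun x _ => sum_congr rfl fun y _ => ?_
    rw [hρk]; rfl
  rw [hm, hsplit, hbound, hlast, ← add_assoc, ← sum_add_distrib, ← sum_add_distrib]
  refine sum_congr rfl fun x _ => ?_
  rw [← smul_add, ← smul_add]
  rfl

end T

section inv

variable {G : Type*} [Group G] {C : Type*} [AddCommGroup C] [DistribMulAction G C]

/-- cocycles whose class is killed by `p` -/
def T2p (p : ℕ) (G : Type*) [Group G] (C : Type*) [AddCommGroup C] [DistribMulAction G C] :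
    AddSubgroup (G → G → C) where
  carrier := {x | x ∈ Z2 G C ∧ p • x ∈ B2 G C}
  zero_mem' := ⟨(Z2 G C).zero_mem, by rw [smul_zero]; exact (B2 G C).zero_mem⟩
  add_mem' := fun ha hb => ⟨(Z2 G C).add_mem ha.1 hb.1, by
    rw [smul_add]; exact (B2 G C).add_mem ha.2 hb.2⟩
  neg_mem' := fun ha => ⟨(Z2 G C).neg_mem ha.1, by
    rw [smul_neg]; exact (B2 G C).neg_mem ha.2⟩

/-- the invariant map on `p`-torsion classes -/
theorem exists_inv [Finite G] {p : ℕ} [hp : Fact p.Prime] {u : G → G → C}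
    (hcf : CFLayer p G C u) :
    ∃ I : ↥(T2p p G C) →+ ZMod p, ∀ x, I x = 0 ↔ x.1 ∈ B2 G C := by
  classical
  obtain ⟨P, hP, hPi⟩ := exists_sylow_index G p
  have hcop : IsCoprime (p : ℤ) (P.index : ℤ) := by
    rw [Nat.isCoprime_iff_coprime]
    exact (Nat.Prime.coprime_iff_not_dvd hp.out).mpr hPi
  obtain ⟨a, b, hab⟩ := hcop
  have hP0 : (Nat.card P : ℤ) ≠ 0 := by exact_mod_cast Nat.card_pos.ne'
  have hp0 : (p : ℤ) ≠ 0 := by exact_mod_cast hp.out.ne_zero
  have hkill : ∀ x ∈ Z2 G C, p • x ∈ B2 G C → P.index • x ∈ B2 G C → x ∈ B2 G C := by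
    intro x _ h1 h2
    have h3 : x = a • (p • x) + b • (P.index • x) := by
      rw [← natCast_zsmul, ← natCast_zsmul, smul_smul, smul_smul, ← add_smul, hab, one_smul]
    rw [h3]
    exact (B2 G C).add_mem ((B2 G C).zsmul_mem h1 a) ((B2 G C).zsmul_mem h2 b)
  have hex : ∀ x : ↥(T2p p G C), ∃ k : ℤ, res2 P x.1 - k • res2 P u ∈ B2 P C := fun x =>
    hcf.gen P hP (res2 P x.1) (fun g h k => x.2.1 g h k)
  choose k hk using hex
  have hdvd : ∀ x : ↥(T2p p G C), (Nat.card P : ℤ) ∣ p * k x := by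
    intro x
    apply hcf.ord P hP
    have h1 := (B2 P C).zsmul_mem (hk x) (p : ℤ)
    have h2 := res_mem_B2 x.2.2 P
    have h3 : ((p : ℤ) * k x) • res2 P u = res2 P (p • x.1) - (p : ℤ) • (res2 P x.1 - k x • res2 P u) := by
      rw [smul_sub, mul_smul, natCast_zsmul (res2 P x.1)]
      show _ = p • res2 P x.1 - _
      abel
    rw [h3]
    exact (B2 P C).sub_mem h2 h1
  choose k' hk' using hdvd
  have hwd : ∀ (x : ↥(T2p p G C)) (j j' : ℤ), res2 P x.1 - j • res2 P u ∈ B2 P C →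
      (p : ℤ) * j = Nat.card P * j' → ((k' x : ℤ) : ZMod p) = j' := by
    intro x j j' h1 h2
    have h3 := (B2 P C).sub_mem (hk x) h1
    have h4 : (j - k x) • res2 P u ∈ B2 P C := by
      rw [sub_smul]
      rwa [sub_sub_sub_cancel_left] at h3
    obtain ⟨i, hi⟩ := hcf.ord P hP _ h4
    rw [← sub_eq_zero, ← Int.cast_sub, ZMod.intCast_zmod_eq_zero_iff_dvd]
    refine ⟨-i, mul_left_cancel₀ hP0 ?_⟩
    rw [mul_sub, ← hk' x, ← h2, ← mul_sub, show k x - j = -(j - k x) by ring, hi]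
    ring
  refine ⟨AddMonoidHom.mk' (fun x => ((k' x : ℤ) : ZMod p)) (fun x y => ?_), fun x => ?_⟩
  · rw [← Int.cast_add]
    apply hwd (x + y) (k x + k y) (k' x + k' y)
    · have := (B2 P C).add_mem (hk x) (hk y)
      rw [add_smul]
      have h1 : res2 P (x + y).1 - (k x • res2 P u + k y • res2 P u) =
        res2 P x.1 - k x • res2 P u + (res2 P y.1 - k y • res2 P u) := by
        show res2 P x.1 + res2 P y.1 - (k x • res2 P u + k y • res2 P u) = _
        abel
      rw [h1]; exact this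
    · rw [mul_add, hk', hk', mul_add]
  · show ((k' x : ℤ) : ZMod p) = 0 ↔ _
    constructor
    · intro h
      rw [ZMod.intCast_zmod_eq_zero_iff_dvd] at h
      obtain ⟨j, hj⟩ := h
      have h1 : k x = Nat.card P * j := by
        apply mul_left_cancel₀ hp0
        rw [hk' x, hj]; ring
      apply hkill x.1 x.2.1 x.2.2
      apply cor_res2 P x.2.1
      have h2 := hk x
      rw [h1, mul_smul] at h2
      have h3 : (Nat.card P : ℤ) • (j • res2 P u) ∈ B2 P C := by
        rw [natCast_zsmul]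
        apply card_smul_mem_B2
        exact (Z2 P C).zsmul_mem (fun g h k => hcf.mem g h k) j
      have h4 := (B2 P C).add_mem h2 h3
      rwa [sub_add_cancel] at h4
    · intro h
      have := hwd x 0 0 (by rw [zero_smul, sub_zero]; exact res_mem_B2 h P) (by ring)
      rw [this]; simp

end inv

end Fermat.Agent.CFT
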