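import Fermat.Agent.CFT.GLayer
import Fermat.Agent.CFT.TN4

set_option autoImplicit false
set_option maxHeartbeats 400000

/-! The `p`-part of the global class formation. -/

namespace Fermat.Agent.CFT

open Finset Fermat.Agent.CFTSec
open scoped Pointwise

noncomputable section

variable {S : Finset Nat.Primes}

section A

variable {p : ℕ} [hp : Fact p.Prime] (n : ℕ) (hp2 : 2 < p) (hpS : pP p ∈ S)

theorem zmod_of_coprime_mul {k : ℕ} {x : ZMod (p ^ n)} (hk : ¬ p ∣ k) (h : (k : ZMod (p ^ n)) * x = 0) :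
    x = 0 := by
  have hc : Nat.Coprime k (p ^ n) :=
    Nat.Coprime.pow_right _ ((Nat.Prime.coprime_iff_not_dvd hp.out).mpr hk).symm
  have hu : IsUnit (k : ZMod (p ^ n)) := (ZMod.isUnit_iff_coprime k (p ^ n)).mpr hc
  exact (hu.mul_right_eq_zero).mp h

/-- a cup product over the whole group detects the reciprocity map -/
theorem rC_of_cup (N : Subgroup GQ) [hN : N.Normal] [hNf : N.FiniteIndex]
    (hNE : N ≤ (EF n hp2).fixingSubgroup) (hlay : LayerHyp p (GQ ⧸ N) (fix (Cm S) N))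
    (a : ↥(fix (Cm S) (⊤ : Subgroup GQ))) (a' : ↥(fix (Cm S) N)) (haa : a'.1 = a.1)
    (hcup : cup (p ^ n) (lft (cQ n hp2 N hNE)) a' ∈ B2 (GQ ⧸ N) (fix (Cm S) N)) :
    rC n hp2 hpS a = 0 := by
  obtain ⟨P, hP, hPi⟩ := exists_sylow_index (GQ ⧸ N) p
  have h1 := res_mem_B2 hcup P
  have hfi := comap_finiteIndex N P
  have ha' : a' ∈ fix (fix (Cm S) N) P := by
    intro g _
    induction g using QuotientGroup.induction_on with
    | H g =>
      apply Subtype.ext
      show g • a'.1 = a'.1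
      rw [haa]; exact a.2 g trivial
  have h2 := rT_of_cup n hp2 hpS N hNE hlay P hP a' ha' h1 hfi
  rw [rT_top n hp2 hpS _ a ⟨a'.1, mem_fix_comap N ha'⟩ haa,
    Subgroup.index_comap_of_surjective _ (QuotientGroup.mk'_surjective N)] at h2
  exact zmod_of_coprime_mul n hPi h2

theorem rT_congr {Γ Γ' : Subgroup GQ} [h1 : Γ.FiniteIndex] [h2 : Γ'.FiniteIndex] (h : Γ = Γ')
    (c : ↥(fix (Cm S) Γ)) (c' : ↥(fix (Cm S) Γ')) (hc : c.1 = c'.1) :
    rT n hp2 hpS Γ c = rT n hp2 hpS Γ' c' := by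
  subst h
  have : c = c' := Subtype.ext hc
  rw [this]

/-- existence of a generator -/
theorem exists_rC_eq (x : ZMod (p ^ n)) :
    ∃ a : ↥(fix (Cm S) (⊤ : Subgroup GQ)), rC n hp2 hpS a = x := by
  obtain ⟨s, hs⟩ := ch_surj n hp2 x
  have e : (⊥ : IntermediateField ℚ Qb).fixingSubgroup = ⊤ := IntermediateField.fixingSubgroup_bot
  haveI : (⊥ : IntermediateField ℚ Qb).fixingSubgroup.Normal := by rw [e]; infer_instance
  haveI : (⊥ : IntermediateField ℚ Qb).fixingSubgroup.FiniteIndex := by rw [e]; infer_instance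
  obtain ⟨a, ha⟩ := exists_frob_class n hp2 hpS (IntermediateField.isUnramifiedOutside_bot S)
    (s := s) (by rw [e]; trivial)
  refine ⟨⟨a.1, mem_fix_bot.mp a.2⟩, ?_⟩
  have hi : (⊥ : IntermediateField ℚ Qb).fixingSubgroup.index = 1 := by
    rw [e, Subgroup.index_top]
  rw [rT_top n hp2 hpS _ ⟨a.1, mem_fix_bot.mp a.2⟩ a rfl, hi, Nat.cast_one,
    one_mul, hs] at ha
  exact ha

end A

/-- passing from level functions to functions on the quotient -/
theorem exists_descend {U : Type*} [Group U] {A : Type*} [AddCommGroup A] [DistribMulAction U A]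
    {N N' : Subgroup U} [hN : N.Normal] [hN' : N'.Normal] (hle : N' ≤ N)
    {x : (U ⧸ N') → (U ⧸ N') → fix A N'} (hx : x ∈ Z2 (U ⧸ N') (fix A N'))
    (hlev : IsLevel2 (N.map (QuotientGroup.mk' N')) x) :
    ∃ u : (U ⧸ N) → (U ⧸ N) → fix A N, u ∈ Z2 (U ⧸ N) (fix A N) ∧
      (∀ g h : U, ((u g h : fix A N) : A) = ((x g h : fix A N') : A)) ∧
      ∀ k : ℤ, k • u ∈ B2 (U ⧸ N) (fix A N) → k • x ∈ B2 (U ⧸ N') (fix A N') := by
  have hfixmem : ∀ g h : U ⧸ N', ((x g h : fix A N') : A) ∈ fix A N := by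
    intro g h s hs
    have h1 := hlev.2.2 g h (QuotientGroup.mk s) ⟨s, hs, rfl⟩
    exact congrArg Subtype.val h1
  have hmk : ∀ g : U, ∃ k ∈ N, ((QuotientGroup.mk g : U ⧸ N).out) = g * k := by
    intro g
    refine ⟨g⁻¹ * (QuotientGroup.mk g : U ⧸ N).out, ?_, by group⟩
    rw [← QuotientGroup.eq, QuotientGroup.out_eq']
  have hval : ∀ g h : U, x (QuotientGroup.mk (QuotientGroup.mk g : U ⧸ N).out)
      (QuotientGroup.mk (QuotientGroup.mk h : U ⧸ N).out) = x g h := by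
    intro g h
    obtain ⟨k, hk, e⟩ := hmk g
    obtain ⟨k', hk', e'⟩ := hmk h
    rw [e, e', QuotientGroup.mk_mul, QuotientGroup.mk_mul]
    exact (hlev.1 _ _ _ ⟨k, hk, rfl⟩).trans (hlev.2.1 _ _ _ ⟨k', hk', rfl⟩)
  refine ⟨fun g h => ⟨((x (QuotientGroup.mk g.out) (QuotientGroup.mk h.out) : fix A N') : A),
    hfixmem _ _⟩, ?_, ?_, ?_⟩
  · intro g h k
    induction g using QuotientGroup.induction_on with
    | H g =>
    induction h using QuotientGroup.induction_on with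
    | H h =>
    induction k using QuotientGroup.induction_on with
    | H k =>
      apply Subtype.ext
      show ((x (QuotientGroup.mk (QuotientGroup.mk g : U ⧸ N).out)
        (QuotientGroup.mk (QuotientGroup.mk h : U ⧸ N).out) : fix A N') : A) +
        ((x (QuotientGroup.mk (QuotientGroup.mk (g * h) : U ⧸ N).out)
        (QuotientGroup.mk (QuotientGroup.mk k : U ⧸ N).out) : fix A N') : A) =
        g • ((x (QuotientGroup.mk (QuotientGroup.mk h : U ⧸ N).out)
        (QuotientGroup.mk (QuotientGroup.mk k : U ⧸ N).out) : fix A N') : A) +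
        ((x (QuotientGroup.mk (QuotientGroup.mk g : U ⧸ N).out)
        (QuotientGroup.mk (QuotientGroup.mk (h * k) : U ⧸ N).out) : fix A N') : A)
      rw [hval, hval, hval, hval]
      exact congrArg Subtype.val (hx g h k)
  · intro g h
    show ((x (QuotientGroup.mk (QuotientGroup.mk g : U ⧸ N).out)
        (QuotientGroup.mk (QuotientGroup.mk h : U ⧸ N).out) : fix A N') : A) = _
    rw [hval]
  · rintro k ⟨b, hb⟩
    have hπ : ∀ g : U ⧸ N', ∃ y : U ⧸ N, ∀ s : U, g = QuotientGroup.mk s → y = QuotientGroup.mk s := by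
      intro g
      refine ⟨QuotientGroup.mk g.out, fun s hs => ?_⟩
      rw [QuotientGroup.eq]
      apply hle
      rw [← QuotientGroup.eq, ← hs]
      exact QuotientGroup.out_eq' g
    choose π hπ using hπ
    refine ⟨fun g => ⟨((b (π g) : fix A N) : A), fix_mono hle (b (π g)).2⟩, ?_⟩
    intro g h
    induction g using QuotientGroup.induction_on with
    | H g =>
    induction h using QuotientGroup.induction_on with
    | H h =>
      apply Subtype.ext
      show k • ((x g h : fix A N') : A) = ((b (π g) : fix A N) : A) + g • ((b (π h) : fix A N) : A) -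
        ((b (π (QuotientGroup.mk (g * h))) : fix A N) : A)
      rw [hπ _ g rfl, hπ _ h rfl, hπ _ (g * h) rfl]
      have h1 := congrArg Subtype.val (hb g h)
      rw [← hval]
      exact h1

section B

variable {p : ℕ} [hp : Fact p.Prime] (hp2 : 2 < p) (hpS : pP p ∈ S)
  {L : IntermediateField ℚ Qb} (hL : L.IsUnramifiedOutside S) [hLn : L.fixingSubgroup.Normal]
  {ζ : Qb} (hζ : IsPrimitiveRoot ζ p) (hζL : ζ ∈ L)

include hp2 hpS hL hζ hζL in
/-- the fundamental class -/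
theorem exists_global_class : ∃ u, CFLayer p (GQ ⧸ L.fixingSubgroup)
    (fix (Cm S) L.fixingSubgroup) u := by
  classical
  haveI := hL.1
  haveI hLf : L.fixingSubgroup.FiniteIndex := finiteIndex_fixingSubgroup L
  haveI : Finite (GQ ⧸ L.fixingSubgroup) := inferInstance
  set n := (Nat.card (GQ ⧸ L.fixingSubgroup)).factorization p with hn
  have hE := (EF_unram n hp2).mono (sub0 hpS)
  set L' : IntermediateField ℚ Qb := L ⊔ EF n hp2 with hL'def
  have hL' : L'.IsUnramifiedOutside S := hL.sup hE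
  haveI := hL'.1
  have hΓ' : L'.fixingSubgroup = L.fixingSubgroup ⊓ (EF n hp2).fixingSubgroup :=
    IntermediateField.fixingSubgroup_sup
  haveI hL'n : L'.fixingSubgroup.Normal := by rw [hΓ']; infer_instance
  haveI hL'f : L'.fixingSubgroup.FiniteIndex := finiteIndex_fixingSubgroup L'
  haveI : Finite (GQ ⧸ L'.fixingSubgroup) := inferInstance
  have hNE : L'.fixingSubgroup ≤ (EF n hp2).fixingSubgroup := by rw [hΓ']; exact inf_le_right
  have hNL : L'.fixingSubgroup ≤ L.fixingSubgroup := by rw [hΓ']; exact inf_le_left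
  have hlay := layer_global hp2 hpS hL hζ hζL
  have hlay' := layer_global hp2 hpS hL' hζ ((le_sup_left : L ≤ L') hζL)
  set N' := L'.fixingSubgroup with hN'
  have hmemN' : ∀ x : GQ, x ∈ N' ↔ x ∈ L.fixingSubgroup ∧ ch n hp2 x = 0 := by
    intro x
    rw [hΓ', Subgroup.mem_inf, mem_EF_fixing]
  obtain ⟨a, ha⟩ := exists_rC_eq n hp2 hpS 1
  let a' : ↥(fix (Cm S) N') := ⟨a.1, fix_mono le_top a.2⟩
  have ha'top : a' ∈ fix (fix (Cm S) N') (⊤ : Subgroup (GQ ⧸ N')) := by
    intro g _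
    induction g using QuotientGroup.induction_on with
    | H g => exact Subtype.ext (a.2 g trivial)
  have hpn : 0 < p ^ n := pow_pos hp.out.pos _
  have hlift := lft_dvd (cQ n hp2 N' hNE) (cQ_mul n hp2 N' hNE)
  set v := cup (p ^ n) (lft (cQ n hp2 N' hNE)) a' with hv
  have hvZ : v ∈ Z2 (GQ ⧸ N') (fix (Cm S) N') := cup_mem_Z2 hpn hlift ha'top
  -- the subgroup
  set Q : Subgroup (GQ ⧸ N') := L.fixingSubgroup.map (QuotientGroup.mk' N') with hQ
  have hQcomap : Q.comap (QuotientGroup.mk' N') = L.fixingSubgroup := by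
    rw [hQ, QuotientGroup.comap_map_mk']
    exact sup_eq_right.mpr hNL
  haveI hQn : Q.Normal := Subgroup.Normal.map hLn _ (QuotientGroup.mk'_surjective N')
  have hQp : IsPGroup p Q := by
    rintro ⟨g, s, hs, rfl⟩
    refine ⟨n, ?_⟩
    apply Subtype.ext
    show (QuotientGroup.mk' N' s) ^ p ^ n = 1
    rw [← map_pow]
    apply (QuotientGroup.eq_one_iff _).mpr
    refine (hmemN' _).mpr ⟨L.fixingSubgroup.pow_mem hs _, ?_⟩
    rw [ch_pow]
    have : ((p ^ n : ℕ) : ZMod (p ^ n)) = 0 := ZMod.natCast_self _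
    rw [this, zero_mul]
  obtain ⟨hQ1, hQ2⟩ := layers hlay' Q hQp
  obtain ⟨d, m, s, hdm, hsQ, hs, hgen⟩ := exists_gen_char (cQ n hp2 N' hNE) (cQ_mul n hp2 N' hNE) Q
  have hm0 : 0 < m := Nat.pos_of_ne_zero (by
    rintro rfl; rw [mul_zero] at hdm; exact hpn.ne hdm)
  have hd0 : 0 < d := Nat.pos_of_ne_zero (by
    rintro rfl; rw [zero_mul] at hdm; exact hpn.ne hdm)
  have hQinj : ∀ g ∈ Q, ∀ g' ∈ Q, cQ n hp2 N' hNE g = cQ n hp2 N' hNE g' → g = g' := by
    rintro _ ⟨s, hs, rfl⟩ _ ⟨s', hs', rfl⟩ h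
    have h' : ch n hp2 s = ch n hp2 s' := h
    apply (QuotientGroup.eq).mpr
    refine (hmemN' _).mpr ⟨L.fixingSubgroup.mul_mem (L.fixingSubgroup.inv_mem hs) hs', ?_⟩
    rw [ch_mul, ch_inv, h', neg_add_cancel]
  have hcardQ : Nat.card Q ≤ m := by
    choose f hf1 hf2 using hgen
    let F : Q → Fin m := fun g => ⟨f g.1 g.2, hf1 g.1 g.2⟩
    have hF : Function.Injective F := by
      intro g g' h
      apply Subtype.ext
      apply hQinj _ g.2 _ g'.2
      rw [hf2 g.1 g.2, hf2 g'.1 g'.2]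
      have : f g.1 g.2 = f g'.1 g'.2 := congrArg Fin.val h
      rw [this]
    have := Nat.card_le_card_of_injective F hF
    rwa [Nat.card_fin] at this
  obtain ⟨s0, hs0, rfl⟩ := hsQ
  obtain ⟨aL, haL⟩ := exists_frob_class n hp2 hpS hL hs0
  have hs' : ch n hp2 s0 = d := hs
  rw [hs'] at haL
  let aL' : ↥(fix (Cm S) N') := ⟨aL.1, fix_mono hNL aL.2⟩
  have hfixQ : ∀ c : ↥(fix (Cm S) N'), c.1 ∈ fix (Cm S) L.fixingSubgroup →
      c ∈ fix (fix (Cm S) N') Q := by
    rintro c hc _ ⟨g, hg, rfl⟩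
    exact Subtype.ext (hc g hg)
  have hfixQ' : ∀ c : ↥(fix (Cm S) N'), c.1 ∈ fix (Cm S) L.fixingSubgroup →
      c ∈ fix (fix (Cm S) N') (⊤ : Subgroup Q) := fun c hc g _ => hfixQ c hc g g.2
  -- key compatibility
  have key : ∀ (c : ↥(fix (Cm S) N')) (hc : c.1 ∈ fix (Cm S) L.fixingSubgroup),
      cup (p ^ n) (lft (fun g : Q => cQ n hp2 N' hNE g)) c ∈ B2 Q (fix (Cm S) N') →
      rT n hp2 hpS L.fixingSubgroup ⟨c.1, hc⟩ = 0 := by
    intro c hc h
    haveI hfi := comap_finiteIndex N' Q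
    have h1 := rT_of_cup n hp2 hpS N' hNE hlay' Q hQp c (hfixQ c hc) h hfi
    rw [← h1]
    exact rT_congr n hp2 hpS hQcomap.symm _ _ rfl
  have hliftQ := lft_dvd (fun g : Q => cQ n hp2 N' hNE g) (fun g h => cQ_mul n hp2 N' hNE g h)
  set w := cup (p ^ n) (lft (fun g : Q => cQ n hp2 N' hNE g)) aL' with hw
  have hwZ : w ∈ Z2 Q (fix (Cm S) N') := cup_mem_Z2 hpn hliftQ (hfixQ' aL' aL.2)
  have hword : ∀ k : ℤ, k • w ∈ B2 Q (fix (Cm S) N') → (m : ℤ) ∣ k := by
    intro k hk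
    rw [hw, ← cup_zsmul_right] at hk
    have h1 := key (k • aL') ((fix _ _).zsmul_mem aL.2 k) hk
    have h2 : rT n hp2 hpS L.fixingSubgroup ⟨(k • aL').1, (fix _ _).zsmul_mem aL.2 k⟩ =
        k • (d : ZMod (p ^ n)) := by
      rw [← haL, ← map_zsmul]; rfl
    rw [h2, zsmul_eq_mul, ← Int.cast_natCast, ← Int.cast_mul, ZMod.intCast_zmod_eq_zero_iff_dvd,
      ← hdm, Nat.cast_mul, mul_comm k] at h1
    exact Int.dvd_of_mul_dvd_mul_left (by exact_mod_cast hd0.ne') h1
  have hcardQ' : Nat.card Q = m := by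
    have h1 := hword (Nat.card Q) (by
      rw [natCast_zsmul]; exact card_smul_mem_B2 hwZ)
    exact le_antisymm hcardQ (Nat.le_of_dvd Nat.card_pos (by exact_mod_cast h1))
  rw [hcardQ'] at hQ2
  -- the restriction of `v` is trivial
  have hresv : res2 Q v ∈ B2 Q (fix (Cm S) N') := by
    have hvQ : res2 Q v ∈ Z2 Q (fix (Cm S) N') := fun g h k => hvZ g h k
    obtain ⟨k, hk⟩ := exists_int_mul_sub (B2_le_Z2) hm0 hQ2 hwZ hword hvQ
    have e : res2 Q v - k • w = cup (p ^ n) (lft (fun g : Q => cQ n hp2 N' hNE g)) (a' - k • aL') := by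
      rw [hw, sub_eq_add_neg a', cup_add_right, ← neg_smul, cup_zsmul_right, neg_smul,
        ← sub_eq_add_neg]
      rfl
    rw [e] at hk
    have ha'L : a'.1 ∈ fix (Cm S) L.fixingSubgroup := fix_mono le_top a.2
    have hmem : (a' - k • aL').1 ∈ fix (Cm S) L.fixingSubgroup :=
      (fix _ _).sub_mem ha'L ((fix _ _).zsmul_mem aL.2 k)
    have h1 := key _ hmem hk
    have h2 : rT n hp2 hpS L.fixingSubgroup ⟨(a' - k • aL').1, hmem⟩ =
        rT n hp2 hpS L.fixingSubgroup ⟨a'.1, ha'L⟩ - k • (d : ZMod (p ^ n)) := by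
      rw [← haL, ← map_zsmul, ← map_sub]; rfl
    have h3 : rT n hp2 hpS L.fixingSubgroup ⟨a'.1, ha'L⟩ = 0 := by
      have e5 := rT_top n hp2 hpS L.fixingSubgroup a ⟨a'.1, ha'L⟩ rfl
      rw [e5, ha, mul_one, ZMod.natCast_eq_zero_iff]
      exact Nat.ordProj_dvd _ _
    rw [h2, h3, zero_sub, neg_eq_zero, zsmul_eq_mul, ← Int.cast_natCast, ← Int.cast_mul,
      ZMod.intCast_zmod_eq_zero_iff_dvd, ← hdm, Nat.cast_mul, mul_comm k] at h1
    have h4 : (m : ℤ) ∣ k := Int.dvd_of_mul_dvd_mul_left (by exact_mod_cast hd0.ne') h1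
    obtain ⟨k', rfl⟩ := h4
    have h5 : ((m : ℤ) * k') • w ∈ B2 Q (fix (Cm S) N') := by
      have h6 : (m : ℤ) • w ∈ B2 Q (fix (Cm S) N') := by
        rw [natCast_zsmul, ← hcardQ']; exact card_smul_mem_B2 hwZ
      rw [mul_comm, mul_smul]
      exact (B2 Q _).zsmul_mem h6 k'
    rw [← e] at hk
    have := (B2 Q _).add_mem hk h5
    rwa [sub_add_cancel] at this
  obtain ⟨x', hx'Z, hx'B, hx'lev⟩ := infres2 Q hQ1 hvZ hresv
  obtain ⟨u, huZ, -, hu⟩ := exists_descend hNL hx'Z hx'lev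
  refine ⟨u, CFLayer.mk' hlay huZ ?_⟩
  intro k hk
  have h1 := hu k hk
  have h2 : k • v ∈ B2 (GQ ⧸ N') (fix (Cm S) N') := by
    have := (B2 (GQ ⧸ N') _).add_mem ((B2 (GQ ⧸ N') _).zsmul_mem hx'B k) h1
    rwa [smul_sub, sub_add_cancel] at this
  rw [hv, ← cup_zsmul_right] at h2
  have h3 := rC_of_cup n hp2 hpS N' hNE hlay' (k • a) (k • a') rfl h2
  rw [map_zsmul, ha, zsmul_eq_mul, mul_one, ZMod.intCast_zmod_eq_zero_iff_dvd] at h3
  exact h3

end B

end

end Fermat.Agent.CFT
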