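import Mathlib

set_option autoImplicit false
set_option maxHeartbeats 400000

/-! Low degree cohomology of a group acting on an additive abelian group: definitions. -/

namespace Fermat.Agent.CFT

section Defs

variable (G : Type*) [Group G] (A : Type*) [AddCommGroup A] [DistribMulAction G A]

/-- 1-cocycles -/
def Z1 : AddSubgroup (G → A) where
  carrier := {c | ∀ g h, c (g * h) = c g + g • c h}
  zero_mem' := by intro g h; simp
  add_mem' := by
    intro a b ha hb g h
    simp only [Pi.add_apply, ha g h, hb g h, smul_add]; abel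
  neg_mem' := by
    intro a ha g h
    simp only [Pi.neg_apply, ha g h, smul_neg]; abel

/-- 1-coboundaries -/
def B1 : AddSubgroup (G → A) where
  carrier := {c | ∃ a : A, ∀ g, c g = g • a - a}
  zero_mem' := ⟨0, by intro g; simp⟩
  add_mem' := by
    rintro a b ⟨x, hx⟩ ⟨y, hy⟩
    exact ⟨x + y, fun g => by simp only [Pi.add_apply, hx, hy, smul_add]; abel⟩
  neg_mem' := by
    rintro a ⟨x, hx⟩
    exact ⟨-x, fun g => by simp only [Pi.neg_apply, hx, smul_neg]; abel⟩

/-- 2-cocycles -/
def Z2 : AddSubgroup (G → G → A) where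
  carrier := {x | ∀ g h k, x g h + x (g * h) k = g • x h k + x g (h * k)}
  zero_mem' := by intro g h k; simp
  add_mem' := by
    intro a b ha hb g h k
    have h1 := ha g h k; have h2 := hb g h k
    simp only [Pi.add_apply, smul_add]
    calc a g h + b g h + (a (g * h) k + b (g * h) k)
        = (a g h + a (g * h) k) + (b g h + b (g * h) k) := by abel
      _ = _ := by rw [h1, h2]; abel
  neg_mem' := by
    intro a ha g h k
    have h1 := ha g h k
    simp only [Pi.neg_apply, smul_neg]
    rw [← neg_add, h1, neg_add]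

/-- 2-coboundaries -/
def B2 : AddSubgroup (G → G → A) where
  carrier := {x | ∃ b : G → A, ∀ g h, x g h = b g + g • b h - b (g * h)}
  zero_mem' := ⟨0, by intro g h; simp⟩
  add_mem' := by
    rintro a b ⟨x, hx⟩ ⟨y, hy⟩
    exact ⟨x + y, fun g h => by simp only [Pi.add_apply, hx, hy, smul_add]; abel⟩
  neg_mem' := by
    rintro a ⟨x, hx⟩
    exact ⟨-x, fun g h => by simp only [Pi.neg_apply, hx, smul_neg]; abel⟩

variable {G A}

/-- the coboundary of a 1-cochain -/
def dd (b : G → A) : G → G → A := fun g h => b g + g • b h - b (g * h)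

theorem mem_Z1 {c : G → A} : c ∈ Z1 G A ↔ ∀ g h, c (g * h) = c g + g • c h := Iff.rfl
theorem mem_B1 {c : G → A} : c ∈ B1 G A ↔ ∃ a : A, ∀ g, c g = g • a - a := Iff.rfl
theorem mem_Z2 {x : G → G → A} :
    x ∈ Z2 G A ↔ ∀ g h k, x g h + x (g * h) k = g • x h k + x g (h * k) := Iff.rfl
theorem mem_B2 {x : G → G → A} :
    x ∈ B2 G A ↔ ∃ b : G → A, ∀ g h, x g h = b g + g • b h - b (g * h) := Iff.rfl

theorem dd_mem_B2 (b : G → A) : dd b ∈ B2 G A := ⟨b, fun _ _ => rfl⟩

theorem B1_le_Z1 : B1 G A ≤ Z1 G A := by
  rintro c ⟨a, ha⟩ g h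
  simp only [ha, smul_sub, mul_smul]; abel

theorem B2_le_Z2 : B2 G A ≤ Z2 G A := by
  rintro c ⟨a, ha⟩ g h k
  simp only [ha, smul_sub, smul_add, mul_smul, mul_assoc]; abel

/-- restriction of a 2-cochain to a subgroup -/
def res2 (S : Subgroup G) (x : G → G → A) : S → S → A := fun g h => x g h

/-- A class formation layer at `p`: `G` acts on `A`, and for every `p`-subgroup `P` one has
`H¹(P,A)=0` and `H²(P,A)` is cyclic of order `|P|`, generated by the restriction of `u`. -/
structure CFLayer (p : ℕ) (G : Type*) [Group G] (A : Type*) [AddCommGroup A] [DistribMulAction G A]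
    (u : G → G → A) : Prop where
  mem : u ∈ Z2 G A
  h1 : ∀ P : Subgroup G, IsPGroup p P → Z1 P A ≤ B1 P A
  gen : ∀ P : Subgroup G, IsPGroup p P → ∀ x ∈ Z2 P A, ∃ k : ℤ, x - k • res2 P u ∈ B2 P A
  ord : ∀ P : Subgroup G, IsPGroup p P → ∀ k : ℤ, k • res2 P u ∈ B2 P A → (Nat.card P : ℤ) ∣ k

end Defs

section Fix

variable {U : Type*} [Group U] (A : Type*) [AddCommGroup A] [DistribMulAction U A]

/-- elements fixed by a subgroup -/
def fix (N : Subgroup U) : AddSubgroup A where
  carrier := {a | ∀ n ∈ N, n • a = a}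
  zero_mem' := by intro n _; simp
  add_mem' := by intro a b ha hb n hn; rw [smul_add, ha n hn, hb n hn]
  neg_mem' := by intro a ha n hn; rw [smul_neg, ha n hn]

variable {A}

theorem mem_fix {N : Subgroup U} {a : A} : a ∈ fix A N ↔ ∀ n ∈ N, n • a = a := Iff.rfl

theorem fix_mono {N N' : Subgroup U} (h : N ≤ N') : fix A N' ≤ fix A N :=
  fun _ ha n hn => ha n (h hn)

theorem smul_mem_fix {N : Subgroup U} [hN : N.Normal] (g : U) {a : A} (ha : a ∈ fix A N) :
    g • a ∈ fix A N := by
  intro n hn
  have h1 : g⁻¹ * n * g ∈ N := by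
    have := hN.conj_mem n hn g⁻¹
    simpa using this
  calc n • g • a = g • (g⁻¹ * n * g) • a := by simp only [smul_smul]; congr 1; group
    _ = g • a := by rw [ha _ h1]

/-- the action of `U ⧸ N` on the `N`-fixed elements -/
noncomputable instance quotAction (N : Subgroup U) [N.Normal] :
    DistribMulAction (U ⧸ N) (fix A N) where
  smul q a := Quotient.liftOn' q (fun g => (⟨g • (a : A), smul_mem_fix g a.2⟩ : fix A N)) (by
    intro g h hgh
    apply Subtype.ext
    have h1 : g⁻¹ * h ∈ N := by simpa using QuotientGroup.leftRel_apply.mp hgh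
    show g • (a : A) = h • (a : A)
    calc g • (a : A) = g • (g⁻¹ * h) • (a : A) := by rw [a.2 _ h1]
      _ = h • (a : A) := by rw [smul_smul]; congr 1; group)
  one_smul a := Subtype.ext (one_smul U (a : A))
  mul_smul q r a := by
    induction q using QuotientGroup.induction_on with
    | H g => induction r using QuotientGroup.induction_on with
      | H h => exact Subtype.ext (mul_smul g h (a : A))
  smul_zero q := by
    induction q using QuotientGroup.induction_on with
    | H g => exact Subtype.ext (smul_zero g)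
  smul_add q a b := by
    induction q using QuotientGroup.induction_on with
    | H g => exact Subtype.ext (smul_add g (a : A) (b : A))

theorem coe_quot_smul (N : Subgroup U) [N.Normal] (g : U) (a : fix A N) :
    (((g : U ⧸ N) • a : fix A N) : A) = g • (a : A) := rfl

end Fix

end Fermat.Agent.CFT
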