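import Fermat.Agent.CFT.ProdInd
import Mathlib

set_option autoImplicit false
set_option maxHeartbeats 400000

/-! Class group and units: counting. -/

namespace Fermat.Agent.CFT

open IsDedekindDomain FractionalIdeal nonZeroDivisors WithZero

section dedekind

variable {R : Type*} [CommRing R] [IsDedekindDomain R] {K : Type*} [Field K] [Algebra R K]
  [IsFractionRing R K]

theorem valuation_eq_count (v : HeightOneSpectrum R) {x : K} (hx : x ≠ 0) :
    v.valuation K x = exp (-(count K v (spanSingleton R⁰ x))) := by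
  classical
  obtain ⟨n, ⟨d, hd⟩, rfl⟩ := IsLocalization.exists_mk'_eq R⁰ x
  have hd0 : d ≠ 0 := nonZeroDivisors.ne_zero hd
  have hn0 : n ≠ 0 := by
    rintro rfl
    exact hx (IsLocalization.mk'_zero _)
  have hdK : algebraMap R K d ≠ 0 := by
    rwa [ne_eq, IsFractionRing.to_map_eq_zero_iff]
  have h0 : spanSingleton R⁰ (IsLocalization.mk' K n ⟨d, hd⟩) ≠ 0 := by
    rwa [ne_eq, spanSingleton_eq_zero_iff]
  have h1 := count_well_defined K v h0 (a := d) (J := Ideal.span {n}) (by
    rw [coeIdeal_span_singleton, spanSingleton_mul_spanSingleton]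
    congr 1
    rw [IsFractionRing.mk'_eq_div]
    field_simp)
  rw [h1, HeightOneSpectrum.valuation_of_mk', HeightOneSpectrum.intValuation_if_neg _ hn0,
    HeightOneSpectrum.intValuation_if_neg _ hd0, ← exp_sub]
  congr 1
  ring

/-- divisors of nonzero elements -/
def princ (R K : Type*) [CommRing R] [IsDedekindDomain R] [Field K] [Algebra R K]
    [IsFractionRing R K] : AddSubgroup (HeightOneSpectrum R →₀ ℤ) where
  carrier := {n | ∃ x : K, x ≠ 0 ∧ ∀ v : HeightOneSpectrum R, v.valuation K x = exp (-(n v))}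
  zero_mem' := ⟨1, one_ne_zero, fun v => by simp⟩
  add_mem' := by
    rintro a b ⟨x, hx, h1⟩ ⟨y, hy, h2⟩
    refine ⟨x * y, mul_ne_zero hx hy, fun v => ?_⟩
    rw [map_mul, h1, h2, ← exp_add, Finsupp.add_apply]
    congr 1; ring
  neg_mem' := by
    rintro a ⟨x, hx, h1⟩
    refine ⟨x⁻¹, inv_ne_zero hx, fun v => ?_⟩
    rw [map_inv₀, h1, ← exp_neg, Finsupp.neg_apply]

/-- the fractional ideal of a divisor -/
noncomputable def idealOf (R K : Type*) [CommRing R] [IsDedekindDomain R] [Field K] [Algebra R K]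
    [IsFractionRing R K] : (HeightOneSpectrum R →₀ ℤ) →+ Additive (FractionalIdeal R⁰ K)ˣ :=
  Finsupp.liftAddHom fun v => (zmultiplesHom (Additive (FractionalIdeal R⁰ K)ˣ))
    (Additive.ofMul (Units.mk0 (v.asIdeal : FractionalIdeal R⁰ K) (coeIdeal_ne_zero.mpr v.ne_bot)))

theorem count_idealOf (n : HeightOneSpectrum R →₀ ℤ) (v : HeightOneSpectrum R) :
    count K v (((idealOf R K n).toMul : (FractionalIdeal R⁰ K)ˣ) : FractionalIdeal R⁰ K) = n v := by
  rw [← count_finsuppProd K v n]
  congr 1
  rw [idealOf, Finsupp.liftAddHom_apply, Finsupp.sum, Finsupp.prod, toMul_sum, Units.coe_prod]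
  refine Finset.prod_congr rfl fun w _ => ?_
  simp [zmultiplesHom_apply]

theorem princ_index [Finite (ClassGroup R)] : (princ R K).index ≠ 0 := by
  let π : (FractionalIdeal R⁰ K)ˣ →* ClassGroup R :=
    ((ClassGroup.equiv K).symm.toMonoidHom).comp (QuotientGroup.mk' (toPrincipalIdeal R K).range)
  let f : (HeightOneSpectrum R →₀ ℤ) →+ Additive (ClassGroup R) :=
    (MonoidHom.toAdditive π).comp (idealOf R K)
  have hker : f.ker ≤ princ R K := by
    intro n hn
    rw [AddMonoidHom.mem_ker] at hn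
    have h1 : π ((idealOf R K n).toMul) = 1 := congrArg Additive.toMul hn
    have h2 : (QuotientGroup.mk' (toPrincipalIdeal R K).range) ((idealOf R K n).toMul) = 1 := by
      have h3 : (ClassGroup.equiv K).symm
          ((QuotientGroup.mk' (toPrincipalIdeal R K).range) ((idealOf R K n).toMul)) = 1 := h1
      rwa [MulEquiv.map_eq_one_iff] at h3
    rw [QuotientGroup.mk'_apply, QuotientGroup.eq_one_iff] at h2
    obtain ⟨x, hx⟩ := h2
    refine ⟨(x : K), x.ne_zero, fun v => ?_⟩
    rw [valuation_eq_count v x.ne_zero, ← count_idealOf (K := K) n v, ← hx, coe_toPrincipalIdeal]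
  have hfin : f.ker.index ≠ 0 := by
    rw [AddSubgroup.index_ker]
    haveI : Finite (Additive (ClassGroup R)) := ‹Finite (ClassGroup R)›
    exact Nat.card_pos.ne'
  exact fun h0 => hfin (by
    have := AddSubgroup.relIndex_mul_index hker
    rw [h0, mul_zero] at this
    exact this.symm)

end dedekind

section units

open NumberField

/-- units modulo torsion -/
theorem exists_units_equiv (K : Type*) [Field K] [NumberField K] :
    Nonempty ((Additive (𝓞 K)ˣ ⧸ (Subgroup.toAddSubgroup (Units.torsion K))) ≃+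
      (Fin (Units.rank K) → ℤ)) := by
  classical
  let g : (Fin (Units.rank K) → ℤ) →+ Additive (𝓞 K)ˣ :=
    { toFun := fun e => Additive.ofMul (∏ i, Units.fundSystem K i ^ e i)
      map_zero' := by simp
      map_add' := by
        intro e e'
        rw [← ofMul_mul, ← Finset.prod_mul_distrib]
        congr 1
        exact Finset.prod_congr rfl fun i _ => by rw [Pi.add_apply, zpow_add] }
  let f := (QuotientAddGroup.mk' (Subgroup.toAddSubgroup (Units.torsion K))).comp g
  refine ⟨(AddEquiv.ofBijective f ⟨?_, ?_⟩).symm⟩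
  · rw [injective_iff_map_eq_zero]
    intro e he
    have h1 : g e ∈ Subgroup.toAddSubgroup (Units.torsion K) :=
      (QuotientAddGroup.eq_zero_iff _).mp he
    have h2 : (g e).toMul ∈ Units.torsion K := h1
    obtain ⟨z, -, hz⟩ := Units.exist_unique_eq_mul_prod K ((g e).toMul)
    have h3 := hz (⟨(g e).toMul, h2⟩, 0) (by simp)
    have h4 := hz (1, e) (by simp [g])
    have h5 := h4.trans h3.symm
    exact congrArg Prod.snd h5
  · intro x
    obtain ⟨y, rfl⟩ := QuotientAddGroup.mk'_surjective _ x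
    obtain ⟨⟨ζ, e⟩, hz, -⟩ := Units.exist_unique_eq_mul_prod K y.toMul
    refine ⟨e, ?_⟩
    show (QuotientAddGroup.mk' _) (g e) = (QuotientAddGroup.mk' _) y
    rw [QuotientAddGroup.mk'_eq_mk']
    refine ⟨Additive.ofMul (ζ : (𝓞 K)ˣ), ζ.2, ?_⟩
    rw [add_comm]
    exact congrArg Additive.ofMul hz.symm

theorem ind_units (K : Type*) [Field K] [NumberField K] {p : ℕ} (hp : 2 < p) {ζ : K}
    (hζ : IsPrimitiveRoot ζ p) :
    FinInd (mulN (Additive (𝓞 K)ˣ) p) ∧
      ind (mulN (Additive (𝓞 K)ˣ) p) * p = (p : ℚ) ^ (Module.finrank ℚ K / 2) := by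
  classical
  have hp0 : p ≠ 0 := by omega
  let T : AddSubgroup (Additive (𝓞 K)ˣ) := Subgroup.toAddSubgroup (Units.torsion K)
  haveI : Finite T := inferInstanceAs (Finite (Units.torsion K))
  obtain ⟨e⟩ := exists_units_equiv K
  obtain ⟨h1, h2⟩ := ind_of_lattice hp0 T e
  refine ⟨h1, ?_⟩
  rw [h2]
  have h3 : InfinitePlace.nrRealPlaces K = 0 := InfinitePlace.IsPrimitiveRoot.nrRealPlaces_eq_zero_of_two_lt hp hζ
  have h4 := InfinitePlace.card_add_two_mul_card_eq_rank K
  rw [h3, zero_add] at h4
  have h5 : Fintype.card (InfinitePlace K) = InfinitePlace.nrComplexPlaces K := by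
    rw [InfinitePlace.card_eq_nrRealPlaces_add_nrComplexPlaces, h3, zero_add]
  have h6 : 0 < Fintype.card (InfinitePlace K) := Fintype.card_pos
  rw [Units.rank, h5, ← h4, Nat.mul_div_cancel_left _ (by norm_num), ← pow_succ]
  congr 1
  omega

end units

end Fermat.Agent.CFT
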