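import Fermat.Agent.CFT.Layers

set_option autoImplicit false
set_option maxHeartbeats 400000

/-! Hilbert 90 for a group acting on a field. -/

namespace Fermat.Agent.CFT

open Finset

variable {U Ω : Type*} [Group U] [Field Ω] [MulSemiringAction U Ω]

theorem hilbert90 (N : Subgroup U) [N.FiniteIndex]
    (hfaith : ∀ g : U, (∀ θ : Ω, (∀ n ∈ N, n • θ = θ) → g • θ = θ) → g ∈ N)
    (α : U → Ωˣ) (hα : ∀ g h, (α (g * h) : Ω) = α g * g • (α h : Ω)) (hN : ∀ n ∈ N, α n = 1) :
    ∃ β : Ωˣ, (∀ n ∈ N, n • (β : Ω) = β) ∧ ∀ g, (α g : Ω) * β = g • (β : Ω) := by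
  classical
  haveI : Fintype (U ⧸ N) := Fintype.ofFinite _
  let L : Subring Ω :=
    { carrier := {θ | ∀ n ∈ N, n • θ = θ}
      mul_mem' := fun {a b} ha hb n hn => by rw [smul_mul', ha n hn, hb n hn]
      one_mem' := fun n _ => smul_one n
      add_mem' := fun {a b} ha hb n hn => by rw [smul_add, ha n hn, hb n hn]
      zero_mem' := fun n _ => smul_zero n
      neg_mem' := fun {a} ha n hn => by rw [smul_neg, ha n hn] }
  have hαN : ∀ g, ∀ n ∈ N, α (g * n) = α g := by
    intro g n hn
    apply Units.ext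
    rw [hα, hN n hn, Units.val_one, smul_one, mul_one]
  -- the characters
  let χ : (U ⧸ N) → (L →* Ω) := fun s =>
    { toFun := fun θ => s.out • (θ : Ω)
      map_one' := smul_one _
      map_mul' := fun a b => smul_mul' _ _ _ }
  have hχinj : Function.Injective χ := by
    intro s t hst
    have h1 : s.out⁻¹ * t.out ∈ N := by
      apply hfaith
      intro θ hθ
      have := DFunLike.congr_fun hst ⟨θ, hθ⟩
      have h2 : s.out • θ = t.out • θ := this
      rw [mul_smul, ← h2, inv_smul_smul]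
    rw [← QuotientGroup.out_eq' s, ← QuotientGroup.out_eq' t, QuotientGroup.eq]
    exact h1
  have hli := (linearIndependent_monoidHom L Ω).comp χ hχinj
  obtain ⟨θ, hθ⟩ : ∃ θ : L, ∑ s : U ⧸ N, (α s.out : Ω) * (s.out • (θ : Ω)) ≠ 0 := by
    by_contra hcon
    push Not at hcon
    rw [Fintype.linearIndependent_iff] at hli
    have h1 := hli (fun s => (α s.out : Ω)) (by
      funext θ
      rw [Finset.sum_apply]
      simpa [χ] using hcon θ) (QuotientGroup.mk 1)
    exact (Units.ne_zero _) h1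
  set P := ∑ s : U ⧸ N, (α s.out : Ω) * (s.out • (θ : Ω)) with hP
  -- independence of representatives
  have hterm : ∀ g : U, (α (QuotientGroup.mk g : U ⧸ N).out : Ω) *
      ((QuotientGroup.mk g : U ⧸ N).out • (θ : Ω)) = (α g : Ω) * g • (θ : Ω) := by
    intro g
    obtain ⟨n, hn⟩ := QuotientGroup.mk_out_eq_mul N g
    rw [hn, hαN g n n.2, mul_smul, θ.2 _ n.2]
  have hgP : ∀ g : U, (α g : Ω) * g • P = P := by
    intro g
    rw [hP, smul_sum, mul_sum]
    conv_rhs => rw [← Equiv.sum_comp (MulAction.toPerm g : Equiv.Perm (U ⧸ N))]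
    refine sum_congr rfl fun s _ => ?_
    have h1 : (MulAction.toPerm g : Equiv.Perm (U ⧸ N)) s = QuotientGroup.mk (g * s.out) := by
      show g • s = _
      conv_lhs => rw [← QuotientGroup.out_eq' s]
      rfl
    rw [h1, hterm, hα, smul_mul', mul_smul, mul_assoc]
  have hPfix : ∀ n ∈ N, n • P = P := by
    intro n hn
    have := hgP n
    rwa [hN n hn, Units.val_one, one_mul] at this
  refine ⟨(Units.mk0 P hθ)⁻¹, fun n hn => ?_, fun g => ?_⟩
  · rw [Units.val_inv_eq_inv_val, Units.val_mk0, smul_inv₀', hPfix n hn]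
  · rw [Units.val_inv_eq_inv_val, Units.val_mk0, smul_inv₀']
    have h1 := hgP g
    have h2 : g • P ≠ 0 := by
      intro h0; rw [h0, mul_zero] at h1; exact hθ h1.symm
    field_simp
    rw [h1]

end Fermat.Agent.CFT
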