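import Fermat.Agent.CFT.Layers

set_option autoImplicit false
set_option maxHeartbeats 400000

/-! Shapiro's lemma and corestriction in low degrees. -/

namespace Fermat.Agent.CFT

open Finset

section retraction

variable {D G : Type*} [Group D] [Group G] (ι : D →* G)

theorem exists_retraction (hι : Function.Injective ι) :
    ∃ ρ : G → D, ∀ d g, ρ (ι d * g) = d * ρ g := by
  classical
  let r : G → G := fun g => (Quotient.mk (QuotientGroup.rightRel ι.range) g).out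
  have hr : ∀ g, ∃ d : D, g = ι d * r g := by
    intro g
    have h1 : (QuotientGroup.rightRel ι.range) (r g) g := Quotient.exact (Quotient.out_eq _)
    rw [QuotientGroup.rightRel_apply] at h1
    obtain ⟨d, hd⟩ := h1
    exact ⟨d, by rw [hd]; group⟩
  choose ρ hρ using hr
  refine ⟨ρ, fun d g => ?_⟩
  have h2 : r (ι d * g) = r g := by
    show (Quotient.mk (QuotientGroup.rightRel ι.range) (ι d * g)).out = _
    congr 1
    apply Quotient.sound
    show (QuotientGroup.rightRel ι.range) (ι d * g) g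
    rw [QuotientGroup.rightRel_apply]
    exact ⟨d⁻¹, by simp⟩
  apply hι
  have h3 := hρ (ι d * g)
  rw [h2] at h3
  have h4 := hρ g
  have h5 : ι (ρ (ι d * g)) * r g = ι (d * ρ g) * r g := by
    rw [← h3, map_mul, mul_assoc, ← h4]
  exact mul_right_cancel h5

variable {A : Type*} [AddCommGroup A] [DistribMulAction D A]

/-- Homogeneous form of Shapiro's lemma in degree 2 -/
theorem shapiro_hom (hι : Function.Injective ι) (η : G → G → G → A)
    (hequi : ∀ d g0 g1 g2, η (ι d * g0) (ι d * g1) (ι d * g2) = d • η g0 g1 g2)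
    (hcoc : ∀ g0 g1 g2 g3, η g0 g1 g2 + η g0 g2 g3 = η g1 g2 g3 + η g0 g1 g3)
    (b : D → A)
    (hb : ∀ d0 d1 d2, η (ι d0) (ι d1) (ι d2) =
      d1 • b (d1⁻¹ * d2) - d0 • b (d0⁻¹ * d2) + d0 • b (d0⁻¹ * d1)) :
    ∃ B : G → G → A, (∀ d g0 g1, B (ι d * g0) (ι d * g1) = d • B g0 g1) ∧
      ∀ g0 g1 g2, η g0 g1 g2 = B g1 g2 - B g0 g2 + B g0 g1 := by
  obtain ⟨ρ, hρ⟩ := exists_retraction ι hι
  refine ⟨fun g0 g1 => ρ g0 • b ((ρ g0)⁻¹ * ρ g1) -
    (η (ι (ρ g0)) (ι (ρ g1)) g1 - η (ι (ρ g0)) g0 g1), fun d g0 g1 => ?_, fun g0 g1 g2 => ?_⟩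
  · simp only [hρ, map_mul]
    rw [hequi, hequi]
    have : (d * ρ g0)⁻¹ * (d * ρ g1) = (ρ g0)⁻¹ * ρ g1 := by group
    rw [this, mul_smul, smul_sub, smul_sub]
  · have h1 := hcoc (ι (ρ g0)) (ι (ρ g1)) (ι (ρ g2)) g2
    have h2 := hcoc (ι (ρ g0)) (ι (ρ g1)) g1 g2
    have h3 := hcoc (ι (ρ g0)) g0 g1 g2
    have h4 := hb (ρ g0) (ρ g1) (ρ g2)
    have e3 : η g0 g1 g2 = η (ι (ρ g0)) g0 g1 + η (ι (ρ g0)) g1 g2 - η (ι (ρ g0)) g0 g2 := by
      rw [h3]; abel
    have e2 : η (ι (ρ g0)) g1 g2 = η (ι (ρ g1)) g1 g2 + η (ι (ρ g0)) (ι (ρ g1)) g2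
        - η (ι (ρ g0)) (ι (ρ g1)) g1 := by
      rw [← h2]; abel
    have e1 : η (ι (ρ g0)) (ι (ρ g1)) g2 = η (ι (ρ g0)) (ι (ρ g1)) (ι (ρ g2)) +
        η (ι (ρ g0)) (ι (ρ g2)) g2 - η (ι (ρ g1)) (ι (ρ g2)) g2 := by
      rw [h1]; abel
    beta_reduce
    rw [e3, e2, e1, h4]
    abel

end retraction

section coind

variable {D G : Type*} [Group D] [Group G] (ι : D →* G)
variable (A : Type*) [AddCommGroup A] [DistribMulAction D A]

/-- coinduced module -/
def CoInd : AddSubgroup (G → A) where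
  carrier := {f | ∀ d g, f (ι d * g) = d • f g}
  zero_mem' := by intro d g; simp
  add_mem' := by intro a b ha hb d g; simp [ha d g, hb d g]
  neg_mem' := by intro a ha d g; simp [ha d g]

instance : DistribMulAction G (CoInd ι A) where
  smul g f := ⟨fun σ => f.1 (σ * g), fun d σ => by
    beta_reduce; rw [mul_assoc]; exact f.2 d (σ * g)⟩
  one_smul f := Subtype.ext (funext fun σ => congrArg f.1 (mul_one σ))
  mul_smul g h f := Subtype.ext (funext fun σ => congrArg f.1 (mul_assoc σ g h).symm)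
  smul_zero g := rfl
  smul_add g f f' := rfl

theorem coind_smul_apply (g : G) (f : CoInd ι A) (σ : G) :
    ((g • f : CoInd ι A) : G → A) σ = (f : G → A) (σ * g) := rfl

variable {A}

theorem shapiro2 (hι : Function.Injective ι) {x : G → G → CoInd ι A} (hx : x ∈ Z2 G (CoInd ι A))
    (hres : (fun d d' : D => (x (ι d) (ι d') : G → A) 1) ∈ B2 D A) : x ∈ B2 G (CoInd ι A) := by
  obtain ⟨b, hb⟩ := hres
  obtain ⟨B, hB1, hB2⟩ := shapiro_hom ι hι
    (fun g0 g1 g2 => (x (g0⁻¹ * g1) (g1⁻¹ * g2) : G → A) g0)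
    (by
      intro d g0 g1 g2
      rw [show (ι d * g0)⁻¹ * (ι d * g1) = g0⁻¹ * g1 by group,
        show (ι d * g1)⁻¹ * (ι d * g2) = g1⁻¹ * g2 by group]
      exact (x (g0⁻¹ * g1) (g1⁻¹ * g2)).2 d g0)
    (by
      intro g0 g1 g2 g3
      have h := congrArg (fun f : CoInd ι A => (f : G → A) g0)
        (hx (g0⁻¹ * g1) (g1⁻¹ * g2) (g2⁻¹ * g3))
      simp only [AddSubgroup.coe_add, Pi.add_apply, coind_smul_apply] at h
      rw [show g0⁻¹ * g1 * (g1⁻¹ * g2) = g0⁻¹ * g2 by group,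
        show g1⁻¹ * g2 * (g2⁻¹ * g3) = g1⁻¹ * g3 by group,
        show g0 * (g0⁻¹ * g1) = g1 by group] at h
      exact h)
    b
    (by
      intro d0 d1 d2
      rw [← map_inv, ← map_inv, ← map_mul, ← map_mul]
      have h1 := hb (d0⁻¹ * d1) (d1⁻¹ * d2)
      simp only at h1
      rw [show d0⁻¹ * d1 * (d1⁻¹ * d2) = d0⁻¹ * d2 by group] at h1
      have h2 : (x (ι (d0⁻¹ * d1)) (ι (d1⁻¹ * d2)) : G → A) (ι d0) =
          d0 • (x (ι (d0⁻¹ * d1)) (ι (d1⁻¹ * d2)) : G → A) 1 := by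
        have := (x (ι (d0⁻¹ * d1)) (ι (d1⁻¹ * d2))).2 d0 1
        rwa [mul_one] at this
      rw [h2, h1, smul_sub, smul_add, smul_smul, show d0 * (d0⁻¹ * d1) = d1 by group]
      abel)
  have hmem : ∀ g : G, (fun σ => B σ (σ * g)) ∈ CoInd ι A := by
    intro g d σ
    beta_reduce; rw [mul_assoc]; exact hB1 d σ (σ * g)
  refine ⟨fun g => ⟨fun σ => B σ (σ * g), hmem g⟩, fun g h => ?_⟩
  apply Subtype.ext
  funext σ
  have h1 := hB2 σ (σ * g) (σ * (g * h))
  beta_reduce at h1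
  rw [show σ⁻¹ * (σ * g) = g by group, show (σ * g)⁻¹ * (σ * (g * h)) = h by group] at h1
  rw [h1]
  simp only [AddSubgroup.coe_sub, AddSubgroup.coe_add, Pi.sub_apply, Pi.add_apply,
    coind_smul_apply, mul_assoc]
  abel

theorem shapiro1 (hι : Function.Injective ι) {c : G → CoInd ι A} (hc : c ∈ Z1 G (CoInd ι A))
    (hres : (fun d : D => (c (ι d) : G → A) 1) ∈ B1 D A) : c ∈ B1 G (CoInd ι A) := by
  obtain ⟨a, ha⟩ := hres
  -- f σ = a-twisted: f(σ) = σ-part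
  obtain ⟨ρ, hρ⟩ := exists_retraction ι hι
  -- choose f σ := (c σ) 1 + F σ with F equivariant correction
  have hval : ∀ g h : G, (c (g * h) : G → A) 1 = (c g : G → A) 1 + (c h : G → A) g := by
    intro g h
    have h1 := congrArg (fun f : CoInd ι A => (f : G → A) 1) (hc g h)
    simp only [AddSubgroup.coe_add, Pi.add_apply, coind_smul_apply, one_mul] at h1
    exact h1
  have hloc : ∀ d : D, (c (ι d) : G → A) 1 = d • a - a := ha
  -- the function φ σ = (c σ) 1 + a satisfies φ (ι d σ) = d • φ σ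
  have hφ : ∀ (d : D) (σ : G), (c (ι d * σ) : G → A) 1 + a = d • ((c σ : G → A) 1 + a) := by
    intro d σ
    rw [hval, hloc]
    have h2 : (c σ : G → A) (ι d) = d • (c σ : G → A) 1 := by
      have := (c σ).2 d 1
      rwa [mul_one] at this
    rw [h2, smul_add]; abel
  refine ⟨⟨fun σ => (c σ : G → A) 1 + a, hφ⟩, fun g => ?_⟩
  apply Subtype.ext
  funext σ
  simp only [AddSubgroup.coe_sub, Pi.sub_apply, coind_smul_apply]
  rw [hval σ g]; abel

/-- Surjectivity in Shapiro's lemma, degree 2 -/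
theorem shapiro2_surj (hι : Function.Injective ι) {y : D → D → A} (hy : y ∈ Z2 D A) :
    ∃ x ∈ Z2 G (CoInd ι A), (fun d d' : D => (x (ι d) (ι d') : G → A) 1) - y ∈ B2 D A := by
  obtain ⟨ρ, hρ⟩ := exists_retraction ι hι
  let η : G → G → G → A := fun g0 g1 g2 => ρ g0 • y ((ρ g0)⁻¹ * ρ g1) ((ρ g1)⁻¹ * ρ g2)
  have hη : ∀ d g0 g1 g2, η (ι d * g0) (ι d * g1) (ι d * g2) = d • η g0 g1 g2 := by
    intro d g0 g1 g2
    simp only [η, hρ, mul_smul]
    rw [show (d * ρ g0)⁻¹ * (d * ρ g1) = (ρ g0)⁻¹ * ρ g1 by group,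
      show (d * ρ g1)⁻¹ * (d * ρ g2) = (ρ g1)⁻¹ * ρ g2 by group]
  have hηc : ∀ g0 g1 g2 g3, η g0 g1 g2 + η g0 g2 g3 = η g1 g2 g3 + η g0 g1 g3 := by
    intro g0 g1 g2 g3
    have h := hy ((ρ g0)⁻¹ * ρ g1) ((ρ g1)⁻¹ * ρ g2) ((ρ g2)⁻¹ * ρ g3)
    rw [show (ρ g0)⁻¹ * ρ g1 * ((ρ g1)⁻¹ * ρ g2) = (ρ g0)⁻¹ * ρ g2 by group,
      show (ρ g1)⁻¹ * ρ g2 * ((ρ g2)⁻¹ * ρ g3) = (ρ g1)⁻¹ * ρ g3 by group] at h
    simp only [η, ← smul_add, h]
    rw [smul_add, smul_smul, show ρ g0 * ((ρ g0)⁻¹ * ρ g1) = ρ g1 by group]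
  let x : G → G → CoInd ι A := fun g h => ⟨fun σ => η σ (σ * g) (σ * g * h), fun d σ => by
    have := hη d σ (σ * g) (σ * g * h)
    simpa only [mul_assoc] using this⟩
  refine ⟨x, ?_, ?_⟩
  · intro g h k
    apply Subtype.ext
    funext σ
    simp only [AddSubgroup.coe_add, Pi.add_apply, coind_smul_apply, x]
    have := hηc σ (σ * g) (σ * g * h) (σ * g * h * k)
    simpa only [mul_assoc] using this
  · -- restriction: ρ (ι d) = d * ρ 1
    have hρ1 : ∀ d, ρ (ι d) = d * ρ 1 := fun d => by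
      have := hρ d 1
      rwa [mul_one] at this
    -- x (ι d) (ι d') 1 = ρ1 • y (ρ1⁻¹ d ρ1) (ρ1⁻¹ d' ρ1)
    set r := ρ 1 with hr
    have hval : ∀ d d' : D, (x (ι d) (ι d') : G → A) 1 = r • y (r⁻¹ * d * r) (r⁻¹ * d' * r) := by
      intro d d'
      simp only [x, η, one_mul]
      rw [← map_mul, hρ1, hρ1, ← hr]
      congr 2
      · group
      · group
    -- inner conjugation acts trivially
    refine ⟨fun d => y r (r⁻¹ * d * r) - y d r, fun d d' => ?_⟩
    simp only [Pi.sub_apply, hval]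
    have e1 := hy r (r⁻¹ * d * r) (r⁻¹ * d' * r)
    have e2 := hy d r (r⁻¹ * d' * r)
    have e3 := hy d d' r
    rw [show r * (r⁻¹ * d * r) = d * r by group,
      show r⁻¹ * d * r * (r⁻¹ * d' * r) = r⁻¹ * (d * d') * r by group] at e1
    rw [show r * (r⁻¹ * d' * r) = d' * r by group] at e2
    have e1' : r • y (r⁻¹ * d * r) (r⁻¹ * d' * r) = y r (r⁻¹ * d * r) +
        y (d * r) (r⁻¹ * d' * r) - y r (r⁻¹ * (d * d') * r) := by
      rw [e1]; abel
    have e2' : y (d * r) (r⁻¹ * d' * r) = d • y r (r⁻¹ * d' * r) + y d (d' * r) - y d r := by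
      rw [← e2]; abel
    have e3' : y d (d' * r) = y d d' + y (d * d') r - d • y d' r := by
      rw [e3]; abel
    rw [e1', e2', e3', smul_sub]
    abel

end coind

section cores

variable {G : Type*} [Group G] {A : Type*} [AddCommGroup A] [DistribMulAction G A]

/-- corestriction after restriction in degree 2 -/
theorem cor_res2 (P : Subgroup G) [P.FiniteIndex] {x : G → G → A} (hx : x ∈ Z2 G A)
    (hres : res2 P x ∈ B2 P A) : P.index • x ∈ B2 G A := by
  obtain ⟨b, hb⟩ := hres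
  let η : G → G → G → A := fun g0 g1 g2 => g0 • x (g0⁻¹ * g1) (g1⁻¹ * g2)
  have hηG : ∀ h g0 g1 g2, η (h * g0) (h * g1) (h * g2) = h • η g0 g1 g2 := by
    intro h g0 g1 g2
    simp only [η, mul_smul]
    rw [show (h * g0)⁻¹ * (h * g1) = g0⁻¹ * g1 by group,
      show (h * g1)⁻¹ * (h * g2) = g1⁻¹ * g2 by group]
  have hηc : ∀ g0 g1 g2 g3, η g0 g1 g2 + η g0 g2 g3 = η g1 g2 g3 + η g0 g1 g3 := by
    intro g0 g1 g2 g3
    have h := hx (g0⁻¹ * g1) (g1⁻¹ * g2) (g2⁻¹ * g3)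
    rw [show g0⁻¹ * g1 * (g1⁻¹ * g2) = g0⁻¹ * g2 by group,
      show g1⁻¹ * g2 * (g2⁻¹ * g3) = g1⁻¹ * g3 by group] at h
    simp only [η, ← smul_add, h]
    rw [smul_add, smul_smul, show g0 * (g0⁻¹ * g1) = g1 by group]
  obtain ⟨B, hB1, hB2⟩ := shapiro_hom P.subtype P.subtype_injective η
    (fun d g0 g1 g2 => hηG d g0 g1 g2) hηc b (by
      intro d0 d1 d2
      simp only [η, Subgroup.subtype_apply]
      have h1 := hb (d0⁻¹ * d1) (d1⁻¹ * d2)
      rw [show d0⁻¹ * d1 * (d1⁻¹ * d2) = d0⁻¹ * d2 by group] at h1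
      have h2 : x ((d0 : G)⁻¹ * d1) ((d1 : G)⁻¹ * d2) =
          b (d0⁻¹ * d1) + (d0⁻¹ * d1) • b (d1⁻¹ * d2) - b (d0⁻¹ * d2) := h1
      rw [h2]
      show (d0 : G) • (b (d0⁻¹ * d1) + ((d0⁻¹ * d1 : P) : G) • b (d1⁻¹ * d2) - b (d0⁻¹ * d2)) =
        (d1 : G) • b (d1⁻¹ * d2) - (d0 : G) • b (d0⁻¹ * d2) + (d0 : G) • b (d0⁻¹ * d1)
      rw [smul_sub, smul_add, smul_smul,
        show (d0 : G) * ((d0⁻¹ * d1 : P) : G) = d1 by push_cast; group]
      abel)
  haveI : Fintype (G ⧸ P) := Fintype.ofFinite _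
  -- the averaged cochain
  have hinv : ∀ (g0 g1 g : G) (d : P),
      (g * (d : G)) • B ((g * (d : G))⁻¹ * g0) ((g * (d : G))⁻¹ * g1) =
        g • B (g⁻¹ * g0) (g⁻¹ * g1) := by
    intro g0 g1 g d
    have h1 := hB1 d ((g * (d : G))⁻¹ * g0) ((g * (d : G))⁻¹ * g1)
    simp only [Subgroup.subtype_apply] at h1
    rw [show (d : G) * ((g * (d : G))⁻¹ * g0) = g⁻¹ * g0 by group,
      show (d : G) * ((g * (d : G))⁻¹ * g1) = g⁻¹ * g1 by group] at h1
    rw [h1, mul_smul]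
    rfl
  let F : G → G → (G ⧸ P) → A := fun g0 g1 q =>
    Quotient.liftOn' q (fun g => g • B (g⁻¹ * g0) (g⁻¹ * g1)) (by
      intro g h hgh
      have h1 : g⁻¹ * h ∈ P := QuotientGroup.leftRel_apply.mp hgh
      have h2 := hinv g0 g1 g ⟨_, h1⟩
      simp only at h2
      rw [show g * (g⁻¹ * h) = h by group] at h2
      exact h2.symm)
  have hF : ∀ g0 g1 (g : G), F g0 g1 (g : G ⧸ P) = g • B (g⁻¹ * g0) (g⁻¹ * g1) :=
    fun _ _ _ => rfl
  let Bb : G → G → A := fun g0 g1 => ∑ q, F g0 g1 q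
  have hBbG : ∀ h g0 g1, Bb (h * g0) (h * g1) = h • Bb g0 g1 := by
    intro h g0 g1
    simp only [Bb, smul_sum]
    rw [← Equiv.sum_comp (MulAction.toPerm h : Equiv.Perm (G ⧸ P))]
    refine sum_congr rfl fun q _ => ?_
    induction q using QuotientGroup.induction_on with
    | H g =>
      show F (h * g0) (h * g1) ((h * g : G) : G ⧸ P) = h • F g0 g1 (g : G ⧸ P)
      rw [hF, hF, show (h * g)⁻¹ * (h * g0) = g⁻¹ * g0 by group,
        show (h * g)⁻¹ * (h * g1) = g⁻¹ * g1 by group, mul_smul]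
  have hBbd : ∀ g0 g1 g2, P.index • η g0 g1 g2 = Bb g1 g2 - Bb g0 g2 + Bb g0 g1 := by
    intro g0 g1 g2
    simp only [Bb, ← sum_sub_distrib, ← sum_add_distrib]
    rw [sum_congr rfl (g := fun _ => η g0 g1 g2), sum_const, card_univ, ← Nat.card_eq_fintype_card]
    · rfl
    · intro q _
      induction q using QuotientGroup.induction_on with
      | H g =>
        rw [hF, hF, hF, ← smul_sub, ← smul_add, ← hB2, ← hηG]
        congr 1 <;> group
  refine ⟨fun g => Bb 1 g, fun g h => ?_⟩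
  have h1 := hBbd 1 g (g * h)
  have h2 := hBbG g 1 h
  rw [mul_one] at h2
  simp only [η, one_smul, inv_one, one_mul, inv_mul_cancel_left] at h1
  simp only [Pi.smul_apply]
  rw [h1, h2]; abel

/-- corestriction after restriction in degree 1 -/
theorem cor_res1 (P : Subgroup G) [P.FiniteIndex] {c : G → A} (hc : c ∈ Z1 G A)
    (hres : (fun g : P => c g) ∈ B1 P A) : P.index • c ∈ B1 G A := by
  obtain ⟨a, ha⟩ := hres
  haveI : Fintype (G ⧸ P) := Fintype.ofFinite _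
  have hd : ∀ d ∈ P, c d = d • a - a := fun d hd => ha ⟨d, hd⟩
  have hinv : ∀ (g d : G), d ∈ P → c (g * d) - (g * d) • a = c g - g • a := by
    intro g d hdP
    rw [hc, hd d hdP, smul_sub, mul_smul]; abel
  let F : (G ⧸ P) → A := fun q =>
    Quotient.liftOn' q (fun g => c g - g • a) (by
      intro g h hgh
      have h1 : g⁻¹ * h ∈ P := QuotientGroup.leftRel_apply.mp hgh
      have h2 := hinv g (g⁻¹ * h) h1
      rw [show g * (g⁻¹ * h) = h by group] at h2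
      exact h2.symm)
  have hF : ∀ g : G, F (g : G ⧸ P) = c g - g • a := fun _ => rfl
  refine ⟨-∑ q, F q, fun g => ?_⟩
  have h3 : g • ∑ q, F q = ∑ q, (F (g • q) - c g) := by
    rw [smul_sum]
    refine sum_congr rfl fun q _ => ?_
    induction q using QuotientGroup.induction_on with
    | H h =>
      show g • F (h : G ⧸ P) = F ((g * h : G) : G ⧸ P) - c g
      rw [hF, hF, hc, smul_sub, mul_smul]; abel
  have h4 : ∑ q : G ⧸ P, F (g • q) = ∑ q, F q :=
    Equiv.sum_comp (MulAction.toPerm g : Equiv.Perm (G ⧸ P)) F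
  rw [smul_neg, h3, sum_sub_distrib, h4, sum_const, card_univ, ← Nat.card_eq_fintype_card]
  show P.index • c g = _
  rw [Subgroup.index]
  abel

end cores

end Fermat.Agent.CFT
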