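import Fermat.Agent.CFT.Unram
import Fermat.Agent.CFT.Shapiro
import Fermat.Agent.CFT.H90

set_option autoImplicit false
set_option maxHeartbeats 400000

/-! The module of `S`-idele classes. -/

namespace Fermat.Agent.CFT

open scoped Pointwise

noncomputable section

instance primesFact (q : Nat.Primes) : Fact (q : ℕ).Prime := ⟨q.2⟩

section smooth

/-- elements fixed by the Galois group of a field unramified outside `S` -/
def smooth (S : Finset Nat.Primes) (A : Type*) [AddCommGroup A] [DistribMulAction GQ A] :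
    AddSubgroup A where
  carrier := {a | ∃ F : IntermediateField ℚ Qb, F.IsUnramifiedOutside S ∧
    a ∈ fix A F.fixingSubgroup}
  zero_mem' := ⟨⊥, IntermediateField.isUnramifiedOutside_bot S, (fix A _).zero_mem⟩
  add_mem' := by
    rintro a b ⟨F, hF, ha⟩ ⟨F', hF', hb⟩
    refine ⟨F ⊔ F', hF.sup hF', (fix A _).add_mem ?_ ?_⟩
    · exact fix_mono (IntermediateField.fixingSubgroup_antitone le_sup_left) ha
    · exact fix_mono (IntermediateField.fixingSubgroup_antitone le_sup_right) hb
  neg_mem' := by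
    rintro a ⟨F, hF, ha⟩
    exact ⟨F, hF, (fix A _).neg_mem ha⟩

variable {S : Finset Nat.Primes} {A : Type*} [AddCommGroup A] [DistribMulAction GQ A]

theorem mem_smooth {a : A} : a ∈ smooth S A ↔ ∃ F : IntermediateField ℚ Qb,
    F.IsUnramifiedOutside S ∧ a ∈ fix A F.fixingSubgroup := Iff.rfl

/-- a smooth element is fixed by the group of a Galois field -/
theorem exists_galois_fix {a : A} (ha : a ∈ smooth S A) : ∃ N : IntermediateField ℚ Qb,
    N.IsUnramifiedOutside S ∧ N.fixingSubgroup.Normal ∧ a ∈ fix A N.fixingSubgroup := by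
  obtain ⟨F, hF, ha⟩ := ha
  obtain ⟨N, hFN, hN, hg⟩ := exists_galois_unram hF
  haveI := hN.1
  haveI := Fermat.Agent.Frob.isGalois_Qbar
  refine ⟨N, hN, ?_, fix_mono (IntermediateField.fixingSubgroup_antitone hFN) ha⟩
  exact ((InfiniteGalois.isOpen_and_normal_iff_finite_and_isGalois N).mpr ⟨hN.1, hg⟩).2

theorem smul_mem_smooth (g : GQ) {a : A} (ha : a ∈ smooth S A) : g • a ∈ smooth S A := by
  obtain ⟨N, hN, hn, ha⟩ := exists_galois_fix ha
  exact ⟨N, hN, smul_mem_fix g ha⟩

instance smoothAction : DistribMulAction GQ (smooth S A) where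
  smul g a := ⟨g • (a : A), smul_mem_smooth g a.2⟩
  one_smul a := Subtype.ext (one_smul GQ (a : A))
  mul_smul g h a := Subtype.ext (mul_smul g h (a : A))
  smul_zero g := Subtype.ext (smul_zero g)
  smul_add g a b := Subtype.ext (smul_add g (a : A) (b : A))

theorem coe_smul_smooth (g : GQ) (a : smooth S A) : ((g • a : smooth S A) : A) = g • (a : A) := rfl

end smooth

/-- divisors outside `S` -/
def DivG (S : Finset Nat.Primes) : AddSubgroup (Nat.Primes → GQ → ℤ) where
  carrier := {d | (∀ (q : Nat.Primes) (τ : LG q) (σ : GQ), d q (localGaloisToGlobal q τ * σ) = d q σ) ∧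
    {q | d q ≠ 0}.Finite ∧ ∀ q ∈ S, d q = 0}
  zero_mem' := ⟨fun _ _ _ => rfl, by simp, fun _ _ => rfl⟩
  add_mem' := by
    rintro a b ⟨h1, h2, h3⟩ ⟨h1', h2', h3'⟩
    refine ⟨fun q τ σ => ?_, (h2.union h2').subset ?_, fun q hq => ?_⟩
    · simp only [Pi.add_apply, h1, h1']
    · intro q hq
      by_contra hcon
      simp only [Set.mem_union, Set.mem_setOf_eq, not_or, not_not] at hcon
      exact hq (by simp only [Pi.add_apply, hcon.1, hcon.2, add_zero])
    · simp only [Pi.add_apply, h3 q hq, h3' q hq, add_zero]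
  neg_mem' := by
    rintro a ⟨h1, h2, h3⟩
    refine ⟨fun q τ σ => ?_, h2.subset ?_, fun q hq => ?_⟩
    · simp only [Pi.neg_apply, h1]
    · intro q hq h0
      exact hq (by simp only [Pi.neg_apply, h0, neg_zero])
    · simp only [Pi.neg_apply, h3 q hq, neg_zero]

instance divAction (S : Finset Nat.Primes) : DistribMulAction GQ (DivG S) where
  smul g d := ⟨fun q σ => d.1 q (σ * g), by
    refine ⟨fun q τ σ => ?_, d.2.2.1.subset ?_, fun q hq => ?_⟩
    · show d.1 q (_ * σ * g) = _
      rw [mul_assoc]; exact d.2.1 q τ (σ * g)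
    · intro q hq h0
      apply hq
      funext σ
      show d.1 q (σ * g) = 0
      rw [h0]; rfl
    · funext σ
      show d.1 q (σ * g) = 0
      rw [d.2.2.2 q hq]; rfl⟩
  one_smul d := Subtype.ext (funext fun q => funext fun σ => congrArg (d.1 q) (mul_one σ))
  mul_smul g h d := Subtype.ext (funext fun q => funext fun σ =>
    congrArg (d.1 q) (mul_assoc σ g h).symm)
  smul_zero g := rfl
  smul_add g d d' := rfl

theorem div_smul_apply {S : Finset Nat.Primes} (g : GQ) (d : DivG S) (q : Nat.Primes) (σ : GQ) :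
    (g • d : DivG S).1 q σ = d.1 q (σ * g) := rfl

/-- local component of the ideles -/
abbrev JQ (q : Nat.Primes) : Type := CoInd (localGaloisToGlobal (q : ℕ)) (LM q)

/-- all ideles -/
abbrev IdT (S : Finset Nat.Primes) : Type := ((∀ q : S, JQ q.1) × DivG S)

/-- the module of ideles modulo units outside `S` -/
abbrev Jm (S : Finset Nat.Primes) : Type := smooth S (IdT S)

/-- nonzero elements of the maximal extension unramified outside `S` -/
abbrev QS (S : Finset Nat.Primes) : Type := smooth S (Additive Qbˣ)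

theorem exists_field_mem {S : Finset Nat.Primes} (x : QS S) :
    ∃ F : IntermediateField ℚ Qb, F.IsUnramifiedOutside S ∧ (x.1.toMul : Qb) ∈ F := by
  obtain ⟨F, hF, h⟩ := x.2
  haveI := Fermat.Agent.Frob.isGalois_Qbar
  refine ⟨F, hF, ?_⟩
  rw [← InfiniteGalois.fixedField_fixingSubgroup F, IntermediateField.mem_fixedField_iff]
  intro f hf
  exact congrArg (fun u : Additive Qbˣ => (u.toMul : Qb)) (h f hf)

theorem mem_fix_of_mem {F : IntermediateField ℚ Qb} (x : Additive Qbˣ) :
    x ∈ fix (Additive Qbˣ) F.fixingSubgroup ↔ (x.toMul : Qb) ∈ F := by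
  haveI := Fermat.Agent.Frob.isGalois_Qbar
  constructor
  · intro h
    rw [← InfiniteGalois.fixedField_fixingSubgroup F, IntermediateField.mem_fixedField_iff]
    intro f hf
    exact congrArg (fun u : Additive Qbˣ => (u.toMul : Qb)) (h f hf)
  · intro h n hn
    have h1 := (IntermediateField.mem_fixingSubgroup_iff F n).mp hn _ h
    exact congrArg Additive.ofMul (Units.ext h1 : n • x.toMul = x.toMul)

/-- the embedding of a global element in the local component -/
noncomputable def embQ (q : Nat.Primes) (x : Additive Qbˣ) : JQ q :=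
  ⟨fun σ => Additive.ofMul (Units.map (padicEmbedding (q : ℕ)).toRingHom.toMonoidHom
    (σ • x.toMul)), by
    intro τ σ
    apply congrArg Additive.ofMul
    apply Units.ext
    show padicEmbedding q ((localGaloisToGlobal q τ * σ) (x.toMul : Qb)) =
      τ (padicEmbedding q (σ (x.toMul : Qb)))
    rw [← padicEmbedding_localGaloisToGlobal]
    rfl⟩

theorem embQ_apply (q : Nat.Primes) (x : Additive Qbˣ) (σ : GQ) :
    (((embQ q x).1 σ).toMul : PadicAlgCl q) = padicEmbedding q (σ (x.toMul : Qb)) := rfl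

theorem embQ_add (q : Nat.Primes) (x y : Additive Qbˣ) : embQ q (x + y) = embQ q x + embQ q y := by
  apply Subtype.ext
  funext σ
  apply congrArg Additive.ofMul
  apply Units.ext
  show padicEmbedding q (σ ((x + y).toMul : Qb)) = _
  simp [toMul_add]
  rfl

theorem embQ_smul (q : Nat.Primes) (g : GQ) (x : Additive Qbˣ) :
    embQ q (g • x) = g • embQ q x := rfl

theorem embQ_injective (q : Nat.Primes) : Function.Injective (embQ q) := by
  intro x y h
  have h1 := congrArg (fun f : JQ q => ((f.1 1).toMul : PadicAlgCl q)) h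
  simp only [embQ_apply] at h1
  have h2 := (padicEmbedding (q : ℕ)).toRingHom.injective h1
  exact congrArg Additive.ofMul (Units.ext h2 : x.toMul = y.toMul)

/-- normalised valuation -/
noncomputable def ordq (q : Nat.Primes) (x : Additive Qbˣ) : ℤ :=
  -Int.log (q : ℕ) (av q (x.toMul : Qb))

theorem ordq_eq {q : Nat.Primes} {x : Additive Qbˣ} {k : ℤ}
    (h : av q (x.toMul : Qb) = ((q : ℕ) : ℝ) ^ (-k)) : ordq q x = k := by
  rw [ordq, h, Int.log_zpow q.2.one_lt, neg_neg]

theorem av_eq_of_QS {S : Finset Nat.Primes} (x : QS S) {q : Nat.Primes} (hq : q ∉ S) (σ : GQ) :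
    av q (σ (x.1.toMul : Qb)) = ((q : ℕ) : ℝ) ^ (-ordq q (σ • x.1)) := by
  obtain ⟨F, hF, hx⟩ := exists_field_mem x
  obtain ⟨k, hk⟩ := exists_av_eq_zpow hF q hq σ hx (Units.ne_zero _)
  have : ordq q (σ • x.1) = k := ordq_eq hk
  rw [this, hk]

theorem ordq_add {S : Finset Nat.Primes} (x y : QS S) {q : Nat.Primes} (hq : q ∉ S) (σ : GQ) :
    ordq q (σ • (x.1 + y.1)) = ordq q (σ • x.1) + ordq q (σ • y.1) := by
  apply ordq_eq
  have h1 := av_eq_of_QS x hq σ
  have h2 := av_eq_of_QS y hq σ
  show av q (σ ((x.1.toMul * y.1.toMul : Qbˣ) : Qb)) = _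
  rw [Units.val_mul, map_mul, av_mul, h1, h2, neg_add, zpow_add₀]
  exact_mod_cast q.2.ne_zero

theorem exists_int_mul_integral (y : Qb) :
    ∃ n : ℕ, n ≠ 0 ∧ IsIntegral ℤ ((n : Qb) * y) := by
  have h1 : IsAlgebraic ℤ y := by
    have : IsAlgebraic ℚ y := (Algebra.IsIntegral.isIntegral (R := ℚ) y).isAlgebraic
    exact (IsFractionRing.isAlgebraic_iff ℤ ℚ Qb).mpr this
  obtain ⟨n, hn, h2⟩ := h1.exists_integral_multiple
  refine ⟨n.natAbs, Int.natAbs_ne_zero.mpr hn, ?_⟩
  have h3 : IsIntegral ℤ ((n : Qb) * y) := by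
    rwa [zsmul_eq_mul] at h2
  rcases Int.natAbs_eq n with h | h
  · have : ((n.natAbs : ℕ) : Qb) = (n : Qb) := by
      conv_rhs => rw [h]
      simp
    rwa [this]
  · have : ((n.natAbs : ℕ) : Qb) = -(n : Qb) := by
      conv_rhs => rw [h]
      simp
    rw [this, neg_mul]
    exact h3.neg

theorem ordq_finite {S : Finset Nat.Primes} (x : QS S) :
    {q : Nat.Primes | q ∉ S ∧ ∃ σ : GQ, ordq q (σ • x.1) ≠ 0}.Finite := by
  obtain ⟨n, hn, h1⟩ := exists_int_mul_integral (x.1.toMul : Qb)
  obtain ⟨m, hm, h2⟩ := exists_int_mul_integral (x.1.toMul : Qb)⁻¹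
  have hfin : {q : Nat.Primes | (q : ℕ) ∣ n * m}.Finite := by
    have : (Nat.primeFactors (n * m) : Set ℕ).Finite := Finset.finite_toSet _
    refine Set.Finite.of_finite_image (f := fun q : Nat.Primes => (q : ℕ)) (this.subset ?_)
      (fun a _ b _ h => Subtype.ext h)
    rintro _ ⟨q, hq, rfl⟩
    exact Nat.mem_primeFactors.mpr ⟨q.2, hq, mul_ne_zero hn hm⟩
  refine hfin.subset ?_
  rintro q ⟨hqS, σ, hσ⟩
  by_contra hdvd
  have hdvd' : ¬ (q : ℕ) ∣ n * m := hdvd
  rw [q.2.dvd_mul, not_or] at hdvd'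
  apply hσ
  have key : ∀ k : ℕ, ¬ (q : ℕ) ∣ k → av q (k : Qb) = 1 := by
    intro k hk
    rw [av_natCast]
    exact (Padic.norm_natCast_eq_one_iff).mpr ((Nat.Prime.coprime_iff_not_dvd q.2).mpr hk)
  have h3 : av q (σ (x.1.toMul : Qb)) ≤ 1 := by
    have := av_le_of_isIntegral q (h1.map (σ : Qb ≃ₐ[ℚ] Qb))
    rwa [map_mul, map_natCast, av_mul, key n hdvd'.1, one_mul] at this
  have h4 : 1 ≤ av q (σ (x.1.toMul : Qb)) := by
    have := av_le_of_isIntegral q (h2.map (σ : Qb ≃ₐ[ℚ] Qb))
    rw [map_mul, map_natCast, av_mul, key m hdvd'.2, one_mul, map_inv₀, av_inv] at this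
    have hpos : 0 < av q (σ (x.1.toMul : Qb)) := av_pos q (by
      rw [ne_eq, EmbeddingLike.map_eq_zero_iff]; exact Units.ne_zero _)
    exact (inv_le_one₀ hpos).mp this
  apply ordq_eq
  show av q (σ (x.1.toMul : Qb)) = _
  rw [neg_zero, zpow_zero]
  exact le_antisymm h3 h4

open Classical in
/-- divisor of a global element -/
def divQ {S : Finset Nat.Primes} (x : QS S) : DivG S :=
  ⟨fun q σ => if q ∈ S then 0 else ordq q (σ • x.1), by
    refine ⟨fun q τ σ => ?_, (ordq_finite x).subset ?_, fun q hq => ?_⟩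
    · by_cases hq : q ∈ S
      · simp only [if_pos hq]
      · simp only [if_neg hq]
        apply ordq_eq
        show av q (localGaloisToGlobal q τ (σ (x.1.toMul : Qb))) = _
        rw [av_lg]
        exact av_eq_of_QS x hq σ
    · intro q hq
      have hq' : (fun σ : GQ => if q ∈ S then (0 : ℤ) else ordq q (σ • x.1)) ≠ 0 := hq
      rw [Function.ne_iff] at hq'
      obtain ⟨σ, hσ⟩ := hq'
      by_cases hqS : q ∈ S
      · simp [hqS] at hσ
      · simp only [if_neg hqS] at hσ
        exact ⟨hqS, σ, hσ⟩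
    · funext σ
      simp only [if_pos hq]; rfl⟩

theorem divQ_apply {S : Finset Nat.Primes} (x : QS S) {q : Nat.Primes} (hq : q ∉ S) (σ : GQ) :
    (divQ x).1 q σ = ordq q (σ • x.1) := if_neg hq

theorem divQ_apply_mem {S : Finset Nat.Primes} (x : QS S) {q : Nat.Primes} (hq : q ∈ S) (σ : GQ) :
    (divQ x).1 q σ = 0 := if_pos hq

theorem divQ_add {S : Finset Nat.Primes} (x y : QS S) : divQ (x + y) = divQ x + divQ y := by
  apply Subtype.ext
  funext q σ
  show (divQ (x + y)).1 q σ = (divQ x).1 q σ + (divQ y).1 q σ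
  by_cases hq : q ∈ S
  · simp only [divQ_apply_mem _ hq, add_zero]
  · simp only [divQ_apply _ hq]
    exact ordq_add x y hq σ

theorem divQ_smul {S : Finset Nat.Primes} (g : GQ) (x : QS S) : divQ (g • x) = g • divQ x := by
  apply Subtype.ext
  funext q σ
  show (divQ (g • x)).1 q σ = (divQ x).1 q (σ * g)
  by_cases hq : q ∈ S
  · simp only [divQ_apply_mem _ hq]
  · simp only [divQ_apply _ hq]
    rw [coe_smul_smooth, mul_smul]

/-- the diagonal embedding into all ideles -/
def diagT (S : Finset Nat.Primes) : QS S →+ IdT S where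
  toFun x := (fun q => embQ q.1 x.1, divQ x)
  map_zero' := by
    have h1 : divQ (0 : QS S) = 0 := by
      have := divQ_add (0 : QS S) 0
      rw [add_zero] at this
      exact add_eq_left.mp this.symm
    have h2 : ∀ q : S, embQ q.1 (0 : Additive Qbˣ) = 0 := by
      intro q
      have := embQ_add q.1 (0 : Additive Qbˣ) 0
      rw [add_zero] at this
      exact add_eq_left.mp this.symm
    exact Prod.ext (funext h2) h1
  map_add' x y := Prod.ext (funext fun q => embQ_add q.1 x.1 y.1) (divQ_add x y)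

theorem diagT_smul {S : Finset Nat.Primes} (g : GQ) (x : QS S) :
    diagT S (g • x) = g • diagT S x :=
  Prod.ext (funext fun q => embQ_smul q.1 g x.1) (divQ_smul g x)

/-- the diagonal embedding -/
def diag (S : Finset Nat.Primes) : QS S →+ Jm S where
  toFun x := ⟨diagT S x, by
    obtain ⟨F, hF, h⟩ := x.2
    refine ⟨F, hF, fun n hn => ?_⟩
    rw [← diagT_smul]
    congr 1
    exact Subtype.ext (h n hn)⟩
  map_zero' := Subtype.ext (map_zero _)
  map_add' x y := Subtype.ext (map_add _ x y)

theorem diag_smul {S : Finset Nat.Primes} (g : GQ) (x : QS S) : diag S (g • x) = g • diag S x :=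
  Subtype.ext (diagT_smul g x)

theorem diag_injective {S : Finset Nat.Primes} (hS : S.Nonempty) : Function.Injective (diag S) := by
  intro x y h
  obtain ⟨q, hq⟩ := hS
  have h1 := congrArg (fun z : Jm S => z.1.1 ⟨q, hq⟩) h
  exact Subtype.ext (embQ_injective q h1)

/-- the module of `S`-idele classes -/
def Cm (S : Finset Nat.Primes) : Type := Jm S ⧸ (diag S).range

instance (S : Finset Nat.Primes) : AddCommGroup (Cm S) :=
  inferInstanceAs (AddCommGroup (Jm S ⧸ (diag S).range))

/-- the quotient map -/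
def toC (S : Finset Nat.Primes) : Jm S →+ Cm S := QuotientAddGroup.mk' (diag S).range

theorem toC_surjective (S : Finset Nat.Primes) : Function.Surjective (toC S) :=
  QuotientAddGroup.mk'_surjective _

theorem toC_eq_zero {S : Finset Nat.Primes} {x : Jm S} : toC S x = 0 ↔ ∃ a : QS S, diag S a = x := by
  show QuotientAddGroup.mk' (diag S).range x = 0 ↔ _
  rw [QuotientAddGroup.mk'_apply, QuotientAddGroup.eq_zero_iff]
  rfl

theorem toC_diag {S : Finset Nat.Primes} (a : QS S) : toC S (diag S a) = 0 :=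
  toC_eq_zero.mpr ⟨a, rfl⟩

instance cmAction (S : Finset Nat.Primes) : DistribMulAction GQ (Cm S) where
  smul g := QuotientAddGroup.map (diag S).range (diag S).range (DistribSMul.toAddMonoidHom (Jm S) g)
    (by
      rintro _ ⟨a, rfl⟩
      exact ⟨g • a, diag_smul g a⟩)
  one_smul c := by
    obtain ⟨x, rfl⟩ := toC_surjective S c
    show toC S ((1 : GQ) • x) = toC S x
    rw [one_smul]
  mul_smul g h c := by
    obtain ⟨x, rfl⟩ := toC_surjective S c
    show toC S ((g * h) • x) = toC S (g • h • x)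
    rw [mul_smul]
  smul_zero g := map_zero _
  smul_add g c c' := map_add _ c c'

theorem toC_smul {S : Finset Nat.Primes} (g : GQ) (x : Jm S) : toC S (g • x) = g • toC S x := rfl

theorem finiteIndex_fixingSubgroup (F : IntermediateField ℚ Qb) [FiniteDimensional ℚ F] :
    F.fixingSubgroup.FiniteIndex := by
  haveI := Fermat.Agent.Frob.isGalois_Qbar
  refine ⟨?_⟩
  rw [← IntermediateField.finrank_eq_fixingSubgroup_index]
  exact Module.finrank_pos.ne'

/-- Galois descent: a class fixed by `Γ_F` comes from an idele fixed by `Γ_F` -/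
theorem exists_fix_lift {S : Finset Nat.Primes} (hS : S.Nonempty) {F : IntermediateField ℚ Qb}
    (hF : F.IsUnramifiedOutside S) {c : Cm S} (hc : c ∈ fix (Cm S) F.fixingSubgroup) :
    ∃ x ∈ fix (Jm S) F.fixingSubgroup, toC S x = c := by
  haveI := Fermat.Agent.Frob.isGalois_Qbar
  obtain ⟨y, rfl⟩ := toC_surjective S c
  obtain ⟨F', hF', hy⟩ := y.2
  obtain ⟨N, hFN, hN, -⟩ := exists_galois_unram (hF.sup hF')
  have hyN : ∀ n ∈ N.fixingSubgroup, n • y = y := fun n hn => Subtype.ext
    (hy n (IntermediateField.fixingSubgroup_antitone (le_sup_right.trans hFN) hn))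
  have ha : ∀ g : F.fixingSubgroup, ∃ a : QS S, diag S a = (g : GQ) • y - y := by
    intro g
    rw [← toC_eq_zero, map_sub, toC_smul, hc _ g.2, sub_self]
  choose a ha using ha
  have hcoc : ∀ g h : F.fixingSubgroup, a (g * h) = a g + (g : GQ) • a h := by
    intro g h
    apply diag_injective hS
    rw [map_add, diag_smul, ha, ha, ha, smul_sub, Subgroup.coe_mul, mul_smul]
    abel
  haveI := hN.1
  haveI := finiteIndex_fixingSubgroup N
  let M : Subgroup F.fixingSubgroup := N.fixingSubgroup.subgroupOf F.fixingSubgroup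
  haveI : M.FiniteIndex := inferInstance
  have haM : ∀ n ∈ M, a n = 0 := by
    intro n hn
    apply diag_injective hS
    have h5 : (n : GQ) • y = y := hyN _ hn
    rw [ha, h5, sub_self, map_zero]
  obtain ⟨β, hβ1, hβ2⟩ := hilbert90 (Ω := Qb) M (by
    intro g hg
    show (g : GQ) ∈ N.fixingSubgroup
    rw [IntermediateField.mem_fixingSubgroup_iff]
    intro x hx
    exact hg x (fun n hn => (IntermediateField.mem_fixingSubgroup_iff N _).mp hn x hx))
    (fun g => (a g).1.toMul) (by
      intro g h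
      have := congrArg (fun z : QS S => (z.1.toMul : Qb)) (hcoc g h)
      exact this) (by
      intro n hn
      have := congrArg (fun z : QS S => z.1.toMul) (haM n hn)
      exact this)
  have hβN : (β : Qb) ∈ N := by
    rw [← InfiniteGalois.fixedField_fixingSubgroup N, IntermediateField.mem_fixedField_iff]
    intro f hf
    have hfF : f ∈ F.fixingSubgroup :=
      IntermediateField.fixingSubgroup_antitone (le_sup_left.trans hFN) hf
    exact hβ1 ⟨f, hfF⟩ hf
  let b : QS S := ⟨Additive.ofMul β, N, hN, (mem_fix_of_mem _).mpr hβN⟩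
  have hab : ∀ g : F.fixingSubgroup, a g = (g : GQ) • b - b := by
    intro g
    rw [eq_sub_iff_add_eq]
    apply Subtype.ext
    exact congrArg Additive.ofMul (Units.ext (hβ2 g))
  refine ⟨y - diag S b, fun g hg => ?_, ?_⟩
  · have h1 := ha ⟨g, hg⟩
    rw [hab] at h1
    simp only [map_sub, diag_smul] at h1
    rw [smul_sub]
    have h2 : g • y = (g • diag S b - diag S b) + y := by rw [h1]; abel
    rw [h2]; abel
  · rw [map_sub, toC_diag, sub_zero]

end

end Fermat.Agent.CFT
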