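import Fermat.Agent.CFT.ProdInd
import Fermat.Agent.CFT.Global
import Fermat.Agent.CFTLocal.Main

set_option autoImplicit false
set_option maxHeartbeats 400000

/-! Local components of ideles as products over places. -/

namespace Fermat.Agent.CFT

open Finset MulAction

section abstract

variable {G : Type*} [Group G] {X : Type*} [MulAction G X] {M : Type*} [AddCommGroup M]
  [DistribMulAction G M]

/-- equivariant functions -/
def EqF (G X M : Type*) [Group G] [MulAction G X] [AddCommGroup M] [DistribMulAction G M] :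
    AddSubgroup (X → M) where
  carrier := {f | ∀ (g : G) (x : X), f (g • x) = g • f x}
  zero_mem' := by intro g x; simp
  add_mem' := by intro a b ha hb g x; simp [ha g x, hb g x]
  neg_mem' := by intro a ha g x; simp [ha g x]

/-- evaluation of equivariant functions at the orbit representatives -/
noncomputable def eqfEquiv (W : AddSubgroup M) (hW : ∀ (g : G), ∀ m ∈ W, g • m ∈ W) :
    ↥(EqF G X M ⊓ AddSubgroup.pi Set.univ (fun _ => W)) ≃+
      (∀ ω : Quotient (orbitRel G X), ↥(fix M (stabilizer G ω.out) ⊓ W)) :=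
  AddEquiv.ofBijective
    ({ toFun := fun f ω => ⟨f.1 ω.out, by
        refine ⟨fun g hg => ?_, f.2.2 _ trivial⟩
        have h1 := f.2.1 g ω.out
        rw [mem_stabilizer_iff] at hg
        rw [← h1, hg]⟩
       map_zero' := rfl
       map_add' := fun _ _ => rfl } :
      ↥(EqF G X M ⊓ AddSubgroup.pi Set.univ (fun _ => W)) →+
      (∀ ω : Quotient (orbitRel G X), ↥(fix M (stabilizer G ω.out) ⊓ W)))
    (by
      classical
      have hout : ∀ x : X, ∃ g : G, g • (Quotient.mk (orbitRel G X) x).out = x := by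
        intro x
        have h1 : (orbitRel G X) (Quotient.mk (orbitRel G X) x).out x :=
          Quotient.exact (Quotient.out_eq _)
        exact (orbitRel G X).symm h1
      choose c hc using hout
      constructor
      · intro f f' h
        apply Subtype.ext
        funext x
        have h1 := congrArg Subtype.val (congrFun h (Quotient.mk (orbitRel G X) x))
        have h2 : f.1 (Quotient.mk (orbitRel G X) x).out = f'.1 (Quotient.mk (orbitRel G X) x).out :=
          h1
        rw [← hc x, f.2.1, f'.2.1, h2]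
      · intro m
        have hinv : ∀ (g : G) (x : X),
            c (g • x) • (m (Quotient.mk (orbitRel G X) (g • x))).1 =
              g • c x • (m (Quotient.mk (orbitRel G X) x)).1 := by
          intro g x
          have e : (Quotient.mk (orbitRel G X) (g • x)) = Quotient.mk (orbitRel G X) x :=
            Quotient.sound ⟨g, rfl⟩
          have h1 : c (g • x) • (Quotient.mk (orbitRel G X) x).out = g • x := by
            have := hc (g • x)
            rwa [e] at this
          rw [e]
          have h2 : (c (g • x))⁻¹ * g * c x ∈ stabilizer G (Quotient.mk (orbitRel G X) x).out := by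
            rw [mem_stabilizer_iff, mul_smul, mul_smul, hc x, inv_smul_eq_iff]
            exact h1.symm
          have h3 := (m (Quotient.mk (orbitRel G X) x)).2.1 _ h2
          have h4 := congrArg (fun z => c (g • x) • z) h3
          simp only [smul_smul] at h4
          rw [← h4, smul_smul]
          congr 1
          group
        refine ⟨⟨fun x => c x • (m (Quotient.mk (orbitRel G X) x)).1, fun g x => hinv g x,
          fun x _ => hW _ _ (m _).2.2⟩, ?_⟩
        funext ω
        apply Subtype.ext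
        show c ω.out • (m (Quotient.mk (orbitRel G X) ω.out)).1 = (m ω).1
        have e : Quotient.mk (orbitRel G X) ω.out = ω := Quotient.out_eq ω
        have h1 := hc ω.out
        rw [e] at h1 ⊢
        exact (m ω).2.1 _ (mem_stabilizer_iff.mpr h1))

theorem sum_index_stabilizer [Finite X] [Fintype (Quotient (orbitRel G X))] :
    ∑ ω : Quotient (orbitRel G X), (stabilizer G ω.out).index = Nat.card X := by
  classical
  haveI : ∀ a : Quotient (orbitRel G X), Finite (G ⧸ stabilizer G a.out) := fun a =>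
    Finite.of_equiv _ (orbitEquivQuotientStabilizer G a.out)
  rw [Nat.card_congr (selfEquivSigmaOrbitsQuotientStabilizer G X), Nat.card_sigma]
  rfl

end abstract

section local_

variable (q : Nat.Primes) (F : IntermediateField ℚ Qb)

/-- the local Galois group acts on the cosets of `Γ_F` -/
noncomputable instance cosetAction : MulAction (LG (q : ℕ)) (GQ ⧸ F.fixingSubgroup) :=
  MulAction.compHom _ (localGaloisToGlobal (q : ℕ))

theorem coset_smul (τ : LG (q : ℕ)) (σ : GQ) :
    τ • (σ : GQ ⧸ F.fixingSubgroup) = ((localGaloisToGlobal q τ * σ : GQ) : GQ ⧸ F.fixingSubgroup) :=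
  rfl

theorem isOpen_comap_lg [FiniteDimensional ℚ F] :
    IsOpen ((F.fixingSubgroup.comap (localGaloisToGlobal (q : ℕ)) : Subgroup (LG (q : ℕ))) :
      Set (LG (q : ℕ))) := by
  obtain ⟨θ, hθ⟩ := Field.exists_primitive_element ℚ F
  let K1 := IntermediateField.adjoin ℚ_[(q : ℕ)] {padicEmbedding q (θ : Qb)}
  haveI : FiniteDimensional ℚ_[(q : ℕ)] K1 :=
    IntermediateField.adjoin.finiteDimensional (Algebra.IsIntegral.isIntegral _)
  apply Subgroup.isOpen_mono (H₁ := K1.fixingSubgroup) ?_ (K1.fixingSubgroup_isOpen)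
  intro τ hτ
  rw [Subgroup.mem_comap, IntermediateField.mem_fixingSubgroup_iff]
  have h1 : localGaloisToGlobal q τ (θ : Qb) = θ := by
    apply (padicEmbedding (q : ℕ)).toRingHom.injective
    show padicEmbedding q _ = padicEmbedding q _
    rw [padicEmbedding_localGaloisToGlobal]
    exact (IntermediateField.mem_fixingSubgroup_iff K1 τ).mp hτ _
      (IntermediateField.mem_adjoin_simple_self _ _)
  let f1 : F →ₐ[ℚ] Qb := ((localGaloisToGlobal q τ : GQ) : Qb →ₐ[ℚ] Qb).comp F.val
  have h2 : f1 = F.val := by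
    apply AlgHom.ext
    intro z
    have hz : z ∈ IntermediateField.adjoin ℚ {θ} := by rw [hθ]; trivial
    induction hz using IntermediateField.adjoin_induction with
    | mem x hx =>
      rw [Set.mem_singleton_iff] at hx
      rw [hx]; exact h1
    | algebraMap x => exact (AlgHom.commutes f1 x).trans (AlgHom.commutes F.val x).symm
    | add x y _ _ hx hy => rw [map_add, map_add, hx, hy]
    | inv x _ hx => rw [map_inv₀, map_inv₀, hx]
    | mul x y _ _ hx hy => rw [map_mul, map_mul, hx, hy]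
  intro x hx
  exact DFunLike.congr_fun h2 ⟨x, hx⟩

theorem isOpen_stabilizer [FiniteDimensional ℚ F] (x : GQ ⧸ F.fixingSubgroup) :
    IsOpen ((stabilizer (LG (q : ℕ)) x : Subgroup (LG (q : ℕ))) : Set (LG (q : ℕ))) := by
  obtain ⟨σ, rfl⟩ := QuotientGroup.mk_surjective x
  haveI : FiniteDimensional ℚ (F.map (σ : Qb →ₐ[ℚ] Qb)) :=
    (IntermediateField.intermediateFieldMap σ F).toLinearEquiv.finiteDimensional
  refine Subgroup.isOpen_mono ?_ (isOpen_comap_lg q (F.map (σ : Qb →ₐ[ℚ] Qb)))
  intro τ hτ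
  rw [Subgroup.mem_comap, IntermediateField.mem_fixingSubgroup_iff] at hτ
  rw [mem_stabilizer_iff, coset_smul, eq_comm, QuotientGroup.eq,
    IntermediateField.mem_fixingSubgroup_iff]
  intro x hx
  show σ⁻¹ (localGaloisToGlobal q τ (σ x)) = x
  rw [hτ (σ x) ⟨x, hx, rfl⟩]
  exact AlgEquiv.symm_apply_apply σ x

/-- fixed local ideles as equivariant functions on cosets -/
noncomputable def fixJQ : ↥(fix (JQ q) F.fixingSubgroup) ≃+
    ↥(EqF (LG (q : ℕ)) (GQ ⧸ F.fixingSubgroup) (LM q)) where
  toFun f := ⟨fun x => Quotient.liftOn' x (fun σ => f.1.1 σ) (by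
      intro σ σ' h
      have h1 : σ⁻¹ * σ' ∈ F.fixingSubgroup := QuotientGroup.leftRel_apply.mp h
      have h3 : f.1.1 (σ * (σ⁻¹ * σ')) = f.1.1 σ := congrArg (fun z : JQ q => z.1 σ) (f.2 _ h1)
      rw [mul_inv_cancel_left] at h3
      exact h3.symm), by
      intro τ x
      induction x using QuotientGroup.induction_on with
      | H σ => exact f.1.2 τ σ⟩
  invFun f := ⟨⟨fun σ => f.1 (σ : GQ ⧸ F.fixingSubgroup), fun τ σ => f.2 τ (σ : GQ ⧸ F.fixingSubgroup)⟩, by
      intro n hn
      apply Subtype.ext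
      funext σ
      have h1 : ((σ * n : GQ) : GQ ⧸ F.fixingSubgroup) = (σ : GQ ⧸ F.fixingSubgroup) := by
        rw [QuotientGroup.eq]
        have : (σ * n)⁻¹ * σ = n⁻¹ := by group
        rw [this]
        exact F.fixingSubgroup.inv_mem hn
      exact congrArg f.1 h1⟩
  left_inv f := rfl
  right_inv f := by
    apply Subtype.ext
    funext x
    induction x using QuotientGroup.induction_on with
    | H σ => rfl
  map_add' f f' := by
    apply Subtype.ext
    funext x
    induction x using QuotientGroup.induction_on with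
    | H σ => rfl

theorem fixJQ_apply (f : ↥(fix (JQ q) F.fixingSubgroup)) (σ : GQ) :
    (fixJQ q F f).1 (σ : GQ ⧸ F.fixingSubgroup) = f.1.1 σ := rfl

/-- number of places of `F` over `q` -/
noncomputable def npl : ℕ := Nat.card (Quotient (orbitRel (LG (q : ℕ)) (GQ ⧸ F.fixingSubgroup)))

variable [FiniteDimensional ℚ F] (p : ℕ) [Fact p.Prime]

theorem card_cosets : Nat.card (GQ ⧸ F.fixingSubgroup) = Module.finrank ℚ F := by
  haveI := Fermat.Agent.Frob.isGalois_Qbar
  exact (IntermediateField.finrank_eq_fixingSubgroup_index (F := ℚ) (E' := Qb) F).symm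

instance : Finite (GQ ⧸ F.fixingSubgroup) :=
  Nat.finite_of_card_ne_zero (by rw [card_cosets]; exact Module.finrank_pos.ne')

theorem ind_JQ : FinInd (mulN ↥(fix (JQ q) F.fixingSubgroup) p) ∧
    ind (mulN ↥(fix (JQ q) F.fixingSubgroup) p) =
      (p : ℚ) ^ npl q F * (p : ℚ) ^ (if p = q then Module.finrank ℚ F else 0) := by
  classical
  haveI : Fintype (Quotient (orbitRel (LG (q : ℕ)) (GQ ⧸ F.fixingSubgroup))) := Fintype.ofFinite _
  let e1 := fixJQ q F
  let e2 := eqfEquiv (G := LG (q : ℕ)) (X := GQ ⧸ F.fixingSubgroup) (M := LM q) (⊤ : AddSubgroup (LM q))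
    (fun _ _ _ => trivial)
  have hL := fun ω : Quotient (orbitRel (LG (q : ℕ)) (GQ ⧸ F.fixingSubgroup)) =>
    CFTLocal.L1 p (stabilizer (LG (q : ℕ)) ω.out) (isOpen_stabilizer q F ω.out)
  -- get rid of the intersections with ⊤
  have e0 : ↥(EqF (LG (q : ℕ)) (GQ ⧸ F.fixingSubgroup) (LM q)) ≃+
      ↥(EqF (LG (q : ℕ)) (GQ ⧸ F.fixingSubgroup) (LM q) ⊓ AddSubgroup.pi Set.univ (fun _ => ⊤)) :=
    { toFun := fun f => ⟨f.1, f.2, fun _ _ => trivial⟩
      invFun := fun f => ⟨f.1, f.2.1⟩
      left_inv := fun _ => rfl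
      right_inv := fun _ => rfl
      map_add' := fun _ _ => rfl }
  have e3 : ∀ ω : Quotient (orbitRel (LG (q : ℕ)) (GQ ⧸ F.fixingSubgroup)),
      ↥(fix (LM q) (stabilizer (LG (q : ℕ)) ω.out)) ≃+
        ↥(fix (LM q) (stabilizer (LG (q : ℕ)) ω.out) ⊓ ⊤) := fun ω =>
    { toFun := fun f => ⟨f.1, f.2, trivial⟩
      invFun := fun f => ⟨f.1, f.2.1⟩
      left_inv := fun _ => rfl
      right_inv := fun _ => rfl
      map_add' := fun _ _ => rfl }
  have h3 := fun ω => CFTLocal.ind_equiv p (e3 ω) (hL ω).1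
  have h4 := ind_pi (fun ω : Quotient (orbitRel (LG (q : ℕ)) (GQ ⧸ F.fixingSubgroup)) =>
    ↥(fix (LM q) (stabilizer (LG (q : ℕ)) ω.out) ⊓ ⊤)) p (fun ω => (h3 ω).1)
  let e := (e1.trans e0).trans e2
  have h5 := CFTLocal.ind_equiv p e.symm h4.1
  refine ⟨h5.1, ?_⟩
  rw [h5.2, h4.2]
  simp only [fun ω => (h3 ω).2, fun ω => (hL ω).2]
  rw [Finset.prod_mul_distrib, Finset.prod_const, Finset.prod_pow_eq_pow_sum, Finset.card_univ, npl,
    Nat.card_eq_fintype_card]
  congr 2
  split_ifs with hpq
  · rw [sum_index_stabilizer, card_cosets]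
  · simp

/-- unit ideles at `q` of level `F` -/
noncomputable def UQ : AddSubgroup (JQ q) where
  carrier := {f | f ∈ fix (JQ q) F.fixingSubgroup ∧ ∀ σ, f.1 σ ∈ LU q}
  zero_mem' := ⟨(fix _ _).zero_mem, fun _ => (LU q).zero_mem⟩
  add_mem' := fun ha hb => ⟨(fix _ _).add_mem ha.1 hb.1, fun σ => (LU q).add_mem (ha.2 σ) (hb.2 σ)⟩
  neg_mem' := fun ha => ⟨(fix _ _).neg_mem ha.1, fun σ => (LU q).neg_mem (ha.2 σ)⟩

theorem ind_UQ : FinInd (mulN ↥(UQ q F) p) ∧
    ind (mulN ↥(UQ q F) p) = (p : ℚ) ^ (if p = q then Module.finrank ℚ F else 0) := by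
  classical
  haveI : Fintype (Quotient (orbitRel (LG (q : ℕ)) (GQ ⧸ F.fixingSubgroup))) := Fintype.ofFinite _
  let e1 := fixJQ q F
  let e2 := eqfEquiv (G := LG (q : ℕ)) (X := GQ ⧸ F.fixingSubgroup) (M := LM q) (LU q)
    (fun g m hm => smul_mem_LU g hm)
  have hL := fun ω : Quotient (orbitRel (LG (q : ℕ)) (GQ ⧸ F.fixingSubgroup)) =>
    CFTLocal.L1u p (stabilizer (LG (q : ℕ)) ω.out) (isOpen_stabilizer q F ω.out)
  have e0 : ↥(UQ q F) ≃+
      ↥(EqF (LG (q : ℕ)) (GQ ⧸ F.fixingSubgroup) (LM q) ⊓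
        AddSubgroup.pi Set.univ (fun _ => LU (q : ℕ))) :=
    { toFun := fun f => ⟨(e1 ⟨f.1, f.2.1⟩).1, (e1 ⟨f.1, f.2.1⟩).2, fun x _ => by
        induction x using QuotientGroup.induction_on with
        | H σ => exact f.2.2 σ⟩
      invFun := fun f => ⟨(e1.symm ⟨f.1, f.2.1⟩).1, (e1.symm ⟨f.1, f.2.1⟩).2, fun σ =>
        f.2.2 _ trivial⟩
      left_inv := fun f => by
        apply Subtype.ext
        exact congrArg (fun z => z.1) (e1.symm_apply_apply ⟨f.1, f.2.1⟩)
      right_inv := fun f => by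
        apply Subtype.ext
        exact congrArg (fun z => z.1) (e1.apply_symm_apply ⟨f.1, f.2.1⟩)
      map_add' := fun f f' => by
        apply Subtype.ext
        exact congrArg (fun z => z.1) (map_add e1 ⟨f.1, f.2.1⟩ ⟨f'.1, f'.2.1⟩) }
  have h4 := ind_pi (fun ω : Quotient (orbitRel (LG (q : ℕ)) (GQ ⧸ F.fixingSubgroup)) =>
    ↥(fix (LM q) (stabilizer (LG (q : ℕ)) ω.out) ⊓ LU (q : ℕ))) p (fun ω => (hL ω).1)
  let e := e0.trans e2
  have h5 := CFTLocal.ind_equiv p e.symm h4.1
  refine ⟨h5.1, ?_⟩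
  rw [h5.2, h4.2]
  simp only [fun ω => (hL ω).2]
  rw [Finset.prod_pow_eq_pow_sum]
  congr 1
  split_ifs with hpq
  · rw [sum_index_stabilizer, card_cosets]
  · simp

end local_

end Fermat.Agent.CFT
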