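import Fermat.Agent.CFT.Count1
import Fermat.Agent.CFT.EqF

set_option autoImplicit false
set_option maxHeartbeats 400000

/-! Divisors of ideles. -/

namespace Fermat.Agent.CFT

open IsDedekindDomain NumberField WithZero

noncomputable section

variable (F : IntermediateField ℚ Qb) [FiniteDimensional ℚ F]

/-- the rational prime below `v` -/
def vq (v : HeightOneSpectrum (𝓞 F)) : Nat.Primes :=
  ⟨(exists_prime_mem F v).choose, (exists_prime_mem F v).choose_spec.1⟩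

theorem vq_mem (v : HeightOneSpectrum (𝓞 F)) : (((vq F v : Nat.Primes) : ℕ) : 𝓞 F) ∈ v.asIdeal :=
  (exists_prime_mem F v).choose_spec.2

/-- an automorphism defining `v` -/
def vs (v : HeightOneSpectrum (𝓞 F)) : GQ := (exists_primeOf_eq F v (vq_mem F v)).choose

theorem primeOf_vs (v : HeightOneSpectrum (𝓞 F)) : primeOf (vq F v) F (vs F v) = v :=
  (exists_primeOf_eq F v (vq_mem F v)).choose_spec

/-- a uniformizer -/
def vpi (v : HeightOneSpectrum (𝓞 F)) : F := (v.valuation_exists_uniformizer F).choose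

theorem val_vpi (v : HeightOneSpectrum (𝓞 F)) : v.valuation F (vpi F v) = exp (-1 : ℤ) :=
  (v.valuation_exists_uniformizer F).choose_spec

theorem vpi_ne_zero (v : HeightOneSpectrum (𝓞 F)) : vpi F v ≠ 0 := by
  intro h
  have := val_vpi F v
  rw [h, map_zero] at this
  exact exp_ne_zero this.symm

/-- induction over places -/
theorem place_ind (P : Nat.Primes → GQ → Prop)
    (hinv : ∀ (q : Nat.Primes) (τ : LG q) (σ n : GQ), n ∈ F.fixingSubgroup → P q σ →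
      P q (localGaloisToGlobal q τ * σ * n))
    (h : ∀ v, P (vq F v) (vs F v)) (q : Nat.Primes) (σ : GQ) : P q σ := by
  have key : ∀ (q' : Nat.Primes) (_ : q' = q) (σ' : GQ),
      primeOf q' F σ' = primeOf q F σ → P q' σ' → P q σ := by
    rintro q' rfl σ' h1 h2
    obtain ⟨τ, n, hn, rfl⟩ := exists_lg_of_primeOf_eq q' F h1
    exact hinv _ _ _ _ hn h2
  have h1 := primeOf_vs F (primeOf q F σ)
  exact key _ (Subtype.ext (primeOf_inj F h1)) _ h1 (h _)

variable {F}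

/-- absolute value of a uniformizer at the place `(q, σ)` -/
def cq (F : IntermediateField ℚ Qb) [FiniteDimensional ℚ F] (q : ℕ) [Fact q.Prime] (σ : GQ) : ℝ :=
  av q (σ (vpi F (primeOf q F σ) : Qb))

theorem cq_pos (q : ℕ) [Fact q.Prime] (σ : GQ) : 0 < cq F q σ := by
  apply av_pos
  rw [ne_eq, EmbeddingLike.map_eq_zero_iff]
  exact fun h => vpi_ne_zero F (primeOf q F σ) (Subtype.ext h)

theorem cq_lt_one (q : ℕ) [Fact q.Prime] (σ : GQ) : cq F q σ < 1 := by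
  apply av_lt_one_of_valuation
  rw [val_vpi, ← exp_zero, exp_lt_exp]
  norm_num

theorem cq_zpow_inj (q : ℕ) [Fact q.Prime] (σ : GQ) {k l : ℤ} (h : cq F q σ ^ k = cq F q σ ^ l) :
    k = l :=
  zpow_right_injective₀ (cq_pos q σ) (cq_lt_one q σ).ne h

theorem av_eq_cq_zpow (q : ℕ) [Fact q.Prime] (σ : GQ) {x : F} (hx : x ≠ 0) (k : ℤ) :
    av q (σ (x : Qb)) = cq F q σ ^ k ↔ (primeOf q F σ).valuation F x = exp (-k) := by
  have h1 := av_eq_iff q F σ hx (zpow_ne_zero k (vpi_ne_zero F (primeOf q F σ)))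
  have h2 : av q (σ (((vpi F (primeOf q F σ)) ^ k : F) : Qb)) = cq F q σ ^ k := by
    have : (((vpi F (primeOf q F σ)) ^ k : F) : Qb) = ((vpi F (primeOf q F σ) : F) : Qb) ^ k := by
      push_cast; rfl
    rw [this, map_zpow₀, av_zpow]
    rfl
  rw [h2, map_zpow₀, val_vpi, ← exp_zsmul] at h1
  rw [h1]
  simp

theorem exists_valuation_eq (v : HeightOneSpectrum (𝓞 F)) {x : F} (hx : x ≠ 0) :
    ∃ k : ℤ, v.valuation F x = exp (-k) := by
  have h : v.valuation F x ≠ 0 := (Valuation.ne_zero_iff _).mpr hx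
  exact ⟨-log (v.valuation F x), by rw [neg_neg, exp_log h]⟩

/-- the norm on `LM q` -/
def nmL {q : ℕ} [Fact q.Prime] (y : LM q) : ℝ := ‖((y.toMul : (PadicAlgCl q)ˣ) : PadicAlgCl q)‖

theorem nmL_add {q : ℕ} [Fact q.Prime] (y z : LM q) : nmL (y + z) = nmL y * nmL z := by
  show ‖((y.toMul * z.toMul : (PadicAlgCl q)ˣ) : PadicAlgCl q)‖ = _
  rw [Units.val_mul, norm_mul]; rfl

theorem nmL_pos {q : ℕ} [Fact q.Prime] (y : LM q) : 0 < nmL y := norm_pos_iff.mpr (Units.ne_zero _)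

theorem nmL_smul {q : ℕ} [Fact q.Prime] (g : LG q) (y : LM q) : nmL (g • y) = nmL y := by
  have := nnnorm_padicAlgCl_algEquiv q g (y.toMul : PadicAlgCl q)
  exact congrArg NNReal.toReal this

theorem mem_LU_iff {q : ℕ} [Fact q.Prime] {y : LM q} : y ∈ LU q ↔ nmL y = 1 := by
  rw [mem_LU, ← NNReal.coe_inj, coe_nnnorm, NNReal.coe_one]; rfl

theorem nmL_embQ (q : Nat.Primes) (x : Additive Qbˣ) (σ : GQ) :
    nmL ((embQ q x).1 σ) = av q (σ (x.toMul : Qb)) := rfl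

/-- density at the place `σ` -/
theorem exists_approx_place (q : Nat.Primes) {j : JQ q} (hj : j ∈ fix (JQ q) F.fixingSubgroup)
    (σ : GQ) {ε : ℝ} (hε : 0 < ε) :
    ∃ x : F, ‖(((j.1 σ).toMul : (PadicAlgCl q)ˣ) : PadicAlgCl q) -
      padicEmbedding q (σ (x : Qb))‖ < ε := by
  obtain ⟨a, ha, h1⟩ := exists_approx q (F := F.map (σ : Qb →ₐ[ℚ] Qb))
    (((j.1 σ).toMul : (PadicAlgCl q)ˣ) : PadicAlgCl q) (by
      intro τ hτ
      have h2 : σ⁻¹ * localGaloisToGlobal q τ * σ ∈ F.fixingSubgroup := by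
        rw [IntermediateField.mem_fixingSubgroup_iff]
        intro x hx
        have h3 := (IntermediateField.mem_fixingSubgroup_iff _ _).mp hτ (σ x) ⟨x, hx, rfl⟩
        show σ⁻¹ (localGaloisToGlobal q τ (σ x)) = x
        rw [h3]
        exact AlgEquiv.symm_apply_apply σ x
      have h4 := congrArg (fun z : JQ q => z.1 σ) (hj _ h2)
      have h5 : j.1 (σ * (σ⁻¹ * localGaloisToGlobal q τ * σ)) = j.1 σ := h4
      have h6 : σ * (σ⁻¹ * localGaloisToGlobal q τ * σ) = localGaloisToGlobal q τ * σ := by group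
      rw [h6, j.2 τ σ] at h5
      exact congrArg (fun z : LM q => ((z.toMul : (PadicAlgCl q)ˣ) : PadicAlgCl q)) h5) hε
  obtain ⟨x, hx, rfl⟩ := ha
  exact ⟨⟨x, hx⟩, h1⟩

theorem norm_eq_of_sub_lt {q : ℕ} [Fact q.Prime] {x y : PadicAlgCl q} (h : ‖x - y‖ < ‖x‖) :
    ‖y‖ = ‖x‖ := by
  have h1 : y = x + (-(x - y)) := by ring
  rw [h1]
  exact CFTLocal.norm_add_eq_of_lt (by rwa [norm_neg])

theorem exists_nmL_eq (q : Nat.Primes) {j : JQ q} (hj : j ∈ fix (JQ q) F.fixingSubgroup)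
    (σ : GQ) : ∃ k : ℤ, nmL (j.1 σ) = cq F q σ ^ k := by
  obtain ⟨x, hx⟩ := exists_approx_place q hj σ (nmL_pos (j.1 σ))
  have h1 : av q (σ (x : Qb)) = nmL (j.1 σ) := norm_eq_of_sub_lt hx
  have hx0 : x ≠ 0 := by
    rintro rfl
    have := nmL_pos (j.1 σ)
    rw [← h1] at this
    simp [av] at this
  obtain ⟨k, hk⟩ := exists_valuation_eq (primeOf q F σ) hx0
  exact ⟨k, h1 ▸ (av_eq_cq_zpow q σ hx0 k).mpr hk⟩

/-- valuation at the place `(q, σ)` -/
def ordL (F : IntermediateField ℚ Qb) [FiniteDimensional ℚ F] (q : ℕ) [Fact q.Prime] (σ : GQ)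
    (y : LM q) : ℤ :=
  round (Real.log (nmL y) / Real.log (cq F q σ))

theorem ordL_eq {q : ℕ} [Fact q.Prime] {σ : GQ} {y : LM q} {k : ℤ} (h : nmL y = cq F q σ ^ k) :
    ordL F q σ y = k := by
  have h1 : Real.log (cq F q σ) ≠ 0 := (Real.log_neg (cq_pos q σ) (cq_lt_one q σ)).ne
  rw [ordL, h, Real.log_zpow, mul_div_assoc, div_self h1, mul_one, round_intCast]

theorem nmL_eq_ordL {q : Nat.Primes} {j : JQ q} (hj : j ∈ fix (JQ q) F.fixingSubgroup) (σ : GQ) :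
    nmL (j.1 σ) = cq F q σ ^ (ordL F q σ (j.1 σ)) := by
  obtain ⟨k, hk⟩ := exists_nmL_eq q hj σ
  rw [ordL_eq hk, hk]

theorem ordL_add {q : Nat.Primes} {j j' : JQ q} (hj : j ∈ fix (JQ q) F.fixingSubgroup)
    (hj' : j' ∈ fix (JQ q) F.fixingSubgroup) (σ : GQ) :
    ordL F q σ ((j + j').1 σ) = ordL F q σ (j.1 σ) + ordL F q σ (j'.1 σ) := by
  apply ordL_eq
  show nmL (j.1 σ + j'.1 σ) = _
  rw [nmL_add, nmL_eq_ordL hj, nmL_eq_ordL hj', zpow_add₀ (cq_pos (q : ℕ) σ).ne']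

variable {S : Finset Nat.Primes}

theorem fix_comp {j : Jm S} {Γ : Subgroup GQ} (hj : j ∈ fix (Jm S) Γ) (q : S) :
    j.1.1 q ∈ fix (JQ q.1) Γ := fun n hn =>
  congrArg (fun z : Jm S => z.1.1 q) (hj n hn)

theorem fix_div {j : Jm S} {Γ : Subgroup GQ} (hj : j ∈ fix (Jm S) Γ) (q : Nat.Primes) (σ : GQ)
    {n : GQ} (hn : n ∈ Γ) : j.1.2.1 q (σ * n) = j.1.2.1 q σ :=
  congrArg (fun z : Jm S => z.1.2.1 q σ) (hj n hn)

open Classical in
/-- divisor of an idele -/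
def nj (F : IntermediateField ℚ Qb) [FiniteDimensional ℚ F] (j : Jm S)
    (v : HeightOneSpectrum (𝓞 F)) : ℤ :=
  if h : vq F v ∈ S then ordL F (vq F v) (vs F v) ((j.1.1 ⟨vq F v, h⟩).1 (vs F v))
  else j.1.2.1 (vq F v) (vs F v)

theorem nj_add {j j' : Jm S} (hj : j ∈ fix (Jm S) F.fixingSubgroup)
    (hj' : j' ∈ fix (Jm S) F.fixingSubgroup) (v : HeightOneSpectrum (𝓞 F)) :
    nj F (j + j') v = nj F j v + nj F j' v := by
  unfold nj
  split_ifs with h
  · exact ordL_add (fix_comp hj ⟨vq F v, h⟩) (fix_comp hj' ⟨vq F v, h⟩) _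
  · rfl

theorem finite_vq (q : Nat.Primes) : {v : HeightOneSpectrum (𝓞 F) | vq F v = q}.Finite := by
  classical
  refine Set.Finite.of_finite_image (f := fun v => ((vs F v : GQ) : GQ ⧸ F.fixingSubgroup))
    (Set.toFinite _) ?_
  intro v hv w hw h
  have h1 : (vs F v)⁻¹ * vs F w ∈ F.fixingSubgroup := QuotientGroup.eq.mp h
  have h2 : vs F w = localGaloisToGlobal q 1 * vs F v * ((vs F v)⁻¹ * vs F w) := by
    rw [map_one]; group
  have key : ∀ (q1 q2 : Nat.Primes) (_ : q1 = q) (_ : q2 = q) (σ1 σ2 : GQ)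
      (_ : σ2 = localGaloisToGlobal q 1 * σ1 * (σ1⁻¹ * σ2)) (_ : σ1⁻¹ * σ2 ∈ F.fixingSubgroup),
      primeOf q1 F σ1 = primeOf q2 F σ2 := by
    rintro q1 q2 rfl rfl σ1 σ2 h3 h4
    conv_rhs => rw [h3]
    exact (primeOf_mul q2 F σ1 1 h4).symm
  have := key _ _ hv hw _ _ h2 h1
  rwa [primeOf_vs, primeOf_vs] at this

theorem finite_nj (j : Jm S) : {v : HeightOneSpectrum (𝓞 F) | nj F j v ≠ 0}.Finite := by
  classical
  have h1 : ((S : Set Nat.Primes) ∪ {q | j.1.2.1 q ≠ 0}).Finite :=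
    (Finset.finite_toSet S).union j.1.2.2.2.1
  refine (h1.biUnion (fun q _ => finite_vq (F := F) q)).subset ?_
  intro v hv
  simp only [Set.mem_iUnion]
  refine ⟨vq F v, ?_, rfl⟩
  by_cases h : vq F v ∈ S
  · exact Or.inl h
  · right
    intro h0
    apply hv
    unfold nj
    rw [dif_neg h]
    have h0' : j.1.2.1 (vq F v) = 0 := h0
    rw [h0']; rfl

/-- the divisor map -/
def nJ (F : IntermediateField ℚ Qb) [FiniteDimensional ℚ F] (S : Finset Nat.Primes) :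
    ↥(fix (Jm S) F.fixingSubgroup) →+ (HeightOneSpectrum (𝓞 F) →₀ ℤ) where
  toFun j := Finsupp.ofSupportFinite (nj F j.1) (finite_nj j.1)
  map_zero' := by
    ext v
    have := nj_add (F := F) (fix (Jm S) F.fixingSubgroup).zero_mem
      (fix (Jm S) F.fixingSubgroup).zero_mem v
    rw [add_zero] at this
    exact add_eq_left.mp this.symm
  map_add' j j' := by
    ext v
    exact nj_add j.2 j'.2 v

theorem nJ_apply (j : ↥(fix (Jm S) F.fixingSubgroup)) (v : HeightOneSpectrum (𝓞 F)) :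
    nJ F S j v = nj F j.1 v := rfl

/-- unit ideles -/
def UF (F : IntermediateField ℚ Qb) (S : Finset Nat.Primes) : AddSubgroup (Jm S) where
  carrier := {j | j ∈ fix (Jm S) F.fixingSubgroup ∧ (∀ (q : S) (σ : GQ), (j.1.1 q).1 σ ∈ LU q.1) ∧
    j.1.2 = 0}
  zero_mem' := ⟨(fix _ _).zero_mem, fun q _ => (LU _).zero_mem, rfl⟩
  add_mem' ha hb := ⟨(fix _ _).add_mem ha.1 hb.1, fun q σ => (LU _).add_mem (ha.2.1 q σ)
    (hb.2.1 q σ), by
    show _ + _ = _
    rw [ha.2.2, hb.2.2, add_zero]⟩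
  neg_mem' ha := ⟨(fix _ _).neg_mem ha.1, fun q σ => (LU _).neg_mem (ha.2.1 q σ), by
    show - _ = _
    rw [ha.2.2, neg_zero]⟩

theorem nJ_eq_zero (j : ↥(fix (Jm S) F.fixingSubgroup)) : nJ F S j = 0 ↔ j.1 ∈ UF F S := by
  classical
  constructor
  · intro h
    have h0 : ∀ v, nj F j.1 v = 0 := fun v => DFunLike.congr_fun h v
    have key := place_ind F (fun q σ => (∀ h : q ∈ S, (j.1.1.1 ⟨q, h⟩).1 σ ∈ LU q) ∧
        (q ∉ S → j.1.1.2.1 q σ = 0)) (by
      rintro q τ σ n hn ⟨h1, h2⟩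
      refine ⟨fun h => ?_, fun h => ?_⟩
      · have h3 : (j.1.1.1 ⟨q, h⟩).1 (localGaloisToGlobal q τ * σ * n) =
            (j.1.1.1 ⟨q, h⟩).1 (localGaloisToGlobal q τ * σ) :=
          congrArg (fun z : JQ q => z.1 (localGaloisToGlobal q τ * σ)) (fix_comp j.2 ⟨q, h⟩ n hn)
        rw [h3]
        have h4 : (j.1.1.1 ⟨q, h⟩).1 (localGaloisToGlobal q τ * σ) =
          τ • (j.1.1.1 ⟨q, h⟩).1 σ := (j.1.1.1 ⟨q, h⟩).2 τ σ
        rw [h4]
        exact smul_mem_LU τ (h1 h)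
      · rw [fix_div j.2 q _ hn, j.1.1.2.2.1 q τ σ]
        exact h2 h) (by
      intro v
      have h1 := h0 v
      unfold nj at h1
      constructor
      · intro h
        rw [dif_pos h] at h1
        rw [mem_LU_iff, nmL_eq_ordL (fix_comp j.2 ⟨vq F v, h⟩), h1, zpow_zero]
      · intro h
        rw [dif_neg h] at h1
        exact h1)
    refine ⟨j.2, fun q σ => (key q.1 σ).1 q.2, ?_⟩
    apply Subtype.ext
    funext q σ
    by_cases hq : q ∈ S
    · rw [j.1.1.2.2.2.2 q hq]; rfl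
    · exact (key q σ).2 hq
  · intro h
    ext v
    rw [nJ_apply]
    unfold nj
    split_ifs with hv
    · have := h.2.1 ⟨vq F v, hv⟩ (vs F v)
      rw [mem_LU_iff] at this
      exact ordL_eq (k := 0) (by rw [this, zpow_zero])
    · rw [h.2.2]; rfl

theorem cq_unram (hF : F.IsUnramifiedOutside S) {q : Nat.Primes} (hq : q ∉ S) (σ : GQ) :
    cq F q σ = ((q : ℕ) : ℝ)⁻¹ := by
  have hx0 : ((q : ℕ) : F) ≠ 0 := by exact_mod_cast q.2.ne_zero
  obtain ⟨e, he⟩ := exists_valuation_eq (primeOf q F σ) hx0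
  have h1 := (av_eq_cq_zpow (q : ℕ) σ hx0 e).mpr he
  have h2 : av q (σ ((((q : ℕ) : F)) : Qb)) = ((q : ℕ) : ℝ)⁻¹ := by
    have : ((((q : ℕ) : F)) : Qb) = ((q : ℕ) : Qb) := by push_cast; rfl
    rw [this, map_natCast, av_q]
  obtain ⟨k, hk⟩ := exists_av_eq_zpow hF q hq σ (vpi F (primeOf q F σ)).2
    (fun h => vpi_ne_zero F (primeOf q F σ) (Subtype.ext h))
  have hk' : cq F q σ = ((q : ℕ) : ℝ) ^ (-k) := hk
  have hq1 : (1 : ℝ) < ((q : ℕ) : ℝ) := by exact_mod_cast q.2.one_lt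
  have h3 : ((q : ℕ) : ℝ) ^ (-1 : ℤ) = ((q : ℕ) : ℝ) ^ (-k * e) := by
    rw [zpow_mul, ← hk', ← h1, h2, zpow_neg_one]
  have h4 : (-1 : ℤ) = -k * e := zpow_right_injective₀ (by linarith) hq1.ne' h3
  have h5 : k * e = 1 := by linarith
  have h6 : k = 1 := by
    rcases Int.eq_one_or_neg_one_of_mul_eq_one h5 with h | h
    · exact h
    · exfalso
      have h7 := cq_lt_one (F := F) (q : ℕ) σ
      rw [hk', h, neg_neg, zpow_one] at h7
      linarith
  rw [hk', h6, zpow_neg_one]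

theorem mem_fix_QS {x : QS S} (hx : x ∈ fix (QS S) F.fixingSubgroup) :
    (x.1.toMul : Qb) ∈ F :=
  (mem_fix_of_mem x.1).mp (fun n hn => congrArg Subtype.val (hx n hn))

/-- the divisor of a principal idele -/
theorem nj_diag (hF : F.IsUnramifiedOutside S) {x : QS S}
    (hx : (x.1.toMul : Qb) ∈ F) (v : HeightOneSpectrum (𝓞 F)) :
    v.valuation F ⟨(x.1.toMul : Qb), hx⟩ = exp (-(nj F (diag S x) v)) := by
  have hx0 : (⟨(x.1.toMul : Qb), hx⟩ : F) ≠ 0 := fun h => Units.ne_zero _ (congrArg Subtype.val h)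
  obtain ⟨k, hk⟩ := exists_valuation_eq v hx0
  rw [hk]
  have h1 := (av_eq_cq_zpow (vq F v : ℕ) (vs F v) hx0 k).mpr (by rw [primeOf_vs]; exact hk)
  have h2 : nj F (diag S x) v = k := by
    unfold nj
    split_ifs with hv
    · exact ordL_eq h1
    · show (divQ x).1 (vq F v) (vs F v) = k
      rw [divQ_apply _ hv]
      apply ordq_eq
      show av _ ((vs F v) (x.1.toMul : Qb)) = _
      rw [cq_unram hF hv] at h1
      rw [zpow_neg, ← inv_zpow]
      exact h1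
  rw [h2]

end

end Fermat.Agent.CFT
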