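import Fermat.Agent.CFT.Count2

set_option autoImplicit false
set_option maxHeartbeats 400000

/-! Euler characteristics of idele classes. -/

namespace Fermat.Agent.CFT

open IsDedekindDomain NumberField WithZero

/-- abstract counting step -/
theorem ind_step {A C E : Type*} [AddCommGroup A] [AddCommGroup C] [AddCommGroup E] (p : ℕ)
    (f : A →+ C) (U : AddSubgroup A) (hidx : (U.map f).index ≠ 0) (i : E →+ U)
    (hi : Function.Injective i) (hr : i.range = (f.comp U.subtype).ker)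
    (hE : FinInd (mulN E p)) (hU : FinInd (mulN U p)) :
    FinInd (mulN C p) ∧ ind (mulN U p) = ind (mulN E p) * ind (mulN C p) := by
  have hr' : i.range = (f.addSubgroupMap U).ker := by
    rw [hr]
    ext x
    constructor
    · intro h
      exact Subtype.ext h
    · intro h
      exact congrArg Subtype.val h
  have c1 := finInd_right (f' := mulN E p) (f := mulN U p) (f'' := mulN ↥(U.map f) p)
    (i := i) (π := f.addSubgroupMap U) (i' := i) (π' := f.addSubgroupMap U)
    hi (f.addSubgroupMap_surjective U) hr' hi (f.addSubgroupMap_surjective U) hr'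
    (fun x => (map_nsmul i p x).symm) (fun x => (map_nsmul (f.addSubgroupMap U) p x).symm) hU hE
  have c2 := ind_exact (f' := mulN E p) (f := mulN U p) (f'' := mulN ↥(U.map f) p)
    (i := i) (π := f.addSubgroupMap U) (i' := i) (π' := f.addSubgroupMap U)
    hi (f.addSubgroupMap_surjective U) hr' hi (f.addSubgroupMap_surjective U) hr'
    (fun x => (map_nsmul i p x).symm) (fun x => (map_nsmul (f.addSubgroupMap U) p x).symm) hE c1
  have d1 := CFTLocal.ind_of_sub p (U.map f) hidx c1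
  exact ⟨d1.1, by rw [d1.2]; exact c2.2⟩

/-- abstract finiteness step -/
theorem index_step {A C D : Type*} [AddCommGroup A] [AddCommGroup C] [AddCommGroup D]
    (f : A →+ C) (hf : Function.Surjective f) (n : A →+ D) (P : AddSubgroup D) (hP : P.index ≠ 0)
    (h : ∀ a : A, n a ∈ P → ∃ b : A, n b = 0 ∧ f b = f a) : (n.ker.map f).index ≠ 0 := by
  have h1 : (P.comap n).index ≠ 0 := by
    rw [AddSubgroup.index_comap]
    exact fun h0 => hP (AddSubgroup.index_eq_zero_of_relIndex_eq_zero h0)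
  have h2 : (P.comap n).map f ≤ n.ker.map f := by
    rintro _ ⟨j, hj, rfl⟩
    obtain ⟨b, hb, h3⟩ := h j hj
    exact ⟨b, hb, h3⟩
  have h3 : ((P.comap n).map f).index ≠ 0 := by
    rw [AddSubgroup.index_map]
    refine mul_ne_zero ?_ ?_
    · intro h0
      exact h1 (by
        have := AddSubgroup.relIndex_mul_index (le_sup_left : P.comap n ≤ P.comap n ⊔ f.ker)
        rw [h0, mul_zero] at this
        exact this.symm)
    · rw [AddMonoidHom.range_eq_top.mpr hf]; simp
  intro h0
  have := AddSubgroup.relIndex_mul_index h2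
  rw [h0, mul_zero] at this
  exact h3 this.symm

noncomputable section

variable {F : IntermediateField ℚ Qb} [FiniteDimensional ℚ F] {S : Finset Nat.Primes}

/-- element of `QS` from an element of `F` -/
def mkQS (hF : F.IsUnramifiedOutside S) (x : F) (hx : x ≠ 0) : QS S :=
  ⟨Additive.ofMul (Units.mk0 (x : Qb) (fun h => hx (Subtype.ext h))), F, hF,
    (mem_fix_of_mem _).mpr x.2⟩

theorem mkQS_val (hF : F.IsUnramifiedOutside S) (x : F) (hx : x ≠ 0) :
    ((mkQS hF x hx).1.toMul : Qb) = x := rfl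

theorem mkQS_mem (hF : F.IsUnramifiedOutside S) (x : F) (hx : x ≠ 0) :
    mkQS hF x hx ∈ fix (QS S) F.fixingSubgroup := fun n hn =>
  Subtype.ext ((mem_fix_of_mem _).mpr x.2 n hn)

theorem mkQS_add (hF : F.IsUnramifiedOutside S) (x y : F) (hx : x ≠ 0) (hy : y ≠ 0) :
    mkQS hF (x * y) (mul_ne_zero hx hy) = mkQS hF x hx + mkQS hF y hy :=
  Subtype.ext (congrArg Additive.ofMul (Units.ext rfl))

theorem diag_mem_fix {Γ : Subgroup GQ} {x : QS S} (hx : x ∈ fix (QS S) Γ) :
    diag S x ∈ fix (Jm S) Γ := fun n hn => by rw [← diag_smul, hx n hn]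

/-- the projection to classes -/
def fixToC (F : IntermediateField ℚ Qb) (S : Finset Nat.Primes) :
    ↥(fix (Jm S) F.fixingSubgroup) →+ ↥(fix (Cm S) F.fixingSubgroup) where
  toFun j := ⟨toC S j.1, fun n hn => by rw [← toC_smul, j.2 n hn]⟩
  map_zero' := Subtype.ext (map_zero _)
  map_add' x y := Subtype.ext (map_add _ x.1 y.1)

omit [FiniteDimensional ℚ F] in
theorem fixToC_surjective (hS : S.Nonempty) (hF : F.IsUnramifiedOutside S) :
    Function.Surjective (fixToC F S) := by
  intro c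
  obtain ⟨x, hx, h⟩ := exists_fix_lift hS hF c.2
  exact ⟨⟨x, hx⟩, Subtype.ext h⟩

/-- if the divisor of an idele is principal, the idele is principal up to units -/
theorem exists_sub_mem_UF (hF : F.IsUnramifiedOutside S) {j : ↥(fix (Jm S) F.fixingSubgroup)}
    (hj : nJ F S j ∈ princ (𝓞 F) F) : ∃ x ∈ fix (QS S) F.fixingSubgroup,
      j.1 - diag S x ∈ UF F S := by
  obtain ⟨x, hx0, hx⟩ := hj
  refine ⟨mkQS hF x hx0, mkQS_mem hF x hx0, ?_⟩
  have h1 : nJ F S (j - ⟨diag S (mkQS hF x hx0), diag_mem_fix (mkQS_mem hF x hx0)⟩) = 0 := by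
    rw [map_sub, sub_eq_zero]
    ext v
    rw [nJ_apply (⟨diag S (mkQS hF x hx0), diag_mem_fix (mkQS_mem hF x hx0)⟩ :
      ↥(fix (Jm S) F.fixingSubgroup))]
    have h2 := nj_diag hF (x := mkQS hF x hx0) x.2 v
    have h3 : v.valuation F x = exp (-(nj F (diag S (mkQS hF x hx0)) v)) := h2
    rw [hx v, exp_inj, neg_inj] at h3
    exact h3
  exact (nJ_eq_zero _).mp h1

/-- principal ideles -/
def prD (hF : F.IsUnramifiedOutside S) (x : QS S) (hx : x ∈ fix (QS S) F.fixingSubgroup) :
    ↥(fix (Jm S) F.fixingSubgroup) := ⟨diag S x, diag_mem_fix hx⟩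

theorem fixToC_prD (hF : F.IsUnramifiedOutside S) (x : QS S)
    (hx : x ∈ fix (QS S) F.fixingSubgroup) : fixToC F S (prD hF x hx) = 0 :=
  Subtype.ext (toC_diag x)

theorem coe_sub_prD (hF : F.IsUnramifiedOutside S) (x : QS S)
    (hx : x ∈ fix (QS S) F.fixingSubgroup) (j : ↥(fix (Jm S) F.fixingSubgroup)) :
    (j - prD hF x hx).1 = j.1 - diag S x := rfl

theorem exists_of_princ (hF : F.IsUnramifiedOutside S) {j : ↥(fix (Jm S) F.fixingSubgroup)}
    (hj : nJ F S j ∈ princ (𝓞 F) F) : ∃ b, nJ F S b = 0 ∧ fixToC F S b = fixToC F S j := by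
  obtain ⟨x, hx, h3⟩ := exists_sub_mem_UF hF hj
  refine ⟨j - prD hF x hx, ?_, ?_⟩
  · rw [nJ_eq_zero, coe_sub_prD]
    exact h3
  · rw [map_sub, fixToC_prD, sub_zero]

/-- the image of the unit ideles has finite index in the classes -/
theorem index_units_ne_zero (hS : S.Nonempty) (hF : F.IsUnramifiedOutside S) :
    ((nJ F S).ker.map (fixToC F S)).index ≠ 0 := by
  have h1 := fixToC_surjective hS hF
  have h2 := princ_index (R := 𝓞 F) (K := F)
  exact index_step (fixToC F S) h1 (nJ F S) (princ (𝓞 F) F) h2 (fun j hj => exists_of_princ hF hj)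

/-- unit ideles as a product -/
def kerEquiv (hF : F.IsUnramifiedOutside S) : (nJ F S).ker ≃+ ∀ q : S, ↥(UQ q.1 F) where
  toFun j := fun q => ⟨j.1.1.1.1 q, fix_comp j.1.2 q, fun σ => ((nJ_eq_zero _).mp j.2).2.1 q σ⟩
  invFun u := ⟨⟨⟨(fun q => (u q).1, 0), F, hF, fun n hn =>
      Prod.ext (funext fun q => (u q).2.1 n hn) (smul_zero n)⟩, fun n hn =>
      Subtype.ext (Prod.ext (funext fun q => (u q).2.1 n hn) (smul_zero n))⟩,
      (nJ_eq_zero _).mpr ⟨fun n hn =>
      Subtype.ext (Prod.ext (funext fun q => (u q).2.1 n hn) (smul_zero n)),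
      fun q σ => (u q).2.2 σ, rfl⟩⟩
  left_inv j := by
    apply Subtype.ext; apply Subtype.ext; apply Subtype.ext
    exact Prod.ext rfl ((nJ_eq_zero _).mp j.2).2.2.symm
  right_inv u := rfl
  map_add' j j' := rfl

/-- global units -/
def unitsTo (hF : F.IsUnramifiedOutside S) : Additive (𝓞 F)ˣ →+ (nJ F S).ker where
  toFun ε := ⟨⟨diag S (mkQS hF ((ε.toMul : 𝓞 F) : F) (by
      intro h
      exact Units.ne_zero ε.toMul (by exact_mod_cast h))),
      diag_mem_fix (mkQS_mem hF _ _)⟩, by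
      rw [AddMonoidHom.mem_ker]
      ext v
      rw [nJ_apply]
      have h1 := nj_diag hF (x := mkQS hF ((ε.toMul : 𝓞 F) : F) (by
        intro h
        exact Units.ne_zero ε.toMul (by exact_mod_cast h))) (((ε.toMul : 𝓞 F) : F)).2 v
      have h2 : v.valuation F (((ε.toMul : 𝓞 F) : F)) = 1 := by
        have h3 : v.valuation F (((ε.toMul : 𝓞 F) : F)) ≤ 1 := v.valuation_le_one _
        have h4 : v.valuation F (((ε.toMul⁻¹ : (𝓞 F)ˣ) : 𝓞 F) : F) ≤ 1 := v.valuation_le_one _
        have h5 : v.valuation F (((ε.toMul : 𝓞 F) : F)) *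
            v.valuation F (((ε.toMul⁻¹ : (𝓞 F)ˣ) : 𝓞 F) : F) = 1 := by
          rw [← map_mul]
          have : (((ε.toMul : 𝓞 F) : F)) * ((((ε.toMul⁻¹ : (𝓞 F)ˣ) : 𝓞 F) : F)) = 1 := by
            have := congrArg (fun z : 𝓞 F => (z : F)) (Units.mul_inv ε.toMul)
            simpa using this
          rw [this, map_one]
        exact le_antisymm h3 (by
          rw [← h5]
          exact mul_le_of_le_one_right' h4)
      have h6 : v.valuation F (((ε.toMul : 𝓞 F) : F)) = exp (-(nj F (diag S (mkQS hF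
        ((ε.toMul : 𝓞 F) : F) (by
        intro h
        exact Units.ne_zero ε.toMul (by exact_mod_cast h)))) v)) := h1
      rw [h2, ← exp_zero, exp_inj] at h6
      exact (neg_eq_zero.mp h6.symm)⟩
  map_zero' := by
    apply Subtype.ext; apply Subtype.ext
    show diag S _ = 0
    rw [← map_zero (diag S)]
    exact congrArg (diag S) (Subtype.ext (congrArg Additive.ofMul (Units.ext rfl)))
  map_add' x y := by
    apply Subtype.ext; apply Subtype.ext
    show diag S _ = diag S _ + diag S _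
    rw [← map_add]
    exact congrArg (diag S) (Subtype.ext (congrArg Additive.ofMul (Units.ext rfl)))

theorem unitsTo_injective (hS : S.Nonempty) (hF : F.IsUnramifiedOutside S) :
    Function.Injective (unitsTo hF) := by
  intro x y h
  have h1 : diag S _ = diag S _ := congrArg (fun z : (nJ F S).ker => z.1.1) h
  have h2 := diag_injective hS h1
  have h3 : ((((x.toMul : (𝓞 F)ˣ) : 𝓞 F) : F) : Qb) = ((((y.toMul : (𝓞 F)ˣ) : 𝓞 F) : F) : Qb) :=
    congrArg (fun z : QS S => (z.1.toMul : Qb)) h2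
  exact congrArg Additive.ofMul (Units.ext (RingOfIntegers.ext (Subtype.ext h3)))

theorem unitsTo_range (hS : S.Nonempty) (hF : F.IsUnramifiedOutside S) :
    (unitsTo hF).range = ((fixToC F S).comp (nJ F S).ker.subtype).ker := by
  ext j
  constructor
  · rintro ⟨ε, rfl⟩
    exact Subtype.ext (toC_diag _)
  · intro hj
    have h1 : toC S j.1.1 = 0 := congrArg Subtype.val hj
    obtain ⟨a, ha⟩ := toC_eq_zero.mp h1
    have haF : (a.1.toMul : Qb) ∈ F := by
      apply mem_fix_QS
      intro n hn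
      apply diag_injective hS
      rw [diag_smul, ha]
      exact j.1.2 n hn
    have h2 : ∀ v : HeightOneSpectrum (𝓞 F), v.valuation F ⟨(a.1.toMul : Qb), haF⟩ = 1 := by
      intro v
      rw [nj_diag hF haF v, ha, ← nJ_apply, show nJ F S j.1 = 0 from j.2]
      simp
    obtain ⟨u, hu⟩ := HeightOneSpectrum.mem_integers_of_valuation_le_one F
      ⟨(a.1.toMul : Qb), haF⟩ (fun v => (h2 v).le)
    obtain ⟨w, hw⟩ := HeightOneSpectrum.mem_integers_of_valuation_le_one F
      (⟨(a.1.toMul : Qb), haF⟩ : F)⁻¹ (fun v => by rw [map_inv₀, h2 v, inv_one])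
    have ha0 : (⟨(a.1.toMul : Qb), haF⟩ : F) ≠ 0 := fun h => Units.ne_zero _ (congrArg Subtype.val h)
    have huw : u * w = 1 := by
      apply FaithfulSMul.algebraMap_injective (𝓞 F) F
      rw [map_mul, hu, hw, mul_inv_cancel₀ ha0, map_one]
    refine ⟨Additive.ofMul ⟨u, w, huw, by rw [mul_comm]; exact huw⟩, ?_⟩
    apply Subtype.ext; apply Subtype.ext
    rw [← ha]
    show diag S _ = diag S a
    congr 1
    apply Subtype.ext
    apply congrArg Additive.ofMul
    apply Units.ext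
    exact congrArg Subtype.val hu

/-- Euler characteristic of the idele classes. -/
theorem phi_C {p : ℕ} [hp : Fact p.Prime] (hp2 : 2 < p) (hpS : (⟨p, hp.out⟩ : Nat.Primes) ∈ S)
    (hF : F.IsUnramifiedOutside S) {ζ : F} (hζ : IsPrimitiveRoot ζ p) :
    FinInd (mulN ↥(fix (Cm S) F.fixingSubgroup) p) ∧
      ind (mulN ↥(fix (Cm S) F.fixingSubgroup) p) = (p : ℚ) ^ (Module.finrank ℚ F / 2 + 1) := by
  classical
  have hS : S.Nonempty := ⟨_, hpS⟩
  have hp0 : (p : ℚ) ≠ 0 := by exact_mod_cast hp.out.ne_zero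
  -- the unit ideles
  have a1 := ind_pi (fun q : S => ↥(UQ q.1 F)) p (fun q => (ind_UQ q.1 F p).1)
  have a2 := CFTLocal.ind_equiv p (kerEquiv hF).symm a1.1
  have a3 : ind (mulN (nJ F S).ker p) = (p : ℚ) ^ Module.finrank ℚ F := by
    rw [a2.2, a1.2]
    simp only [fun q : S => (ind_UQ q.1 F p).2]
    rw [Finset.prod_pow_eq_pow_sum]
    congr 1
    rw [Finset.sum_eq_single (⟨⟨p, hp.out⟩, hpS⟩ : S)]
    · simp
    · intro b _ hb
      rw [if_neg]
      intro h
      exact hb (Subtype.ext (Subtype.ext h.symm))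
    · intro h; exact absurd (Finset.mem_univ _) h
  obtain ⟨b1, b2⟩ := ind_units F hp2 hζ
  -- the image
  obtain ⟨c1, c2⟩ := ind_step p (fixToC F S) (nJ F S).ker (index_units_ne_zero hS hF) (unitsTo hF)
    (unitsTo_injective hS hF) (unitsTo_range hS hF) b1 a2.1
  refine ⟨c1, ?_⟩
  have e1 : ind (mulN (Additive (𝓞 F)ˣ) p) * ind (mulN ↥(fix (Cm S) F.fixingSubgroup) p) =
    (p : ℚ) ^ Module.finrank ℚ F := by rw [← c2, a3]
  have h3 : InfinitePlace.nrRealPlaces F = 0 :=
    InfinitePlace.IsPrimitiveRoot.nrRealPlaces_eq_zero_of_two_lt hp2 hζ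
  have h4 := InfinitePlace.card_add_two_mul_card_eq_rank F
  rw [h3, zero_add] at h4
  set r := InfinitePlace.nrComplexPlaces F
  have h4' : Module.finrank ℚ F = 2 * r := by
    rw [h4]
  rw [h4'] at e1 ⊢
  have b2' : ind (mulN (Additive (𝓞 F)ˣ) p) * p = (p : ℚ) ^ r := by
    rw [b2]
    congr 1
    rw [← h4, Nat.mul_div_cancel_left _ (by norm_num)]
  have hhalf : 2 * r / 2 = r := Nat.mul_div_cancel_left _ (by norm_num)
  rw [hhalf]
  have hu : ind (mulN (Additive (𝓞 F)ˣ) p) ≠ 0 := ind_ne_zero b1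
  have : ind (mulN (Additive (𝓞 F)ˣ) p) * ind (mulN ↥(fix (Cm S) F.fixingSubgroup) p) =
      ind (mulN (Additive (𝓞 F)ˣ) p) * (p : ℚ) ^ (r + 1) := by
    rw [e1, pow_succ, mul_comm ((p : ℚ) ^ r), ← mul_assoc, b2', two_mul, pow_add]
  exact mul_left_cancel₀ hu this

/-- Euler characteristic of the `S`-part of the ideles. -/
theorem phi_J {p : ℕ} [hp : Fact p.Prime] (hpS : (⟨p, hp.out⟩ : Nat.Primes) ∈ S) :
    FinInd (mulN (∀ q : S, ↥(fix (JQ q.1) F.fixingSubgroup)) p) ∧
      ind (mulN (∀ q : S, ↥(fix (JQ q.1) F.fixingSubgroup)) p) =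
        (p : ℚ) ^ (∑ q : S, npl q.1 F + Module.finrank ℚ F) := by
  classical
  obtain ⟨h1, h2⟩ := ind_pi (fun q : S => ↥(fix (JQ q.1) F.fixingSubgroup)) p
    (fun q => (ind_JQ q.1 F p).1)
  refine ⟨h1, ?_⟩
  rw [h2]
  simp only [fun q : S => (ind_JQ q.1 F p).2]
  rw [Finset.prod_mul_distrib, Finset.prod_pow_eq_pow_sum, Finset.prod_pow_eq_pow_sum, pow_add]
  congr 2
  rw [Finset.sum_eq_single (⟨⟨p, hp.out⟩, hpS⟩ : S)]
  · simp
  · intro b _ hb
    rw [if_neg]
    intro h
    exact hb (Subtype.ext (Subtype.ext h.symm))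
  · intro h; exact absurd (Finset.mem_univ _) h

end

end Fermat.Agent.CFT
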