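import Fermat.Agent.CFT.ClassForm
import Fermat.Agent.CFT.Shapiro

set_option autoImplicit false
set_option maxHeartbeats 400000

/-! Tate-Nakayama, part 1: the splitting module of a class. -/

namespace Fermat.Agent.CFT

open Finset

section vanish

variable {G : Type*} [Group G] {A : Type*} [AddCommGroup A] [DistribMulAction G A]

theorem Z1_subgroupOf {H P : Subgroup G} (hHP : H ≤ P) (h : Z1 H A ≤ B1 H A) :
    Z1 (H.subgroupOf P) A ≤ B1 (H.subgroupOf P) A := by
  intro c hc
  have hc' : (fun h : H => c ⟨⟨h, hHP h.2⟩, h.2⟩) ∈ Z1 H A := fun g k =>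
    hc ⟨⟨g, hHP g.2⟩, g.2⟩ ⟨⟨k, hHP k.2⟩, k.2⟩
  obtain ⟨a, ha⟩ := h hc'
  exact ⟨a, fun g => ha ⟨(g : P), g.2⟩⟩

/-- `Ĥ⁰ = 0` for `p`-groups from `H¹ = H² = 0` for all subgroups. -/
theorem norm_of_vanish [Finite G] {p : ℕ} [hp : Fact p.Prime]
    (h1 : ∀ P : Subgroup G, IsPGroup p P → Z1 P A ≤ B1 P A)
    (h2 : ∀ P : Subgroup G, IsPGroup p P → Z2 P A ≤ B2 P A) (n : ℕ) :
    ∀ (P : Subgroup G) [Fintype P], Nat.card P = n → IsPGroup p P →
      ∀ a ∈ fix A P, ∃ b : A, a = ∑ x : P, (x : G) • b := by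
  classical
  induction n using Nat.strong_induction_on with
  | _ n ih =>
  intro P _ hcard hpP a ha
  obtain ⟨m, hm⟩ := IsPGroup.iff_card.mp hpP
  rcases Nat.eq_zero_or_pos m with hm0 | hmpos
  · rw [hm0, pow_zero] at hm
    haveI : Subsingleton P := (Nat.card_eq_one_iff_unique.mp hm).1
    refine ⟨a, ?_⟩
    rw [Fintype.sum_subsingleton _ (1 : P)]
    simp
  · obtain ⟨k, rfl⟩ : ∃ k, m = k + 1 := ⟨m - 1, by omega⟩
    obtain ⟨H, hHc⟩ := Sylow.exists_subgroup_card_pow_prime (G := P) p (n := k)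
      (by rw [hm]; exact pow_dvd_pow p (Nat.le_succ k))
    have hind : H.index = p := by
      have h1 := H.card_mul_index
      rw [hHc, hm, pow_succ] at h1
      exact Nat.eq_of_mul_eq_mul_left (pow_pos hp.out.pos k) h1
    haveI hHn : H.Normal := by
      apply Subgroup.normal_of_index_eq_minFac_card
      rw [hind, hm, hp.out.pow_minFac (Nat.succ_ne_zero k)]
    obtain ⟨s, hs⟩ : ∃ s : P, s ∉ H := by
      by_contra hcon
      push Not at hcon
      have : H = ⊤ := by ext x; simp [hcon x]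
      rw [this, Subgroup.index_top] at hind
      exact hp.out.one_lt.ne hind
    obtain ⟨hsp, hgen, hord⟩ := pow_of_index H hind hs
    -- the subgroup of G
    set H' : Subgroup G := H.map P.subtype with hH'
    have hH'P : H' ≤ P := by
      rintro _ ⟨x, -, rfl⟩
      exact x.2
    have hsub : H'.subgroupOf P = H := by
      ext x
      rw [Subgroup.mem_subgroupOf]
      constructor
      · rintro ⟨y, hy, hxy⟩
        have : y = x := Subtype.ext hxy
        rwa [← this]
      · intro hx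
        exact ⟨x, hx, rfl⟩
    have hpH' : IsPGroup p H' := (hpP.to_subgroup H).map P.subtype
    have hcH' : Nat.card H' = p ^ k := by
      rw [← hHc]
      exact Nat.card_congr (H.equivMapOfInjective _ P.subtype_injective).symm.toEquiv
    have hlt : Nat.card H' < n := by
      rw [← hcard, hcH', hm]
      exact Nat.pow_lt_pow_right hp.out.one_lt (Nat.lt_succ_self k)
    -- the character
    choose e kk hk hek using hgen
    have hχ : ∀ g h : P, ((e (g * h) : ℕ) : ZMod p) = (e g : ZMod p) + (e h : ZMod p) := by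
      intro g h
      have h3 : s ^ (e g + e h) * ((s ^ (e h))⁻¹ * kk g * s ^ (e h) * kk h) = s ^ (e (g * h)) *
          kk (g * h) := by
        rw [← hek (g * h), pow_add]
        conv_rhs => rw [hek g, hek h]
        group
      have hk1 : (s ^ (e h))⁻¹ * kk g * s ^ (e h) * kk h ∈ H :=
        H.mul_mem (by simpa using hHn.conj_mem _ (hk g) (s ^ e h)⁻¹) (hk h)
      rw [← Nat.cast_add]
      have key : ∀ i j : ℕ, i ≤ j → ∀ k ∈ H, ∀ k' ∈ H, s ^ i * k = s ^ j * k' →
          (i : ZMod p) = (j : ZMod p) := by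
        intro i j hij k hk k' hk' h
        obtain ⟨d, rfl⟩ := Nat.exists_eq_add_of_le hij
        have h2 : s ^ d ∈ H := by
          have : s ^ d = k * k'⁻¹ := by
            rw [pow_add, mul_assoc] at h
            have := mul_left_cancel h
            rw [this]; group
          rw [this]; exact H.mul_mem hk (H.inv_mem hk')
        obtain ⟨m, rfl⟩ := hord d h2
        simp
      rcases le_total (e (g * h)) (e g + e h) with h4 | h4
      · exact key _ _ h4 _ (hk _) _ hk1 h3.symm
      · exact (key _ _ h4 _ hk1 _ (hk _) h3).symm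
    let χ : P → ZMod p := fun g => (e g : ZMod p)
    have hχH : ∀ g, g ∈ H ↔ χ g = 0 := by
      intro g
      rw [show χ g = ((e g : ℕ) : ZMod p) from rfl, ZMod.natCast_eq_zero_iff]
      constructor
      · intro hg
        apply hord
        have : s ^ e g = g * (kk g)⁻¹ := by rw [eq_mul_inv_iff_mul_eq]; exact (hek g).symm
        rw [this]; exact H.mul_mem hg (H.inv_mem (hk g))
      · rintro ⟨j, hj⟩
        rw [hek g, hj, pow_mul]
        exact H.mul_mem (H.pow_mem hsp j) (hk g)
    have hχs : χ s = 1 := by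
      have h3 : s ^ 1 * 1 = s ^ (e s) * kk s := by rw [← hek s]; simp
      have h4 := hek s
      have h5 : s ^ (e s) * s⁻¹ ∈ H := by
        have : s ^ (e s) * s⁻¹ = s * (kk s)⁻¹ * s⁻¹ := by
          congr 1
          rw [eq_mul_inv_iff_mul_eq]; exact h4.symm
        rw [this]
        exact hHn.conj_mem _ (H.inv_mem (hk s)) s
      have h6 : χ (s ^ (e s) * s⁻¹) = 0 := (hχH _).mp h5
      rcases Nat.eq_zero_or_pos (e s) with h0 | h0
      · exfalso
        rw [h0, pow_zero, one_mul] at h5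
        exact hs (by simpa using H.inv_mem h5)
      · obtain ⟨j, hj⟩ : ∃ j, e s = j + 1 := ⟨e s - 1, by omega⟩
        rw [hj, pow_succ, mul_inv_cancel_right] at h5
        obtain ⟨i, hi⟩ := hord j h5
        show ((e s : ℕ) : ZMod p) = 1
        rw [hj, hi]; simp
    haveI : NeZero p := ⟨hp.out.ne_zero⟩
    have haP : a ∈ fix A (⊤ : Subgroup P) := fun g _ => ha (g : G) g.2
    have hcup : cup p (lft χ) a ∈ B2 P A :=
      h2 P hpP (cup_mem_Z2 hp.out.pos (lft_dvd χ (fun g h => hχ g h)) haP)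
    have hH1 : Z1 H A ≤ B1 H A := by
      have := Z1_subgroupOf hH'P (h1 H' hpH')
      rwa [hsub] at this
    obtain ⟨b, hb, hab⟩ := norm_of_cup_mem_B2 χ (fun g h => hχ g h) hχs hχH hH1 haP hcup
    have hbH' : b ∈ fix A H' := by
      rintro _ ⟨x, hx, rfl⟩
      exact hb x hx
    haveI : Fintype H' := Fintype.ofFinite _
    haveI : Fintype H := Fintype.ofFinite _
    obtain ⟨c, hc⟩ := ih _ hlt H' rfl hpH' b hbH'
    refine ⟨c, ?_⟩
    have hc' : b = ∑ x : H, ((x : P) : G) • c := by
      rw [hc]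
      exact (Fintype.sum_equiv (H.equivMapOfInjective _ P.subtype_injective).toEquiv
        (fun x : H => ((x : P) : G) • c) (fun x : H' => (x : G) • c) (fun x => rfl)).symm
    rw [hab, hc']
    simp only [smul_sum]
    rw [← Finset.sum_coe_sort (range p) (fun i => ∑ x : H, s ^ i • ((x : P) : G) • c),
      ← Fintype.sum_prod_type']
    refine Fintype.sum_bijective (fun ix : (range p) × H => s ^ (ix.1 : ℕ) * (ix.2 : P)) ?_ _ _
      (fun ix => ?_)
    · constructor
      · rintro ⟨⟨i, hi⟩, x⟩ ⟨⟨j, hj⟩, y⟩ h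
        rw [mem_range] at hi hj
        have h3 : s ^ i * (x : P) = s ^ j * (y : P) := h
        have key : ∀ i j : ℕ, i ≤ j → i < p → j < p → ∀ x y : H, s ^ i * (x : P) = s ^ j * (y : P) →
            i = j := by
          intro i j hij hi hj x y h
          obtain ⟨d, rfl⟩ := Nat.exists_eq_add_of_le hij
          have h2 : s ^ d ∈ H := by
            have : s ^ d = x * (y : P)⁻¹ := by
              rw [pow_add, mul_assoc] at h
              have := mul_left_cancel h
              rw [this]; group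
            rw [this]; exact H.mul_mem x.2 (H.inv_mem y.2)
          obtain ⟨m, rfl⟩ := hord d h2
          rcases Nat.eq_zero_or_pos m with rfl | hm
          · simp
          · exfalso
            have : p ≤ p * m := Nat.le_mul_of_pos_right p hm
            omega
        have hij : i = j := by
          rcases le_total i j with h4 | h4
          · exact key i j h4 hi hj x y h3
          · exact (key j i h4 hj hi y x h3.symm).symm
        subst hij
        have h4 : (x : P) = y := mul_left_cancel h3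
        rw [Subtype.ext h4]
      · intro g
        have hmod : s ^ (e g) = s ^ (e g % p) * (s ^ p) ^ (e g / p) := by
          rw [← pow_mul, ← pow_add, Nat.mod_add_div]
        refine ⟨⟨⟨e g % p, mem_range.mpr (Nat.mod_lt _ hp.out.pos)⟩,
          ⟨(s ^ p) ^ (e g / p) * kk g, H.mul_mem (H.pow_mem hsp _) (hk g)⟩⟩, ?_⟩
        show s ^ (e g % p) * ((s ^ p) ^ (e g / p) * kk g) = g
        rw [← mul_assoc, ← hmod, ← hek g]
    · exact (mul_smul ((s ^ (ix.1 : ℕ) : P) : G) ((ix.2 : P) : G) c).symm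

end vanish

section Y

variable {G : Type*} [Group G] [Fintype G]

/-- augmentation zero functions -/
def I0 (G : Type*) [Fintype G] : AddSubgroup (G → ℤ) where
  carrier := {n | ∑ y, n y = 0}
  zero_mem' := by simp
  add_mem' := by intro a b ha hb; simp only [Set.mem_setOf_eq, Pi.add_apply, sum_add_distrib] at *; omega
  neg_mem' := by intro a ha; simp only [Set.mem_setOf_eq, Pi.neg_apply, sum_neg_distrib] at *; omega

omit [Group G] in
theorem mem_I0 {n : G → ℤ} : n ∈ I0 G ↔ ∑ y, n y = 0 := Iff.rfl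

/-- translation -/
def trn (g : G) (n : G → ℤ) : G → ℤ := fun t => n (g⁻¹ * t)

theorem sum_trn (g : G) (n : G → ℤ) : ∑ y, trn g n y = ∑ y, n y :=
  Fintype.sum_equiv (Equiv.mulLeft g⁻¹) _ _ (fun _ => rfl)

theorem trn_mem (g : G) {n : G → ℤ} (hn : n ∈ I0 G) : trn g n ∈ I0 G := by
  rw [mem_I0, sum_trn]; exact hn

variable {C : Type*} [AddCommGroup C] [DistribMulAction G C]

/-- the splitting module -/
def YM (_ : Z2 G C) : Type _ := C × I0 G

variable (u : Z2 G C)

instance : AddCommGroup (YM u) := inferInstanceAs (AddCommGroup (C × I0 G))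

theorem u_one_left (k : G) : (u : G → G → C) 1 k = (u : G → G → C) 1 1 := by
  have := u.2 1 1 k
  simp only [one_mul, one_smul] at this
  exact (add_right_cancel this).symm

theorem u_one_right (g : G) : (u : G → G → C) g 1 = g • (u : G → G → C) 1 1 := by
  have := u.2 g 1 1
  simp only [mul_one] at this
  exact add_right_cancel this

theorem sum_trn_mul (g : G) (n : G → ℤ) (f : G → C) :
    ∑ t, trn g n t • f t = ∑ y, n y • f (g * y) := by
  refine (Fintype.sum_equiv (Equiv.mulLeft g) (fun y => n y • f (g * y))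
    (fun t => trn g n t • f t) (fun y => ?_)).symm
  simp [trn]

instance ymAction : DistribMulAction G (YM u) where
  smul g x := (g • x.1 + ∑ y, (x.2.1 y) • (u : G → G → C) g y, ⟨trn g x.2.1, trn_mem g x.2.2⟩)
  one_smul x := by
    refine Prod.ext ?_ (Subtype.ext ?_)
    · show (1 : G) • x.1 + ∑ y, (x.2.1 y) • (u : G → G → C) 1 y = x.1
      simp only [u_one_left u]
      rw [← sum_smul, mem_I0.mp x.2.2, zero_smul, one_smul, add_zero]
    · funext t
      show x.2.1 (1⁻¹ * t) = x.2.1 t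
      simp
  mul_smul g h x := by
    refine Prod.ext ?_ (Subtype.ext ?_)
    · show (g * h) • x.1 + ∑ y, (x.2.1 y) • (u : G → G → C) (g * h) y =
        g • (h • x.1 + ∑ y, (x.2.1 y) • (u : G → G → C) h y) +
          ∑ y, (trn h x.2.1 y) • (u : G → G → C) g y
      rw [sum_trn_mul, smul_add, smul_sum, mul_smul, add_assoc, ← sum_add_distrib]
      congr 1
      have h1 : ∀ y : G, g • (x.2.1 y • (u : G → G → C) h y) + x.2.1 y • (u : G → G → C) g (h * y) =
          x.2.1 y • (u : G → G → C) g h + x.2.1 y • (u : G → G → C) (g * h) y := by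
        intro y
        have h2 := u.2 g h y
        rw [← smul_add, h2, smul_add, smul_comm]
      rw [sum_congr rfl (fun y _ => h1 y), sum_add_distrib, ← sum_smul, mem_I0.mp x.2.2, zero_smul,
        zero_add]
    · funext t
      show x.2.1 ((g * h)⁻¹ * t) = x.2.1 (h⁻¹ * (g⁻¹ * t))
      congr 1; group
  smul_zero g := by
    refine Prod.ext ?_ (Subtype.ext ?_)
    · show g • (0 : C) + ∑ y, ((0 : G → ℤ) y) • (u : G → G → C) g y = 0
      simp
    · rfl
  smul_add g x x' := by
    refine Prod.ext ?_ (Subtype.ext ?_)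
    · show g • (x.1 + x'.1) + ∑ y, (x.2.1 y + x'.2.1 y) • (u : G → G → C) g y =
        (g • x.1 + ∑ y, (x.2.1 y) • (u : G → G → C) g y) +
          (g • x'.1 + ∑ y, (x'.2.1 y) • (u : G → G → C) g y)
      simp only [add_smul, sum_add_distrib, smul_add]
      abel
    · rfl

/-- constructor -/
def ymk (c : C) (n : I0 G) : YM u := (c, n)

theorem ymk_smul (g : G) (c : C) (n : I0 G) :
    g • ymk u c n = ymk u (g • c + ∑ y, (n.1 y) • (u : G → G → C) g y)
      ⟨trn g n.1, trn_mem g n.2⟩ := rfl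

theorem ymk_add (c c' : C) (n n' : I0 G) : ymk u c n + ymk u c' n' = ymk u (c + c') (n + n') := rfl

theorem ymk_sub (c c' : C) (n n' : I0 G) : ymk u c n - ymk u c' n' = ymk u (c - c') (n - n') := rfl

open Classical in
/-- delta function -/
noncomputable def dlt (g : G) : G → ℤ := fun t => if t = g then 1 else 0

theorem sum_dlt (g : G) : ∑ y, dlt g y = 1 := by
  classical
  simp [dlt]

theorem trn_dlt (g h : G) : trn g (dlt h) = dlt (g * h) := by
  classical
  funext t
  simp only [trn, dlt, inv_mul_eq_iff_eq_mul]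

theorem sum_dlt_smul (g : G) (f : G → C) : ∑ y, dlt g y • f y = f g := by
  classical
  simp [dlt, ite_smul]

theorem trn_add (g : G) (n n' : G → ℤ) : trn g (n + n') = trn g n + trn g n' := rfl

theorem trn_sub (g : G) (n n' : G → ℤ) : trn g (n - n') = trn g n - trn g n' := rfl

theorem trn_smul (g : G) (k : ℤ) (n : G → ℤ) : trn g (k • n) = k • trn g n := rfl

theorem trn_mul (g h : G) (n : G → ℤ) : trn (g * h) n = trn g (trn h n) := by
  funext t
  simp only [trn]
  congr 1; group

theorem trn_one (n : G → ℤ) : trn 1 n = n := by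
  funext t; simp [trn]

/-- `H¹(Q, ℤ[G]) = 0` -/
theorem exists_nu1 (Q : Subgroup G) [Fintype Q] (c : Q → G → ℤ)
    (hc : ∀ g h : Q, c (g * h) = c g + trn (g : G) (c h)) :
    ∃ ν : G → ℤ, ∀ g : Q, c g = trn (g : G) ν - ν := by
  obtain ⟨ρ, hρ⟩ := exists_retraction Q.subtype Q.subtype_injective
  -- ν t = - c(ρ t) t
  refine ⟨fun t => - c (ρ t) t, fun g => ?_⟩
  funext t
  show c g t = - c (ρ ((g : G)⁻¹ * t)) ((g : G)⁻¹ * t) - - c (ρ t) t
  have h1 : ρ ((g : G)⁻¹ * t) = g⁻¹ * ρ t := by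
    have := hρ g⁻¹ t
    simpa using this
  have h2 := congrFun (hc g (g⁻¹ * ρ t)) t
  rw [mul_inv_cancel_left] at h2
  have h3 : c (ρ t) t = c g t + c (g⁻¹ * ρ t) ((g : G)⁻¹ * t) := h2
  rw [h1]
  omega

/-- `H²(Q, ℤ[G]) = 0` -/
theorem exists_nu2 (Q : Subgroup G) [Fintype Q] (x : Q → Q → G → ℤ)
    (hx : ∀ g h k : Q, x g h + x (g * h) k = trn (g : G) (x h k) + x g (h * k)) :
    ∃ ν : Q → G → ℤ, ∀ g h : Q, x g h = ν g + trn (g : G) (ν h) - ν (g * h) := by
  obtain ⟨ρ, hρ⟩ := exists_retraction Q.subtype Q.subtype_injective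
  -- ν g t = x g (g⁻¹ ρ t) t
  refine ⟨fun g t => x g (g⁻¹ * ρ t) t, fun g h => ?_⟩
  funext t
  show x g h t = x g (g⁻¹ * ρ t) t + x h (h⁻¹ * ρ ((g : G)⁻¹ * t)) ((g : G)⁻¹ * t) -
    x (g * h) ((g * h)⁻¹ * ρ t) t
  have h1 : ρ ((g : G)⁻¹ * t) = g⁻¹ * ρ t := by
    have := hρ g⁻¹ t
    simpa using this
  have h2 := congrFun (hx g h ((g * h)⁻¹ * ρ t)) t
  have h3 : x g h t + x (g * h) ((g * h)⁻¹ * ρ t) t =
    x h ((g * h)⁻¹ * ρ t) ((g : G)⁻¹ * t) + x g (h * ((g * h)⁻¹ * ρ t)) t := h2
  rw [h1]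
  have h4 : h⁻¹ * (g⁻¹ * ρ t) = (g * h)⁻¹ * ρ t := by group
  have h5 : h * ((g * h)⁻¹ * ρ t) = g⁻¹ * ρ t := by group
  rw [h5] at h3
  rw [h4]
  omega

variable {p : ℕ}

theorem ym_h1 (hcf : CFLayer p G C u) (Q : Subgroup G) (hQ : IsPGroup p Q) :
    Z1 Q (YM u) ≤ B1 Q (YM u) := by
  classical
  haveI : Fintype Q := Fintype.ofFinite Q
  intro c hc
  obtain ⟨ν, hν⟩ := exists_nu1 Q (fun g => (c g).2.1) (fun g h =>
    congrArg (fun z : YM u => z.2.1) (hc g h))
  -- first correction
  set k : ℤ := ∑ y, ν y with hk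
  have hν0 : (ν - k • dlt (1 : G)) ∈ I0 G := by
    rw [mem_I0]
    simp only [Pi.sub_apply, Pi.smul_apply, sum_sub_distrib, smul_eq_mul, ← mul_sum, sum_dlt]
    omega
  have hdvd : (Nat.card Q : ℤ) ∣ k := by
    apply hcf.ord Q hQ
    let w : YM u := ymk u 0 ⟨_, hν0⟩
    have hc' : (fun g : Q => c g - (g • w - w)) ∈ Z1 Q (YM u) :=
      (Z1 Q (YM u)).sub_mem hc (B1_le_Z1 ⟨w, fun _ => rfl⟩)
    have hc'2 : ∀ g : Q, (c g - (g • w - w)).2.1 = k • (dlt (g : G) - dlt 1) := by
      intro g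
      show (c g).2.1 - (trn (g : G) (ν - k • dlt 1) - (ν - k • dlt 1)) = _
      rw [show (c g).2.1 = trn (g : G) ν - ν from hν g, trn_sub, trn_smul, trn_dlt, mul_one, smul_sub]
      abel
    refine ⟨fun g => -(c g - (g • w - w)).1 + k • (u : G → G → C) 1 1, fun g h => ?_⟩
    have h1 := congrArg (fun z : YM u => z.1) (hc' g h)
    have h2 : (c (g * h) - ((g * h) • w - w)).1 = (c g - (g • w - w)).1 +
        ((g : G) • (c h - (h • w - w)).1 +
          ∑ y, ((c h - (h • w - w)).2.1 y) • (u : G → G → C) g y) := h1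
    rw [hc'2 h] at h2
    have h3 : ∑ y, (k • (dlt (h : G) - dlt (1 : G)) : G → ℤ) y • (u : G → G → C) g y =
        k • ((u : G → G → C) g h - (u : G → G → C) g 1) := by
      simp only [Pi.smul_apply, Pi.sub_apply, smul_eq_mul, mul_smul, ← smul_sum, sub_smul,
        sum_sub_distrib, sum_dlt_smul]
    rw [h3, u_one_right] at h2
    show k • (u : G → G → C) g h = (-(c g - (g • w - w)).1 + k • (u : G → G → C) 1 1) +
      (g : G) • (-(c h - (h • w - w)).1 + k • (u : G → G → C) 1 1) -
      (-(c (g * h) - ((g * h) • w - w)).1 + k • (u : G → G → C) 1 1)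
    rw [h2]
    simp only [smul_sub, smul_add, smul_neg, smul_comm (g : G) k]
    abel
  obtain ⟨k', hk'⟩ := hdvd
  -- invariant element of augmentation |Q|
  let NQ : G → ℤ := fun t => if t ∈ Q then 1 else 0
  have hNQs : ∑ y, NQ y = (Nat.card Q : ℤ) := by
    simp only [NQ, sum_boole]
    rw [← Fintype.card_subtype, Nat.card_eq_fintype_card]
  have hNQi : ∀ g : Q, trn (g : G) NQ = NQ := by
    intro g; funext t
    simp only [trn, NQ]
    congr 1
    rw [eq_iff_iff]
    exact Q.mul_mem_cancel_left (Q.inv_mem g.2)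
  have hν1 : (ν - k' • NQ) ∈ I0 G := by
    rw [mem_I0]
    simp only [Pi.sub_apply, Pi.smul_apply, sum_sub_distrib, smul_eq_mul, ← mul_sum, hNQs]
    rw [← hk, hk']; ring
  let w : YM u := ymk u 0 ⟨_, hν1⟩
  have hc' : (fun g : Q => c g - (g • w - w)) ∈ Z1 Q (YM u) :=
    (Z1 Q (YM u)).sub_mem hc (B1_le_Z1 ⟨w, fun _ => rfl⟩)
  have hc'2 : ∀ g : Q, (c g - (g • w - w)).2.1 = 0 := by
    intro g
    show (c g).2.1 - (trn (g : G) (ν - k' • NQ) - (ν - k' • NQ)) = _
    rw [show (c g).2.1 = trn (g : G) ν - ν from hν g, trn_sub, trn_smul, hNQi]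
    abel
  have hC : (fun g : Q => (c g - (g • w - w)).1) ∈ Z1 Q C := by
    intro g h
    have h1 := congrArg (fun z : YM u => z.1) (hc' g h)
    have h2 : (c (g * h) - ((g * h) • w - w)).1 = (c g - (g • w - w)).1 +
        ((g : G) • (c h - (h • w - w)).1 +
          ∑ y, ((c h - (h • w - w)).2.1 y) • (u : G → G → C) g y) := h1
    rw [hc'2 h] at h2
    simp only [Pi.zero_apply, zero_smul, sum_const_zero, add_zero] at h2
    exact h2
  obtain ⟨a, ha⟩ := hcf.h1 Q hQ hC
  refine ⟨w + ymk u a 0, fun g => ?_⟩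
  have h1 : c g = (c g - (g • w - w)) + (g • w - w) := by abel
  have h2 : c g - (g • w - w) = g • ymk u a 0 - ymk u a 0 := by
    refine Prod.ext ?_ (Subtype.ext ?_)
    · show (c g - (g • w - w)).1 = ((g : G) • a + ∑ y, ((0 : G → ℤ) y) • (u : G → G → C) g y) - a
      simp only [Pi.zero_apply, zero_smul, sum_const_zero, add_zero]
      exact ha g
    · rw [hc'2 g]
      show (0 : G → ℤ) = trn (g : G) 0 - 0
      rw [sub_zero]; rfl
  rw [h1, h2, smul_add]; abel

theorem hom_int_zero {Q : Type*} [Group Q] [Finite Q] (f : Q → ℤ) (hf : ∀ g h, f (g * h) = f g + f h)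
    (g : Q) : f g = 0 := by
  have h1 : ∀ n : ℕ, f (g ^ n) = n * f g := by
    intro n
    induction n with
    | zero =>
      have := hf 1 1
      simp only [mul_one] at this
      simp; omega
    | succ n ih => rw [pow_succ, hf, ih]; push_cast; ring
  have h2 := h1 (orderOf g)
  rw [pow_orderOf_eq_one] at h2
  have h3 := h1 0
  rw [pow_zero] at h3
  rw [h3] at h2
  simp only [Nat.cast_zero, zero_mul] at h2
  have h4 : (orderOf g : ℤ) ≠ 0 := by exact_mod_cast (orderOf_pos g).ne'
  rcases mul_eq_zero.mp h2.symm with h | h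
  · exact absurd h h4
  · exact h

theorem ym_h2 (hcf : CFLayer p G C u) (Q : Subgroup G) (hQ : IsPGroup p Q) :
    Z2 Q (YM u) ≤ B2 Q (YM u) := by
  classical
  haveI : Fintype Q := Fintype.ofFinite Q
  intro x hx
  obtain ⟨ν, hν⟩ := exists_nu2 Q (fun g h => (x g h).2.1) (fun g h k =>
    congrArg (fun z : YM u => z.2.1) (hx g h k))
  have hν0 : ∀ g, ν g ∈ I0 G := by
    intro g
    rw [mem_I0]
    refine hom_int_zero (fun g : Q => ∑ y, ν g y) (fun g h => ?_) g
    have h1 : ∑ y, (x g h).2.1 y = 0 := mem_I0.mp (x g h).2.2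
    rw [show (x g h).2.1 = ν g + trn (g : G) (ν h) - ν (g * h) from hν g h] at h1
    simp only [Pi.sub_apply, Pi.add_apply, sum_sub_distrib, sum_add_distrib, sum_trn] at h1
    omega
  let b : Q → YM u := fun g => ymk u 0 ⟨ν g, hν0 g⟩
  have hx' : x - dd b ∈ Z2 Q (YM u) := (Z2 Q (YM u)).sub_mem hx (B2_le_Z2 (dd_mem_B2 b))
  have hx'2 : ∀ g h, ((x - dd b) g h).2.1 = 0 := by
    intro g h
    show (x g h).2.1 - (ν g + trn (g : G) (ν h) - ν (g * h)) = 0
    rw [show (x g h).2.1 = ν g + trn (g : G) (ν h) - ν (g * h) from hν g h, sub_self]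
  have hC : (fun g h => ((x - dd b) g h).1) ∈ Z2 Q C := by
    intro g h k
    have h1 := congrArg (fun z : YM u => z.1) (hx' g h k)
    have h2 : ((x - dd b) g h).1 + ((x - dd b) (g * h) k).1 = ((g : G) • ((x - dd b) h k).1 +
        ∑ y, (((x - dd b) h k).2.1 y) • (u : G → G → C) g y) + ((x - dd b) g (h * k)).1 := h1
    rw [hx'2 h k] at h2
    simp only [Pi.zero_apply, zero_smul, sum_const_zero, add_zero] at h2
    exact h2
  obtain ⟨k, β, hβ⟩ := hcf.gen Q hQ _ hC
  -- the class of u is killed in YM u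
  have hd : ∀ g : G, dlt g - dlt 1 ∈ I0 G := by
    intro g
    rw [mem_I0]
    simp [sum_sub_distrib, sum_dlt]
  let e : Q → YM u := fun g => ymk u ((u : G → G → C) 1 1) ⟨dlt (g : G) - dlt 1, hd g⟩
  have he : ∀ g h : Q, e g + g • e h - e (g * h) = ymk u ((u : G → G → C) g h) 0 := by
    intro g h
    refine Prod.ext ?_ (Subtype.ext ?_)
    · show (u : G → G → C) 1 1 + ((g : G) • (u : G → G → C) 1 1 +
        ∑ y, ((dlt (h : G) - dlt (1 : G) : G → ℤ) y) • (u : G → G → C) g y) - (u : G → G → C) 1 1 =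
          (u : G → G → C) g h
      simp only [Pi.sub_apply, sub_smul, sum_sub_distrib, sum_dlt_smul, u_one_right u g]
      abel
    · show (dlt (g : G) - dlt 1) + trn (g : G) (dlt (h : G) - dlt 1) -
        (dlt (((g * h : Q) : G)) - dlt 1) = 0
      rw [trn_sub, trn_dlt, trn_dlt, mul_one, Subgroup.coe_mul]
      abel
  refine ⟨fun g => b g + k • e g + ymk u (β g) 0, fun g h => ?_⟩
  have h1 : x g h = (x - dd b) g h + (b g + g • b h - b (g * h)) := by
    show x g h = (x g h - (b g + g • b h - b (g * h))) + _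
    abel
  have h2 : (x - dd b) g h = k • (e g + g • e h - e (g * h)) +
      (ymk u (β g) 0 + g • ymk u (β h) 0 - ymk u (β (g * h)) 0) := by
    rw [he]
    refine Prod.ext ?_ (Subtype.ext ?_)
    · show ((x - dd b) g h).1 = k • (u : G → G → C) g h + (β g + ((g : G) • β h +
        ∑ y, ((0 : G → ℤ) y) • (u : G → G → C) g y) - β (g * h))
      simp only [Pi.zero_apply, zero_smul, sum_const_zero, add_zero]
      have h3 : ((x - dd b) g h).1 - k • (u : G → G → C) g h = β g + (g : G) • β h - β (g * h) :=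
        hβ g h
      rw [← h3]; abel
    · rw [hx'2]
      show (0 : G → ℤ) = k • (0 : G → ℤ) + (0 + trn (g : G) 0 - 0)
      simp only [smul_zero, zero_add, sub_zero]
      rfl
  rw [h1, h2]
  simp only [smul_add, smul_sub, smul_comm g k]
  abel

/-- `Ĥ⁰(P, Y) = 0` -/
theorem ym_h0 [hp : Fact p.Prime] (hcf : CFLayer p G C u) (P : Subgroup G) [Fintype P]
    (hP : IsPGroup p P) (a : YM u) (ha : a ∈ fix (YM u) P) : ∃ b : YM u, a = ∑ x : P, (x : G) • b :=
  norm_of_vanish (fun Q hQ => ym_h1 u hcf Q hQ) (fun Q hQ => ym_h2 u hcf Q hQ) _ P rfl hP a ha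

end Y

end Fermat.Agent.CFT
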