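import Fermat.Agent.CFT.First
import Fermat.Agent.CFTSec.ChangeS

set_option autoImplicit false
set_option maxHeartbeats 400000

/-! The trace from the invariants of a subgroup of finite index. -/

namespace Fermat.Agent.CFT

open Finset Fermat.Agent.CFTSec

noncomputable section

variable {U : Type*} [Group U] {A : Type*} [AddCommGroup A] [DistribMulAction U A]

/-- the trace -/
def trc (H : Subgroup U) (a : A) : A := ∑ᶠ q : U ⧸ H, q.out • a

theorem smul_eq_of_mk {H : Subgroup U} {a : A} (ha : a ∈ fix A H) {g g' : U}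
    (h : (QuotientGroup.mk g : U ⧸ H) = QuotientGroup.mk g') : g • a = g' • a := by
  rw [QuotientGroup.eq] at h
  have h1 := ha _ h
  rw [mul_smul, inv_smul_eq_iff] at h1
  exact h1.symm

theorem trc_eq (H : Subgroup U) {a : A} (ha : a ∈ fix A H) (σ : U ⧸ H → U)
    (hσ : ∀ q, (QuotientGroup.mk (σ q) : U ⧸ H) = q) : trc H a = ∑ᶠ q, σ q • a := by
  refine finsum_congr fun q => ?_
  apply smul_eq_of_mk ha
  rw [hσ]; exact Quotient.out_eq q

theorem trc_mem (H : Subgroup U) [H.FiniteIndex] {a : A} (ha : a ∈ fix A H) :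
    trc H a ∈ fix A (⊤ : Subgroup U) := by
  intro g _
  haveI : Finite (U ⧸ H) := inferInstance
  have h1 : g • trc H a = ∑ᶠ q : U ⧸ H, g • q.out • a :=
    (DistribMulAction.toAddMonoidHom A g).map_finsum (Set.toFinite _)
  rw [h1]
  have h2 : trc H a = ∑ᶠ q : U ⧸ H, (g • q).out • a :=
    (finsum_comp_equiv (MulAction.toPerm g : Equiv.Perm (U ⧸ H))
      (f := fun q : U ⧸ H => q.out • a)).symm
  rw [h2]
  refine finsum_congr fun q => ?_
  rw [smul_smul]
  apply smul_eq_of_mk ha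
  rw [← smul_eq_mul, ← MulAction.Quotient.smul_mk, QuotientGroup.out_eq', QuotientGroup.out_eq']

theorem trc_add (H : Subgroup U) [H.FiniteIndex] (a b : A) :
    trc H (a + b) = trc H a + trc H b := by
  rw [trc, trc, trc, ← finsum_add_distrib (Set.toFinite _) (Set.toFinite _)]
  exact finsum_congr fun q => smul_add _ _ _

theorem trc_zero (H : Subgroup U) : trc H (0 : A) = 0 := by
  rw [trc]
  simp_rw [smul_zero]
  exact finsum_zero

/-- trace of an invariant element -/
theorem trc_of_top (H : Subgroup U) [H.FiniteIndex] {a : A} (ha : a ∈ fix A (⊤ : Subgroup U)) :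
    trc H a = H.index • a := by
  haveI := Fintype.ofFinite (U ⧸ H)
  rw [trc, finsum_eq_sum_of_fintype]
  have : ∀ q : U ⧸ H, q.out • a = a := fun q => ha _ trivial
  simp_rw [this]
  rw [sum_const, card_univ, ← Nat.card_eq_fintype_card]
  rfl

theorem trc_cyc {m : ℕ} (hm : 0 < m) {K H : Subgroup U} [H.FiniteIndex] [K.FiniteIndex] {s : U}
    (hc : CycP m K H s) {b : A} (hb : b ∈ fix A K) :
    trc H (∑ i ∈ range m, s ^ i • b) = trc K b := by
  classical
  haveI := Fintype.ofFinite (U ⧸ H)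
  haveI := Fintype.ofFinite (U ⧸ K)
  rw [trc, trc, finsum_eq_sum_of_fintype, finsum_eq_sum_of_fintype]
  have h1 : ∀ q : U ⧸ H, q.out • ∑ i ∈ range m, s ^ i • b =
      ∑ i : Fin m, (q.out * s ^ (i : ℕ)) • b := by
    intro q
    rw [smul_sum, ← Fin.sum_univ_eq_sum_range (fun i => q.out • s ^ i • b)]
    exact sum_congr rfl fun i _ => smul_smul _ _ _
  simp_rw [h1]
  rw [← Fintype.sum_prod_type' (f := fun (q : U ⧸ H) (i : Fin m) => (q.out * s ^ (i : ℕ)) • b)]
  refine Fintype.sum_bijective (fun x : (U ⧸ H) × Fin m =>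
    (QuotientGroup.mk (x.1.out * s ^ (x.2 : ℕ)) : U ⧸ K)) ⟨?_, ?_⟩ _ _ ?_
  · rintro ⟨q, i⟩ ⟨q', i'⟩ h
    have hsH : ∀ j : ℕ, s ^ j ∈ H := fun j => H.pow_mem hc.mem j
    rw [QuotientGroup.eq] at h
    have hq : q = q' := by
      have h2 : (q.out * s ^ (i : ℕ))⁻¹ * (q'.out * s ^ (i' : ℕ)) ∈ H := hc.le h
      have h3 : q.out⁻¹ * q'.out ∈ H := by
        have e : q.out⁻¹ * q'.out = s ^ (i : ℕ) * ((q.out * s ^ (i : ℕ))⁻¹ *
          (q'.out * s ^ (i' : ℕ))) * (s ^ (i' : ℕ))⁻¹ := by group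
        rw [e]
        exact H.mul_mem (H.mul_mem (hsH _) h2) (H.inv_mem (hsH _))
      rw [← QuotientGroup.eq, QuotientGroup.out_eq', QuotientGroup.out_eq'] at h3
      exact h3
    subst hq
    have h4 : (s ^ (i : ℕ))⁻¹ * s ^ (i' : ℕ) ∈ K := by
      have e : (q.out * s ^ (i : ℕ))⁻¹ * (q.out * s ^ (i' : ℕ)) =
        (s ^ (i : ℕ))⁻¹ * s ^ (i' : ℕ) := by group
      rw [← e]; exact h
    have key : ∀ i j : ℕ, i < m → j < m → i ≤ j → (s ^ i)⁻¹ * s ^ j ∈ K → i = j := by
      intro i j hi hj hij hk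
      obtain ⟨d, rfl⟩ := Nat.exists_eq_add_of_le hij
      rw [pow_add, inv_mul_cancel_left] at hk
      have := (hc.ord d).mp hk
      have h5 := Nat.eq_zero_of_dvd_of_lt this (by omega)
      omega
    have h5 : (i : ℕ) = i' := by
      rcases le_total (i : ℕ) i' with hle | hle
      · exact key _ _ i.2 i'.2 hle h4
      · refine (key _ _ i'.2 i.2 hle ?_).symm
        have := K.inv_mem h4
        rwa [mul_inv_rev, inv_inv] at this
    exact Prod.ext rfl (Fin.ext h5)
  · intro x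
    induction x using QuotientGroup.induction_on with
    | H g =>
      have h2 : (QuotientGroup.mk g : U ⧸ H).out⁻¹ * g ∈ H := by
        rw [← QuotientGroup.eq, QuotientGroup.out_eq']
      obtain ⟨i, hi, k, hk, h3⟩ := hc.gen _ h2
      refine ⟨(QuotientGroup.mk g, ⟨i, hi⟩), ?_⟩
      show (QuotientGroup.mk ((QuotientGroup.mk g : U ⧸ H).out * s ^ i) : U ⧸ K) =
        QuotientGroup.mk g
      rw [QuotientGroup.eq]
      have e : ((QuotientGroup.mk g : U ⧸ H).out * s ^ i)⁻¹ * g = k := by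
        rw [mul_inv_rev, mul_assoc, h3, inv_mul_cancel_left]
      rw [e]; exact hk
  · rintro ⟨q, i⟩
    apply smul_eq_of_mk hb
    rw [QuotientGroup.out_eq']

/-- the trace from `K` factors through the trace from a subgroup with cyclic quotient -/
theorem trc_cyc_top {m : ℕ} {K H : Subgroup U} [H.FiniteIndex] [K.FiniteIndex] (hKH : K ≤ H)
    {s : U} (hc : CycP m H ⊤ s) {b : A} (hb : b ∈ fix A K) :
    ∃ c ∈ fix A H, trc K b = ∑ i ∈ range m, s ^ i • c := by
  classical
  haveI := Fintype.ofFinite (U ⧸ K)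
  haveI hf2 : (K.subgroupOf H).FiniteIndex := inferInstance
  haveI := Fintype.ofFinite (H ⧸ K.subgroupOf H)
  have hb' : b ∈ fix A (K.subgroupOf H) := fun k hk => hb _ hk
  refine ⟨trc (K.subgroupOf H) b, ?_, ?_⟩
  · intro h hh
    exact trc_mem (K.subgroupOf H) hb' (⟨h, hh⟩ : H) trivial
  · rw [trc, trc, finsum_eq_sum_of_fintype, finsum_eq_sum_of_fintype]
    have h1 : ∀ i : ℕ, s ^ i • ∑ r : H ⧸ K.subgroupOf H, r.out • b =
        ∑ r : H ⧸ K.subgroupOf H, (s ^ i * (r.out : U)) • b := by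
      intro i
      rw [smul_sum]
      exact sum_congr rfl fun r _ => smul_smul _ _ _
    simp_rw [h1]
    rw [← Fin.sum_univ_eq_sum_range (fun i => ∑ r : H ⧸ K.subgroupOf H, (s ^ i * (r.out : U)) • b),
      ← Fintype.sum_prod_type' (f := fun (i : Fin m) (r : H ⧸ K.subgroupOf H) =>
        (s ^ (i : ℕ) * (r.out : U)) • b)]
    symm
    refine Fintype.sum_bijective (fun x : Fin m × (H ⧸ K.subgroupOf H) =>
      (QuotientGroup.mk (s ^ (x.1 : ℕ) * (x.2.out : U)) : U ⧸ K)) ⟨?_, ?_⟩ _ _ ?_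
    · rintro ⟨i, r⟩ ⟨i', r'⟩ h
      rw [QuotientGroup.eq] at h
      have h4 : (s ^ (i : ℕ))⁻¹ * s ^ (i' : ℕ) ∈ H := by
        have h2 := hKH h
        have e : (s ^ (i : ℕ))⁻¹ * s ^ (i' : ℕ) = (r.out : U) * ((s ^ (i : ℕ) * (r.out : U))⁻¹ *
          (s ^ (i' : ℕ) * (r'.out : U))) * (r'.out : U)⁻¹ := by group
        rw [e]
        exact H.mul_mem (H.mul_mem r.out.2 h2) (H.inv_mem r'.out.2)
      have key : ∀ i j : ℕ, i < m → j < m → i ≤ j → (s ^ i)⁻¹ * s ^ j ∈ H → i = j := by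
        intro i j hi hj hij hk
        obtain ⟨d, rfl⟩ := Nat.exists_eq_add_of_le hij
        rw [pow_add, inv_mul_cancel_left] at hk
        have := (hc.ord d).mp hk
        have h5 := Nat.eq_zero_of_dvd_of_lt this (by omega)
        omega
      have h5 : (i : ℕ) = i' := by
        rcases le_total (i : ℕ) i' with hle | hle
        · exact key _ _ i.2 i'.2 hle h4
        · refine (key _ _ i'.2 i.2 hle ?_).symm
          have := H.inv_mem h4
          rwa [mul_inv_rev, inv_inv] at this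
      have h6 : i = i' := Fin.ext h5
      subst h6
      have h7 : ((r.out : U))⁻¹ * (r'.out : U) ∈ K := by
        have e : (s ^ (i : ℕ) * (r.out : U))⁻¹ * (s ^ (i : ℕ) * (r'.out : U)) =
          ((r.out : U))⁻¹ * (r'.out : U) := by group
        rw [← e]; exact h
      have h8 : (QuotientGroup.mk r.out : H ⧸ K.subgroupOf H) = QuotientGroup.mk r'.out := by
        rw [QuotientGroup.eq]; exact h7
      rw [QuotientGroup.out_eq', QuotientGroup.out_eq'] at h8
      exact Prod.ext rfl h8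
    · intro x
      induction x using QuotientGroup.induction_on with
      | H g =>
        obtain ⟨i, hi, k, hk, h3⟩ := hc.gen g trivial
        refine ⟨(⟨i, hi⟩, QuotientGroup.mk ⟨k, hk⟩), ?_⟩
        show (QuotientGroup.mk (s ^ i * ((QuotientGroup.mk (⟨k, hk⟩ : H) :
          H ⧸ K.subgroupOf H).out : U)) : U ⧸ K) = QuotientGroup.mk g
        have h4 : ((QuotientGroup.mk (⟨k, hk⟩ : H) : H ⧸ K.subgroupOf H).out)⁻¹ * ⟨k, hk⟩ ∈
            K.subgroupOf H := by
          rw [← QuotientGroup.eq, QuotientGroup.out_eq']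
        rw [QuotientGroup.eq, h3]
        have e : (s ^ i * ((QuotientGroup.mk (⟨k, hk⟩ : H) : H ⧸ K.subgroupOf H).out : U))⁻¹ *
          (s ^ i * k) = (((QuotientGroup.mk (⟨k, hk⟩ : H) : H ⧸ K.subgroupOf H).out : U))⁻¹ * k := by
            group
        rw [e]; exact h4
    · rintro ⟨i, r⟩
      apply smul_eq_of_mk hb
      rw [QuotientGroup.out_eq']

end

end Fermat.Agent.CFT
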