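import Fermat.Agent.CFT.Recip5
import Fermat.Agent.CFT.Trace
import Fermat.Agent.CFT.TN1
import Fermat.Agent.CFTLocal.Main

set_option autoImplicit false
set_option maxHeartbeats 400000

/-! Cup products with the cyclotomic character and the reciprocity map. -/

namespace Fermat.Agent.CFT

open Finset Fermat.Agent.CFTSec

noncomputable section

section gen

variable {G : Type*} [Group G] {A : Type*} [AddCommGroup A] [DistribMulAction G A]
  {n : ℕ} [NeZero n] (χ : G → ZMod n) (hχ : ∀ g h, χ (g * h) = χ g + χ h)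

include hχ in
/-- if the cup product with an invariant element is a coboundary, the element is a norm -/
theorem norm_of_cup_gen {s : G} {d m : ℕ} (hdm : d * m = n) (hs : χ s = d) {H : Subgroup G}
    [hHn : H.Normal]
    (hH : ∀ g, g ∈ H ↔ χ g = 0) (hH1 : Z1 H A ≤ B1 H A) {a : A}
    (ha : a ∈ fix A (⊤ : Subgroup G)) (hcup : cup n (lft χ) a ∈ B2 G A) :
    ∃ b ∈ fix A H, a = ∑ i ∈ range m, s ^ i • b := by
  by_cases hm1 : m = 1
  · exact ⟨a, fun k _ => ha k trivial, by rw [hm1]; simp⟩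
  have hn0 : n ≠ 0 := NeZero.ne n
  have hm0 : m ≠ 0 := by rintro rfl; rw [mul_zero] at hdm; exact hn0 hdm.symm
  have hd0 : d ≠ 0 := by rintro rfl; rw [zero_mul] at hdm; exact hn0 hdm.symm
  have hn : (n : ℤ) ≠ 0 := by exact_mod_cast hn0
  have hχH : ∀ g, ∀ k ∈ H, χ (g * k) = χ g := by
    intro g k hk; rw [hχ, (hH k).mp hk, add_zero]
  have hlev : IsLevel2 H (cup n (lft χ) a) := by
    refine ⟨fun g h k hk => ?_, fun g h k hk => ?_, fun g h => ?_⟩
    · have h1 : χ (g * k * h) = χ (g * h) := by rw [hχ, hχH g k hk, hχ]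
      simp only [cup, lft, hχH g k hk, h1]
    · have h1 : χ (g * (h * k)) = χ (g * h) := by rw [hχ, hχH h k hk, hχ]
      simp only [cup, lft, hχH h k hk, h1]
    · intro k _
      simp only [cup]
      rw [smul_comm, ha k trivial]
  obtain ⟨β, hβ, hβl, hβf⟩ := inf_inj2 H hH1 hlev hcup
  have hcast : ∀ i : ℕ, i < m → (χ (s ^ i)).val = i * d := by
    intro i hi
    have hlt : i * d < n := by
      rw [← hdm, mul_comm d m]
      exact Nat.mul_lt_mul_of_pos_right hi (Nat.pos_of_ne_zero hd0)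
    rw [chi_pow χ hχ, hs, ← Nat.cast_mul, ZMod.val_natCast, Nat.mod_eq_of_lt hlt]
  have hval1 : (χ s).val = d := by
    have := hcast 1 (by omega)
    rwa [pow_one, one_mul] at this
  have hβ1 : β 1 = 0 := by
    have h1 := hβ 1 1
    simp only [cup, one_mul, one_smul, add_sub_cancel_right] at h1
    rw [← h1]
    simp [lft, chi_one χ hχ]
  refine ⟨β s, hβf s, ?_⟩
  have hstep : ∀ i : ℕ, β (s ^ (i + 1)) = β (s ^ i) + s ^ i • β s - cup n (lft χ) a (s ^ i) s := by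
    intro i
    rw [hβ (s ^ i) s, ← pow_succ]; abel
  have hsum : ∀ k : ℕ, β (s ^ k) = ∑ i ∈ range k, s ^ i • β s -
      ∑ i ∈ range k, cup n (lft χ) a (s ^ i) s := by
    intro k
    induction k with
    | zero => simp [hβ1]
    | succ k ih => rw [hstep, ih, sum_range_succ, sum_range_succ]; abel
  have hsm0 : χ (s ^ m) = 0 := by
    rw [chi_pow χ hχ, hs, ← Nat.cast_mul, mul_comm m d, hdm]; simp
  have hsn : s ^ m ∈ H := by rw [hH, hsm0]
  have h2 := hsum m
  have h3 : β (s ^ m) = 0 := by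
    have := hβl 1 _ hsn
    rw [one_mul] at this
    rw [this, hβ1]
  have h4 : ∑ i ∈ range m, cup n (lft χ) a (s ^ i) s = a := by
    have key : ∀ i ∈ range m, cup n (lft χ) a (s ^ i) s = if i + 1 = m then a else 0 := by
      intro i hi
      have hi' := mem_range.mp hi
      have h1 := hval1
      split_ifs with h5
      · have h6 : χ (s ^ i * s) = 0 := by
          rw [← pow_succ, h5, hsm0]
        simp only [cup, lft, hcast i hi', h1, h6, ZMod.val_zero]
        have h7 : (((i * d : ℕ) : ℤ) + (d : ℕ) - (0 : ℕ)) / (n : ℤ) = 1 := by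
          have : (((i * d : ℕ) : ℤ) + (d : ℕ) - (0 : ℕ)) = n := by
            rw [← hdm, ← h5]; push_cast; ring
          rw [this, Int.ediv_self hn]
        rw [h7, one_smul]
      · have h6 : (χ (s ^ i * s)).val = (i + 1) * d := by
          rw [← pow_succ]; exact hcast _ (by omega)
        simp only [cup, lft, hcast i hi', h1, h6]
        have h7 : (((i * d : ℕ) : ℤ) + (d : ℕ) - (((i + 1) * d : ℕ) : ℤ)) / (n : ℤ) = 0 := by
          have : (((i * d : ℕ) : ℤ) + (d : ℕ) - (((i + 1) * d : ℕ) : ℤ)) = 0 := by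
            push_cast; ring
          rw [this, Int.zero_ediv]
        rw [h7, zero_smul]
    rw [sum_congr rfl key]
    obtain ⟨k, hk⟩ : ∃ k, m = k + 1 := ⟨m - 1, by omega⟩
    rw [hk, sum_range_succ, if_pos rfl, sum_eq_zero, zero_add]
    intro i hi
    rw [if_neg (by have := mem_range.mp hi; omega)]
  rw [h3, h4] at h2
  have h5 : a = ∑ i ∈ range m, s ^ i • β s := by
    rw [eq_comm, ← sub_eq_zero]; exact h2.symm
  exact h5

end gen

/-- generator of the image of a character -/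
theorem exists_gen_char {G : Type*} [Group G] {n : ℕ} [NeZero n] (χ : G → ZMod n)
    (hχ : ∀ g h, χ (g * h) = χ g + χ h) (Q : Subgroup G) :
    ∃ (d m : ℕ) (s : G), d * m = n ∧ s ∈ Q ∧ χ s = d ∧ ∀ g ∈ Q, ∃ i : ℕ, i < m ∧
      χ g = (i * d : ℕ) := by
  classical
  have hone : χ 1 = 0 := chi_one χ hχ
  let P : ℕ → Prop := fun d => 0 < d ∧ ∃ s ∈ Q, χ s = (d : ZMod n)
  have hex : ∃ d, P d := ⟨n, NeZero.pos n, 1, Q.one_mem, by rw [hone]; simp⟩
  obtain ⟨hd0, s, hsQ, hs⟩ := Nat.find_spec hex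
  set d := Nat.find hex with hd
  have hmin : ∀ (k : ℕ) (g : G), g ∈ Q → χ g = (k : ZMod n) → d ∣ k := by
    intro k g hg hgk
    have h1 : ∃ s' ∈ Q, χ s' = ((k % d : ℕ) : ZMod n) := by
      refine ⟨g * (s ^ (k / d))⁻¹, Q.mul_mem hg (Q.inv_mem (Q.pow_mem hsQ _)), ?_⟩
      have h2 : χ (s ^ (k / d))⁻¹ = -((k / d : ℕ) * (d : ZMod n)) := by
        have h3 := hχ (s ^ (k / d)) (s ^ (k / d))⁻¹
        rw [mul_inv_cancel, hone, chi_pow χ hχ, hs] at h3
        exact (neg_eq_of_add_eq_zero_right h3.symm).symm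
      rw [hχ, h2, hgk]
      have h4 : (k : ZMod n) = ((k % d : ℕ) : ZMod n) + (d : ZMod n) * ((k / d : ℕ) : ZMod n) := by
        rw [← Nat.cast_mul, ← Nat.cast_add, Nat.mod_add_div]
      rw [h4]; ring
    rcases Nat.eq_zero_or_pos (k % d) with h5 | h5
    · exact Nat.dvd_of_mod_eq_zero h5
    · exact absurd (Nat.mod_lt k hd0) (not_lt.mpr (Nat.find_min' hex ⟨h5, h1⟩))
  obtain ⟨m, hm⟩ := hmin n 1 Q.one_mem (by rw [hone]; simp)
  refine ⟨d, m, s, hm.symm, hsQ, hs, fun g hg => ?_⟩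
  obtain ⟨i, hi⟩ := hmin (χ g).val g hg (ZMod.natCast_zmod_val _).symm
  refine ⟨i, ?_, by rw [mul_comm i d, ← hi, ZMod.natCast_zmod_val]⟩
  have h1 := ZMod.val_lt (χ g)
  rw [hi] at h1
  have h1' : d * i < d * m := by rw [← hm]; exact h1
  exact Nat.lt_of_mul_lt_mul_left h1'

section cycl

variable {p : ℕ} [hp : Fact p.Prime] (n : ℕ) (hp2 : 2 < p) {S : Finset Nat.Primes}
  (hpS : pP p ∈ S)

/-- the reciprocity map of a subgroup -/
def rT (Γ : Subgroup GQ) [Γ.FiniteIndex] : ↥(fix (Cm S) Γ) →+ ZMod (p ^ n) where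
  toFun c := rC n hp2 hpS ⟨trc Γ c.1, trc_mem Γ c.2⟩
  map_zero' := by
    rw [← map_zero (rC n hp2 hpS)]
    congr 1
    apply Subtype.ext
    exact trc_zero Γ
  map_add' x y := by
    rw [← map_add]
    congr 1
    apply Subtype.ext
    exact trc_add Γ _ _

theorem rT_apply (Γ : Subgroup GQ) [Γ.FiniteIndex] (c : ↥(fix (Cm S) Γ)) :
    rT n hp2 hpS Γ c = rC n hp2 hpS ⟨trc Γ c.1, trc_mem Γ c.2⟩ := rfl

/-- the reciprocity map vanishes above the cyclotomic layer -/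
theorem rT_eq_zero (K : Subgroup GQ) [K.FiniteIndex] (hK : K ≤ (EF n hp2).fixingSubgroup)
    (b : ↥(fix (Cm S) K)) : rT n hp2 hpS K b = 0 := by
  obtain ⟨s, hs⟩ := ch_surj n hp2 1
  haveI : (EF n hp2).fixingSubgroup.FiniteIndex := finiteIndex_fixingSubgroup _
  obtain ⟨c, hc, h⟩ := trc_cyc_top hK (cycP_E n hp2 hs) b.2
  exact rC_norm n hp2 hpS hc hs _ h

/-- value on a globally invariant element -/
theorem rT_top (Γ : Subgroup GQ) [Γ.FiniteIndex] (a : ↥(fix (Cm S) (⊤ : Subgroup GQ)))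
    (c : ↥(fix (Cm S) Γ)) (h : c.1 = a.1) :
    rT n hp2 hpS Γ c = (Γ.index : ZMod (p ^ n)) * rC n hp2 hpS a := by
  rw [rT_apply, ← nsmul_eq_mul, ← map_nsmul]
  congr 1
  apply Subtype.ext
  show trc Γ c.1 = Γ.index • a.1
  rw [h, trc_of_top Γ a.2]

variable (N : Subgroup GQ) [hN : N.Normal] [hNf : N.FiniteIndex]
  (hNE : N ≤ (EF n hp2).fixingSubgroup)

/-- the character on a finite quotient -/
def chQ : (GQ ⧸ N) →* Multiplicative (ZMod (p ^ n)) :=
  QuotientGroup.lift N (chC n hp2) fun g hg => by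
    have := (mem_EF_fixing n hp2).mp (hNE hg)
    exact congrArg Multiplicative.ofAdd this

/-- the character on a finite quotient -/
def cQ (g : GQ ⧸ N) : ZMod (p ^ n) := (chQ n hp2 N hNE g).toAdd

theorem cQ_mk (g : GQ) : cQ n hp2 N hNE (QuotientGroup.mk g) = ch n hp2 g := rfl

theorem cQ_mul (g h : GQ ⧸ N) : cQ n hp2 N hNE (g * h) = cQ n hp2 N hNE g + cQ n hp2 N hNE h :=
  congrArg Multiplicative.toAdd (map_mul (chQ n hp2 N hNE) g h)

theorem comap_finiteIndex (Q : Subgroup (GQ ⧸ N)) : (Q.comap (QuotientGroup.mk' N)).FiniteIndex := by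
  refine Subgroup.finiteIndex_of_le (H := N) ?_
  intro g hg
  rw [Subgroup.mem_comap]
  have : QuotientGroup.mk' N g = 1 := (QuotientGroup.eq_one_iff g).mpr hg
  rw [this]; exact Q.one_mem

theorem mem_fix_comap {A : Type*} [AddCommGroup A] [DistribMulAction GQ A]
    {Q : Subgroup (GQ ⧸ N)} {c : ↥(fix A N)} (hc : c ∈ fix (fix A N) Q) :
    c.1 ∈ fix A (Q.comap (QuotientGroup.mk' N)) := by
  intro g hg
  exact congrArg Subtype.val (hc _ hg)

theorem coe_pow_smul {A : Type*} [AddCommGroup A] [DistribMulAction GQ A] (t : GQ) (i : ℕ)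
    (b : ↥(fix A N)) : ((((QuotientGroup.mk t : GQ ⧸ N)) ^ i • b : ↥(fix A N)) : A) =
      t ^ i • (b : A) := rfl

include hNE in
/-- the main compatibility between cup products and the reciprocity map -/
theorem rT_of_cup (hlay : LayerHyp p (GQ ⧸ N) (fix (Cm S) N)) (Q : Subgroup (GQ ⧸ N))
    (hQ : IsPGroup p Q) (c : ↥(fix (Cm S) N)) (hc : c ∈ fix (fix (Cm S) N) Q)
    (hcup : cup (p ^ n) (lft (fun g : Q => cQ n hp2 N hNE g)) c ∈ B2 Q (fix (Cm S) N))
    (hfi : (Q.comap (QuotientGroup.mk' N)).FiniteIndex) :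
    rT n hp2 hpS (Q.comap (QuotientGroup.mk' N)) ⟨c.1, mem_fix_comap N hc⟩ = 0 := by
  haveI : Finite (GQ ⧸ N) := inferInstance
  obtain ⟨d, m, s, hdm, hsQ, hs, hgen⟩ := exists_gen_char (cQ n hp2 N hNE) (cQ_mul n hp2 N hNE) Q
  have hpn : p ^ n ≠ 0 := pow_ne_zero _ hp.out.ne_zero
  have hm0 : 0 < m := Nat.pos_of_ne_zero (by rintro rfl; rw [mul_zero] at hdm; exact hpn hdm.symm)
  have hd0 : 0 < d := Nat.pos_of_ne_zero (by rintro rfl; rw [zero_mul] at hdm; exact hpn hdm.symm)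
  -- the kernel
  set H0 : Subgroup (GQ ⧸ N) := (chQ n hp2 N hNE).ker ⊓ Q with hH0
  have hH0Q : H0 ≤ Q := inf_le_right
  have hH0p : IsPGroup p H0 := hQ.to_le hH0Q
  have hH1 := (layers hlay H0 hH0p).1
  have hker : ∀ g : Q, g ∈ H0.subgroupOf Q ↔ cQ n hp2 N hNE g = 0 := by
    intro g
    rw [Subgroup.mem_subgroupOf, hH0, Subgroup.mem_inf]
    constructor
    · rintro ⟨h, -⟩; exact congrArg Multiplicative.toAdd h
    · intro h; exact ⟨congrArg Multiplicative.ofAdd h, g.2⟩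
  haveI hnor : (H0.subgroupOf Q).Normal := by
    constructor
    intro g hg k
    rw [hker] at hg ⊢
    rw [Subgroup.coe_mul, Subgroup.coe_mul, cQ_mul, cQ_mul, hg, add_zero, ← cQ_mul]
    have : (k : GQ ⧸ N) * ((k⁻¹ : Q) : GQ ⧸ N) = 1 := by simp
    rw [this]
    exact chi_one (cQ n hp2 N hNE) (cQ_mul n hp2 N hNE)
  obtain ⟨b, hb, hcb⟩ := norm_of_cup_gen (fun g : Q => cQ n hp2 N hNE g)
    (fun g h => cQ_mul n hp2 N hNE g h) (s := ⟨s, hsQ⟩) hdm hs hker (Z1_subgroupOf hH0Q hH1)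
    (a := c) (fun g _ => hc g g.2) hcup
  obtain ⟨t, rfl⟩ := QuotientGroup.mk_surjective s
  -- the kernel upstairs
  set K : Subgroup GQ := H0.comap (QuotientGroup.mk' N) with hK
  have hbK : b.1 ∈ fix (Cm S) K := by
    intro g hg
    have h1 : (QuotientGroup.mk g : GQ ⧸ N) ∈ H0 := hg
    have h2 := hb ⟨QuotientGroup.mk g, hH0Q h1⟩ (by exact h1)
    exact congrArg Subtype.val h2
  haveI hKf : K.FiniteIndex := comap_finiteIndex N H0
  have hKmem : ∀ g : GQ, g ∈ K ↔ g ∈ Q.comap (QuotientGroup.mk' N) ∧ ch n hp2 g = 0 := by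
    intro g
    rw [hK, Subgroup.mem_comap, hH0, Subgroup.mem_inf]
    constructor
    · rintro ⟨h1, h2⟩; exact ⟨h2, congrArg Multiplicative.toAdd h1⟩
    · rintro ⟨h1, h2⟩; exact ⟨congrArg Multiplicative.ofAdd h2, h1⟩
  have hcyc : CycP m K (Q.comap (QuotientGroup.mk' N)) t := by
    refine ⟨fun g hg => ((hKmem g).mp hg).1, hsQ, ?_, ?_, ?_⟩
    · intro g hg k hk
      rw [hKmem] at hk ⊢
      refine ⟨Subgroup.mul_mem _ (Subgroup.mul_mem _ hg hk.1) (Subgroup.inv_mem _ hg), ?_⟩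
      rw [ch_mul, ch_mul, hk.2, add_zero, ← ch_mul, mul_inv_cancel, ch_one]
    · intro g hg
      obtain ⟨i, hi, h⟩ := hgen _ hg
      refine ⟨i, hi, (t ^ i)⁻¹ * g, ?_, by group⟩
      rw [hKmem]
      refine ⟨Subgroup.mul_mem _ (Subgroup.inv_mem _ (Subgroup.pow_mem _ hsQ i)) hg, ?_⟩
      have h' : ch n hp2 g = ((i * d : ℕ) : ZMod (p ^ n)) := h
      have hs' : ch n hp2 t = d := hs
      rw [ch_mul, ch_inv, ch_pow, h', hs', Nat.cast_mul]
      ring
    · intro i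
      have hs' : ch n hp2 t = d := hs
      rw [hKmem, ch_pow, hs', ← Nat.cast_mul, ZMod.natCast_eq_zero_iff, ← hdm, mul_comm i d,
        Nat.mul_dvd_mul_iff_left hd0]
      exact ⟨fun h => h.2, fun h => ⟨Subgroup.pow_mem _ hsQ i, h⟩⟩
  have hval : c.1 = ∑ i ∈ range m, t ^ i • b.1 := by
    rw [hcb, AddSubgroup.val_finset_sum]
    exact sum_congr rfl fun i _ => rfl
  have h1 := trc_cyc hm0 hcyc hbK
  rw [← hval] at h1
  have h2 := rT_eq_zero n hp2 hpS K (fun g hg => (mem_EF_fixing n hp2).mpr ((hKmem g).mp hg).2)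
    ⟨b.1, hbK⟩
  rw [rT_apply] at h2 ⊢
  rw [← h2]
  congr 1
  exact Subtype.ext h1

end cycl

end

end Fermat.Agent.CFT
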