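import Fermat.Agent.CFT.EPair

set_option autoImplicit false
set_option maxHeartbeats 400000

/-! Abstract duality counting. -/

namespace Fermat.Agent.CFT

open Finset

noncomputable section

section

variable {H : Type*} [AddCommGroup H] {p : ℕ} [hp : Fact p.Prime] [Module (ZMod p) H] [Finite H]

/-- double annihilator -/
theorem mem_of_double_ann (U : AddSubgroup (H →+ ZMod p)) (f : H →+ ZMod p)
    (hf : ∀ h : H, (∀ u ∈ U, u h = 0) → f h = 0) : f ∈ U := by
  let e : (H →+ ZMod p) ≃+ Module.Dual (ZMod p) H :=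
    { toFun := fun f => f.toZModLinearMap p
      invFun := fun f => f.toAddMonoidHom
      left_inv := fun f => by ext; rfl
      right_inv := fun f => by ext; rfl
      map_add' := fun f g => by ext; rfl }
  let W : Submodule (ZMod p) (Module.Dual (ZMod p) H) :=
    AddSubgroup.toZModSubmodule p (U.map e.toAddMonoidHom)
  have hW : ∀ x, x ∈ W ↔ ∃ u ∈ U, e u = x := fun x => Iff.rfl
  have h1 : e f ∈ W.dualCoannihilator.dualAnnihilator := by
    rw [Submodule.mem_dualAnnihilator]
    intro h hh
    rw [Submodule.mem_dualCoannihilator] at hh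
    exact hf h (fun u hu => hh (e u) ((hW _).mpr ⟨u, hu, rfl⟩))
  rw [Subspace.dualCoannihilator_dualAnnihilator_eq, hW] at h1
  obtain ⟨u, hu, hue⟩ := h1
  rwa [e.injective hue] at hu

theorem exists_ext_hom (T : AddSubgroup H) (g : T →+ ZMod p) : ∃ f : H →+ ZMod p, ∀ t : T, f t = g t := by
  let W : Submodule (ZMod p) H := AddSubgroup.toZModSubmodule p T
  let g' : W →ₗ[ZMod p] ZMod p := AddMonoidHom.toZModLinearMap p (M := W) (M₁ := ZMod p) g
  obtain ⟨f, hf⟩ := LinearMap.exists_extend g'
  refine ⟨f.toAddMonoidHom, fun t => ?_⟩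
  exact DFunLike.congr_fun hf t

end

/-- duality count for a bilinear pairing -/
theorem card_quot_eq {V Z : Type*} [AddCommGroup V] [AddCommGroup Z] {p : ℕ} [hp : Fact p.Prime]
    (b : V →+ Z →+ ZMod p) (W : AddSubgroup V) (B T : AddSubgroup Z) (hBT : B ≤ T)
    [hfin : Finite (Z ⧸ B)]
    (h0 : ∀ v, ∀ z ∈ B, b v z = 0) (ha : ∀ z, (∀ v, b v z = 0) → z ∈ B)
    (hb : ∀ v, (∀ z, b v z = 0) → v ∈ W) (hc : ∀ z, z ∈ T ↔ ∀ w ∈ W, b w z = 0) :
    Nat.card (V ⧸ W) = Nat.card (T ⧸ B.addSubgroupOf T) ∧ Finite (T ⧸ B.addSubgroupOf T) := by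
  classical
  have hpB : ∀ z : Z, p • z ∈ B := by
    intro z
    refine ha _ (fun v => ?_)
    rw [map_nsmul, nsmul_eq_mul, CharP.cast_eq_zero, zero_mul]
  letI mod : Module (ZMod p) (Z ⧸ B) := AddCommGroup.zmodModule (n := p) (by
    intro x
    induction x using QuotientAddGroup.induction_on with
    | H v =>
      rw [← QuotientAddGroup.mk_nsmul]
      exact (QuotientAddGroup.eq_zero_iff _).mpr (hpB v))
  let b' : V →+ ((Z ⧸ B) →+ ZMod p) :=
    { toFun := fun v => QuotientAddGroup.lift B (b v) (fun z hz => h0 v z hz)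
      map_zero' := by
        ext z
        show b 0 z = 0
        rw [map_zero]; rfl
      map_add' := fun v w => by
        ext z
        show b (v + w) z = b v z + b w z
        rw [map_add]; rfl }
  have hb' : ∀ v z, b' v (QuotientAddGroup.mk z) = b v z := fun v z => rfl
  have hsurj : ∀ f : (Z ⧸ B) →+ ZMod p, ∃ v, b' v = f := by
    intro f
    have : f ∈ b'.range := by
      refine mem_of_double_ann _ f (fun h hh => ?_)
      induction h using QuotientAddGroup.induction_on with
      | H z =>
        have : z ∈ B := ha z (fun v => by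
          rw [← hb']
          exact hh _ ⟨v, rfl⟩)
        rw [(QuotientAddGroup.eq_zero_iff z).mpr this, map_zero]
    exact this
  let T' : AddSubgroup (Z ⧸ B) := T.map (QuotientAddGroup.mk' B)
  have hmemT : ∀ z : Z, (QuotientAddGroup.mk z : Z ⧸ B) ∈ T' ↔ z ∈ T := by
    intro z
    constructor
    · rintro ⟨t, ht, htz⟩
      have h1 : z - t ∈ B := by
        rw [← QuotientAddGroup.eq_zero_iff, QuotientAddGroup.mk_sub, sub_eq_zero]
        exact htz.symm
      have := T.add_mem (hBT h1) ht
      rwa [sub_add_cancel] at this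
    · intro hz; exact ⟨z, hz, rfl⟩
  let Φ : V →+ (T' →+ ZMod p) :=
    { toFun := fun v => (b' v).comp T'.subtype
      map_zero' := by
        ext t
        show b' 0 t = 0
        rw [map_zero]; rfl
      map_add' := fun v w => by
        ext t
        show b' (v + w) t = b' v t + b' w t
        rw [map_add]; rfl }
  have hΦs : Function.Surjective Φ := by
    intro g
    obtain ⟨f, hf⟩ := exists_ext_hom T' g
    obtain ⟨v, hv⟩ := hsurj f
    refine ⟨v, ?_⟩
    ext t
    show b' v t = g t
    rw [hv, hf]
  have hker : Φ.ker = W := by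
    ext v
    rw [AddMonoidHom.mem_ker]
    constructor
    · intro hv
      have h1 : b' v ∈ W.map b' := by
        refine mem_of_double_ann _ _ (fun h hh => ?_)
        induction h using QuotientAddGroup.induction_on with
        | H z =>
          have h2 : z ∈ T := (hc z).mpr (fun w hw => by
            rw [← hb']
            exact hh _ ⟨w, hw, rfl⟩)
          have h3 := DFunLike.congr_fun hv ⟨QuotientAddGroup.mk z, (hmemT z).mpr h2⟩
          exact h3
      obtain ⟨w, hw, hwv⟩ := h1
      have h2 : v - w ∈ W := by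
        refine hb _ (fun z => ?_)
        have h3 := DFunLike.congr_fun hwv (QuotientAddGroup.mk z)
        rw [hb', hb'] at h3
        rw [map_sub, AddMonoidHom.sub_apply, h3, sub_self]
      have := W.add_mem h2 hw
      rwa [sub_add_cancel] at this
    · intro hv
      ext t
      obtain ⟨t, ht⟩ := t
      obtain ⟨z, hz, rfl⟩ := ht
      exact (hc z).mp hz v hv
  have e1 : (V ⧸ W) ≃+ (T' →+ ZMod p) := by
    refine (QuotientAddGroup.quotientAddEquivOfEq hker.symm).trans ?_
    exact QuotientAddGroup.quotientKerEquivOfSurjective Φ hΦs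
  -- T' ≃ T / B
  let π : T →+ T' :=
    { toFun := fun t => ⟨QuotientAddGroup.mk (t : Z), (hmemT _).mpr t.2⟩
      map_zero' := rfl
      map_add' := fun _ _ => rfl }
  have hπs : Function.Surjective π := by
    rintro ⟨_, z, hz, rfl⟩
    exact ⟨⟨z, hz⟩, rfl⟩
  have hπk : π.ker = B.addSubgroupOf T := by
    ext t
    rw [AddMonoidHom.mem_ker, AddSubgroup.mem_addSubgroupOf]
    constructor
    · intro h
      exact (QuotientAddGroup.eq_zero_iff _).mp (congrArg Subtype.val h)
    · intro h
      exact Subtype.ext ((QuotientAddGroup.eq_zero_iff _).mpr h)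
  have e2 : (T ⧸ B.addSubgroupOf T) ≃+ T' :=
    (QuotientAddGroup.quotientAddEquivOfEq hπk.symm).trans
      (QuotientAddGroup.quotientKerEquivOfSurjective π hπs)
  letI modT : Module (ZMod p) T' := AddCommGroup.zmodModule (n := p) (by
    intro x
    apply Subtype.ext
    show p • (x : Z ⧸ B) = 0
    have : (p : ZMod p) • (x : Z ⧸ B) = 0 := by rw [CharP.cast_eq_zero, zero_smul]
    rwa [Nat.cast_smul_eq_nsmul] at this)
  refine ⟨?_, Finite.of_equiv _ e2.symm.toEquiv⟩
  rw [Nat.card_congr e1.toEquiv, Nat.card_congr e2.toEquiv]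
  exact card_dual

end

end Fermat.Agent.CFT
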