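import Fermat.Agent.CFT.EPair

set_option autoImplicit false
set_option maxHeartbeats 400000

/-! Norms from a field where the everywhere-split characters vanish. -/

namespace Fermat.Agent.CFT

open Finset Fermat.Agent.CFTSec

noncomputable section

variable {S : Finset Nat.Primes} {K L : IntermediateField ℚ Qb} {p : ℕ} [hp : Fact p.Prime]

/-- a common field for a finite family of characters -/
theorem exists_common {X : Type*} [Finite X] (f : X → HomS S K p) {K' : IntermediateField ℚ Qb}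
    (hK' : K'.IsUnramifiedOutside S) :
    ∃ L : IntermediateField ℚ Qb, L.IsUnramifiedOutside S ∧ K' ≤ L ∧ L.fixingSubgroup.Normal ∧
      ∀ x, ∀ g : K.fixingSubgroup, (g : GQ) ∈ L.fixingSubgroup → (f x).1 g = 1 := by
  choose F hF hFx using fun x => (f x).2
  have h1 : (⨆ x, F x).IsUnramifiedOutside S := IsUnramifiedOutside.iSup hF
  obtain ⟨N, hN1, hN2, hN3⟩ := exists_galois_unram (h1.sup hK')
  haveI := Fermat.Agent.Frob.isGalois_Qbar
  haveI := hN2.1
  refine ⟨N, hN2, le_sup_right.trans hN1, ?_, ?_⟩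
  · exact ((InfiniteGalois.isOpen_and_normal_iff_finite_and_isGalois N).mpr ⟨hN2.1, hN3⟩).2
  · intro x g hg
    apply hFx x g
    exact IntermediateField.fixingSubgroup_antitone (((le_iSup F x).trans le_sup_left).trans hN1) hg

/-- classes of ideles supported on `S` are norms from split characters -/
theorem locC_nrm (hpS : pP p ∈ S) (hK : K.IsUnramifiedOutside S) (χ : HomX S K p)
    {c : ↥(fix (Cm S) K.fixingSubgroup)} (hc : c ∈ locC S K) : IsNrm χ.1.1 c.1 := by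
  intro s hs hs1
  obtain ⟨j, hj, hj2, hjc⟩ := hc
  have hcyc := cycP_kerS hs hs1
  have hq : ∀ q : S, ∃ b ∈ fix (JQ q.1) (kerS χ.1.1), j.1.1 q = ∑ i ∈ range p, s ^ i • b := by
    intro q
    apply mem_nrmGrp_coind (localGaloisToGlobal (q.1 : ℕ)) hp.out.pos hcyc (fix_comp hj q)
    intro σ
    left
    intro t ht
    have ht' : σ⁻¹ * localGaloisToGlobal (q.1 : ℕ) t * σ ∈ K.fixingSubgroup := ht
    exact mem_kerS.mpr ⟨ht', χ.2 q.1 q.2 σ t ⟨_, ht'⟩ rfl⟩
  choose b hb hjb using hq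
  obtain ⟨F, hF, hFχ⟩ := χ.1.2
  obtain ⟨F', hF', -, hF'e⟩ := exists_field (hF.sup hK) (kerS χ.1.1) (fun g hg => by
    have h1 : g ∈ F.fixingSubgroup := IntermediateField.fixingSubgroup_antitone le_sup_left hg
    have h2 : g ∈ K.fixingSubgroup := IntermediateField.fixingSubgroup_antitone le_sup_right hg
    exact mem_kerS.mpr ⟨h2, hFχ ⟨g, h2⟩ h1⟩)
  have hBfix : ((b, 0) : IdT S) ∈ fix (IdT S) (kerS χ.1.1) := fun g hg =>
    Prod.ext (funext fun q => hb q g hg) (smul_zero g)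
  let B : Jm S := ⟨(b, 0), F', hF', by rw [hF'e]; exact hBfix⟩
  have hBf : B ∈ fix (Jm S) (kerS χ.1.1) := fun g hg => Subtype.ext (hBfix g hg)
  refine ⟨toC S B, toC_mem_fix hBf, ?_⟩
  have e : j = ∑ i ∈ range p, s ^ i • B := by
    apply Subtype.ext
    rw [AddSubgroup.val_finset_sum]
    apply Prod.ext
    · funext q
      rw [hjb q, Prod.fst_sum, Finset.sum_apply]
      rfl
    · rw [Prod.snd_sum]
      have : ∀ i ∈ range p, (((s ^ i • B : Jm S) : IdT S)).2 = 0 := by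
        intro i _
        show s ^ i • (0 : DivG S) = 0
        rw [smul_zero]
      rw [sum_congr rfl this, sum_const_zero]
      exact hj2
  rw [← hjc, e, map_sum]
  exact sum_congr rfl fun i _ => toC_smul _ _

/-- traces are norms from intermediate characters -/
theorem trace_nrm (hL : L.IsUnramifiedOutside S) [hLn : L.fixingSubgroup.Normal]
    (χ : K.fixingSubgroup →* Multiplicative (ZMod p))
    (hχ : ∀ g : K.fixingSubgroup, (g : GQ) ∈ L.fixingSubgroup → χ g = 1)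
    [Fintype (HK K L)] (c : ↥(fix (Cm S) L.fixingSubgroup)) :
    IsNrm χ (∑ h : HK K L, h • c).1 := by
  intro s hs hs1
  haveI : Finite (HK K L) := inferInstance
  have hs' : cA (L := L) χ hχ (piK ⟨s, hs⟩) = 1 := by rw [cA_pi, hs1]; rfl
  have hcyc0 := cycP_kerS hs hs1
  -- cyclic structure on the finite group
  have hcyc : CycP p (chH (L := L) χ hχ).ker ⊤ (piK ⟨s, hs⟩) := by
    haveI : NeZero p := ⟨hp.out.ne_zero⟩
    have hk : ∀ g, g ∈ (chH (L := L) χ hχ).ker ↔ cA (L := L) χ hχ g = 0 := fun g => Iff.rfl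
    refine ⟨le_top, trivial, ?_, ?_, ?_⟩
    · intro g _ k hk'
      exact (MonoidHom.normal_ker (chH (L := L) χ hχ)).conj_mem k hk' g
    · intro g _
      refine ⟨(cA (L := L) χ hχ g).val, ZMod.val_lt _,
        ((piK ⟨s, hs⟩) ^ (cA (L := L) χ hχ g).val)⁻¹ * g, ?_, by group⟩
      rw [MonoidHom.mem_ker, map_mul, map_inv, map_pow, chH_pi, hs1]
      apply Multiplicative.toAdd.injective
      rw [toAdd_mul, toAdd_inv, toAdd_pow, toAdd_ofAdd, nsmul_eq_mul, mul_one, ZMod.natCast_zmod_val]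
      exact neg_add_cancel _
    · intro i
      rw [MonoidHom.mem_ker, map_pow, chH_pi, hs1, ← ofAdd_nsmul, nsmul_eq_mul, mul_one,
        ofAdd_eq_one, ZMod.natCast_eq_zero_iff]
  have hb0 : c ∈ fix ↥(fix (Cm S) L.fixingSubgroup) (⊥ : Subgroup (HK K L)) := by
    intro k hk
    rw [Subgroup.mem_bot.mp hk, one_smul]
  haveI : (chH (L := L) χ hχ).ker.FiniteIndex := inferInstance
  obtain ⟨b, hb, hcb⟩ := trc_cyc_top (K := (⊥ : Subgroup (HK K L))) bot_le hcyc hb0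
  rw [trc_bot] at hcb
  refine ⟨b.1, ?_, ?_⟩
  · intro g hg
    obtain ⟨hgK, hg1⟩ := mem_kerS.mp hg
    have := hb (piK ⟨g, hgK⟩) (by rw [MonoidHom.mem_ker, chH_pi, hg1])
    exact congrArg Subtype.val this
  · rw [hcb, AddSubgroup.val_finset_sum]
    exact sum_congr rfl fun i _ => rfl

theorem finite_HomS (hp2 : 2 < p) (hpS : pP p ∈ S) (hK : K.IsUnramifiedOutside S) {ζ : Qb}
    (hζ : IsPrimitiveRoot ζ p) (hζK : ζ ∈ K) : Finite (HomS S K p) := by
  by_contra hinf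
  apply hinf
  have h0 : Nat.card (HomS S K p) = 0 := by
    haveI : Infinite (HomS S K p) := not_finite_iff_infinite.mp hinf
    exact Nat.card_eq_zero_of_infinite
  exact (card_split hζ hζK hp2 hpS hK (by rw [h0]; exact Nat.zero_le _)).1

/-- **the annihilator of the everywhere split characters** -/
theorem mem_of_nrm (hp2 : 2 < p) (hpS : pP p ∈ S) (hK : K.IsUnramifiedOutside S)
    {ζ : Qb} (hζ : IsPrimitiveRoot ζ p) (hζK : ζ ∈ K)
    (a : ↥(fix (Cm S) K.fixingSubgroup)) (ha : ∀ χ : HomX S K p, IsNrm χ.1.1 a.1) :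
    a ∈ (mulN ↥(fix (Cm S) K.fixingSubgroup) p).range ⊔ locC S K := by
  classical
  haveI := finite_HomS hp2 hpS hK hζ hζK
  haveI : Finite (HomX S K p) := Subtype.finite
  obtain ⟨L, hL, hKL, hLn, hLχ⟩ := exists_common (fun x : HomS S K p => x) hK
  have hle : L.fixingSubgroup ≤ K.fixingSubgroup := IntermediateField.fixingSubgroup_antitone hKL
  obtain ⟨pr, hadd, hker⟩ := exists_pr (S := S) (K := K) hp2 hpS hζ (hKL hζK) hL hle
  have hinj : ∀ χ χ' : HomS S K p, pr ⟨χ.1, hLχ χ⟩ = pr ⟨χ'.1, hLχ χ'⟩ → χ = χ' := by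
    intro χ χ' h
    apply Subtype.ext
    by_contra hne
    have hne' : χ.1 * χ'.1⁻¹ ≠ 1 := fun h1 => hne (mul_inv_eq_one.mp h1)
    have hq : ∀ g : K.fixingSubgroup, (g : GQ) ∈ L.fixingSubgroup → (χ.1 * χ'.1⁻¹) g = 1 := by
      intro g hg
      rw [MonoidHom.mul_apply, MonoidHom.inv_apply, hLχ χ g hg, hLχ χ' g hg, inv_one, one_mul]
    have h1 := hadd ⟨χ.1, hLχ χ⟩ ⟨χ.1 * χ'.1⁻¹, hq⟩ ⟨χ'.1, hLχ χ'⟩ (by
      show χ.1 = χ.1 * χ'.1⁻¹ * χ'.1
      rw [inv_mul_cancel_right])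
    rw [h, eq_comm, add_eq_right] at h1
    obtain ⟨a, ha, hna⟩ := exists_not_nrm hp2 hpS hK hζ hζK hL hle hne' hq
    apply hna
    have := (hker ⟨χ.1 * χ'.1⁻¹, hq⟩ ⟨a, ha⟩).mp (by rw [h1]; rfl)
    exact this
  have hpC : ((mulN ↥(fix (Cm S) K.fixingSubgroup) p).range).index ≠ 0 := by
    haveI := hK.1
    exact (phi_C (F := K) hp2 hpS hK (ζ := ⟨ζ, hζK⟩)
      (IsPrimitiveRoot.coe_submonoidClass_iff.mp hζ)).1.coker
  have hkillp : ∀ (Φ : ↥(fix (Cm S) K.fixingSubgroup) →+ ZMod p),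
      ∀ w ∈ (mulN ↥(fix (Cm S) K.fixingSubgroup) p).range, Φ w = 0 := by
    rintro Φ _ ⟨v, rfl⟩
    show Φ (p • v) = 0
    rw [map_nsmul, nsmul_eq_mul, CharP.cast_eq_zero, zero_mul]
  have hcardS := (card_le_index (mulN ↥(fix (Cm S) K.fixingSubgroup) p).range hpC
    (fun v => ⟨v, rfl⟩) (fun χ : HomS S K p => pr ⟨χ.1, hLχ χ⟩) (fun χ χ' h => hinj χ χ' h)
    (fun χ => hkillp _)).1
  obtain ⟨-, hidx0, hidx⟩ := card_split hζ hζK hp2 hpS hK hcardS
  have h2 := (card_le_index ((mulN ↥(fix (Cm S) K.fixingSubgroup) p).range ⊔ locC S K) hidx0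
    (fun v => (le_sup_left : (mulN ↥(fix (Cm S) K.fixingSubgroup) p).range ≤ _) ⟨v, rfl⟩)
    (fun χ : HomX S K p => pr ⟨χ.1.1, hLχ χ.1⟩) (fun χ χ' h => Subtype.ext (hinj χ.1 χ'.1 h))
    (fun χ w hw => by
      obtain ⟨x, hx, y, hy, rfl⟩ := AddSubgroup.mem_sup.mp hw
      rw [map_add, hkillp _ x hx, zero_add]
      exact (hker _ _).mpr (locC_nrm hpS hK χ hy))).2 hidx a
  exact h2 fun χ => (hker _ _).mpr (ha χ)

/-- **traces from large fields** -/
theorem exists_trace (hp2 : 2 < p) (hpS : pP p ∈ S) (hK : K.IsUnramifiedOutside S)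
    [hKn : K.fixingSubgroup.Normal] {ζ : Qb} (hζ : IsPrimitiveRoot ζ p) (hζK : ζ ∈ K) :
    ∃ M : IntermediateField ℚ Qb, M.IsUnramifiedOutside S ∧ K ≤ M ∧ M.fixingSubgroup.Normal ∧
      (∀ χ : HomX S K p, ∀ g : K.fixingSubgroup, (g : GQ) ∈ M.fixingSubgroup → χ.1.1 g = 1) ∧
      ∀ (L : IntermediateField ℚ Qb) (hL : L.IsUnramifiedOutside S) (hLn : L.fixingSubgroup.Normal)
        (hML : M ≤ L) (hfin : Fintype (HK K L)) (c : ↥(fix (Cm S) L.fixingSubgroup)),
        ∃ a ∈ fix (Cm S) K.fixingSubgroup, ∃ j ∈ fix (Jm S) K.fixingSubgroup, j.1.2 = 0 ∧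
          (∑ h : HK K L, h • c).1 = p • a + toC S j := by
  classical
  haveI := finite_HomS hp2 hpS hK hζ hζK
  haveI : Finite (HomX S K p) := Subtype.finite
  obtain ⟨M, hM, hKM, hMn, hMχ⟩ := exists_common (fun x : HomS S K p => x) hK
  refine ⟨M, hM, hKM, hMn, fun χ => hMχ χ.1, ?_⟩
  intro L hL hLn hML hfin c
  have hfix : (∑ h : HK K L, h • c).1 ∈ fix (Cm S) K.fixingSubgroup := by
    intro g hg
    have h1 : (piK (K := K) (L := L) ⟨g, hg⟩) • (∑ h : HK K L, h • c) = ∑ h : HK K L, h • c := by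
      rw [smul_sum]
      simp_rw [smul_smul]
      exact Equiv.sum_comp (Equiv.mulLeft (piK (K := K) (L := L) ⟨g, hg⟩)) (fun h => h • c)
    exact congrArg Subtype.val h1
  have h1 := mem_of_nrm hp2 hpS hK hζ hζK ⟨_, hfix⟩ (fun χ =>
    trace_nrm hL χ.1.1 (fun g hg => hMχ χ.1 g (IntermediateField.fixingSubgroup_antitone hML hg)) c)
  obtain ⟨x, ⟨a, rfl⟩, y, ⟨j, hj, hj2, hjy⟩, hxy⟩ := AddSubgroup.mem_sup.mp h1
  refine ⟨a.1, a.2, j, hj, hj2, ?_⟩
  have h2 := congrArg Subtype.val hxy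
  rw [hjy]
  exact h2.symm

end

end Fermat.Agent.CFT
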