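import Fermat.Agent.CFT.EMain

set_option autoImplicit false
set_option maxHeartbeats 400000

/-! The strong existence theorem: norms from large fields are `p`-th powers. -/

namespace Fermat.Agent.CFT

open Finset Fermat.Agent.CFTSec

noncomputable section

variable {S : Finset Nat.Primes} {K : IntermediateField ℚ Qb} {p : ℕ} [hp : Fact p.Prime]

theorem pC_count (hp2 : 2 < p) (hpS : pP p ∈ S) (hK : K.IsUnramifiedOutside S)
    {ζ : Qb} (hζ : IsPrimitiveRoot ζ p) (hζK : ζ ∈ K) :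
    ∃ (L : IntermediateField ℚ Qb) (_ : L.IsUnramifiedOutside S) (_ : L.fixingSubgroup.Normal)
      (_ : K ≤ L) (hLχ : ∀ χ : HomS S K p, ∀ g : K.fixingSubgroup,
        (g : GQ) ∈ L.fixingSubgroup → χ.1 g = 1)
      (pr : {χ : K.fixingSubgroup →* Multiplicative (ZMod p) //
        ∀ g : K.fixingSubgroup, (g : GQ) ∈ L.fixingSubgroup → χ g = 1} →
        (↥(fix (Cm S) K.fixingSubgroup) →+ ZMod p)),
      (∀ χ a, pr χ a = 0 ↔ IsNrm χ.1 a.1) ∧
      (∀ χ χ' : HomS S K p, pr ⟨χ.1, hLχ χ⟩ = pr ⟨χ'.1, hLχ χ'⟩ → χ = χ') ∧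
      (mulN ↥(fix (Cm S) K.fixingSubgroup) p).range.index ≠ 0 ∧
      (mulN ↥(fix (Cm S) K.fixingSubgroup) p).range.index ≤ Nat.card (HomS S K p) := by
  classical
  haveI := finite_HomS hp2 hpS hK hζ hζK
  haveI : Finite (HomX S K p) := Subtype.finite
  obtain ⟨L, hL, hKL, hLn, hLχ⟩ := exists_common (fun x : HomS S K p => x) hK
  have hle : L.fixingSubgroup ≤ K.fixingSubgroup := IntermediateField.fixingSubgroup_antitone hKL
  obtain ⟨pr, hadd, hker⟩ := exists_pr (S := S) (K := K) hp2 hpS hζ (hKL hζK) hL hle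
  have hinj : ∀ χ χ' : HomS S K p, pr ⟨χ.1, hLχ χ⟩ = pr ⟨χ'.1, hLχ χ'⟩ → χ = χ' := by
    intro χ χ' h
    apply Subtype.ext
    by_contra hne
    have hne' : χ.1 * χ'.1⁻¹ ≠ 1 := fun h1 => hne (mul_inv_eq_one.mp h1)
    have hq : ∀ g : K.fixingSubgroup, (g : GQ) ∈ L.fixingSubgroup → (χ.1 * χ'.1⁻¹) g = 1 := by
      intro g hg
      rw [MonoidHom.mul_apply, MonoidHom.inv_apply, hLχ χ g hg, hLχ χ' g hg, inv_one, one_mul]
    have h1 := hadd ⟨χ.1, hLχ χ⟩ ⟨χ.1 * χ'.1⁻¹, hq⟩ ⟨χ'.1, hLχ χ'⟩ (by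
      show χ.1 = χ.1 * χ'.1⁻¹ * χ'.1
      rw [inv_mul_cancel_right])
    rw [h, eq_comm, add_eq_right] at h1
    obtain ⟨a, ha, hna⟩ := exists_not_nrm hp2 hpS hK hζ hζK hL hle hne' hq
    apply hna
    have := (hker ⟨χ.1 * χ'.1⁻¹, hq⟩ ⟨a, ha⟩).mp (by rw [h1]; rfl)
    exact this
  have hpC : ((mulN ↥(fix (Cm S) K.fixingSubgroup) p).range).index ≠ 0 := by
    haveI := hK.1
    exact (phi_C (F := K) hp2 hpS hK (ζ := ⟨ζ, hζK⟩)
      (IsPrimitiveRoot.coe_submonoidClass_iff.mp hζ)).1.coker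
  refine ⟨L, hL, hLn, hKL, hLχ, pr, hker, hinj, hpC, ?_⟩
  have hkillp : ∀ (Φ : ↥(fix (Cm S) K.fixingSubgroup) →+ ZMod p),
      ∀ w ∈ (mulN ↥(fix (Cm S) K.fixingSubgroup) p).range, Φ w = 0 := by
    rintro Φ _ ⟨v, rfl⟩
    show Φ (p • v) = 0
    rw [map_nsmul, nsmul_eq_mul, CharP.cast_eq_zero, zero_mul]
  have hS : S.Nonempty := ⟨_, hpS⟩
  have hd := cdata (p := p) hS hK
  obtain ⟨hU, hJ⟩ := index_J_le hp2 hpS hK hζ hζK
  have hloc : locC S K = (piC hK).range := by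
    ext c
    constructor
    · rintro ⟨j, hj, hj1, hj2⟩
      refine ⟨fun q => ⟨j.1.1 q, fix_comp hj q⟩, ?_⟩
      apply Subtype.ext
      rw [piC_val, ← hj2]
      congr 1
      apply Subtype.ext
      exact Prod.ext rfl hj1.symm
    · rintro ⟨y, rfl⟩
      exact ⟨mkJ hK y, mkJ_fix hK y, rfl, rfl⟩
  have hP0 : ((mulN ↥(fix (Cm S) K.fixingSubgroup) p).range ⊔ (piC hK).range).index ≠ 0 := by
    rw [hd.index_P]
    intro h0
    apply hd.fin
    have := AddSubgroup.relIndex_mul_index (le_sup_right :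
      (dK S K).range ≤ (mulN ↥(fix (DivG S) K.fixingSubgroup) p).range ⊔ (dK S K).range)
    rw [← this, h0, mul_zero]
  have hV0 : (mulN ↥(fix (QS S) K.fixingSubgroup) p).range.relIndex
      ((mulN ↥(fix (DivG S) K.fixingSubgroup) p).range.comap (dK S K)) ≠ 0 := by
    rw [hd.countB]
    exact mul_ne_zero hU hP0
  obtain ⟨hfin, hle'⟩ := card_HomS hζ hζK hK hpS hV0
  have hX := (card_le_index ((mulN ↥(fix (Cm S) K.fixingSubgroup) p).range ⊔ locC S K)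
    (by rw [hloc]; exact hP0)
    (fun v => (le_sup_left : (mulN ↥(fix (Cm S) K.fixingSubgroup) p).range ≤ _) ⟨v, rfl⟩)
    (fun χ : HomX S K p => pr ⟨χ.1.1, hLχ χ.1⟩) (fun χ χ' h => Subtype.ext (hinj χ.1 χ'.1 h))
    (fun χ w hw => by
      obtain ⟨x, hx, y, hy, rfl⟩ := AddSubgroup.mem_sup.mp hw
      rw [map_add, hkillp _ x hx, zero_add]
      exact (hker _ _).mpr (locC_nrm hpS hK χ hy))).1
  have hX2 := card_HomX hζ hζK hK hpS
  have hA := hd.countA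
  have hB := hd.countB
  rw [hloc] at hX
  refine le_trans ?_ hle'
  -- arithmetic
  have hpos : 0 < (mulN ↥(fix (QS S) K.fixingSubgroup) p).range.relIndex
      ((mulN ↥(fix (DivG S) K.fixingSubgroup) p).range.comap (dK S K)) := Nat.pos_of_ne_zero hV0
  refine Nat.le_of_mul_le_mul_right ?_ hpos
  rw [hA]
  refine le_trans (Nat.mul_le_mul (Nat.mul_le_mul_left _ hJ) (hX2.trans hX)) ?_
  rw [hB]
  apply le_of_eq
  ring

theorem mem_of_nrm' (hp2 : 2 < p) (hpS : pP p ∈ S) (hK : K.IsUnramifiedOutside S)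
    {ζ : Qb} (hζ : IsPrimitiveRoot ζ p) (hζK : ζ ∈ K)
    (a : ↥(fix (Cm S) K.fixingSubgroup)) (ha : ∀ χ : HomS S K p, IsNrm χ.1 a.1) :
    a ∈ (mulN ↥(fix (Cm S) K.fixingSubgroup) p).range := by
  haveI := finite_HomS hp2 hpS hK hζ hζK
  obtain ⟨L, hL, hLn, hKL, hLχ, pr, hker, hinj, hpC, hle⟩ := pC_count hp2 hpS hK hζ hζK
  have hkillp : ∀ (Φ : ↥(fix (Cm S) K.fixingSubgroup) →+ ZMod p),
      ∀ w ∈ (mulN ↥(fix (Cm S) K.fixingSubgroup) p).range, Φ w = 0 := by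
    rintro Φ _ ⟨v, rfl⟩
    show Φ (p • v) = 0
    rw [map_nsmul, nsmul_eq_mul, CharP.cast_eq_zero, zero_mul]
  exact (card_le_index (mulN ↥(fix (Cm S) K.fixingSubgroup) p).range hpC
    (fun v => ⟨v, rfl⟩) (fun χ : HomS S K p => pr ⟨χ.1, hLχ χ⟩) (fun χ χ' h => hinj χ χ' h)
    (fun χ => hkillp _)).2 hle a (fun χ => (hker _ _).mpr (ha χ))

/-- **norms from large fields are `p`-divisible** -/
theorem exists_trace2 (hp2 : 2 < p) (hpS : pP p ∈ S) (hK : K.IsUnramifiedOutside S)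
    [hKn : K.fixingSubgroup.Normal] {ζ : Qb} (hζ : IsPrimitiveRoot ζ p) (hζK : ζ ∈ K) :
    ∃ M : IntermediateField ℚ Qb, M.IsUnramifiedOutside S ∧ K ≤ M ∧ M.fixingSubgroup.Normal ∧
      (∀ χ : HomS S K p, ∀ g : K.fixingSubgroup, (g : GQ) ∈ M.fixingSubgroup → χ.1 g = 1) ∧
      ∀ (L : IntermediateField ℚ Qb) (hL : L.IsUnramifiedOutside S) (hLn : L.fixingSubgroup.Normal)
        (hML : M ≤ L) (hfin : Fintype (HK K L)) (c : ↥(fix (Cm S) L.fixingSubgroup)),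
        ∃ a ∈ fix (Cm S) K.fixingSubgroup, (∑ h : HK K L, h • c).1 = p • a := by
  classical
  haveI := finite_HomS hp2 hpS hK hζ hζK
  obtain ⟨M, hM, hKM, hMn, hMχ⟩ := exists_common (fun x : HomS S K p => x) hK
  refine ⟨M, hM, hKM, hMn, hMχ, ?_⟩
  intro L hL hLn hML hfin c
  have hfix : (∑ h : HK K L, h • c).1 ∈ fix (Cm S) K.fixingSubgroup := by
    intro g hg
    have h1 : (piK (K := K) (L := L) ⟨g, hg⟩) • (∑ h : HK K L, h • c) = ∑ h : HK K L, h • c := by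
      rw [smul_sum]
      simp_rw [smul_smul]
      exact Equiv.sum_comp (Equiv.mulLeft (piK (K := K) (L := L) ⟨g, hg⟩)) (fun h => h • c)
    exact congrArg Subtype.val h1
  obtain ⟨a, ha⟩ := mem_of_nrm' hp2 hpS hK hζ hζK ⟨_, hfix⟩ (fun χ =>
    trace_nrm hL χ.1 (fun g hg => hMχ χ g (IntermediateField.fixingSubgroup_antitone hML hg)) c)
  exact ⟨a.1, a.2, (congrArg Subtype.val ha).symm⟩

end

end Fermat.Agent.CFT
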