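import Fermat.Agent.CFT.ESub
import Fermat.Agent.CFTSec.Dual3

set_option autoImplicit false
set_option maxHeartbeats 400000

/-! The pairing between idele classes and characters of order `p`. -/

namespace Fermat.Agent.CFT

open Finset Fermat.Agent.CFTSec

noncomputable section

section count

theorem card_dual {M : Type*} [AddCommGroup M] {p : ℕ} [hp : Fact p.Prime] [Module (ZMod p) M]
    [Finite M] : Nat.card (M →+ ZMod p) = Nat.card M := by
  let e : (M →+ ZMod p) ≃ Module.Dual (ZMod p) M :=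
    { toFun := fun f => f.toZModLinearMap p
      invFun := fun f => f.toAddMonoidHom
      left_inv := fun f => by ext; rfl
      right_inv := fun f => by ext; rfl }
  haveI : Finite (M →+ ZMod p) := DFunLike.finite _
  haveI : Fintype M := Fintype.ofFinite _
  haveI : Finite (Module.Dual (ZMod p) M) := Finite.of_equiv _ e
  haveI : Fintype (Module.Dual (ZMod p) M) := Fintype.ofFinite _
  rw [Nat.card_congr e, Nat.card_eq_fintype_card, Nat.card_eq_fintype_card,
    Module.card_eq_pow_finrank (K := ZMod p) (V := M),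
    Module.card_eq_pow_finrank (K := ZMod p) (V := Module.Dual (ZMod p) M),
    Subspace.dual_finrank_eq]

theorem eq_zero_of_dual {M : Type*} [AddCommGroup M] {p : ℕ} [hp : Fact p.Prime]
    [Module (ZMod p) M] {x : M} (h : ∀ f : M →+ ZMod p, f x = 0) : x = 0 := by
  rw [← Module.forall_dual_apply_eq_zero_iff (ZMod p)]
  intro f
  exact h f.toAddMonoidHom

/-- duality count -/
theorem card_le_index {V : Type*} [AddCommGroup V] {p : ℕ} [hp : Fact p.Prime] (W : AddSubgroup V)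
    (hW : W.index ≠ 0) (hpW : ∀ v, p • v ∈ W) {X : Type*} [Finite X] (Φ : X → (V →+ ZMod p))
    (hinj : Function.Injective Φ) (hΦ : ∀ x, ∀ w ∈ W, Φ x w = 0) :
    Nat.card X ≤ W.index ∧ (W.index ≤ Nat.card X → ∀ v, (∀ x, Φ x v = 0) → v ∈ W) := by
  classical
  haveI hfin : Finite (V ⧸ W) := Nat.finite_of_card_ne_zero hW
  letI mod : Module (ZMod p) (V ⧸ W) := AddCommGroup.zmodModule (n := p) (by
    intro x
    induction x using QuotientAddGroup.induction_on with
    | H v =>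
      rw [← QuotientAddGroup.mk_nsmul]
      exact (QuotientAddGroup.eq_zero_iff _).mpr (hpW v))
  haveI : Finite ((V ⧸ W) →+ ZMod p) := DFunLike.finite _
  have hcard : Nat.card ((V ⧸ W) →+ ZMod p) = W.index := card_dual
  let Ψ : X → ((V ⧸ W) →+ ZMod p) := fun x => QuotientAddGroup.lift W (Φ x) (fun w hw => hΦ x w hw)
  have hΨ : Function.Injective Ψ := by
    intro x y h
    apply hinj
    ext v
    exact DFunLike.congr_fun h (QuotientAddGroup.mk v)
  have hle := Nat.card_le_card_of_injective Ψ hΨ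
  rw [hcard] at hle
  refine ⟨hle, fun hge v hv => ?_⟩
  have hbij : Function.Bijective Ψ := by
    haveI : Fintype X := Fintype.ofFinite _
    haveI : Fintype ((V ⧸ W) →+ ZMod p) := Fintype.ofFinite _
    rw [Fintype.bijective_iff_injective_and_card]
    refine ⟨hΨ, ?_⟩
    rw [← Nat.card_eq_fintype_card, ← Nat.card_eq_fintype_card, hcard]
    exact le_antisymm hle hge
  have h1 : (QuotientAddGroup.mk v : V ⧸ W) = 0 := by
    apply eq_zero_of_dual (p := p)
    intro f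
    obtain ⟨x, rfl⟩ := hbij.2 f
    exact hv x
  exact (QuotientAddGroup.eq_zero_iff v).mp h1

end count

section setup

variable {S : Finset Nat.Primes} {K L : IntermediateField ℚ Qb} {p : ℕ} [hp : Fact p.Prime]

/-- the kernel of a character -/
def kerS (χ : K.fixingSubgroup →* Multiplicative (ZMod p)) : Subgroup GQ :=
  χ.ker.map K.fixingSubgroup.subtype

theorem mem_kerS {χ : K.fixingSubgroup →* Multiplicative (ZMod p)} {g : GQ} :
    g ∈ kerS χ ↔ ∃ h : g ∈ K.fixingSubgroup, χ ⟨g, h⟩ = 1 := by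
  constructor
  · rintro ⟨g, hg, rfl⟩; exact ⟨g.2, hg⟩
  · rintro ⟨h, h'⟩; exact ⟨⟨g, h⟩, h', rfl⟩

/-- a class is a norm from the kernel of the character -/
def IsNrm (χ : K.fixingSubgroup →* Multiplicative (ZMod p)) (c : Cm S) : Prop :=
  ∀ (s : GQ) (hs : s ∈ K.fixingSubgroup), χ ⟨s, hs⟩ = Multiplicative.ofAdd 1 →
    c ∈ (nrmGrp p s (kerS χ) : AddSubgroup (Cm S))

theorem cycP_kerS {χ : K.fixingSubgroup →* Multiplicative (ZMod p)} {s : GQ}
    (hs : s ∈ K.fixingSubgroup) (h1 : χ ⟨s, hs⟩ = Multiplicative.ofAdd 1) :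
    CycP p (kerS χ) K.fixingSubgroup s := by
  have hpow : ∀ i : ℕ, χ ⟨s ^ i, K.fixingSubgroup.pow_mem hs i⟩ =
      Multiplicative.ofAdd ((i : ℕ) : ZMod p) := by
    intro i
    have : (⟨s ^ i, K.fixingSubgroup.pow_mem hs i⟩ : K.fixingSubgroup) = ⟨s, hs⟩ ^ i := rfl
    rw [this, map_pow, h1, ← ofAdd_nsmul, nsmul_eq_mul, mul_one]
  haveI : NeZero p := ⟨hp.out.ne_zero⟩
  refine ⟨?_, hs, ?_, ?_, ?_⟩
  · intro g hg; exact (mem_kerS.mp hg).1
  · intro g hg k hk
    obtain ⟨hk1, hk2⟩ := mem_kerS.mp hk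
    refine mem_kerS.mpr ⟨K.fixingSubgroup.mul_mem (K.fixingSubgroup.mul_mem hg hk1)
      (K.fixingSubgroup.inv_mem hg), ?_⟩
    have : (⟨g * k * g⁻¹, K.fixingSubgroup.mul_mem (K.fixingSubgroup.mul_mem hg hk1)
      (K.fixingSubgroup.inv_mem hg)⟩ : K.fixingSubgroup) = ⟨g, hg⟩ * ⟨k, hk1⟩ * ⟨g, hg⟩⁻¹ := rfl
    rw [this, map_mul, map_mul, map_inv, hk2, mul_one, mul_inv_cancel]
  · intro g hg
    refine ⟨(χ ⟨g, hg⟩).toAdd.val, ZMod.val_lt _, (s ^ (χ ⟨g, hg⟩).toAdd.val)⁻¹ * g, ?_, by group⟩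
    refine mem_kerS.mpr ⟨K.fixingSubgroup.mul_mem (K.fixingSubgroup.inv_mem
      (K.fixingSubgroup.pow_mem hs _)) hg, ?_⟩
    have : (⟨(s ^ (χ ⟨g, hg⟩).toAdd.val)⁻¹ * g, K.fixingSubgroup.mul_mem (K.fixingSubgroup.inv_mem
      (K.fixingSubgroup.pow_mem hs _)) hg⟩ : K.fixingSubgroup) =
      (⟨s ^ (χ ⟨g, hg⟩).toAdd.val, K.fixingSubgroup.pow_mem hs _⟩)⁻¹ * ⟨g, hg⟩ := rfl
    rw [this, map_mul, map_inv, hpow, ZMod.natCast_zmod_val, ofAdd_toAdd, inv_mul_cancel]
  · intro i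
    rw [mem_kerS]
    constructor
    · rintro ⟨_, h⟩
      rw [hpow, ofAdd_eq_one, ZMod.natCast_eq_zero_iff] at h
      exact h
    · intro h
      refine ⟨K.fixingSubgroup.pow_mem hs i, ?_⟩
      rw [hpow, ofAdd_eq_one, ZMod.natCast_eq_zero_iff]
      exact h

theorem exists_gen_of_ne_one {χ : K.fixingSubgroup →* Multiplicative (ZMod p)} (h : χ ≠ 1) :
    ∃ (s : GQ) (hs : s ∈ K.fixingSubgroup), χ ⟨s, hs⟩ = Multiplicative.ofAdd 1 := by
  obtain ⟨g, hg⟩ : ∃ g, χ g ≠ 1 := by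
    by_contra hcon
    push Not at hcon
    exact h (MonoidHom.ext hcon)
  have hg0 : (χ g).toAdd ≠ 0 := fun h0 => hg (congrArg Multiplicative.ofAdd h0)
  haveI : NeZero p := ⟨hp.out.ne_zero⟩
  refine ⟨(g : GQ) ^ ((χ g).toAdd⁻¹).val, K.fixingSubgroup.pow_mem g.2 _, ?_⟩
  have : (⟨(g : GQ) ^ ((χ g).toAdd⁻¹).val, K.fixingSubgroup.pow_mem g.2 _⟩ : K.fixingSubgroup) =
    g ^ ((χ g).toAdd⁻¹).val := rfl
  rw [this, map_pow]
  apply Multiplicative.toAdd.injective
  rw [toAdd_pow, toAdd_ofAdd, nsmul_eq_mul, ZMod.natCast_zmod_val, inv_mul_cancel₀ hg0]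

/-- nontrivial characters are detected by non-norms (first inequality) -/
theorem exists_not_nrm (hp2 : 2 < p) (hpS : pP p ∈ S) (hK : K.IsUnramifiedOutside S) {ζ : Qb}
    (hζ : IsPrimitiveRoot ζ p) (hζK : ζ ∈ K) (hL : L.IsUnramifiedOutside S)
    (hle : L.fixingSubgroup ≤ K.fixingSubgroup)
    {χ : K.fixingSubgroup →* Multiplicative (ZMod p)} (hne : χ ≠ 1)
    (hχ : ∀ g : K.fixingSubgroup, (g : GQ) ∈ L.fixingSubgroup → χ g = 1) :
    ∃ a ∈ fix (Cm S) K.fixingSubgroup, ¬ IsNrm χ a := by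
  by_contra hcon
  push Not at hcon
  obtain ⟨s, hs, hs1⟩ := exists_gen_of_ne_one hne
  have hc := cycP_kerS hs hs1
  obtain ⟨F', hF', -, hF'e⟩ := exists_field hL (kerS χ) (fun g hg => mem_kerS.mpr ⟨hle hg, hχ _ hg⟩)
  have hsn : s ∉ kerS χ := by
    intro h
    have := (hc.ord 1).mp (by rwa [pow_one])
    exact hp.out.one_lt.ne' (Nat.dvd_one.mp this)
  have hrel : (kerS χ).relIndex K.fixingSubgroup = p := by
    have h1 : ((kerS χ).subgroupOf K.fixingSubgroup) = χ.ker := by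
      ext g
      rw [Subgroup.mem_subgroupOf, mem_kerS]
      exact ⟨fun h => h.2, fun h => ⟨g.2, h⟩⟩
    rw [Subgroup.relIndex, h1, Subgroup.index_ker]
    have h2 : χ.range = ⊤ := by
      rw [eq_top_iff]
      intro y _
      haveI : NeZero p := ⟨hp.out.ne_zero⟩
      refine ⟨⟨s, hs⟩ ^ (y.toAdd.val), ?_⟩
      rw [map_pow, hs1]
      apply Multiplicative.toAdd.injective
      rw [toAdd_pow, toAdd_ofAdd, nsmul_eq_mul, ZMod.natCast_zmod_val, mul_one]
    rw [h2]
    rw [Nat.card_congr (Subgroup.topEquiv (G := Multiplicative (ZMod p))).toEquiv]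
    exact Nat.card_zmod p
  rw [← hF'e] at hc hrel hsn
  obtain ⟨-, t, ht0, ht, -⟩ := first_ineq hK hF' (le_of_fixing_le hc.le) hp2 hpS hζ hζK hc.norm hrel
    hs hsn
  have h1 : (nrmGrp p s F'.fixingSubgroup : AddSubgroup (Cm S)).relIndex
      (fix (Cm S) K.fixingSubgroup) = 1 := by
    rw [AddSubgroup.relIndex_eq_one]
    intro a ha
    rw [hF'e]
    exact hcon a ha s hs hs1
  rw [ht] at h1
  have := Nat.eq_one_of_mul_eq_one_right h1
  exact hp.out.one_lt.ne' this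

variable (K L) in
/-- the image of the subgroup in the finite quotient -/
def HK [L.fixingSubgroup.Normal] : Subgroup (GQ ⧸ L.fixingSubgroup) :=
  K.fixingSubgroup.map (QuotientGroup.mk' L.fixingSubgroup)

/-- the projection -/
def piK [L.fixingSubgroup.Normal] : K.fixingSubgroup →* HK K L :=
  (QuotientGroup.mk' L.fixingSubgroup).subgroupMap K.fixingSubgroup

theorem piK_surj [L.fixingSubgroup.Normal] : Function.Surjective (piK (K := K) (L := L)) :=
  MonoidHom.subgroupMap_surjective _ _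

theorem piK_val [L.fixingSubgroup.Normal] (g : K.fixingSubgroup) :
    ((piK (K := K) (L := L) g : HK K L) : GQ ⧸ L.fixingSubgroup) = QuotientGroup.mk (g : GQ) := rfl

/-- the character on the image -/
def chH [L.fixingSubgroup.Normal] (χ : K.fixingSubgroup →* Multiplicative (ZMod p))
    (hχ : ∀ g : K.fixingSubgroup, (g : GQ) ∈ L.fixingSubgroup → χ g = 1) :
    HK K L →* Multiplicative (ZMod p) :=
  MonoidHom.liftOfSurjective (piK (K := K) (L := L)) piK_surj ⟨χ, fun g hg => hχ g (by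
    have h1 : ((piK (K := K) (L := L) g : HK K L) : GQ ⧸ L.fixingSubgroup) = 1 :=
      congrArg Subtype.val (MonoidHom.mem_ker.mp hg)
    rw [piK_val] at h1
    exact (QuotientGroup.eq_one_iff _).mp h1)⟩

theorem chH_pi [L.fixingSubgroup.Normal] (χ : K.fixingSubgroup →* Multiplicative (ZMod p))
    (hχ : ∀ g : K.fixingSubgroup, (g : GQ) ∈ L.fixingSubgroup → χ g = 1) (g : K.fixingSubgroup) :
    chH (L := L) χ hχ (piK g) = χ g :=
  MonoidHom.liftOfRightInverse_comp_apply _ _ _ _ _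

/-- additive version -/
def cA [L.fixingSubgroup.Normal] (χ : K.fixingSubgroup →* Multiplicative (ZMod p))
    (hχ : ∀ g : K.fixingSubgroup, (g : GQ) ∈ L.fixingSubgroup → χ g = 1) (h : HK K L) : ZMod p :=
  (chH (L := L) χ hχ h).toAdd

theorem cA_mul [L.fixingSubgroup.Normal] (χ : K.fixingSubgroup →* Multiplicative (ZMod p))
    (hχ : ∀ g : K.fixingSubgroup, (g : GQ) ∈ L.fixingSubgroup → χ g = 1) (g h : HK K L) :
    cA χ hχ (g * h) = cA χ hχ g + cA χ hχ h :=
  congrArg Multiplicative.toAdd (map_mul (chH (L := L) χ hχ) g h)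

theorem cA_pi [L.fixingSubgroup.Normal] (χ : K.fixingSubgroup →* Multiplicative (ZMod p))
    (hχ : ∀ g : K.fixingSubgroup, (g : GQ) ∈ L.fixingSubgroup → χ g = 1) (g : K.fixingSubgroup) :
    cA (L := L) χ hχ (piK g) = (χ g).toAdd := congrArg Multiplicative.toAdd (chH_pi χ hχ g)

theorem cup_p_mem {G : Type*} [Group G] {A : Type*} [AddCommGroup A] [DistribMulAction G A]
    {χ : G → ZMod p} (hχ : ∀ g h, χ (g * h) = χ g + χ h) {a : A}
    (ha : a ∈ fix A (⊤ : Subgroup G)) : cup p (lft χ) a ∈ T2p p G A := by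
  haveI : NeZero p := ⟨hp.out.ne_zero⟩
  have hl := lft_dvd χ hχ
  refine ⟨cup_mem_Z2 hp.out.pos hl ha, fun g => lft χ g • a, fun g h => ?_⟩
  show p • (((lft χ g + lft χ h - lft χ (g * h)) / (p : ℤ)) • a) = _
  rw [smul_comm g, ha g trivial, ← natCast_zsmul, smul_smul, Int.mul_ediv_cancel' (hl g h), sub_smul,
    add_smul]

/-- the pairing -/
theorem exists_pr (hp2 : 2 < p) (hpS : pP p ∈ S) {ζ : Qb}
    (hζ : IsPrimitiveRoot ζ p) (hζL : ζ ∈ L) (hL : L.IsUnramifiedOutside S)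
    [hLn : L.fixingSubgroup.Normal] (hle : L.fixingSubgroup ≤ K.fixingSubgroup) :
    ∃ pr : {χ : K.fixingSubgroup →* Multiplicative (ZMod p) //
      ∀ g : K.fixingSubgroup, (g : GQ) ∈ L.fixingSubgroup → χ g = 1} →
      (↥(fix (Cm S) K.fixingSubgroup) →+ ZMod p),
      (∀ χ χ' χ'', χ.1 = χ'.1 * χ''.1 → pr χ = pr χ' + pr χ'') ∧
      ∀ χ a, pr χ a = 0 ↔ IsNrm χ.1 a.1 := by
  classical
  haveI : NeZero p := ⟨hp.out.ne_zero⟩
  haveI := hL.1
  haveI hLf : L.fixingSubgroup.FiniteIndex := finiteIndex_fixingSubgroup L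
  haveI : Finite (GQ ⧸ L.fixingSubgroup) := inferInstance
  obtain ⟨u, hu⟩ := exists_global_class hp2 hpS hL hζ hζL
  have huH := hu.subgroup (HK K L)
  obtain ⟨I, hI⟩ := exists_inv huH
  let j : ↥(fix (Cm S) K.fixingSubgroup) → ↥(fix (Cm S) L.fixingSubgroup) :=
    fun a => ⟨a.1, fix_mono hle a.2⟩
  have hj : ∀ a, j a ∈ fix ↥(fix (Cm S) L.fixingSubgroup) (⊤ : Subgroup (HK K L)) := by
    rintro a ⟨_, g, hg, rfl⟩ -
    exact Subtype.ext (a.2 g hg)
  have hcup : ∀ (χ : {χ : K.fixingSubgroup →* Multiplicative (ZMod p) //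
      ∀ g : K.fixingSubgroup, (g : GQ) ∈ L.fixingSubgroup → χ g = 1}) a,
      cup p (lft (cA χ.1 χ.2)) (j a) ∈ T2p p (HK K L) ↥(fix (Cm S) L.fixingSubgroup) :=
    fun χ a => cup_p_mem (cA_mul χ.1 χ.2) (hj a)
  let pr : {χ : K.fixingSubgroup →* Multiplicative (ZMod p) //
      ∀ g : K.fixingSubgroup, (g : GQ) ∈ L.fixingSubgroup → χ g = 1} →
      (↥(fix (Cm S) K.fixingSubgroup) →+ ZMod p) := fun χ =>
    { toFun := fun a => I ⟨_, hcup χ a⟩
      map_zero' := by
        rw [← map_zero I]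
        congr 1
        apply Subtype.ext
        funext g h
        exact smul_zero _
      map_add' := fun a b => by
        rw [← map_add]
        congr 1
        apply Subtype.ext
        show cup p _ (j (a + b)) = cup p _ (j a) + cup p _ (j b)
        rw [← cup_add_right]
        rfl }
  refine ⟨pr, ?_, ?_⟩
  · intro χ χ' χ'' h
    ext a
    show I ⟨_, hcup χ a⟩ = I ⟨_, hcup χ' a⟩ + I ⟨_, hcup χ'' a⟩
    rw [← map_add, ← sub_eq_zero, ← map_sub, hI]
    show cup p (lft (cA χ.1 χ.2)) (j a) - (cup p (lft (cA χ'.1 χ'.2)) (j a) +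
      cup p (lft (cA χ''.1 χ''.2)) (j a)) ∈ _
    rw [← cup_add_left (lft_dvd _ (cA_mul χ'.1 χ'.2))]
    apply cup_congr hp.out.pos (lft_dvd _ (cA_mul χ.1 χ.2)) _ (hj a)
    intro g
    obtain ⟨g, rfl⟩ := piK_surj g
    show (p : ℤ) ∣ ((cA χ.1 χ.2 (piK g)).val : ℤ) - (((cA χ'.1 χ'.2 (piK g)).val : ℤ) +
      ((cA χ''.1 χ''.2 (piK g)).val : ℤ))
    rw [← ZMod.intCast_zmod_eq_zero_iff_dvd]
    push_cast
    rw [ZMod.natCast_zmod_val, ZMod.natCast_zmod_val, ZMod.natCast_zmod_val, cA_pi, cA_pi, cA_pi, h]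
    show ((χ'.1 g * χ''.1 g : Multiplicative (ZMod p))).toAdd - _ = 0
    rw [toAdd_mul, sub_self]
  · intro χ a
    show I ⟨_, hcup χ a⟩ = 0 ↔ _
    rw [hI]
    show cup p (lft (cA χ.1 χ.2)) (j a) ∈ B2 _ _ ↔ _
    have hker : ∀ g : HK K L, g ∈ (chH (L := L) χ.1 χ.2).ker ↔ cA χ.1 χ.2 g = 0 := fun g => Iff.rfl
    constructor
    · intro hB s hs hs1
      have hs' : cA (L := L) χ.1 χ.2 (piK ⟨s, hs⟩) = 1 := by rw [cA_pi, hs1]; rfl
      obtain ⟨b, hb, hab⟩ := norm_of_cup_p (fun P hP => huH.h1 P hP) (cA χ.1 χ.2) (cA_mul χ.1 χ.2)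
        hs' hker (hj a) hB
      refine ⟨b.1, ?_, ?_⟩
      · intro g hg
        obtain ⟨hgK, hg1⟩ := mem_kerS.mp hg
        have := hb (piK ⟨g, hgK⟩) ((hker _).mpr (by rw [cA_pi, hg1]; rfl))
        exact congrArg Subtype.val this
      · have := congrArg Subtype.val hab
        rw [AddSubgroup.val_finset_sum] at this
        exact this
    · intro hN
      by_cases hne : χ.1 = 1
      · have h0 : ∀ g, cA (L := L) χ.1 χ.2 g = 0 := by
          intro g
          obtain ⟨g, rfl⟩ := piK_surj g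
          rw [cA_pi, hne]; rfl
        have : cup p (lft (cA (L := L) χ.1 χ.2)) (j a) = 0 := by
          funext g h
          simp only [cup, lft, h0, ZMod.val_zero]
          simp
        rw [this]
        exact (B2 _ _).zero_mem
      · obtain ⟨s, hs, hs1⟩ := exists_gen_of_ne_one hne
        obtain ⟨b, hb, hab⟩ := hN s hs hs1
        have hs' : cA (L := L) χ.1 χ.2 (piK ⟨s, hs⟩) = 1 := by rw [cA_pi, hs1]; rfl
        have hLker : L.fixingSubgroup ≤ kerS χ.1 := fun g hg => mem_kerS.mpr ⟨hle hg, χ.2 _ hg⟩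
        refine cup_mem_B2_of_norm (cA χ.1 χ.2) (cA_mul χ.1 χ.2) hs' hker
          (b := ⟨b, fix_mono hLker hb⟩) ?_ ?_
        · intro g hg
          obtain ⟨g, rfl⟩ := piK_surj g
          apply Subtype.ext
          rw [hker, cA_pi] at hg
          exact hb g (mem_kerS.mpr ⟨g.2, congrArg Multiplicative.ofAdd hg⟩)
        · apply Subtype.ext
          rw [AddSubgroup.val_finset_sum]
          exact hab

end setup

end

end Fermat.Agent.CFT
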