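import Fermat.Agent.CFT.LocGlob

set_option autoImplicit false
set_option maxHeartbeats 400000

/-! Restriction of class formations to subgroups; norms and cup products of order `p`; counting. -/

namespace Fermat.Agent.CFT

open Finset Fermat.Agent.CFTSec

noncomputable section

section transport

variable {P P' : Type*} [Group P] [Group P'] {A : Type*} [AddCommGroup A] [DistribMulAction P A]
  [DistribMulAction P' A] (e : P ≃* P') (he : ∀ (g : P) (a : A), e g • a = g • a)

include he

theorem tr_smul (g : P') (a : A) : e.symm g • a = g • a := by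
  rw [← he, e.apply_symm_apply]

theorem tr_Z2 {x : P → P → A} (hx : x ∈ Z2 P A) :
    (fun g h => x (e.symm g) (e.symm h)) ∈ Z2 P' A := by
  intro g h k
  have := hx (e.symm g) (e.symm h) (e.symm k)
  rw [tr_smul e he] at this
  show x _ _ + x (e.symm (g * h)) _ = _ + x _ (e.symm (h * k))
  rw [map_mul, map_mul]
  exact this

theorem tr_B2 {x : P → P → A} (hx : (fun g h => x (e.symm g) (e.symm h)) ∈ B2 P' A) :
    x ∈ B2 P A := by
  obtain ⟨b, hb⟩ := hx
  refine ⟨fun g => b (e g), fun g h => ?_⟩
  have := hb (e g) (e h)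
  simp only [e.symm_apply_apply] at this
  show x g h = b (e g) + g • b (e h) - b (e (g * h))
  rw [this, he, map_mul]

theorem tr_H1 (h : Z1 P' A ≤ B1 P' A) : Z1 P A ≤ B1 P A := by
  intro c hc
  have h1 : (fun g => c (e.symm g)) ∈ Z1 P' A := by
    intro g h
    have := hc (e.symm g) (e.symm h)
    rw [tr_smul e he] at this
    show c (e.symm (g * h)) = _
    rw [map_mul]; exact this
  obtain ⟨a, ha⟩ := h h1
  refine ⟨a, fun g => ?_⟩
  have := ha (e g)
  simp only [e.symm_apply_apply] at this
  rw [this, he]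

end transport

/-- restriction of a class formation to a subgroup -/
theorem CFLayer.subgroup {p : ℕ} {G : Type*} [Group G] {A : Type*} [AddCommGroup A]
    [DistribMulAction G A] {u : G → G → A} (h : CFLayer p G A u) (H : Subgroup G) :
    CFLayer p H A (res2 H u) := by
  have key : ∀ P : Subgroup H, ∃ e : P ≃* (P.map H.subtype : Subgroup G),
      ∀ g : P, ((e g : (P.map H.subtype : Subgroup G)) : G) = ((g : H) : G) := by
    intro P
    exact ⟨P.equivMapOfInjective H.subtype H.subtype_injective, fun g => rfl⟩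
  refine ⟨fun g h' k => h.mem g h' k, ?_, ?_, ?_⟩
  · intro P hP
    obtain ⟨e, he⟩ := key P
    have he' : ∀ (g : P) (a : A), e g • a = g • a := fun g a => by
      show ((e g : (P.map H.subtype : Subgroup G)) : G) • a = ((g : H) : G) • a
      rw [he]
    exact tr_H1 e he' (h.h1 _ (hP.map _))
  · intro P hP x hx
    obtain ⟨e, he⟩ := key P
    have he' : ∀ (g : P) (a : A), e g • a = g • a := fun g a => by
      show ((e g : (P.map H.subtype : Subgroup G)) : G) • a = ((g : H) : G) • a
      rw [he]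
    have hes : ∀ g, (((e.symm g : P) : H) : G) = g := fun g => by
      rw [← he, e.apply_symm_apply]
    obtain ⟨k, hk⟩ := h.gen _ (hP.map _) _ (tr_Z2 e he' hx)
    refine ⟨k, ?_⟩
    apply tr_B2 e he'
    have e1 : (fun g h' => (x - k • res2 P (res2 H u)) (e.symm g) (e.symm h')) =
        (fun g h' => x (e.symm g) (e.symm h')) - k • res2 (P.map H.subtype) u := by
      funext g h'
      show x _ _ - k • u (((e.symm g : P) : H) : G) (((e.symm h' : P) : H) : G) = _
      rw [hes, hes]
      rfl
    rw [e1]; exact hk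
  · intro P hP k hk
    obtain ⟨e, he⟩ := key P
    have he' : ∀ (g : P) (a : A), e g • a = g • a := fun g a => by
      show ((e g : (P.map H.subtype : Subgroup G)) : G) • a = ((g : H) : G) • a
      rw [he]
    rw [Nat.card_congr e.toEquiv]
    apply h.ord _ (hP.map _) k
    have hes' : ∀ (g : (P.map H.subtype : Subgroup G)) (a : A), e.symm.symm.symm g • a = g • a :=
      fun g a => tr_smul e he' g a
    apply tr_B2 e.symm (fun g a => tr_smul e he' g a)
    have e1 : (fun g h' => (k • res2 (P.map H.subtype) u) (e.symm.symm g) (e.symm.symm h')) =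
        k • res2 P (res2 H u) := by
      funext g h'
      show k • u ((e g : (P.map H.subtype : Subgroup G)) : G) ((e h' : (P.map H.subtype : Subgroup G)) : G) = _
      rw [he, he]
      rfl
    rw [e1]; exact hk

section inf

variable {G : Type*} [Group G] {A : Type*} [AddCommGroup A] [DistribMulAction G A]
variable (H : Subgroup G) [hH : H.Normal]

/-- Inflation is injective in degree 2, up to torsion. -/
theorem inf_inj2' {m : ℕ} (h1 : ∀ c ∈ Z1 H A, m • c ∈ B1 H A) {x : G → G → A}
    (hlev : IsLevel2 H x) (hb : x ∈ B2 G A) :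
    ∃ b : G → A, (∀ g h, m • x g h = b g + g • b h - b (g * h)) ∧
      (∀ g, ∀ k ∈ H, b (g * k) = b g) ∧ ∀ g, b g ∈ fix A H := by
  have hx := B2_le_Z2 hb
  obtain ⟨b, hb⟩ := hb
  have hfix : x 1 1 ∈ fix A H := hlev.2.2 1 1
  have hHH : ∀ k k' : G, k ∈ H → k' ∈ H → x k k' = x 1 1 := by
    intro k k' hk hk'
    have h2 := hlev.1 1 k' k hk
    have h3 := hlev.2.1 1 1 k' hk'
    rw [one_mul] at h2 h3
    rw [h2, h3]
  have hcz : (fun k : H => b k - x 1 1) ∈ Z1 H A := by
    intro k k'
    have h2 := hb k k'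
    rw [hHH _ _ k.2 k'.2] at h2
    show b ((k : G) * k') - x 1 1 = b k - x 1 1 + (k : G) • (b k' - x 1 1)
    rw [smul_sub, hfix _ k.2]
    have h3 : b ((k : G) * k') = b k + (k : G) • b k' - x 1 1 := by
      rw [h2]; abel
    rw [h3]; abel
  obtain ⟨a, ha⟩ := h1 _ hcz
  have ha' : ∀ k ∈ H, m • b k = m • x 1 1 + (k • a - a) := by
    intro k hk
    have := ha ⟨k, hk⟩
    have h2 : m • (b k - x 1 1) = k • a - a := this
    rw [← h2, smul_sub]; abel
  let b' : G → A := fun g => m • b g - (g • a - a)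
  have hb' : ∀ g h, m • x g h = b' g + g • b' h - b' (g * h) := by
    intro g h
    have : m • x g h = m • b g + g • (m • b h) - m • b (g * h) := by
      rw [hb, smul_sub, smul_add, smul_comm m g]
    rw [this]; simp only [b', smul_sub, mul_smul]; abel
  have hb'H : ∀ k ∈ H, b' k = m • x 1 1 := by
    intro k hk
    simp only [b', ha' k hk]; abel
  have hlev1 : ∀ g, ∀ k ∈ H, b' (g * k) = b' g := by
    intro g k hk
    have h2 := hb' g k
    have h3 := hlev.2.1 g 1 k hk
    rw [one_mul] at h3
    rw [h3, Z2.one_right hx, hb'H k hk, smul_comm m g] at h2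
    have h4 : b' (g * k) = b' g + g • (m • x 1 1) - (g • (m • x 1 1)) := by
      nth_rewrite 2 [h2]; abel
    rw [h4]; abel
  refine ⟨b', hb', hlev1, ?_⟩
  intro g k hk
  have h2 := hb' k g
  have h3 := hlev.1 1 g k hk
  rw [one_mul] at h3
  rw [h3, Z2.one_left hx, hb'H k hk] at h2
  have h4 : b' (k * g) = k • b' g := by
    have : m • x 1 1 + b' (k * g) = m • x 1 1 + k • b' g := by
      nth_rewrite 1 [h2]; abel
    exact add_left_cancel this
  rw [← h4]
  have r : k * g = g * (g⁻¹ * k * g) := by group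
  rw [r]
  apply hlev1
  have := hH.conj_mem k hk g⁻¹
  rwa [inv_inv] at this

end inf

/-- cup products of order `p` detect norms -/
theorem norm_of_cup_p {G : Type*} [Group G] [Finite G] {A : Type*} [AddCommGroup A]
    [DistribMulAction G A] {p : ℕ} [hp : Fact p.Prime]
    (h1 : ∀ P : Subgroup G, IsPGroup p P → Z1 P A ≤ B1 P A)
    (χ : G → ZMod p) (hχ : ∀ g h, χ (g * h) = χ g + χ h) {s : G} (hs : χ s = 1)
    {H : Subgroup G} [hHn : H.Normal] (hH : ∀ g, g ∈ H ↔ χ g = 0) {a : A}
    (ha : a ∈ fix A (⊤ : Subgroup G)) (hcup : cup p (lft χ) a ∈ B2 G A) :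
    ∃ b ∈ fix A H, a = ∑ i ∈ range p, s ^ i • b := by
  haveI : NeZero p := ⟨hp.out.ne_zero⟩
  have hn : (p : ℤ) ≠ 0 := by exact_mod_cast hp.out.ne_zero
  -- a multiple prime to `p` kills the first cohomology of `H`
  obtain ⟨m, hm, hmH⟩ : ∃ m : ℕ, ¬ p ∣ m ∧ ∀ c ∈ Z1 H A, m • c ∈ B1 H A := by
    obtain ⟨P, hP, hPi⟩ := exists_sylow_index H p
    refine ⟨P.index, hPi, fun c hc => ?_⟩
    apply cor_res1 P hc
    obtain ⟨e, he⟩ : ∃ e : P ≃* (P.map H.subtype : Subgroup G),
      ∀ g : P, ((e g : (P.map H.subtype : Subgroup G)) : G) = ((g : H) : G) :=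
      ⟨P.equivMapOfInjective H.subtype H.subtype_injective, fun g => rfl⟩
    have he' : ∀ (g : P) (a : A), e g • a = g • a := fun g a => by
      show ((e g : (P.map H.subtype : Subgroup G)) : G) • a = ((g : H) : G) • a
      rw [he]
    exact tr_H1 e he' (h1 _ (hP.map _)) (fun g h => hc g h)
  have hχH : ∀ g, ∀ k ∈ H, χ (g * k) = χ g := by
    intro g k hk; rw [hχ, (hH k).mp hk, add_zero]
  have hlev : IsLevel2 H (cup p (lft χ) a) := by
    refine ⟨fun g h k hk => ?_, fun g h k hk => ?_, fun g h => ?_⟩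
    · have h1 : χ (g * k * h) = χ (g * h) := by rw [hχ, hχH g k hk, hχ]
      simp only [cup, lft, hχH g k hk, h1]
    · have h1 : χ (g * (h * k)) = χ (g * h) := by rw [hχ, hχH h k hk, hχ]
      simp only [cup, lft, hχH h k hk, h1]
    · intro k _
      simp only [cup]
      rw [smul_comm, ha k trivial]
  obtain ⟨β, hβ, hβl, hβf⟩ := inf_inj2' H hmH hlev hcup
  have hcast : ∀ i : ℕ, i < p → (χ (s ^ i)).val = i := by
    intro i hi
    rw [chi_pow χ hχ, hs, mul_one, ZMod.val_natCast, Nat.mod_eq_of_lt hi]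
  have hβ1 : β 1 = 0 := by
    have h1 := hβ 1 1
    simp only [cup, one_mul, one_smul, add_sub_cancel_right] at h1
    rw [← h1]
    simp [lft, chi_one χ hχ]
  have hstep : ∀ i : ℕ, β (s ^ (i + 1)) = β (s ^ i) + s ^ i • β s -
      m • cup p (lft χ) a (s ^ i) s := by
    intro i
    rw [hβ (s ^ i) s, ← pow_succ]; abel
  have hsum : ∀ k : ℕ, β (s ^ k) = ∑ i ∈ range k, s ^ i • β s -
      m • ∑ i ∈ range k, cup p (lft χ) a (s ^ i) s := by
    intro k
    induction k with
    | zero => simp [hβ1]
    | succ k ih => rw [hstep, ih, sum_range_succ, sum_range_succ, smul_add]; abel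
  have hsn : s ^ p ∈ H := by rw [hH, chi_pow χ hχ]; simp
  have h2 := hsum p
  have h3 : β (s ^ p) = 0 := by
    have := hβl 1 _ hsn
    rw [one_mul] at this
    rw [this, hβ1]
  have hval1 : (χ s).val = 1 := by
    have := hcast 1 hp.out.one_lt
    rwa [pow_one] at this
  have h4 : ∑ i ∈ range p, cup p (lft χ) a (s ^ i) s = a := by
    have key : ∀ i ∈ range p, cup p (lft χ) a (s ^ i) s = if i + 1 = p then a else 0 := by
      intro i hi
      have hi' := mem_range.mp hi
      have h1 := hval1
      split_ifs with h5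
      · have h6 : χ (s ^ i * s) = 0 := by
          rw [← pow_succ, chi_pow χ hχ, h5]; simp
        simp only [cup, lft, hcast i hi', h1, h6, ZMod.val_zero]
        have h7 : ((i : ℤ) + (1 : ℕ) - (0 : ℕ)) / (p : ℤ) = 1 := by
          have : ((i : ℤ) + (1 : ℕ) - (0 : ℕ)) = p := by
            rw [← h5]; push_cast; ring
          rw [this, Int.ediv_self hn]
        rw [h7, one_smul]
      · have h6 : (χ (s ^ i * s)).val = i + 1 := by
          rw [← pow_succ]; exact hcast _ (by omega)
        simp only [cup, lft, hcast i hi', h1, h6]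
        have h7 : ((i : ℤ) + (1 : ℕ) - ((i + 1 : ℕ) : ℤ)) / (p : ℤ) = 0 := by
          push_cast; simp
        rw [h7, zero_smul]
    rw [sum_congr rfl key]
    obtain ⟨k, hk⟩ : ∃ k, p = k + 1 := ⟨p - 1, by have := hp.out.pos; omega⟩
    have h5 : ∑ i ∈ range (k + 1), (if i + 1 = p then a else 0) = a := by
      rw [sum_range_succ, if_pos hk.symm, sum_eq_zero, zero_add]
      intro i hi
      rw [if_neg (by have := mem_range.mp hi; omega)]
    rw [hk] at h5 ⊢
    exact h5
  rw [h3, h4] at h2
  have h5 : m • a = ∑ i ∈ range p, s ^ i • β s := by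
    rw [eq_comm, ← sub_eq_zero]; exact h2.symm
  have h6 : p • a = ∑ i ∈ range p, s ^ i • a := by
    rw [sum_congr rfl (fun i _ => ha (s ^ i) trivial), sum_const, card_range]
  have hcop : IsCoprime (m : ℤ) (p : ℤ) := by
    rw [Nat.isCoprime_iff_coprime]
    exact ((Nat.Prime.coprime_iff_not_dvd hp.out).mpr hm).symm
  obtain ⟨x, y, hxy⟩ := hcop
  refine ⟨x • β s + y • a, (fix A H).add_mem ((fix A H).zsmul_mem (hβf s) x)
    ((fix A H).zsmul_mem (fun k _ => ha k trivial) y), ?_⟩
  have h7 : a = x • (m • a) + y • (p • a) := by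
    rw [← natCast_zsmul a m, ← natCast_zsmul a p, smul_smul, smul_smul, ← add_smul, hxy, one_smul]
  conv_lhs => rw [h7, h5, h6]
  rw [smul_sum, smul_sum, ← sum_add_distrib]
  refine sum_congr rfl fun i _ => ?_
  rw [smul_add, smul_comm x, smul_comm y]

/-- trace from the trivial subgroup -/
theorem trc_bot {U : Type*} [Group U] [Fintype U] {A : Type*} [AddCommGroup A]
    [DistribMulAction U A] (a : A) : trc (⊥ : Subgroup U) a = ∑ g : U, g • a := by
  rw [trc_eq ⊥ (a := a) (fun k hk => by rw [Subgroup.mem_bot.mp hk, one_smul])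
    (fun q => (QuotientGroup.quotientBot (G := U)) q) (fun q => by
      obtain ⟨g, rfl⟩ := QuotientGroup.mk_surjective q
      rfl)]
  rw [← finsum_eq_sum_of_fintype]
  exact finsum_comp_equiv (QuotientGroup.quotientBot (G := U)).toEquiv (f := fun g : U => g • a)

end

end Fermat.Agent.CFT
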