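import Fermat.Agent.CFT.TN4
import Fermat.Agent.CFT.Shapiro

set_option autoImplicit false
set_option maxHeartbeats 400000

/-! Permutation modules. -/

namespace Fermat.Agent.CFT

open Finset

noncomputable section

/-- permutation module -/
def PM (X : Type*) : Type _ := X → ℤ

instance (X : Type*) : AddCommGroup (PM X) := inferInstanceAs (AddCommGroup (X → ℤ))

instance (X : Type*) [Finite X] : Module.Free ℤ (PM X) := inferInstanceAs (Module.Free ℤ (X → ℤ))
instance (X : Type*) [Finite X] : Module.Finite ℤ (PM X) :=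
  inferInstanceAs (Module.Finite ℤ (X → ℤ))

instance pmAction {G X : Type*} [Group G] [MulAction G X] : DistribMulAction G (PM X) where
  smul g f := fun x => f (g⁻¹ • x)
  one_smul f := by
    funext x
    show f ((1 : G)⁻¹ • x) = f x
    rw [inv_one, one_smul]
  mul_smul g h f := by
    funext x
    show f ((g * h)⁻¹ • x) = f (h⁻¹ • (g⁻¹ • x))
    rw [mul_inv_rev, mul_smul]
  smul_zero _ := rfl
  smul_add _ _ _ := rfl

theorem pm_smul_apply {G X : Type*} [Group G] [MulAction G X] (g : G) (f : PM X) (x : X) :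
    (g • f : PM X) x = f (g⁻¹ • x) := rfl

theorem pm_add_apply {X : Type*} (f f' : PM X) (x : X) : (f + f') x = f x + f' x := rfl

open Classical in
/-- basis -/
def dl {X : Type*} (x : X) : PM X := fun y => if y = x then 1 else 0

theorem smul_dl {G X : Type*} [Group G] [MulAction G X] (g : G) (x : X) :
    g • dl x = dl (g • x) := by
  classical
  funext y
  show (if g⁻¹ • y = x then (1 : ℤ) else 0) = if y = g • x then 1 else 0
  congr 1
  exact propext ⟨fun h => by rw [← h, smul_inv_smul], fun h => by rw [h, inv_smul_smul]⟩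

section

variable {X : Type*} [Fintype X] {A : Type*} [AddCommGroup A]

/-- the homomorphism with given values on the basis -/
def lf (k : X → A) : PM X →+ A where
  toFun f := ∑ x, (f x : ℤ) • k x
  map_zero' := Finset.sum_eq_zero fun x _ => zero_smul ℤ (k x)
  map_add' f f' := by
    rw [← Finset.sum_add_distrib]
    exact Finset.sum_congr rfl fun x _ => add_smul (f x : ℤ) (f' x) (k x)

theorem lf_apply (k : X → A) (f : PM X) : lf k f = ∑ x, (f x : ℤ) • k x := rfl

@[simp] theorem lf_dl (k : X → A) (x : X) : lf k (dl x) = k x := by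
  classical
  rw [lf_apply, Finset.sum_eq_single x]
  · show (if x = x then (1 : ℤ) else 0) • k x = k x
    rw [if_pos rfl, one_smul]
  · intro y _ hy
    show (if y = x then (1 : ℤ) else 0) • k y = 0
    rw [if_neg hy, zero_smul]
  · intro h; exact absurd (mem_univ _) h

theorem pm_sum (f : PM X) : f = ∑ x, (f x : ℤ) • dl x := by
  classical
  funext y
  have : (∑ x, (f x : ℤ) • dl x : PM X) y = ∑ x, ((f x : ℤ) • dl x : PM X) y :=
    Finset.sum_apply (M := fun _ => ℤ) y Finset.univ (fun x => ((f x : ℤ) • dl x : X → ℤ))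
  rw [this, Finset.sum_eq_single y]
  · show f y = f y * (if y = y then 1 else 0)
    rw [if_pos rfl, mul_one]
  · intro x _ hx
    show f x * (if y = x then 1 else 0) = 0
    rw [if_neg (Ne.symm hx), mul_zero]
  · intro h; exact absurd (mem_univ _) h

theorem pm_hom_ext {φ ψ : PM X →+ A} (h : ∀ x, φ (dl x) = ψ (dl x)) : φ = ψ := by
  ext f
  rw [pm_sum f, map_sum, map_sum]
  exact Finset.sum_congr rfl fun x _ => by rw [map_zsmul, map_zsmul, h]

theorem pm_hom_ext' {φ ψ : PM X →+ A} (h : ∀ x, φ (dl x) = ψ (dl x)) (f : PM X) : φ f = ψ f :=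
  DFunLike.congr_fun (pm_hom_ext h) f

end

/-- free `G`-set on `I` -/
def GI (G I : Type*) : Type _ := G × I

instance (G I : Type*) [Finite G] [Finite I] : Finite (GI G I) :=
  inferInstanceAs (Finite (G × I))
instance (G I : Type*) [Fintype G] [Fintype I] : Fintype (GI G I) :=
  inferInstanceAs (Fintype (G × I))

instance giAction {G I : Type*} [Group G] : MulAction G (GI G I) where
  smul g x := (g * x.1, x.2)
  one_smul x := by
    show ((1 : G) * x.1, x.2) = x
    rw [one_mul]
    rfl
  mul_smul g h x := by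
    show (g * h * x.1, x.2) = (g * (h * x.1), x.2)
    rw [mul_assoc]

/-- constructor -/
def gi {G I : Type*} (g : G) (i : I) : GI G I := (g, i)

theorem gi_smul {G I : Type*} [Group G] (g h : G) (i : I) : g • gi h i = gi (g * h) i := rfl

theorem gi_eta {G I : Type*} (x : GI G I) : x = gi x.1 x.2 := rfl

section proj

variable {D G I : Type*} [Group D] [Group G] [Fintype D] (ι : D →* G)

/-- projection for a subgroup -/
theorem exists_pr_gi (hι : Function.Injective ι) :
    ∃ e : PM (GI G I) →+ PM (GI G I), ∀ f, ∑ d : D, ι d • e ((ι d)⁻¹ • f) = f := by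
  classical
  obtain ⟨ρ, hρ⟩ := exists_retraction ι hι
  let e : PM (GI G I) →+ PM (GI G I) :=
    { toFun := fun f x => if ρ x.1 = 1 then f x else 0
      map_zero' := by
        funext x
        show (if ρ x.1 = 1 then (0 : ℤ) else 0) = 0
        split_ifs <;> rfl
      map_add' := fun f f' => by
        funext x
        show (if ρ x.1 = 1 then f x + f' x else 0)
          = (if ρ x.1 = 1 then f x else 0) + (if ρ x.1 = 1 then f' x else 0)
        split_ifs <;> simp }
  refine ⟨e, fun f => ?_⟩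
  funext x
  have h1 : (∑ d : D, ι d • e ((ι d)⁻¹ • f) : PM (GI G I)) x
      = ∑ d : D, (ι d • e ((ι d)⁻¹ • f) : PM (GI G I)) x :=
    Finset.sum_apply (M := fun _ => ℤ) x Finset.univ
      (fun d : D => (ι d • e ((ι d)⁻¹ • f) : PM (GI G I)))
  rw [h1]
  have h2 : ∀ d : D, (ι d • e ((ι d)⁻¹ • f) : PM (GI G I)) x = if ρ x.1 = d then f x else 0 := by
    intro d
    show (if ρ ((ι d)⁻¹ * x.1) = 1 then ((ι d)⁻¹ • f : PM (GI G I)) ((ι d)⁻¹ • x) else 0) = _
    have h3 : ρ ((ι d)⁻¹ * x.1) = d⁻¹ * ρ x.1 := by rw [← map_inv, hρ]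
    rw [h3]
    have h4 : ((ι d)⁻¹ • f : PM (GI G I)) ((ι d)⁻¹ • x) = f x := by
      rw [pm_smul_apply, inv_smul_smul]
    rw [h4]
    congr 1
    exact propext ⟨fun h => by rw [inv_mul_eq_one] at h; exact h.symm,
      fun h => by rw [inv_mul_eq_one]; exact h.symm⟩
  rw [Finset.sum_congr rfl fun d _ => h2 d, Finset.sum_ite_eq, if_pos (mem_univ _)]

end proj

section quotsum

/-! sums over cosets -/

variable {G : Type*} [Group G] (H : Subgroup G) {A : Type*} [AddCommGroup A]

theorem out_spec_mul {Φ : G → A} (hΦ : ∀ x, ∀ h ∈ H, Φ (x * h) = Φ x) (x : G) :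
    Φ ((QuotientGroup.mk x : G ⧸ H).out) = Φ x := by
  obtain ⟨k, hk⟩ := QuotientGroup.mk_out_eq_mul H x
  rw [hk]
  exact hΦ x k k.2

/-- left translation invariance of coset sums -/
theorem coset_sum_shift [Fintype (G ⧸ H)] {Φ Ψ : G → A} (g : G)
    (hΦ : ∀ x, ∀ h ∈ H, Φ (x * h) = Φ x) (hΨ : ∀ x, ∀ h ∈ H, Ψ (x * h) = Ψ x)
    (hgg : ∀ x, Ψ (g * x) = Φ x) :
    ∑ q : G ⧸ H, Ψ q.out = ∑ q : G ⧸ H, Φ q.out := by
  refine (Fintype.sum_equiv (MulAction.toPerm g) _ _ (fun q => ?_)).symm
  induction q using QuotientGroup.induction_on with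
  | H x =>
    rw [out_spec_mul H hΦ]
    show Φ x = Ψ ((QuotientGroup.mk (g * x) : G ⧸ H).out)
    rw [out_spec_mul H hΨ, hgg]

/-- decomposition of a sum over `G` into coset sums -/
theorem sum_coset [Fintype G] [Fintype H] [Fintype (G ⧸ H)] (Φ : G → A) :
    ∑ x, Φ x = ∑ q : G ⧸ H, ∑ h : H, Φ (q.out * h) := by
  rw [sum_quot H Φ, finsum_eq_sum_of_fintype]

end quotsum

end

end Fermat.Agent.CFT
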