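import Fermat.Agent.CFT.LocGlob
import Fermat.Agent.CFT.EMain
import Fermat.Agent.CFT.Perm
import Fermat.Agent.CFT.DualAlg

set_option autoImplicit false
set_option maxHeartbeats 400000

/-! Finite level duality, local conditions. -/

namespace Fermat.Agent.CFT

open Finset Fermat.Agent.CFTSec

noncomputable section

section gen

variable {G : Type*} [Group G] {F : Type*} [AddCommGroup F] [DistribMulAction G F]
  {R : AddSubgroup F} [hR : Stab G R]

theorem rr_mem' (c : G → F) (hc : ∀ g h, dd c g h ∈ R) : rr c hc ∈ Z2 G R := fun g h k => by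
  apply Subtype.ext
  show (c g + g • c h - c (g * h)) + (c (g * h) + (g * h) • c k - c (g * h * k)) =
    g • (c h + h • c k - c (h * k)) + (c g + g • c (h * k) - c (g * (h * k)))
  rw [smul_sub, smul_add, mul_smul, mul_assoc]
  abel

theorem ptors_rr {C : Type*} [AddCommGroup C] [DistribMulAction G C] {p : ℕ}
    (hpR : ∀ f : F, p • f ∈ R) (c : G → F) (hc : ∀ g h, dd c g h ∈ R) (φ : R →+ C)
    (hφ : ∀ (g : G) (r : R), φ (g • r) = g • φ r) :
    p • (fun g h => φ (rr c hc g h)) ∈ B2 G C := by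
  refine ⟨fun g => φ ⟨p • c g, hpR _⟩, fun g h => ?_⟩
  show p • φ (rr c hc g h) = φ ⟨p • c g, hpR _⟩ + g • φ ⟨p • c h, hpR _⟩ - φ ⟨p • c (g * h), hpR _⟩
  rw [← hφ, ← map_add, ← map_sub, ← map_nsmul]
  congr 1
  apply Subtype.ext
  show p • (c g + g • c h - c (g * h)) = p • c g + g • (p • c h) - p • c (g * h)
  rw [smul_sub, smul_add, smul_comm g p (c h)]

/-- the pairing is trivial for coboundaries -/
theorem pair_cob {C : Type*} [AddCommGroup C] [DistribMulAction G C]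
    (c : G → F) (hc : ∀ g h, dd c g h ∈ R) (m : F) (hm : ∀ g, c g - (g • m - m) ∈ R) (φ : R →+ C)
    (hφ : ∀ (g : G) (r : R), φ (g • r) = g • φ r) :
    (fun g h => φ (rr c hc g h)) ∈ B2 G C := by
  refine ⟨fun g => φ ⟨_, hm g⟩, fun g h => ?_⟩
  show φ (rr c hc g h) = φ ⟨_, hm g⟩ + g • φ ⟨_, hm h⟩ - φ ⟨_, hm (g * h)⟩
  rw [← hφ, ← map_add, ← map_sub]
  congr 1
  apply Subtype.ext
  show c g + g • c h - c (g * h) =
    (c g - (g • m - m)) + g • (c h - (h • m - m)) - (c (g * h) - ((g * h) • m - m))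
  rw [smul_sub, smul_sub, mul_smul]
  abel

/-- the pairing is trivial for restrictions of homomorphisms on `F` -/
theorem pair_ext {C : Type*} [AddCommGroup C] [DistribMulAction G C]
    (c : G → F) (hc : ∀ g h, dd c g h ∈ R) (θ : F →+ C)
    (hθ : ∀ (g : G) (f : F), θ (g • f) = g • θ f) :
    (fun g h => θ (rr c hc g h).1) ∈ B2 G C := by
  refine ⟨fun g => θ (c g), fun g h => ?_⟩
  show θ (c g + g • c h - c (g * h)) = _
  rw [map_sub, map_add, hθ]

end gen

section loc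

variable {S : Finset Nat.Primes} {L : IntermediateField ℚ Qb} [hLn : L.fixingSubgroup.Normal]
  {F : Type*} [AddCommGroup F] [DistribMulAction (GQ ⧸ L.fixingSubgroup) F]
  {R : AddSubgroup F} [hR : Stab (GQ ⧸ L.fixingSubgroup) R]

/-- local triviality -/
def LocT (R : AddSubgroup F) (c : (GQ ⧸ L.fixingSubgroup) → F) (q : Nat.Primes) : Prop :=
  ∃ m : F, ∀ d : LG q ⧸ dN q L.fixingSubgroup,
    c (iotaD q L.fixingSubgroup d) - (iotaD q L.fixingSubgroup d • m - m) ∈ R

/-- locally trivial classes pair trivially with local homomorphisms -/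
theorem loc_pair (q : Nat.Primes) (c : (GQ ⧸ L.fixingSubgroup) → F) (hc : ∀ g h, dd c g h ∈ R)
    (hloc : LocT R c q) (ψ : R →+ ↥(fix (JQ q) L.fixingSubgroup))
    (hψ : ∀ (g : GQ ⧸ L.fixingSubgroup) (r : R), ψ (g • r) = g • ψ r) :
    (fun g h => ψ (rr c hc g h)) ∈ B2 (GQ ⧸ L.fixingSubgroup) ↥(fix (JQ q) L.fixingSubgroup) := by
  obtain ⟨m, hm⟩ := hloc
  apply shap2 q L.fixingSubgroup (mapZ2 (rr_mem' c hc) ψ hψ)
  refine ⟨fun d => evN q L.fixingSubgroup (ψ ⟨_, hm d⟩), fun d d' => ?_⟩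
  show evN q L.fixingSubgroup (ψ (rr c hc (iotaD q L.fixingSubgroup d) (iotaD q L.fixingSubgroup d')))
    = evN q L.fixingSubgroup (ψ ⟨_, hm d⟩) + d • evN q L.fixingSubgroup (ψ ⟨_, hm d'⟩) -
      evN q L.fixingSubgroup (ψ ⟨_, hm (d * d')⟩)
  rw [← evN_smul, ← hψ, ← map_add, ← map_sub, ← map_add, ← map_sub]
  congr 2
  apply Subtype.ext
  show c (iotaD q L.fixingSubgroup d) + iotaD q L.fixingSubgroup d • c (iotaD q L.fixingSubgroup d')
      - c (iotaD q L.fixingSubgroup d * iotaD q L.fixingSubgroup d') =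
    (c (iotaD q L.fixingSubgroup d) - (iotaD q L.fixingSubgroup d • m - m)) +
      iotaD q L.fixingSubgroup d • (c (iotaD q L.fixingSubgroup d') -
        (iotaD q L.fixingSubgroup d' • m - m)) -
      (c (iotaD q L.fixingSubgroup (d * d')) - (iotaD q L.fixingSubgroup (d * d') • m - m))
  rw [map_mul, smul_sub, smul_sub, mul_smul]
  abel

variable (hL : L.IsUnramifiedOutside S)

/-- components of an idele -/
def cmpN (S : Finset Nat.Primes) (L : IntermediateField ℚ Qb) (q : Nat.Primes) (hq : q ∈ S) :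
    ↥(fix (Jm S) L.fixingSubgroup) →+ ↥(fix (JQ q) L.fixingSubgroup) where
  toFun j := ⟨cmp q hq j.1, fun g hg => by rw [← cmp_smul, j.2 g hg]⟩
  map_zero' := Subtype.ext (map_zero _)
  map_add' a b := Subtype.ext (map_add _ a.1 b.1)

theorem cmpN_val (q : Nat.Primes) (hq : q ∈ S) (j : ↥(fix (Jm S) L.fixingSubgroup)) :
    (cmpN S L q hq j).1 = cmp q hq j.1 := rfl

theorem cmpN_smul (q : Nat.Primes) (hq : q ∈ S) (g : GQ ⧸ L.fixingSubgroup)
    (j : ↥(fix (Jm S) L.fixingSubgroup)) : cmpN S L q hq (g • j) = g • cmpN S L q hq j := by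
  induction g using QuotientGroup.induction_on with
  | H g => exact Subtype.ext (cmp_smul q hq g j.1)

/-- an idele with trivial divisor part is the sum of its components -/
theorem sum_cmpN (j : ↥(fix (Jm S) L.fixingSubgroup)) (hj : j.1.1.2 = 0) :
    j = ∑ q : S, sgN hL q.1 q.2 (cmpN S L q.1 q.2 j) := by
  classical
  apply Subtype.ext
  apply Subtype.ext
  have e1 : ((∑ q : S, sgN hL q.1 q.2 (cmpN S L q.1 q.2 j) : ↥(fix (Jm S) L.fixingSubgroup)) :
      Jm S).1 = ∑ q : S, sgT q.1 q.2 (cmp q.1 q.2 j.1) := by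
    rw [AddSubgroup.val_finset_sum, AddSubgroup.val_finset_sum]
    rfl
  rw [e1]
  apply Prod.ext
  · funext q'
    rw [Prod.fst_sum, Finset.sum_apply, Finset.sum_eq_single q']
    · rw [sgT_fst]; rfl
    · intro q _ hne
      exact sgT_ne _ _ _ _ (fun h => hne (Subtype.ext h.symm))
    · intro h; exact absurd (mem_univ _) h
  · rw [Prod.snd_sum, Finset.sum_eq_zero (fun q _ => sgT_snd _ _ _)]
    exact hj

include hL in
/-- homomorphisms with values in the `S`-ideles -/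
theorem loc_pair_J (c : (GQ ⧸ L.fixingSubgroup) → F) (hc : ∀ g h, dd c g h ∈ R)
    (hloc : ∀ q ∈ S, LocT R c q) (ψ : R →+ ↥(fix (Jm S) L.fixingSubgroup))
    (hψ : ∀ (g : GQ ⧸ L.fixingSubgroup) (r : R), ψ (g • r) = g • ψ r)
    (hψ0 : ∀ r, (ψ r).1.1.2 = 0) :
    (fun g h => ψ (rr c hc g h)) ∈ B2 (GQ ⧸ L.fixingSubgroup) ↥(fix (Jm S) L.fixingSubgroup) := by
  classical
  have h1 : (fun g h => ψ (rr c hc g h)) = ∑ q : S, (fun g h =>
      sgN hL q.1 q.2 (((cmpN S L q.1 q.2).comp ψ) (rr c hc g h))) := by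
    funext g h
    rw [Finset.sum_apply, Finset.sum_apply]
    exact sum_cmpN hL _ (hψ0 _)
  rw [h1]
  refine AddSubgroup.sum_mem (B2 (GQ ⧸ L.fixingSubgroup) ↥(fix (Jm S) L.fixingSubgroup))
    (fun q _ => ?_)
  refine mapB2 (loc_pair q.1 c hc (hloc q.1 q.2) ((cmpN S L q.1 q.2).comp ψ) (fun g r => ?_))
    (sgN hL q.1 q.2) (fun g f => sgN_smul hL q.1 q.2 g f)
  show cmpN S L q.1 q.2 (ψ (g • r)) = g • cmpN S L q.1 q.2 (ψ r)
  rw [hψ, cmpN_smul]

end loc

end

end Fermat.Agent.CFT
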