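import Fermat.Agent.CFT.FDual1
import Fermat.Agent.CFTLocal.Main

set_option autoImplicit false
set_option maxHeartbeats 400000

/-! Finite level duality: detection of local nontriviality. -/

namespace Fermat.Agent.CFT

open Finset Fermat.Agent.CFTSec

noncomputable section

theorem dN_open (q : Nat.Primes) (L : IntermediateField ℚ Qb) [hL : FiniteDimensional ℚ L] :
    IsOpen ((dN q L.fixingSubgroup : Subgroup (LG q)) : Set (LG q)) := isOpen_comap_lg q L

section loc

variable {p : ℕ} [hp : Fact p.Prime] {S : Finset Nat.Primes} {L : IntermediateField ℚ Qb}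
  [hLn : L.fixingSubgroup.Normal] {I : Type*} [Fintype I]
  {R : AddSubgroup (PM (GI (GQ ⧸ L.fixingSubgroup) I))} [hR : Stab (GQ ⧸ L.fixingSubgroup) R]

/-- local detection -/
theorem exists_loc_hom [hLf : FiniteDimensional ℚ L] (hpR : ∀ f, p • f ∈ R) (q : Nat.Primes)
    (c : (GQ ⧸ L.fixingSubgroup) → PM (GI (GQ ⧸ L.fixingSubgroup) I))
    (hc : ∀ g h, dd c g h ∈ R) (hloc : ¬ LocT R c q) :
    ∃ ψ : R →+ ↥(fix (JQ q) L.fixingSubgroup),
      (∀ (g : GQ ⧸ L.fixingSubgroup) (r : R), ψ (g • r) = g • ψ r) ∧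
      (fun g h => ψ (rr c hc g h)) ∉
        B2 (GQ ⧸ L.fixingSubgroup) ↥(fix (JQ q) L.fixingSubgroup) := by
  classical
  haveI : L.fixingSubgroup.FiniteIndex := finiteIndex_fixingSubgroup L
  haveI : Finite (GQ ⧸ L.fixingSubgroup) := Subgroup.finite_quotient_of_finiteIndex
  haveI : Finite (LG q ⧸ dN q L.fixingSubgroup) :=
    Finite.of_injective _ (iotaD_injective q L.fixingSubgroup)
  haveI : Fintype (GQ ⧸ L.fixingSubgroup) := Fintype.ofFinite _
  haveI : Fintype (LG q ⧸ dN q L.fixingSubgroup) := Fintype.ofFinite _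
  obtain ⟨u, hu⟩   := Fermat.Agent.CFTLocal.L3 p (dN q L.fixingSubgroup) (dN_open q L)
  letI act : DistribMulAction (LG q ⧸ dN q L.fixingSubgroup)
      (PM (GI (GQ ⧸ L.fixingSubgroup) I)) :=
    DistribMulAction.compHom _ (iotaD q L.fixingSubgroup)
  haveI hRD : Stab (LG q ⧸ dN q L.fixingSubgroup) R :=
    ⟨fun d b hb => hR.smul_mem (iotaD q L.fixingSubgroup d) b hb⟩
  obtain ⟨e, he⟩ := exists_pr_gi (I := I) (iotaD q L.fixingSubgroup) (iotaD_injective q _)
  have he' : ∀ f : PM (GI (GQ ⧸ L.fixingSubgroup) I),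
      ∑ x : LG q ⧸ dN q L.fixingSubgroup, x • e (x⁻¹ • f) = f := by
    intro f
    have h1 : ∀ x : LG q ⧸ dN q L.fixingSubgroup, x • e (x⁻¹ • f) =
        iotaD q L.fixingSubgroup x • e ((iotaD q L.fixingSubgroup x)⁻¹ • f) := by
      intro x
      show iotaD q L.fixingSubgroup x • e (iotaD q L.fixingSubgroup x⁻¹ • f) = _
      rw [map_inv]
    rw [Finset.sum_congr rfl fun x _ => h1 x]
    exact he f
  let c' : LG q ⧸ dN q L.fixingSubgroup → PM (GI (GQ ⧸ L.fixingSubgroup) I) :=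
    fun d => c (iotaD q L.fixingSubgroup d)
  have hc' : ∀ g h, dd c' g h ∈ R := by
    intro g h
    have h1 : dd c' g h = dd c (iotaD q L.fixingSubgroup g) (iotaD q L.fixingSubgroup h) := by
      show c (iotaD q L.fixingSubgroup g) + iotaD q L.fixingSubgroup g •
        c (iotaD q L.fixingSubgroup h) - c (iotaD q L.fixingSubgroup (g * h)) = _
      rw [map_mul]; rfl
    rw [h1]
    exact hc _ _
  have hnc : ¬ ∃ m, ∀ g, c' g - (g • m - m) ∈ R := fun ⟨m, hm⟩ => hloc ⟨m, hm⟩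
  obtain ⟨φ, hφ, hnφ⟩ := T1 hu hpR e he' c' hc' hnc
  refine ⟨coHom q L.fixingSubgroup φ (fun d r => hφ d r),
    fun g r => coHom_smul q L.fixingSubgroup φ (fun d r => hφ d r) g r, fun hB => hnφ ?_⟩
  obtain ⟨b, hb⟩ := hB
  refine ⟨fun d => evN q L.fixingSubgroup (b (iotaD q L.fixingSubgroup d)), fun d d' => ?_⟩
  have h1 := hb (iotaD q L.fixingSubgroup d) (iotaD q L.fixingSubgroup d')
  have h2 := congrArg (evN q L.fixingSubgroup) h1
  have h3 : rr c' hc' d d' = rr c hc (iotaD q L.fixingSubgroup d) (iotaD q L.fixingSubgroup d') := by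
    apply Subtype.ext
    show c (iotaD q L.fixingSubgroup d) + iotaD q L.fixingSubgroup d •
        c (iotaD q L.fixingSubgroup d') - c (iotaD q L.fixingSubgroup (d * d')) = _
    rw [map_mul]; rfl
  show φ (rr c' hc' d d') = _
  rw [h3]
  have h4 := coHom_ev q L.fixingSubgroup φ (fun d r => hφ d r)
    (rr c hc (iotaD q L.fixingSubgroup d) (iotaD q L.fixingSubgroup d'))
  rw [← h4]
  refine h2.trans ?_
  rw [map_sub, map_add, evN_smul, ← map_mul]

end loc

end

end Fermat.Agent.CFT
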