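import Fermat.Agent.CFT.Perm

set_option autoImplicit false
set_option maxHeartbeats 400000

/-! Decomposition of norms of homomorphisms. -/

namespace Fermat.Agent.CFT

open Finset

noncomputable section

theorem exists_zbasis {V : Type*} [AddCommGroup V] {p : ℕ} [hp : Fact p.Prime] [Module (ZMod p) V]
    [Finite V] : ∃ (n : ℕ) (v : Fin n → V) (lb : Fin n → V →+ ZMod p), ∀ (y : V) (k : Fin n → ℤ),
      (∀ i, ((k i : ℤ) : ZMod p) = lb i y) → y = ∑ i, k i • v i := by
  classical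
  have b := Module.finBasis (ZMod p) V
  refine ⟨_, b, fun i => (b.coord i).toAddMonoidHom, fun y k hk => ?_⟩
  conv_lhs => rw [← b.sum_repr y]
  refine Finset.sum_congr rfl fun i _ => ?_
  rw [← Int.cast_smul_eq_zsmul (ZMod p) (k i) (b i), hk i]
  rfl

section

variable {G : Type*} [Group G] [Fintype G] {X : Type*} [Fintype X] [MulAction G X]
  {p : ℕ} [hp : Fact p.Prime] {R : AddSubgroup (PM X)} [hR : Stab G R]

/-- invariant coordinates -/
theorem exists_coords [Finite (PM X ⧸ R)] (hpR : ∀ f, p • f ∈ R) (H : Subgroup G)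
    (hH : ∀ h ∈ H, ∀ f : PM X, h • f - f ∈ R) :
    ∃ (n : ℕ) (f : Fin n → PM X) (lam : Fin n → PM X →+ ℤ) (μ : Fin n → R →+ ℤ),
      (∀ i, ∀ h ∈ H, ∀ y, lam i (h • y) = lam i y) ∧
      (∀ y, y - ∑ i, lam i y • f i ∈ R) ∧ ∀ i r, lam i r.1 = p * μ i r := by
  classical
  letI : Module (ZMod p) (PM X ⧸ R) := zmodQ p R hpR
  obtain ⟨n, b, lb, hb⟩ := exists_zbasis (V := PM X ⧸ R) (p := p)
  choose f hf using fun i => QuotientAddGroup.mk_surjective (b i)
  let lam : ∀ i, PM X →+ ℤ := fun i => lf (fun x => ((lb i (QuotientAddGroup.mk (dl x))).val : ℤ))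
  have hlam : ∀ i y, ((lam i y : ℤ) : ZMod p) = lb i (QuotientAddGroup.mk y) := by
    intro i y
    refine pm_hom_ext' (φ := (Int.castAddHom (ZMod p)).comp (lam i))
      (ψ := (lb i).comp (QuotientAddGroup.mk' R)) (fun x => ?_) y
    show ((lam i (dl x) : ℤ) : ZMod p) = lb i (QuotientAddGroup.mk (dl x))
    rw [lf_dl, Int.cast_natCast, ZMod.natCast_zmod_val]
  have hlamH : ∀ i, ∀ h ∈ H, ∀ y, lam i (h • y) = lam i y := by
    intro i h hh y
    refine pm_hom_ext' (φ := (lam i).comp (DistribSMul.toAddMonoidHom (PM X) h))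
      (ψ := lam i) (fun x => ?_) y
    show lam i (h • dl x) = lam i (dl x)
    rw [smul_dl, lf_dl, lf_dl]
    have : (QuotientAddGroup.mk (dl (h • x)) : PM X ⧸ R) = QuotientAddGroup.mk (dl x) := by
      rw [← smul_dl, ← sub_eq_zero, ← QuotientAddGroup.mk_sub]
      exact (QuotientAddGroup.eq_zero_iff _).mpr (hH h hh _)
    rw [this]
  have hsub : ∀ y, y - ∑ i, lam i y • f i ∈ R := by
    intro y
    rw [← QuotientAddGroup.eq_zero_iff, QuotientAddGroup.mk_sub, sub_eq_zero]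
    have h1 : (QuotientAddGroup.mk (∑ i, lam i y • f i) : PM X ⧸ R) =
        ∑ i, lam i y • (QuotientAddGroup.mk (f i) : PM X ⧸ R) := by
      have := map_sum (QuotientAddGroup.mk' R) (fun i => lam i y • f i) Finset.univ
      refine this.trans (Finset.sum_congr rfl fun i _ => ?_)
      exact map_zsmul (QuotientAddGroup.mk' R) _ _
    rw [h1, hb (QuotientAddGroup.mk y) (fun i => lam i y) (fun i => hlam i y)]
    exact Finset.sum_congr rfl fun i _ => by rw [hf i]
  have hp0 : (p : ℤ) ≠ 0 := by exact_mod_cast hp.out.ne_zero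
  have hdiv : ∀ i, ∃ μ : R →+ ℤ, ∀ r, (lam i).comp R.subtype r = p * μ r := by
    intro i
    refine exists_div_hom hp0 ((lam i).comp R.subtype) (fun r => ?_)
    rw [← ZMod.intCast_zmod_eq_zero_iff_dvd]
    show ((lam i r.1 : ℤ) : ZMod p) = 0
    rw [hlam, (QuotientAddGroup.eq_zero_iff _).mpr r.2, map_zero]
  choose μ hμ using hdiv
  exact ⟨_, f, lam, μ, hlamH, hsub, hμ⟩

/-- norms of homomorphisms -/
theorem norm_decomp [Finite (PM X ⧸ R)] (hpR : ∀ f, p • f ∈ R) {C J : Type*} [AddCommGroup C]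
    [DistribMulAction G C] [AddCommGroup J] [DistribMulAction G J] (t : J →+ C)
    (ht : ∀ (g : G) j, t (g • j) = g • t j) (P : AddSubgroup J)
    (hP : ∀ (g : G) j, j ∈ P → g • j ∈ P) (H : Subgroup G) [Fintype H]
    (hH : ∀ h ∈ H, ∀ f : PM X, h • f - f ∈ R)
    (htr : ∀ c : C, ∃ a ∈ fix C H, ∃ j ∈ fix J H, j ∈ P ∧ ∑ h : H, h • c = p • a + t j)
    (γ : R →+ C) :
    ∃ ψ : R →+ J, (∀ (g : G) (r : R), ψ (g • r) = g • ψ r) ∧ (∀ r, ψ r ∈ P) ∧
      ∃ θ : PM X →+ C, (∀ (g : G) (f : PM X), θ (g • f) = g • θ f) ∧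
        ∀ r : R, ∑ x : G, x • γ (x⁻¹ • r) = t (ψ r) + θ r.1 := by
  classical
  haveI : Fintype (G ⧸ H) := Fintype.ofFinite _
  obtain ⟨n, f, lam, μ, hlamH, hsub, hμ⟩ := exists_coords hpR H hH
  have hp0 : (p : ℤ) ≠ 0 := by exact_mod_cast hp.out.ne_zero
  have hμH : ∀ i, ∀ h ∈ H, ∀ r : R, μ i (h • r) = μ i r := by
    intro i h hh r
    apply mul_left_cancel₀ hp0
    rw [← hμ, ← hμ]
    exact hlamH i h hh r.1
  -- the extended part
  let θ' : PM X →+ C :=
    { toFun := fun y => γ ⟨y - ∑ i, lam i y • f i, hsub y⟩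
      map_zero' := by
        rw [← map_zero γ]
        congr 1
        apply Subtype.ext
        show (0 : PM X) - ∑ i, lam i 0 • f i = 0
        rw [Finset.sum_eq_zero (fun i _ => by rw [map_zero, zero_smul]), sub_zero]
      map_add' := fun y y' => by
        rw [← map_add γ]
        congr 1
        apply Subtype.ext
        show (y + y') - ∑ i, lam i (y + y') • f i = (y - ∑ i, lam i y • f i) +
          (y' - ∑ i, lam i y' • f i)
        have : ∑ i, lam i (y + y') • f i = ∑ i, lam i y • f i + ∑ i, lam i y' • f i := by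
          rw [← Finset.sum_add_distrib]
          exact Finset.sum_congr rfl fun i _ => by rw [map_add, add_smul]
        rw [this]; abel }
  have hγ : ∀ r : R, γ r = θ' r.1 + ∑ i, μ i r • γ ⟨p • f i, hpR _⟩ := by
    intro r
    have h1 : r = (⟨r.1 - ∑ i, lam i r.1 • f i, hsub r.1⟩ : R) +
        ∑ i, μ i r • (⟨p • f i, hpR _⟩ : R) := by
      apply Subtype.ext
      rw [AddSubgroup.coe_add, AddSubgroup.val_finset_sum]
      show r.1 = (r.1 - ∑ i, lam i r.1 • f i) + ∑ i, μ i r • (p • f i)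
      have h2 : ∑ i, lam i r.1 • f i = ∑ i, μ i r • (p • f i) :=
        Finset.sum_congr rfl fun i _ => by
          rw [hμ, mul_comm, mul_smul, natCast_zsmul]
      rw [h2, sub_add_cancel]
    conv_lhs => rw [h1]
    rw [map_add, map_sum]
    congr 1
    exact Finset.sum_congr rfl fun i _ => map_zsmul _ _ _
  choose a ha j hj hjP haj using fun i => htr (γ ⟨p • f i, hpR _⟩)
  let θ0 : PM X →+ C :=
    { toFun := fun y => ∑ x : G, x • θ' (x⁻¹ • y)
      map_zero' := Finset.sum_eq_zero fun x _ => by rw [smul_zero, map_zero, smul_zero]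
      map_add' := fun y y' => by
        rw [← Finset.sum_add_distrib]
        exact Finset.sum_congr rfl fun x _ => by rw [smul_add, map_add, smul_add] }
  let θ1 : PM X →+ C :=
    { toFun := fun y => ∑ i, ∑ q : G ⧸ H, lam i (q.out⁻¹ • y) • q.out • a i
      map_zero' := Finset.sum_eq_zero fun i _ => Finset.sum_eq_zero fun q _ => by
        rw [smul_zero, map_zero, zero_smul]
      map_add' := fun y y' => by
        rw [← Finset.sum_add_distrib]
        refine Finset.sum_congr rfl fun i _ => ?_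
        rw [← Finset.sum_add_distrib]
        exact Finset.sum_congr rfl fun q _ => by rw [smul_add, map_add, add_smul] }
  let ψ : R →+ J :=
    { toFun := fun r => ∑ i, ∑ q : G ⧸ H, μ i (q.out⁻¹ • r) • q.out • j i
      map_zero' := Finset.sum_eq_zero fun i _ => Finset.sum_eq_zero fun q _ => by
        rw [smul_zero, map_zero, zero_smul]
      map_add' := fun y y' => by
        rw [← Finset.sum_add_distrib]
        refine Finset.sum_congr rfl fun i _ => ?_
        rw [← Finset.sum_add_distrib]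
        exact Finset.sum_congr rfl fun q _ => by rw [smul_add, map_add, add_smul] }
  have hθ0 : ∀ (g : G) (y : PM X), θ0 (g • y) = g • θ0 y := by
    intro g y
    show ∑ x : G, x • θ' (x⁻¹ • g • y) = g • ∑ x : G, x • θ' (x⁻¹ • y)
    rw [Finset.smul_sum]
    refine (Fintype.sum_equiv (Equiv.mulLeft g) _ _ (fun x => ?_)).symm
    show g • x • θ' (x⁻¹ • y) = (g * x) • θ' ((g * x)⁻¹ • g • y)
    rw [mul_smul, ← mul_smul (g * x)⁻¹ g y, mul_inv_rev, mul_assoc, inv_mul_cancel, mul_one]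
  have hθ1 : ∀ (g : G) (y : PM X), θ1 (g • y) = g • θ1 y := by
    intro g y
    show ∑ i, ∑ q : G ⧸ H, lam i (q.out⁻¹ • g • y) • q.out • a i =
      g • ∑ i, ∑ q : G ⧸ H, lam i (q.out⁻¹ • y) • q.out • a i
    rw [Finset.smul_sum]
    refine Finset.sum_congr rfl fun i _ => ?_
    rw [Finset.smul_sum]
    refine coset_sum_shift H (Φ := fun x => g • lam i (x⁻¹ • y) • x • a i)
      (Ψ := fun x => lam i (x⁻¹ • g • y) • x • a i) g ?_ ?_ ?_
    · intro x h hh
      show g • lam i ((x * h)⁻¹ • y) • (x * h) • a i = g • lam i (x⁻¹ • y) • x • a i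
      rw [mul_inv_rev, mul_smul h⁻¹, hlamH i _ (H.inv_mem hh), mul_smul x, ha i h hh]
    · intro x h hh
      show lam i ((x * h)⁻¹ • g • y) • (x * h) • a i = lam i (x⁻¹ • g • y) • x • a i
      rw [mul_inv_rev, mul_smul h⁻¹, hlamH i _ (H.inv_mem hh), mul_smul x, ha i h hh]
    · intro x
      show lam i ((g * x)⁻¹ • g • y) • (g * x) • a i = g • lam i (x⁻¹ • y) • x • a i
      rw [← mul_smul (g * x)⁻¹ g y, mul_inv_rev, mul_assoc, inv_mul_cancel, mul_one, mul_smul,
        smul_comm g (lam i (x⁻¹ • y)) (x • a i)]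
  have hψ : ∀ (g : G) (r : R), ψ (g • r) = g • ψ r := by
    intro g y
    show ∑ i, ∑ q : G ⧸ H, μ i (q.out⁻¹ • g • y) • q.out • j i =
      g • ∑ i, ∑ q : G ⧸ H, μ i (q.out⁻¹ • y) • q.out • j i
    rw [Finset.smul_sum]
    refine Finset.sum_congr rfl fun i _ => ?_
    rw [Finset.smul_sum]
    refine coset_sum_shift H (Φ := fun x => g • μ i (x⁻¹ • y) • x • j i)
      (Ψ := fun x => μ i (x⁻¹ • g • y) • x • j i) g ?_ ?_ ?_
    · intro x h hh
      show g • μ i ((x * h)⁻¹ • y) • (x * h) • j i = g • μ i (x⁻¹ • y) • x • j i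
      rw [mul_inv_rev, mul_smul h⁻¹, hμH i _ (H.inv_mem hh), mul_smul x, hj i h hh]
    · intro x h hh
      show μ i ((x * h)⁻¹ • g • y) • (x * h) • j i = μ i (x⁻¹ • g • y) • x • j i
      rw [mul_inv_rev, mul_smul h⁻¹, hμH i _ (H.inv_mem hh), mul_smul x, hj i h hh]
    · intro x
      show μ i ((g * x)⁻¹ • g • y) • (g * x) • j i = g • μ i (x⁻¹ • y) • x • j i
      rw [← mul_smul (g * x)⁻¹ g y, mul_inv_rev, mul_assoc, inv_mul_cancel, mul_one, mul_smul,
        smul_comm g (μ i (x⁻¹ • y)) (x • j i)]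
  refine ⟨ψ, hψ, fun r => ?_, θ0 + θ1, fun g y => ?_, fun r => ?_⟩
  · show ∑ i, ∑ q : G ⧸ H, μ i (q.out⁻¹ • r) • q.out • j i ∈ P
    exact P.sum_mem fun i _ => P.sum_mem fun q _ => P.zsmul_mem (hP _ _ (hjP i)) _
  · show θ0 (g • y) + θ1 (g • y) = g • (θ0 y + θ1 y)
    rw [hθ0, hθ1, smul_add]
  · have h1 : ∑ x : G, x • γ (x⁻¹ • r) = θ0 r.1 +
        ∑ i, ∑ x : G, μ i (x⁻¹ • r) • x • γ ⟨p • f i, hpR _⟩ := by
      rw [Finset.sum_comm]
      show _ = ∑ x : G, x • θ' (x⁻¹ • r.1) + _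
      rw [← Finset.sum_add_distrib]
      refine Finset.sum_congr rfl fun x _ => ?_
      rw [hγ, smul_add, Finset.smul_sum]
      congr 1
      exact Finset.sum_congr rfl fun i _ => smul_comm _ _ _
    have h2 : ∀ i, ∑ x : G, μ i (x⁻¹ • r) • x • γ ⟨p • f i, hpR _⟩ =
        t (∑ q : G ⧸ H, μ i (q.out⁻¹ • r) • q.out • j i) +
          ∑ q : G ⧸ H, lam i (q.out⁻¹ • r.1) • q.out • a i := by
      intro i
      rw [sum_coset H, map_sum, ← Finset.sum_add_distrib]
      refine Finset.sum_congr rfl fun q _ => ?_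
      have h3 : ∀ h : H, μ i ((q.out * (h : G))⁻¹ • r) • (q.out * (h : G)) • γ ⟨p • f i, hpR _⟩ =
          μ i (q.out⁻¹ • r) • q.out • (h • γ ⟨p • f i, hpR _⟩) := by
        intro h
        rw [mul_inv_rev, mul_smul (h : G)⁻¹, hμH i _ (H.inv_mem h.2), mul_smul q.out]
        rfl
      rw [Finset.sum_congr rfl fun h _ => h3 h, ← Finset.smul_sum, ← Finset.smul_sum, haj i,
        smul_add, smul_add, map_zsmul, ht, add_comm]
      congr 1
      have h4 : lam i (q.out⁻¹ • r.1) = p * μ i (q.out⁻¹ • r) := hμ i (q.out⁻¹ • r)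
      rw [h4, mul_comm (p : ℤ), mul_smul, smul_comm (q.out) p (a i), natCast_zsmul]
    rw [h1, Finset.sum_congr rfl fun i _ => h2 i, Finset.sum_add_distrib]
    show _ = t (∑ i, ∑ q : G ⧸ H, μ i (q.out⁻¹ • r) • q.out • j i) + (θ0 r.1 +
      ∑ i, ∑ q : G ⧸ H, lam i (q.out⁻¹ • r.1) • q.out • a i)
    rw [map_sum]
    abel

end

end

end Fermat.Agent.CFT
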