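import Fermat.Agent.CFT.FDual2
import Fermat.Agent.CFT.NDec

set_option autoImplicit false
set_option maxHeartbeats 400000

/-! Finite level duality: the main count. -/

namespace Fermat.Agent.CFT

open Finset Fermat.Agent.CFTSec

noncomputable section

section defs

section gen

variable {G : Type*} [Group G] {F : Type*} [AddCommGroup F] [DistribMulAction G F]
  (R : AddSubgroup F) [hR : Stab G R]

/-- equivariant homomorphisms -/
def EqH (G : Type*) [Group G] (B C : Type*) [AddCommGroup B] [DistribMulAction G B]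
    [AddCommGroup C] [DistribMulAction G C] : AddSubgroup (B →+ C) where
  carrier := {φ | ∀ (g : G) (r : B), φ (g • r) = g • φ r}
  zero_mem' := fun g r => (smul_zero g).symm
  add_mem' := fun {a b} ha hb g r => by
    show a (g • r) + b (g • r) = g • (a r + b r)
    rw [ha, hb, smul_add]
  neg_mem' := fun {a} ha g r => by
    show - a (g • r) = g • (- a r)
    rw [ha, smul_neg]

/-- sums of homomorphisms that lift to `P` and homomorphisms that extend to `F` -/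
def JJg (G : Type*) [Group G] {F : Type*} [AddCommGroup F] [DistribMulAction G F]
    (R : AddSubgroup F) [hR : Stab G R] {J C : Type*} [AddCommGroup J] [DistribMulAction G J]
    [AddCommGroup C] [DistribMulAction G C] (t : J →+ C) (P : AddSubgroup J) :
    AddSubgroup (R →+ C) where
  carrier := {φ | ∃ ψ : R →+ J, (∀ (g : G) (r : R), ψ (g • r) = g • ψ r) ∧ (∀ r, ψ r ∈ P) ∧
    ∃ θ : F →+ C, (∀ (g : G) (f : F), θ (g • f) = g • θ f) ∧ ∀ r : R, φ r = t (ψ r) + θ r.1}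
  zero_mem' := ⟨0, fun g r => (smul_zero g).symm, fun r => P.zero_mem, 0,
    fun g r => (smul_zero g).symm, fun r => by
      show (0 : C) = t 0 + 0
      rw [map_zero, add_zero]⟩
  add_mem' := by
    rintro a b ⟨ψ, h1, h2, θ, h3, h4⟩ ⟨ψ', h1', h2', θ', h3', h4'⟩
    refine ⟨ψ + ψ', fun g r => ?_, fun r => P.add_mem (h2 r) (h2' r), θ + θ', fun g r => ?_,
      fun r => ?_⟩
    · show ψ (g • r) + ψ' (g • r) = g • (ψ r + ψ' r)
      rw [h1, h1', smul_add]
    · show θ (g • r) + θ' (g • r) = g • (θ r + θ' r)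
      rw [h3, h3', smul_add]
    · show a r + b r = t (ψ r + ψ' r) + (θ r.1 + θ' r.1)
      rw [h4, h4', map_add]; abel
  neg_mem' := by
    rintro a ⟨ψ, h1, h2, θ, h3, h4⟩
    refine ⟨-ψ, fun g r => ?_, fun r => P.neg_mem (h2 r), -θ, fun g r => ?_, fun r => ?_⟩
    · show - ψ (g • r) = g • (- ψ r)
      rw [h1, smul_neg]
    · show - θ (g • r) = g • (- θ r)
      rw [h3, smul_neg]
    · show - a r = t (- ψ r) + (- θ r.1)
      rw [h4, map_neg]; abel

/-- cocycles modulo `R` -/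
def ZZg (G : Type*) [Group G] {F : Type*} [AddCommGroup F] [DistribMulAction G F]
    (R : AddSubgroup F) : AddSubgroup (G → F) where
  carrier := {c | ∀ g h, dd c g h ∈ R}
  zero_mem' := fun g h => by
    have : dd (0 : G → F) g h = 0 := by
      show (0 : F) + g • (0 : F) - 0 = 0
      rw [smul_zero]; abel
    rw [this]; exact R.zero_mem
  add_mem' := fun {a b} ha hb g h => by
    have : dd (a + b) g h = dd a g h + dd b g h := by
      show (a g + b g) + g • (a h + b h) - (a (g * h) + b (g * h)) =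
        (a g + g • a h - a (g * h)) + (b g + g • b h - b (g * h))
      rw [smul_add]; abel
    rw [this]; exact R.add_mem (ha g h) (hb g h)
  neg_mem' := fun {a} ha g h => by
    have : dd (-a) g h = - dd a g h := by
      show (- a g) + g • (- a h) - (- a (g * h)) = - (a g + g • a h - a (g * h))
      rw [smul_neg]; abel
    rw [this]; exact R.neg_mem (ha g h)

/-- coboundaries modulo `R` -/
def BBg (G : Type*) [Group G] {F : Type*} [AddCommGroup F] [DistribMulAction G F]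
    (R : AddSubgroup F) : AddSubgroup (G → F) where
  carrier := {c | ∃ m : F, ∀ g, c g - (g • m - m) ∈ R}
  zero_mem' := ⟨0, fun g => by
    show (0 : F) - (g • (0 : F) - 0) ∈ R
    rw [smul_zero, sub_self, sub_zero]; exact R.zero_mem⟩
  add_mem' := by
    rintro a b ⟨m, hm⟩ ⟨m', hm'⟩
    refine ⟨m + m', fun g => ?_⟩
    have : (a + b) g - (g • (m + m') - (m + m')) =
        (a g - (g • m - m)) + (b g - (g • m' - m')) := by
      show (a g + b g) - (g • (m + m') - (m + m')) = _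
      rw [smul_add]; abel
    rw [this]; exact R.add_mem (hm g) (hm' g)
  neg_mem' := by
    rintro a ⟨m, hm⟩
    refine ⟨-m, fun g => ?_⟩
    have : (-a) g - (g • (-m) - (-m)) = - (a g - (g • m - m)) := by
      show (- a g) - (g • (-m) - (-m)) = _
      rw [smul_neg]; abel
    rw [this]; exact R.neg_mem (hm g)

end gen

/-- ideles with trivial divisor part -/
def PDiv (S : Finset Nat.Primes) (L : IntermediateField ℚ Qb) :
    AddSubgroup ↥(fix (Jm S) L.fixingSubgroup) where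
  carrier := {j | j.1.1.2 = 0}
  zero_mem' := rfl
  add_mem' := fun {a b} ha hb => by
    show a.1.1.2 + b.1.1.2 = 0
    rw [ha, hb, add_zero]
  neg_mem' := fun {a} ha => by
    show - a.1.1.2 = 0
    rw [ha, neg_zero]

theorem mem_PDiv {S : Finset Nat.Primes} {L : IntermediateField ℚ Qb}
    {j : ↥(fix (Jm S) L.fixingSubgroup)} : j ∈ PDiv S L ↔ j.1.1.2 = 0 := Iff.rfl

theorem PDiv_smul {S : Finset Nat.Primes} {L : IntermediateField ℚ Qb}
    [hLn : L.fixingSubgroup.Normal] (g : GQ ⧸ L.fixingSubgroup)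
    (j : ↥(fix (Jm S) L.fixingSubgroup)) (hj : j ∈ PDiv S L) : g • j ∈ PDiv S L := by
  induction g using QuotientGroup.induction_on with
  | H g =>
    show g • j.1.1.2 = 0
    rw [mem_PDiv.mp hj, smul_zero]

variable (S : Finset Nat.Primes) (L : IntermediateField ℚ Qb) [hLn : L.fixingSubgroup.Normal]
  {F : Type*} [AddCommGroup F] [DistribMulAction (GQ ⧸ L.fixingSubgroup) F]
  (R : AddSubgroup F) [hR : Stab (GQ ⧸ L.fixingSubgroup) R]

/-- equivariant homomorphisms to the idele classes -/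
abbrev AAh : AddSubgroup (R →+ ↥(fix (Cm S) L.fixingSubgroup)) :=
  EqH (GQ ⧸ L.fixingSubgroup) R ↥(fix (Cm S) L.fixingSubgroup)

/-- the trivial part -/
abbrev JJh : AddSubgroup (R →+ ↥(fix (Cm S) L.fixingSubgroup)) :=
  JJg (GQ ⧸ L.fixingSubgroup) R (fixToC L S) (PDiv S L)

/-- locally trivial cocycles -/
def LLh : AddSubgroup ((GQ ⧸ L.fixingSubgroup) → F) where
  carrier := {c | (∀ g h, dd c g h ∈ R) ∧ ∀ q ∈ S, LocT R c q}
  zero_mem' := ⟨(ZZg (GQ ⧸ L.fixingSubgroup) R).zero_mem, fun q _ => ⟨0, fun g => by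
    show (0 : F) - (iotaD q L.fixingSubgroup g • (0 : F) - 0) ∈ R
    rw [smul_zero, sub_self, sub_zero]; exact R.zero_mem⟩⟩
  add_mem' := by
    rintro a b ⟨ha1, ha2⟩ ⟨hb1, hb2⟩
    refine ⟨(ZZg (GQ ⧸ L.fixingSubgroup) R).add_mem ha1 hb1, fun q hq => ?_⟩
    obtain ⟨m, hm⟩ := ha2 q hq
    obtain ⟨m', hm'⟩ := hb2 q hq
    refine ⟨m + m', fun g => ?_⟩
    have : (a + b) (iotaD q L.fixingSubgroup g) -
        (iotaD q L.fixingSubgroup g • (m + m') - (m + m')) =
        (a (iotaD q L.fixingSubgroup g) - (iotaD q L.fixingSubgroup g • m - m)) +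
        (b (iotaD q L.fixingSubgroup g) - (iotaD q L.fixingSubgroup g • m' - m')) := by
      show (a _ + b _) - (iotaD q L.fixingSubgroup g • (m + m') - (m + m')) = _
      rw [smul_add]; abel
    rw [this]; exact R.add_mem (hm g) (hm' g)
  neg_mem' := by
    rintro a ⟨ha1, ha2⟩
    refine ⟨(ZZg (GQ ⧸ L.fixingSubgroup) R).neg_mem ha1, fun q hq => ?_⟩
    obtain ⟨m, hm⟩ := ha2 q hq
    refine ⟨-m, fun g => ?_⟩
    have : (-a) (iotaD q L.fixingSubgroup g) - (iotaD q L.fixingSubgroup g • (-m) - (-m)) =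
        - (a (iotaD q L.fixingSubgroup g) - (iotaD q L.fixingSubgroup g • m - m)) := by
      show (- a _) - (iotaD q L.fixingSubgroup g • (-m) - (-m)) = _
      rw [smul_neg]; abel
    rw [this]; exact R.neg_mem (hm g)

include hR in
theorem BBg_le_LLh : BBg (GQ ⧸ L.fixingSubgroup) R ≤ LLh S L R := by
  rintro c ⟨m, hm⟩
  refine ⟨fun g h => ?_, fun q _ => ⟨m, fun d => hm _⟩⟩
  have : dd c g h = (c g - (g • m - m)) + g • (c h - (h • m - m)) -
      (c (g * h) - ((g * h) • m - m)) := by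
    show c g + g • c h - c (g * h) = _
    rw [smul_sub, smul_sub, mul_smul]; abel
  rw [this]
  exact R.sub_mem (R.add_mem (hm g) (hR.smul_mem g _ (hm h))) (hm _)

theorem LLh_le_ZZg : LLh S L R ≤ ZZg (GQ ⧸ L.fixingSubgroup) R := fun _ h => h.1

end defs

theorem mem_of_coprime_nsmul {A : Type*} [AddCommGroup A] (W : AddSubgroup A) {m p : ℕ}
    (h : m.Coprime p) {a : A} (h1 : m • a ∈ W) (h2 : p • a ∈ W) : a ∈ W := by
  obtain ⟨x, y, hxy⟩ := Nat.isCoprime_iff_coprime.mpr h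
  have h3 : a = x • (m • a) + y • (p • a) := by
    rw [← natCast_zsmul a m, ← natCast_zsmul a p, ← mul_smul, ← mul_smul, ← add_smul, hxy,
      one_smul]
  rw [h3]
  exact W.add_mem (W.zsmul_mem h1 _) (W.zsmul_mem h2 _)

/-- nested subgroups -/
def nestE {A : Type*} [AddCommGroup A] {T Z : AddSubgroup A} (h : T ≤ Z) :
    ↥(T.addSubgroupOf Z) ≃+ ↥T where
  toFun x := ⟨x.1.1, x.2⟩
  invFun y := ⟨⟨y.1, h y.2⟩, y.2⟩
  left_inv _ := rfl
  right_inv _ := rfl
  map_add' _ _ := rfl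

section main

variable {p : ℕ} [hp : Fact p.Prime] (hp2 : 2 < p) {S : Finset Nat.Primes} (hpS : pP p ∈ S)
  {K L : IntermediateField ℚ Qb} (hL : L.IsUnramifiedOutside S) [hLn : L.fixingSubgroup.Normal]
  {ζ : Qb} (hζ : IsPrimitiveRoot ζ p) (hζL : ζ ∈ L) {I : Type*} [Fintype I]
  {R : AddSubgroup (PM (GI (GQ ⧸ L.fixingSubgroup) I))} [hR : Stab (GQ ⧸ L.fixingSubgroup) R]

include hp2 hpS hL hζ hζL in
/-- the finite level duality -/
theorem fdual_count
    [Finite (PM (GI (GQ ⧸ L.fixingSubgroup) I) ⧸ R)] (hpR : ∀ f, p • f ∈ R)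
    (hH : ∀ h ∈ HK K L, ∀ f : PM (GI (GQ ⧸ L.fixingSubgroup) I), h • f - f ∈ R)
    (htr : ∀ (hfin : Fintype (HK K L)) (c : ↥(fix (Cm S) L.fixingSubgroup)),
      ∃ a ∈ fix (Cm S) K.fixingSubgroup,
      ∃ j ∈ fix (Jm S) K.fixingSubgroup, j.1.2 = 0 ∧
      (∑ h : HK K L, h • c).1 = p • a + toC S j)
    (hKL : K ≤ L)
    (hgood : ∀ (q : Nat.Primes) (hq : q ∈ S), ∃ (m c : ℕ) (a : ↥(fix (JQ q) (⊤ : Subgroup GQ))),
      rS m hp2 hpS (sgl q hq (c • a)) ≠ 0 ∧
      (∀ t : LG q, ((p * c : ℕ) : ZMod (p ^ m)) * ch m hp2 (localGaloisToGlobal (q : ℕ) t) = 0) ∧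
      L.fixingSubgroup ≤ (EF m hp2).fixingSubgroup) :
    Nat.card (↥(AAh S L R) ⧸ (JJh S L R).addSubgroupOf (AAh S L R)) =
      Nat.card (↥(LLh S L R) ⧸ (BBg (GQ ⧸ L.fixingSubgroup) R).addSubgroupOf (LLh S L R)) ∧
    Finite (↥(LLh S L R) ⧸ (BBg (GQ ⧸ L.fixingSubgroup) R).addSubgroupOf (LLh S L R)) := by
  classical
  haveI := hL.1
  haveI : L.fixingSubgroup.FiniteIndex := finiteIndex_fixingSubgroup L
  haveI : Finite (GQ ⧸ L.fixingSubgroup) := Subgroup.finite_quotient_of_finiteIndex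
  haveI : Fintype (GQ ⧸ L.fixingSubgroup) := Fintype.ofFinite _
  haveI : Fintype (HK K L) := Fintype.ofFinite _
  obtain ⟨u, hu⟩ := exists_global_class hp2 hpS hL hζ hζL
  obtain ⟨Iv, hIv⟩ := exists_inv hu
  obtain ⟨e, he⟩ := exists_pr_gi (I := I) (MonoidHom.id (GQ ⧸ L.fixingSubgroup))
    Function.injective_id
  have he' : ∀ f : PM (GI (GQ ⧸ L.fixingSubgroup) I),
      ∑ x : GQ ⧸ L.fixingSubgroup, x • e (x⁻¹ • f) = f := he
  let mk2 : ∀ (φ : AAh S L R) (c : ZZg (GQ ⧸ L.fixingSubgroup) R),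
      ↥(T2p p (GQ ⧸ L.fixingSubgroup) ↥(fix (Cm S) L.fixingSubgroup)) := fun φ c =>
    ⟨fun g h => φ.1 (rr c.1 c.2 g h), mapZ2 (rr_mem' c.1 c.2) φ.1 φ.2,
      ptors_rr hpR c.1 c.2 φ.1 φ.2⟩
  have hmk2 : ∀ φ c, (mk2 φ c).1 = fun g h => φ.1 (rr c.1 c.2 g h) := fun _ _ => rfl
  have hadd1 : ∀ φ c c', mk2 φ (c + c') = mk2 φ c + mk2 φ c' := by
    intro φ c c'
    apply Subtype.ext
    funext g h
    show φ.1 (rr (c + c').1 (c + c').2 g h) = φ.1 (rr c.1 c.2 g h) + φ.1 (rr c'.1 c'.2 g h)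
    rw [← map_add]
    congr 1
    apply Subtype.ext
    show (c.1 g + c'.1 g) + g • (c.1 h + c'.1 h) - (c.1 (g * h) + c'.1 (g * h)) =
      (c.1 g + g • c.1 h - c.1 (g * h)) + (c'.1 g + g • c'.1 h - c'.1 (g * h))
    rw [smul_add]; abel
  have hadd2 : ∀ φ φ' c, mk2 (φ + φ') c = mk2 φ c + mk2 φ' c := fun φ φ' c => rfl
  let b : AAh S L R →+ ZZg (GQ ⧸ L.fixingSubgroup) R →+ ZMod p :=
    { toFun := fun φ =>
        AddMonoidHom.mk' (fun c => Iv (mk2 φ c)) (fun c c' => by rw [hadd1, map_add])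
      map_zero' := by
        ext c
        show Iv (mk2 0 c) = 0
        rw [hIv, hmk2]
        exact (B2 _ _).zero_mem
      map_add' := fun φ φ' => by
        ext c
        show Iv (mk2 (φ + φ') c) = Iv (mk2 φ c) + Iv (mk2 φ' c)
        rw [hadd2, map_add] }
  have hb : ∀ φ c, b φ c = 0 ↔ (fun g h => φ.1 (rr c.1 c.2 g h)) ∈
      B2 (GQ ⧸ L.fixingSubgroup) ↥(fix (Cm S) L.fixingSubgroup) := fun φ c => hIv (mk2 φ c)
  -- cocycles modulo coboundaries are finite
  have hfinZ : Finite (↥(ZZg (GQ ⧸ L.fixingSubgroup) R) ⧸ (BBg (GQ ⧸ L.fixingSubgroup) R).addSubgroupOf (ZZg (GQ ⧸ L.fixingSubgroup) R)) := by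
    let q : ZZg (GQ ⧸ L.fixingSubgroup) R →+ ((GQ ⧸ L.fixingSubgroup) → (PM (GI (GQ ⧸ L.fixingSubgroup) I) ⧸ R)) :=
      { toFun := fun c g => QuotientAddGroup.mk (c.1 g)
        map_zero' := rfl
        map_add' := fun _ _ => rfl }
    have hk : q.ker ≤ (BBg (GQ ⧸ L.fixingSubgroup) R).addSubgroupOf (ZZg (GQ ⧸ L.fixingSubgroup) R) := by
      intro c hc
      rw [AddSubgroup.mem_addSubgroupOf]
      refine ⟨0, fun g => ?_⟩
      rw [smul_zero, sub_self, sub_zero]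
      exact (QuotientAddGroup.eq_zero_iff _).mp (congrFun hc g)
    have hfk : Finite (↥(ZZg (GQ ⧸ L.fixingSubgroup) R) ⧸ q.ker) :=
      Finite.of_injective _ (QuotientAddGroup.kerLift_injective q)
    exact Finite.of_surjective (QuotientAddGroup.map q.ker _ (AddMonoidHom.id _) (by simpa using hk))
      (by
        intro x
        obtain ⟨y, rfl⟩ := QuotientAddGroup.mk_surjective x
        exact ⟨QuotientAddGroup.mk y, rfl⟩)
  have key := card_quot_eq b ((JJh S L R).addSubgroupOf (AAh S L R))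
    ((BBg (GQ ⧸ L.fixingSubgroup) R).addSubgroupOf (ZZg (GQ ⧸ L.fixingSubgroup) R)) ((LLh S L R).addSubgroupOf (ZZg (GQ ⧸ L.fixingSubgroup) R))
    (fun c hc => BBg_le_LLh S L R hc) (fun φ c hc => ?_) (fun c hc => ?_) (fun φ hφ => ?_)
    (fun c => ⟨fun hc φ hφ => ?_, fun hc => ?_⟩)
  · -- final
    let e1 : ↥((LLh S L R).addSubgroupOf (ZZg (GQ ⧸ L.fixingSubgroup) R)) ≃+ ↥(LLh S L R) :=
      nestE (LLh_le_ZZg S L R)
    have e1v : ∀ x, (e1 x).1 = x.1.1 := fun x => rfl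
    have e2 : (↥((LLh S L R).addSubgroupOf (ZZg (GQ ⧸ L.fixingSubgroup) R)) ⧸ ((BBg (GQ ⧸ L.fixingSubgroup) R).addSubgroupOf (ZZg (GQ ⧸ L.fixingSubgroup) R)).addSubgroupOf
        ((LLh S L R).addSubgroupOf (ZZg (GQ ⧸ L.fixingSubgroup) R))) ≃+ (↥(LLh S L R) ⧸ (BBg (GQ ⧸ L.fixingSubgroup) R).addSubgroupOf (LLh S L R)) := by
      refine QuotientAddGroup.congr _ _ e1 ?_
      ext x
      constructor
      · rintro ⟨y, hy, rfl⟩
        show (e1 y).1 ∈ BBg (GQ ⧸ L.fixingSubgroup) R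
        rw [e1v]; exact hy
      · intro hx
        refine ⟨e1.symm x, ?_, e1.apply_symm_apply x⟩
        show (e1.symm x).1.1 ∈ BBg (GQ ⧸ L.fixingSubgroup) R
        rw [← e1v, e1.apply_symm_apply]; exact hx
    haveI := key.2
    exact ⟨key.1.trans (Nat.card_congr e2.toEquiv), Finite.of_equiv _ e2.toEquiv⟩
  · -- coboundaries pair trivially
    rw [hb]
    obtain ⟨m, hm⟩ := hc
    exact pair_cob c.1 c.2 m hm φ.1 φ.2
  · -- T1
    by_contra hnc
    obtain ⟨φ, hφ, hn⟩ := T1 hu hpR e he' c.1 c.2 (fun ⟨m, hm⟩ => hnc ⟨m, hm⟩)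
    exact hn ((hb ⟨φ, hφ⟩ c).mp (hc ⟨φ, hφ⟩))
  · -- T2
    obtain ⟨m, hm, γ, hγ⟩ := T2 hu hpR e he' φ.1 φ.2
      (fun c hc => (hb φ ⟨c, hc⟩).mp (hφ ⟨c, hc⟩))
    obtain ⟨ψ, hψ1, hψ2, θ, hθ1, hθ2⟩ := norm_decomp hpR (fixToC L S) (fun g j => fixToC_smul g j)
      (PDiv S L) PDiv_smul (HK K L) hH
      (fun c => by
        obtain ⟨a, ha, j, hj, hj0, haj⟩ := htr inferInstance c
        have hle : L.fixingSubgroup ≤ K.fixingSubgroup :=
          IntermediateField.fixingSubgroup_antitone hKL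
        refine ⟨⟨a, fix_mono hle ha⟩, ?_, ⟨j, fix_mono hle hj⟩, ?_, hj0, Subtype.ext haj⟩
        · rintro h ⟨k, hk, rfl⟩
          exact Subtype.ext (ha k hk)
        · rintro h ⟨k, hk, rfl⟩
          exact Subtype.ext (hj k hk)) γ
    -- m • φ and p • φ are in JJ
    have h1 : m • φ.1 ∈ JJh S L R := by
      refine ⟨ψ, hψ1, hψ2, θ, hθ1, fun r => ?_⟩
      rw [← hθ2 r, ← hγ r]; rfl
    have h2 : p • φ.1 ∈ JJh S L R := by
      refine ⟨0, fun g r => (smul_zero g).symm, fun r => rfl,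
        AddMonoidHom.mk' (fun f => φ.1 ⟨p • f, hpR f⟩) (fun f f' => ?_), fun g f => ?_, fun r => ?_⟩
      · rw [← map_add]
        congr 1
        exact Subtype.ext (smul_add _ _ _)
      · show φ.1 ⟨p • g • f, hpR _⟩ = g • φ.1 ⟨p • f, hpR f⟩
        rw [← φ.2]
        exact congrArg φ.1 (Subtype.ext (smul_comm p g f))
      · show p • φ.1 r = fixToC L S 0 + φ.1 ⟨p • r.1, _⟩
        rw [map_zero, zero_add, ← map_nsmul]
        rfl
    exact mem_of_coprime_nsmul (JJh S L R)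
      ((Nat.Prime.coprime_iff_not_dvd hp.out).mpr hm).symm h1 h2
  · -- locally trivial classes are orthogonal to JJ
    rw [hb]
    obtain ⟨ψ, h1, h2, θ, h3, h4⟩ := hφ
    have h5 : (fun g h => φ.1 (rr c.1 c.2 g h)) =
        (fun g h => fixToC L S (ψ (rr c.1 c.2 g h))) + (fun g h => θ (rr c.1 c.2 g h).1) := by
      funext g h
      exact h4 _
    rw [h5]
    refine AddSubgroup.add_mem _ (mapB2 (loc_pair_J hL c.1 c.2 (fun q hq => hc.2 q hq) ψ h1 h2)
      (fixToC L S) (fun g j => fixToC_smul g j)) (pair_ext c.1 c.2 θ h3)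
  · -- detection
    refine ⟨c.2, fun q hq => ?_⟩
    by_contra hnl
    obtain ⟨ψ, hψ1, hψ2⟩ := exists_loc_hom hpR q c.1 c.2 hnl
    obtain ⟨m, cc, a, hg1, hg2, hg3⟩ := hgood q hq
    apply hψ2
    refine local_global_inj hL hp2 hpS hζ hζL q hq hg1 hg2 hg3 (mapZ2 (rr_mem' c.1 c.2) ψ hψ1)
      (ptors_rr hpR c.1 c.2 ψ hψ1) ?_
    have h1 : ((inC hL q hq).comp ψ : R →+ ↥(fix (Cm S) L.fixingSubgroup)) ∈ AAh S L R := fun g r => by
      show inC hL q hq (ψ (g • r)) = g • inC hL q hq (ψ r)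
      rw [hψ1, inC_smul]
    have h2 : (⟨_, h1⟩ : AAh S L R) ∈ (JJh S L R).addSubgroupOf (AAh S L R) := by
      refine ⟨(sgN hL q hq).comp ψ, fun g r => ?_, fun r => ?_, 0, fun g f => (smul_zero g).symm,
        fun r => ?_⟩
      · show sgN hL q hq (ψ (g • r)) = g • sgN hL q hq (ψ r)
        rw [hψ1, sgN_smul]
      · rfl
      · show inC hL q hq (ψ r) = fixToC L S (sgN hL q hq (ψ r)) + 0
        rw [add_zero]; rfl
    exact (hb ⟨_, h1⟩ c).mp (hc _ h2)

end main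

end

end Fermat.Agent.CFT
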