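import Fermat.Agent.CFT.Count3

set_option autoImplicit false
set_option maxHeartbeats 400000

/-! The first inequality. -/

namespace Fermat.Agent.CFT

open Finset CFTLocal NumberField

section chev

variable {G : Type*} [Group G] {L : Type*} [AddCommGroup L] [DistribMulAction G L]

theorem chev' {p : ℕ} [hp : Fact p.Prime] (s : G) (M : AddSubgroup L) (hM : ∀ a ∈ M, s • a ∈ M)
    (hsp : ∀ a ∈ M, s ^ p • a = a) (hfin : FinInd (mulN M p)) :
    FinInd (mulN (fixSub s M) p) ∧ (nrmSub p s M).relIndex (fixSub s M) ≠ 0 ∧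
    nrmSub p s M ≤ fixSub s M ∧ ∃ t : ℕ, t ≠ 0 ∧
    (((nrmSub p s M).relIndex (fixSub s M) : ℚ) / t) ^ (p - 1) * ind (mulN M p) =
      ind (mulN (fixSub s M) p) ^ p ∧
    (t = 1 → ∀ a ∈ M, ∑ i ∈ range p, s ^ i • a = 0 → ∃ b ∈ M, a = s • b - b) := by
  let S : Module.End ℤ M := ((AddMonoidHom.mk' (fun a : M => (⟨s • (a : L), hM a a.2⟩ : M))
    (fun a b => Subtype.ext (smul_add s (a : L) b))) : M →+ M).toIntLinearMap
  have hS : ∀ a : M, ((S a : M) : L) = s • (a : L) := fun _ => rfl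
  have hSpow : ∀ (i : ℕ) (a : M), (((S ^ i) a : M) : L) = s ^ i • (a : L) := by
    intro i
    induction i with
    | zero => intro a; simp
    | succ i ih => intro a; rw [pow_succ', Module.End.mul_apply, hS, ih, pow_succ', mul_smul]
  have hSp : S ^ p = 1 := by
    apply LinearMap.ext
    intro a
    apply Subtype.ext
    rw [hSpow, hsp a a.2]; rfl
  have hnrm : ∀ a : M, ((nrm p S a : M) : L) = ∑ i ∈ range p, s ^ i • (a : L) := by
    intro a
    rw [nrm_apply, AddSubgroup.val_finsetSum]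
    exact sum_congr rfl fun i _ => hSpow i a
  obtain ⟨h1, h2, h3, h4⟩ := chevalley p S hSp hfin
  have hfix : (fixedG S).map M.subtype = fixSub s M := by
    ext a
    constructor
    · rintro ⟨b, hb, rfl⟩
      exact ⟨b.2, congrArg Subtype.val ((mem_fixedG S).mp hb)⟩
    · rintro ⟨ha, hb⟩
      exact ⟨⟨a, ha⟩, (mem_fixedG S).mpr (Subtype.ext hb), rfl⟩
  have hrange : (ad (nrm p S)).range.map M.subtype = nrmSub p s M := by
    ext a
    constructor
    · rintro ⟨_, ⟨c, rfl⟩, rfl⟩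
      exact ⟨c, c.2, hnrm c⟩
    · rintro ⟨c, hc, rfl⟩
      exact ⟨_, ⟨⟨c, hc⟩, rfl⟩, hnrm ⟨c, hc⟩⟩
  let e : fixedG S ≃+ fixSub s M :=
    ((fixedG S).equivMapOfInjective M.subtype M.subtype_injective).trans
      (AddEquiv.addSubgroupCongr hfix)
  obtain ⟨h5, h6⟩ := ind_equiv p e h1
  have h7 : (nrmSub p s M).relIndex (fixSub s M) = (ad (nrm p S)).range.relIndex (fixedG S) := by
    rw [← hfix, ← hrange]
    exact AddSubgroup.relIndex_map_map_of_injective _ _ M.subtype_injective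
  refine ⟨h5, by rw [h7]; exact h2, ?_, (augG S).relIndex (ad (nrm p S)).ker, h3, ?_, ?_⟩
  · rw [← hfix, ← hrange]
    apply AddSubgroup.map_mono
    rintro _ ⟨c, rfl⟩
    exact nrm_mem_fixedG p S hSp c
  · rw [h7, h6, h4]
  · intro ht a ha hsum
    rw [AddSubgroup.relIndex_eq_one] at ht
    have h8 : (⟨a, ha⟩ : M) ∈ (ad (nrm p S)).ker := by
      rw [AddMonoidHom.mem_ker]
      apply Subtype.ext
      have := hnrm ⟨a, ha⟩
      rw [hsum] at this
      exact this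
    obtain ⟨b, hb⟩ := ht h8
    exact ⟨b.1, b.2, (congrArg Subtype.val hb).symm⟩

end chev

section group

variable {G : Type*} [Group G] {A : Type*} [AddCommGroup A] [DistribMulAction G A] {p : ℕ}
  [hp : Fact p.Prime] {N U : Subgroup G} (hNU : N ≤ U)
  (hnorm : ∀ g ∈ U, ∀ k ∈ N, g * k * g⁻¹ ∈ N)
  (hi : N.relIndex U = p) {s : G} (hsU : s ∈ U) (hs : s ∉ N)

include hNU hnorm hi hsU hs

theorem smul_fix' {a : A} (ha : a ∈ fix A N) : s • a ∈ fix A N := by
  intro k hk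
  have h1 := ha _ (norm_inv' hnorm hsU hk)
  calc k • s • a = s • (s⁻¹ * k * s) • a := by rw [smul_smul, smul_smul]; congr 1; group
    _ = s • a := by rw [h1]

theorem fixSub_eq' : fixSub s (fix A N) = fix A U := by
  obtain ⟨h1, h2, h3⟩ := pow_of_relIndex hnorm hi hsU hs
  ext a
  constructor
  · rintro ⟨ha, hb⟩ g hg
    obtain ⟨i, k, hk, rfl⟩ := h2 g hg
    rw [mul_smul, ha k hk]
    clear hg
    induction i with
    | zero => simp
    | succ i ih => rw [pow_succ, mul_smul, hb, ih]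
  · intro ha
    exact ⟨fix_mono hNU ha, ha s hsU⟩

theorem chev_fix (hfin : FinInd (mulN ↥(fix A N) p)) :
    (nrmGrp p s N : AddSubgroup A).relIndex (fix A U) ≠ 0 ∧
    (nrmGrp p s N : AddSubgroup A) ≤ fix A U ∧ ∃ t : ℕ, t ≠ 0 ∧
    (((nrmGrp p s N : AddSubgroup A).relIndex (fix A U) : ℚ) / t) ^ (p - 1) *
      ind (mulN ↥(fix A N) p) = ind (mulN ↥(fix A U) p) ^ p ∧
    (t = 1 → ∀ a ∈ fix A N, ∑ i ∈ range p, s ^ i • a = 0 → ∃ b ∈ fix A N, a = s • b - b) := by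
  obtain ⟨h1, h2, h3⟩ := pow_of_relIndex hnorm hi hsU hs
  obtain ⟨h4, h5, h6, t, h7, h8, h9⟩ := chev' s (fix A N)
    (fun a ha => smul_fix' hNU hnorm hi hsU hs ha) (fun a ha => ha _ h1) hfin
  rw [fixSub_eq' hNU hnorm hi hsU hs] at h5 h6 h8
  exact ⟨h5, h6, t, h7, h8, h9⟩

end group

/-- **First inequality** -/
theorem first_ineq {S : Finset Nat.Primes} {F F' : IntermediateField ℚ Qb}
    (hF : F.IsUnramifiedOutside S) (hF' : F'.IsUnramifiedOutside S) (hFF' : F ≤ F')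
    {p : ℕ} [hp : Fact p.Prime] (hp2 : 2 < p) (hpS : (⟨p, hp.out⟩ : Nat.Primes) ∈ S)
    {ζ : Qb} (hζ : IsPrimitiveRoot ζ p) (hζF : ζ ∈ F)
    (hnorm : ∀ g ∈ F.fixingSubgroup, ∀ k ∈ F'.fixingSubgroup, g * k * g⁻¹ ∈ F'.fixingSubgroup)
    (hi : F'.fixingSubgroup.relIndex F.fixingSubgroup = p) {s : GQ} (hsU : s ∈ F.fixingSubgroup)
    (hs : s ∉ F'.fixingSubgroup) :
    (nrmGrp p s F'.fixingSubgroup : AddSubgroup (Cm S)) ≤ fix (Cm S) F.fixingSubgroup ∧
    ∃ t : ℕ, t ≠ 0 ∧ (nrmGrp p s F'.fixingSubgroup : AddSubgroup (Cm S)).relIndex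
      (fix (Cm S) F.fixingSubgroup) = p * t ∧
    (t = 1 → ∀ a ∈ fix (Cm S) F'.fixingSubgroup, ∑ i ∈ range p, s ^ i • a = 0 →
      ∃ b ∈ fix (Cm S) F'.fixingSubgroup, a = s • b - b) := by
  haveI := hF.1
  haveI := hF'.1
  haveI := Fermat.Agent.Frob.isGalois_Qbar
  have hNU : F'.fixingSubgroup ≤ F.fixingSubgroup :=
    IntermediateField.fixingSubgroup_antitone hFF'
  have hζ1 : IsPrimitiveRoot (⟨ζ, hζF⟩ : F) p := by
    rw [← IsPrimitiveRoot.map_iff_of_injective (f := F.val) F.val.injective]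
    exact hζ
  have hζ2 : IsPrimitiveRoot (⟨ζ, hFF' hζF⟩ : F') p := by
    rw [← IsPrimitiveRoot.map_iff_of_injective (f := F'.val) F'.val.injective]
    exact hζ
  obtain ⟨a1, a2⟩ := phi_C hp2 hpS hF hζ1
  obtain ⟨b1, b2⟩ := phi_C hp2 hpS hF' hζ2
  obtain ⟨h1, h2, t, h3, h4, h5⟩ := chev_fix (A := Cm S) hNU hnorm hi hsU hs b1
  refine ⟨h2, t, h3, ?_, h5⟩
  have hn : Module.finrank ℚ F' = p * Module.finrank ℚ F := by
    rw [IntermediateField.finrank_eq_fixingSubgroup_index (F := ℚ) (E' := Qb) F,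
      IntermediateField.finrank_eq_fixingSubgroup_index (F := ℚ) (E' := Qb) F', ← hi,
      Subgroup.relIndex_mul_index hNU]
  have h6 : InfinitePlace.nrRealPlaces F = 0 :=
    InfinitePlace.IsPrimitiveRoot.nrRealPlaces_eq_zero_of_two_lt hp2 hζ1
  have h7 := InfinitePlace.card_add_two_mul_card_eq_rank F
  rw [h6, zero_add] at h7
  set r := InfinitePlace.nrComplexPlaces F
  have h7' : Module.finrank ℚ F = 2 * r := by rw [h7]
  rw [a2, b2, hn, h7', show p * (2 * r) / 2 = p * r by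
    rw [show p * (2 * r) = 2 * (p * r) by ring, Nat.mul_div_cancel_left _ (by norm_num)],
    Nat.mul_div_cancel_left _ (by norm_num)] at h4
  have hp0 : (p : ℚ) ≠ 0 := by exact_mod_cast hp.out.ne_zero
  have ht0 : (t : ℚ) ≠ 0 := by exact_mod_cast h3
  set R := (nrmGrp p s F'.fixingSubgroup : AddSubgroup (Cm S)).relIndex (fix (Cm S) F.fixingSubgroup)
  have h8 : ((R : ℚ) / t) ^ (p - 1) = (p : ℚ) ^ (p - 1) := by
    have h9 : (p : ℚ) ^ (p * r + 1) ≠ 0 := pow_ne_zero _ hp0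
    apply mul_right_cancel₀ h9
    rw [h4, ← pow_mul, ← pow_add]
    congr 1
    have : p - 1 + 1 = p := Nat.sub_add_cancel hp.out.one_le
    calc (r + 1) * p = p * r + p := by ring
      _ = p * r + (p - 1 + 1) := by rw [this]
      _ = p - 1 + (p * r + 1) := by ring
  have h9 : (R : ℚ) / t = p :=
    (pow_left_inj₀ (by positivity) (by positivity)
      (by have := hp.out.two_le; omega : p - 1 ≠ 0)).mp h8
  rw [div_eq_iff ht0] at h9
  exact_mod_cast h9

end Fermat.Agent.CFT
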