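import Fermat.Agent.CFT.Cup2

set_option autoImplicit false
set_option maxHeartbeats 400000

/-! The layer hypothesis for the idele class module. -/

namespace Fermat.Agent.CFT

open Finset Fermat.Agent.CFTSec
open scoped Pointwise

noncomputable section

section quot

variable {U : Type*} [Group U] {A : Type*} [AddCommGroup A] [DistribMulAction U A]

/-- transfer of the layer hypothesis to a quotient, with a `p`-group condition -/
theorem layerHyp_quot' (p : ℕ) (N : Subgroup U) [hN : N.Normal]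
    (h : ∀ (Q' Q : Subgroup U) (s : U), N ≤ Q' → Q' ≤ Q → (∀ g ∈ Q, ∃ k : ℕ, g ^ p ^ k ∈ N) →
      s ∈ Q → s ∉ Q' → Q'.relIndex Q = p →
      (∀ g ∈ Q, ∀ k ∈ Q', g * k * g⁻¹ ∈ Q') →
      (∀ a ∈ fix A Q', ∑ i ∈ range p, s ^ i • a = 0 → ∃ b ∈ fix A Q', a = s • b - b) ∧
        RelFin (nrmGrp p s Q') (fix A Q) p) : LayerHyp p (U ⧸ N) (fix A N) := by
  intro Q' Q s hQ hpQ hs hs' hrel hnorm
  obtain ⟨t, rfl⟩ := QuotientGroup.mk'_surjective N s
  set π := QuotientGroup.mk' N with hπ
  have hπs : Function.Surjective π := QuotientGroup.mk'_surjective N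
  have hle : N ≤ Q'.comap π := by
    intro n hn
    rw [Subgroup.mem_comap]
    have : π n = 1 := (QuotientGroup.eq_one_iff n).mpr hn
    rw [this]; exact Q'.one_mem
  obtain ⟨h1, h2⟩ := h (Q'.comap π) (Q.comap π) t hle (Subgroup.comap_mono hQ)
    (fun g hg => by
      obtain ⟨k, hk⟩ := hpQ ⟨π g, hg⟩
      refine ⟨k, ?_⟩
      have h3 : (π g) ^ p ^ k = 1 := congrArg Subtype.val hk
      rw [← map_pow] at h3
      exact (QuotientGroup.eq_one_iff _).mp h3) hs hs'
    (by rw [Subgroup.relIndex_comap, Subgroup.map_comap_eq_self_of_surjective hπs, hrel])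
    (fun g hg k hk => by
      rw [Subgroup.mem_comap, map_mul, map_mul, map_inv]
      exact hnorm _ hg _ hk)
  have hval : ∀ (i : ℕ) (b : fix A N), (((π t) ^ i • b : fix A N) : A) = t ^ i • (b : A) := by
    intro i b
    rw [← map_pow]; rfl
  have hsum : ∀ (b : fix A N), ((∑ i ∈ range p, (π t) ^ i • b : fix A N) : A) =
      ∑ i ∈ range p, t ^ i • (b : A) := by
    intro b
    rw [AddSubgroup.val_finset_sum]
    exact sum_congr rfl fun i _ => hval i b
  refine ⟨?_, ?_⟩
  · intro a ha hsa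
    obtain ⟨b, hb, hab⟩ := h1 (a : A) (by rw [← fix_quot_map]; exact ⟨a, ha, rfl⟩) (by
      rw [← hsum, hsa]; rfl)
    rw [← fix_quot_map] at hb
    obtain ⟨b', hb', rfl⟩ := hb
    exact ⟨b', hb', Subtype.ext hab⟩
  · have e1 : (nrmGrp p (π t) Q' : AddSubgroup (fix A N)).map (fix A N).subtype =
        nrmGrp p t (Q'.comap π) := by
      ext a
      constructor
      · rintro ⟨_, ⟨b, hb, rfl⟩, rfl⟩
        exact ⟨b, by rw [← fix_quot_map]; exact ⟨b, hb, rfl⟩, hsum b⟩
      · rintro ⟨b, hb, rfl⟩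
        rw [← fix_quot_map] at hb
        obtain ⟨b', hb', rfl⟩ := hb
        exact ⟨_, ⟨b', hb', rfl⟩, hsum b'⟩
    have e2 := AddSubgroup.relIndex_map_map_of_injective
      (nrmGrp p (π t) Q' : AddSubgroup (fix A N)) (fix (fix A N) Q) (fix A N).subtype_injective
    rw [e1, fix_quot_map] at e2
    unfold RelFin at h2 ⊢
    rwa [e2] at h2

end quot

variable {S : Finset Nat.Primes}

/-- subgroups containing the group of an unramified field -/
theorem exists_field {L : IntermediateField ℚ Qb} (hL : L.IsUnramifiedOutside S) (V : Subgroup GQ)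
    (hV : L.fixingSubgroup ≤ V) : ∃ F : IntermediateField ℚ Qb, F.IsUnramifiedOutside S ∧ F ≤ L ∧
      F.fixingSubgroup = V := by
  haveI := Fermat.Agent.Frob.isGalois_Qbar
  haveI := hL.1
  have hopen : IsOpen (V : Set GQ) :=
    Subgroup.isOpen_mono hV (IntermediateField.fixingSubgroup_isOpen L)
  have h := InfiniteGalois.fixingSubgroup_fixedField (k := ℚ) (K := Qb)
    ⟨V, Subgroup.isClosed_of_isOpen _ hopen⟩
  have h' : (IntermediateField.fixedField V).fixingSubgroup = V := h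
  have hle : IntermediateField.fixedField V ≤ L := by
    intro x hx
    apply mem_of_fixed
    intro g hg
    rw [IntermediateField.mem_fixedField_iff] at hx
    exact hx g (hV hg)
  exact ⟨_, hL.of_le hle, hle, h'⟩

theorem le_of_fixing_le {F F' : IntermediateField ℚ Qb} (h : F'.fixingSubgroup ≤ F.fixingSubgroup) :
    F ≤ F' := by
  intro x hx
  apply mem_of_fixed
  intro g hg
  exact gal_fix (h hg) hx

/-- the layer hypothesis for idele classes -/
theorem layer_global {p : ℕ} [hp : Fact p.Prime] (hp2 : 2 < p) (hpS : pP p ∈ S)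
    {L : IntermediateField ℚ Qb} (hL : L.IsUnramifiedOutside S) [hLn : L.fixingSubgroup.Normal]
    {ζ : Qb} (hζ : IsPrimitiveRoot ζ p) (hζL : ζ ∈ L) :
    LayerHyp p (GQ ⧸ L.fixingSubgroup) (fix (Cm S) L.fixingSubgroup) := by
  apply layerHyp_quot'
  intro Q' Q s hNQ' hQ' hpQ hsQ hsQ' hrel hnorm
  obtain ⟨F', hF', hF'L, hF'e⟩ := exists_field hL Q' hNQ'
  obtain ⟨F, hF, hFL, hFe⟩ := exists_field hL Q (hNQ'.trans hQ')
  subst hFe hF'e
  have hFF' : F ≤ F' := le_of_fixing_le hQ'
  haveI : NeZero p := ⟨hp.out.ne_zero⟩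
  have hζF : ζ ∈ F := by
    apply mem_of_fixed
    intro g hg
    obtain ⟨k, hk⟩ := hpQ g hg
    have h1 : hζ.autToPow ℚ (g ^ p ^ k) = 1 := by
      have h2 := hζ.autToPow_spec ℚ (g ^ p ^ k)
      rw [gal_fix hk hζL] at h2
      have h3 : ζ ^ ((hζ.autToPow ℚ (g ^ p ^ k) : (ZMod p)ˣ) : ZMod p).val =
          ζ ^ ((1 : ZMod p)).val := by
        rw [h2, ZMod.val_one'' (by omega), pow_one]
      exact Units.ext (zeta_val_inj hζ h3)
    rw [map_pow] at h1
    have h4 : hζ.autToPow ℚ g = 1 := by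
      have h5 : (hζ.autToPow ℚ g) ^ (p - 1) = 1 := ZMod.units_pow_card_sub_one_eq_one p _
      have h6 : orderOf (hζ.autToPow ℚ g) ∣ p ^ k := orderOf_dvd_of_pow_eq_one h1
      have h7 : orderOf (hζ.autToPow ℚ g) ∣ p - 1 := orderOf_dvd_of_pow_eq_one h5
      have h8 : Nat.Coprime (p ^ k) (p - 1) := by
        apply Nat.Coprime.pow_left
        rw [Nat.coprime_comm]
        exact Nat.Coprime.symm ((Nat.coprime_self_sub_right (by omega : 1 ≤ p)).mpr
          (Nat.coprime_one_right p))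
      exact orderOf_eq_one_iff.mp (Nat.eq_one_of_dvd_coprimes h8 h6 h7)
    have h9 := hζ.autToPow_spec ℚ g
    rw [h4, Units.val_one, ZMod.val_one'' (by omega), pow_one] at h9
    exact h9.symm
  obtain ⟨hle, t, ht0, ht, ht1⟩ := first_ineq hF hF' hFF' hp2 hpS hζ hζF hnorm hrel hsQ hsQ'
  have h2 := second_ineq hζ hζF hp2 hF hF' hFF' hpS hnorm hrel hsQ hsQ'
  have ht' : t = 1 := by
    rw [ht] at h2
    have : t ≤ 1 := Nat.le_of_mul_le_mul_left (by rwa [mul_one]) hp.out.pos
    omega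
  refine ⟨ht1 ht', ?_, h2⟩
  rw [ht]
  exact Nat.mul_ne_zero hp.out.ne_zero ht0

/-- if the Frobenius lies in the group of a normal field, the place splits completely -/
theorem frob_split_all {L : IntermediateField ℚ Qb} (hL : L.IsUnramifiedOutside S)
    [hLn : L.fixingSubgroup.Normal] (v : FrobPl) (hv : v.ell ∉ S)
    (hτ : v.tau ∈ L.fixingSubgroup) (t : LG v.ell) :
    v.sig⁻¹ * localGaloisToGlobal v.ell t * v.sig ∈ L.fixingSubgroup := by
  haveI := Fermat.Agent.Frob.isGalois_Qbar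
  haveI := hL.1
  have hA := smul_liesOver (padicPlace_liesOver v.ell) v.sig⁻¹
  obtain ⟨h, hh, hi⟩ := Fermat.Agent.Mink.exists_mul_mem_inertia (v.sig⁻¹ • padicPlace (v.ell : ℕ))
    v.ell.2 hA
    L.fixingSubgroup (IntermediateField.fixingSubgroup_isOpen L)
    (v.sig⁻¹ * localGaloisToGlobal v.ell t * v.sig) (by
      intro b hb
      rw [Fermat.Agent.Frob.mem_center_iff]
      show (v.sig⁻¹ • padicPlace (v.ell : ℕ)).valuation
        ((v.sig⁻¹ * localGaloisToGlobal v.ell t * v.sig) (b : Qb) - (b : Qb)) < 1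
      rw [valuation_inv_smul, map_sub]
      have e1 : v.sig ((v.sig⁻¹ * localGaloisToGlobal v.ell t * v.sig) (b : Qb)) =
          localGaloisToGlobal v.ell t (v.sig (b : Qb)) := by
        rw [← AlgEquiv.mul_apply, ← AlgEquiv.mul_apply]
        congr 1; group
      rw [e1]
      show ‖padicEmbedding v.ell _‖ < 1
      rw [map_sub, padicEmbedding_localGaloisToGlobal]
      set z := padicEmbedding v.ell (v.sig (b : Qb)) with hz
      have hbi : IsIntegral ℤ (v.sig (b : Qb)) := by
        have := b.2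
        rw [mem_integralClosure_iff] at this
        exact this.map (v.sig.toAlgHom.restrictScalars ℤ)
      have hz1 : ‖z‖ ≤ 1 := av_le_of_isIntegral _ hbi
      have hbL : v.tau (b : Qb) = b := congrArg Subtype.val (hb _ hτ)
      have hφ : v.phi z = z := by
        rw [hz, ← padicEmbedding_localGaloisToGlobal]
        congr 1
        have e2 : localGaloisToGlobal v.ell v.phi (v.sig (b : Qb)) = v.sig (v.tau (b : Qb)) := by
          rw [FrobPl.tau, ← AlgEquiv.mul_apply, ← AlgEquiv.mul_apply]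
          congr 1; group
        rw [e2, hbL]
      have hfr := v.frob z hz1
      obtain ⟨n, hn⟩ := exists_int_of_frob (padicIntegers (v.ell : ℕ)) padicIntegers_liesOver (z := z) (by
        rw [mem_padicIntegers_iff, ← NNReal.coe_le_coe, coe_nnnorm]; exact hz1) (by
        rw [valuation_padic_lt, ← norm_neg, neg_sub]
        rwa [hφ] at hfr)
      rw [valuation_padic_lt] at hn
      have e : t z - z = t (z - n) - (z - n) := by
        rw [map_sub, map_intCast]; ring
      rw [e]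
      refine (Fermat.Agent.CFTLocal.norm_sub_le_max' _ _).trans_lt (max_lt ?_ hn)
      rwa [Fermat.Agent.CFTLocal.norm_gal])
  have h2 := hL.2 v.ell hv _ hA hi
  have h3 := L.fixingSubgroup.mul_mem (L.fixingSubgroup.inv_mem hh) h2
  rwa [inv_mul_cancel_left] at h3

theorem hom_trc {U A B : Type*} [Group U] [AddCommGroup A] [DistribMulAction U A] [AddCommGroup B]
    (f : A →+ B) (H : Subgroup U) [H.FiniteIndex] [Fintype (U ⧸ H)] (a : A) :
    f (trc H a) = ∑ q : U ⧸ H, f (q.out • a) := by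
  rw [trc, finsum_eq_sum_of_fintype, map_sum]

theorem trc_map {U A B : Type*} [Group U] [AddCommGroup A] [DistribMulAction U A] [AddCommGroup B]
    [DistribMulAction U B] (f : A →+ B) (hf : ∀ (g : U) a, f (g • a) = g • f a) (H : Subgroup U)
    [H.FiniteIndex] (a : A) : f (trc H a) = trc H (f a) := by
  rw [trc, trc, f.map_finsum (Set.toFinite _)]
  exact finsum_congr fun q => hf _ _

theorem dc_iff {L : IntermediateField ℚ Qb} (hL : L.IsUnramifiedOutside S)
    [hLn : L.fixingSubgroup.Normal] (v : FrobPl) (hv : v.ell ∉ S)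
    (hτ : v.tau ∈ L.fixingSubgroup) (σ : GQ) : dc v L.fixingSubgroup σ ↔
      (QuotientGroup.mk σ : GQ ⧸ L.fixingSubgroup) = QuotientGroup.mk v.sig := by
  constructor
  · rintro ⟨t, h, hh, rfl⟩
    rw [eq_comm, QuotientGroup.eq]
    have h5 := L.fixingSubgroup.mul_mem (frob_split_all hL v hv hτ t) hh
    have e : v.sig⁻¹ * (localGaloisToGlobal v.ell t * v.sig * h) =
      v.sig⁻¹ * localGaloisToGlobal v.ell t * v.sig * h := by group
    rw [e]; exact h5
  · intro h
    rw [eq_comm, QuotientGroup.eq] at h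
    exact ⟨1, _, h, by rw [map_one]; group⟩

theorem dv_trc {L : IntermediateField ℚ Qb} (hL : L.IsUnramifiedOutside S)
    [hLn : L.fixingSubgroup.Normal] [hLf : L.fixingSubgroup.FiniteIndex] (v : FrobPl)
    (hv : v.ell ∉ S) (hτ : v.tau ∈ L.fixingSubgroup) (q : Nat.Primes) :
    dv q (trc L.fixingSubgroup (mkD hL (ptD S v hv L.fixingSubgroup) (ptD_fix v hv _))) =
      if q = v.ell then 1 else 0 := by
  classical
  haveI := Fintype.ofFinite (GQ ⧸ L.fixingSubgroup)
  rw [hom_trc (dv q) L.fixingSubgroup]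
  have e0 : ∀ x : GQ ⧸ L.fixingSubgroup, dv q (x.out •
      (mkD hL (ptD S v hv L.fixingSubgroup) (ptD_fix v hv _))) =
      (ptD S v hv L.fixingSubgroup).1 q x.out := by
    intro x
    show (ptD S v hv L.fixingSubgroup).1 q (1 * x.out) = _
    rw [one_mul]
  simp_rw [e0]
  by_cases hq : q = v.ell
  · rw [if_pos hq, Finset.sum_eq_single (QuotientGroup.mk v.sig : GQ ⧸ L.fixingSubgroup)]
    · apply ptD_pos
      refine ⟨hq, (dc_iff hL v hv hτ _).mpr ?_⟩
      exact QuotientGroup.out_eq' _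
    · intro x _ hx
      apply ptD_neg
      rintro ⟨-, h⟩
      apply hx
      have := (dc_iff hL v hv hτ _).mp h
      rwa [QuotientGroup.out_eq'] at this
    · intro h; exact absurd (mem_univ _) h
  · rw [if_neg hq]
    refine Finset.sum_eq_zero fun x _ => ?_
    apply ptD_neg
    rintro ⟨h, -⟩; exact hq h

theorem cmp_trc {L : IntermediateField ℚ Qb} [hLf : L.fixingSubgroup.FiniteIndex]
    {j : Jm S} (q : S) (hj : cmp q.1 q.2 j = 0) :
    (trc L.fixingSubgroup j).1.1 q = 0 := by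
  have h := trc_map (cmp q.1 q.2) (fun g a => cmp_smul q.1 q.2 g a) L.fixingSubgroup j
  rw [hj, trc_zero] at h
  exact h

/-- reciprocity of the class of an idele -/
theorem rT_toC {p : ℕ} [hp : Fact p.Prime] (n : ℕ) (hp2 : 2 < p) (hpS : pP p ∈ S)
    (Γ : Subgroup GQ) [hΓ : Γ.FiniteIndex] {j : Jm S} (hj : j ∈ fix (Jm S) Γ)
    (hc : toC S j ∈ fix (Cm S) Γ) :
    rT n hp2 hpS Γ ⟨toC S j, hc⟩ = rS n hp2 hpS ⟨trc Γ j, trc_mem Γ hj⟩ := by
  rw [rT_apply]
  apply rC_toC
  exact trc_map (toC S) (fun g a => toC_smul g a) Γ j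

theorem toC_mem_fix {Γ : Subgroup GQ} {j : Jm S} (hj : j ∈ fix (Jm S) Γ) :
    toC S j ∈ fix (Cm S) Γ := fun g hg => by
  rw [← toC_smul, hj g hg]

/-- existence of classes with prescribed reciprocity -/
theorem exists_frob_class {p : ℕ} [hp : Fact p.Prime] (n : ℕ) (hp2 : 2 < p) (hpS : pP p ∈ S)
    {L : IntermediateField ℚ Qb} (hL : L.IsUnramifiedOutside S) [hLn : L.fixingSubgroup.Normal]
    [hLf : L.fixingSubgroup.FiniteIndex] {s : GQ} (hs : s ∈ L.fixingSubgroup) :
    ∃ a : ↥(fix (Cm S) L.fixingSubgroup), rT n hp2 hpS L.fixingSubgroup a = ch n hp2 s := by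
  haveI := hL.1
  haveI : FiniteDimensional ℚ (L ⊔ EF n hp2 : IntermediateField ℚ Qb) :=
    IntermediateField.finiteDimensional_sup L (EF n hp2)
  obtain ⟨v, hv, k, m, h1, h2⟩ := exists_frobPl (L ⊔ EF n hp2) S s
  have hvp : p ≠ (v.ell : ℕ) := by
    intro h
    apply hv
    have : v.ell = pP p := Subtype.ext h.symm
    rw [this]; exact hpS
  have hτ : v.tau ∈ L.fixingSubgroup := by
    rw [IntermediateField.mem_fixingSubgroup_iff]
    intro x hx
    rw [← h2 x ((le_sup_left : L ≤ _) hx)]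
    exact gal_fix (L.fixingSubgroup.pow_mem hs m) hx
  have hch : ch n hp2 s = k * lq n hp2 v.ell := by
    have h3 : ch n hp2 v.tau = lq n hp2 v.ell := ch_frob n hp2 hvp v.frob v.sig
    rw [← h3, ← ch_pow]
    have h4 : (v.tau ^ k)⁻¹ * s ∈ (EF n hp2).fixingSubgroup := by
      rw [IntermediateField.mem_fixingSubgroup_iff]
      intro x hx
      rw [AlgEquiv.mul_apply, ← h1 x ((le_sup_right : EF n hp2 ≤ _) hx), ← AlgEquiv.mul_apply,
        inv_mul_cancel]
      rfl
    rw [mem_EF_fixing, ch_mul, ch_inv] at h4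
    rw [neg_add_eq_zero] at h4
    exact h4.symm
  have hjf : mkD hL (ptD S v hv L.fixingSubgroup) (ptD_fix v hv _) ∈
    fix (Jm S) L.fixingSubgroup := mkD_fix hL _ _
  refine ⟨k • ⟨toC S _, toC_mem_fix hjf⟩, ?_⟩
  rw [map_nsmul, hch, nsmul_eq_mul]
  congr 1
  rw [rT_toC n hp2 hpS L.fixingSubgroup hjf, rS_div n hp2 hpS (trc L.fixingSubgroup (mkD hL
    (ptD S v hv L.fixingSubgroup) (ptD_fix v hv _))).1.2 _ (fun q => cmp_trc q rfl) rfl]
  have e3 : ∀ q : Nat.Primes, (trc L.fixingSubgroup (mkD hL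
    (ptD S v hv L.fixingSubgroup) (ptD_fix v hv _))).1.2.1 q 1 = if q = v.ell then 1 else 0 :=
    fun q => dv_trc hL v hv hτ q
  simp_rw [e3]
  rw [finsum_eq_single _ v.ell (fun q hq => by rw [if_neg hq, zero_smul]), if_pos rfl, one_smul]

end

end Fermat.Agent.CFT
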