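import Fermat.Agent.CFT.PT10

set_option autoImplicit false
set_option maxHeartbeats 1000000

/-! Greenberg-Wiles bound: counting. -/

namespace Fermat.Agent.CFT

open Finset Fermat.Agent.CFTSec Fermat.Agent.TWLocal Fermat.Agent.TWH1

noncomputable section

section count

variable {T : Finset Nat.Primes} {V : Type*} [AddCommGroup V] [DistribMulAction GQ V]

/-- counting with the surjectivity -/
theorem card_sel (Lc : ∀ q : Nat.Primes, AddSubgroup (LG q → V))
    (hLZ : ∀ q ∈ T, Lc q ≤ Z1q q V) [Finite (Z1S T V)] [∀ q : T, Finite (Z1q q.1 V)]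
    (hsurj : ∀ y : ∀ q : T, Z1q q.1 V,
      ∃ x : Z1S T V, ∀ q : T, (y q).1 - (resS T q.1 V x).1 ∈ Lc q.1) :
    Nat.card (SelL T V Lc) * ∏ q : T, Nat.card (Z1q q.1 V) =
      Nat.card (Z1S T V) * ∏ q : T, Nat.card (Lc q.1) := by
  classical
  haveI : ∀ q : T, Finite (Lc q.1) := fun q =>
    Finite.of_injective (fun l : Lc q.1 => (⟨l.1, hLZ q.1 q.2 l.2⟩ : Z1q q.1 V))
      (fun l l' h => Subtype.ext (congrArg (fun z : Z1q q.1 V => z.1) h))
  let μ : (Z1S T V × ∀ q : T, Lc q.1) →+ ∀ q : T, Z1q q.1 V :=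
    { toFun := fun x q => resS T q.1 V x.1 + ⟨(x.2 q).1, hLZ q.1 q.2 (x.2 q).2⟩
      map_zero' := by
        funext q
        apply Subtype.ext
        show (resS T q.1 V 0).1 + 0 = 0
        rw [map_zero, add_zero]; rfl
      map_add' := fun x y => by
        funext q
        apply Subtype.ext
        show (resS T q.1 V (x.1 + y.1)).1 + ((x.2 q).1 + (y.2 q).1) =
          ((resS T q.1 V x.1).1 + (x.2 q).1) + ((resS T q.1 V y.1).1 + (y.2 q).1)
        rw [map_add]
        show ((resS T q.1 V x.1).1 + (resS T q.1 V y.1).1) + _ = _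
        abel }
  have hμs : Function.Surjective μ := by
    intro y
    obtain ⟨x, hx⟩ := hsurj y
    refine ⟨⟨x, fun q => ⟨_, hx q⟩⟩, ?_⟩
    funext q
    apply Subtype.ext
    show (resS T q.1 V x).1 + ((y q).1 - (resS T q.1 V x).1) = (y q).1
    abel
  have h1 : Nat.card (Z1S T V × ∀ q : T, Lc q.1) =
      Nat.card (∀ q : T, Z1q q.1 V) * Nat.card μ.ker := by
    rw [AddSubgroup.card_eq_card_quotient_mul_card_addSubgroup μ.ker]
    congr 1
    exact Nat.card_congr (QuotientAddGroup.quotientKerEquivOfSurjective μ hμs).toEquiv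
  have h2 : Nat.card μ.ker = Nat.card (SelL T V Lc) := by
    refine Nat.card_congr
      { toFun := fun x => ⟨x.1.1.1, x.1.1.2, fun q hq => ?_⟩
        invFun := fun x => ⟨(⟨x.1, x.2.1⟩, fun q => ⟨-(resS T q.1 V ⟨x.1, x.2.1⟩).1,
          (Lc q.1).neg_mem (x.2.2 q.1 q.2)⟩), ?_⟩
        left_inv := fun x => ?_
        right_inv := fun x => rfl }
    · have h3 : μ x.1 = 0 := x.2
      have h4 := congrArg Subtype.val (congrFun h3 ⟨q, hq⟩)
      have h5 : (resS T q V x.1.1).1 + (x.1.2 ⟨q, hq⟩).1 = 0 := h4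
      have h6 : (resS T q V x.1.1).1 = -(x.1.2 ⟨q, hq⟩).1 := eq_neg_of_add_eq_zero_left h5
      show (resS T q V x.1.1).1 ∈ Lc q
      rw [h6]
      exact (Lc q).neg_mem (x.1.2 ⟨q, hq⟩).2
    · show μ _ = 0
      funext q
      apply Subtype.ext
      show (resS T q.1 V ⟨x.1, x.2.1⟩).1 + -(resS T q.1 V ⟨x.1, x.2.1⟩).1 = 0
      exact add_neg_cancel _
    · apply Subtype.ext
      refine Prod.ext rfl ?_
      funext q
      apply Subtype.ext
      have h3 : μ x.1 = 0 := x.2
      have h4 := congrArg Subtype.val (congrFun h3 q)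
      have h5 : (resS T q.1 V x.1.1).1 + (x.1.2 q).1 = 0 := h4
      exact (eq_neg_of_add_eq_zero_right h5).symm
  rw [Nat.card_prod, h2, Nat.card_pi, Nat.card_pi] at h1
  rw [h1, mul_comm]

end count

section loc

/-- the order of the group of local cocycles -/
theorem card_Z1l_of {q : ℕ} [hq : Fact q.Prime] {M : Type*} [AddCommGroup M]
    [DistribMulAction (LG q) M] [Finite M] (hM : B1 (LG q) M ≤ Z1l (LG q) M) {h : ℕ}
    (hb : Nat.card (FixG (LG q) M) * h ≤ Nat.card (H1l (LG q) M)) :
    Nat.card M * h ≤ Nat.card (Z1l (LG q) M) := by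
  have h1 : Nat.card (Z1l (LG q) M) = Nat.card (H1l (LG q) M) *
      Nat.card ((B1 (LG q) M).addSubgroupOf (Z1l (LG q) M)) :=
    AddSubgroup.card_eq_card_quotient_mul_card_addSubgroup _
  let δ : M →+ (B1 (LG q) M).addSubgroupOf (Z1l (LG q) M) :=
    { toFun := fun m => ⟨⟨fun g => g • m - m, hM ⟨m, fun _ => rfl⟩⟩, ⟨m, fun _ => rfl⟩⟩
      map_zero' := by
        apply Subtype.ext; apply Subtype.ext; funext g
        show g • (0 : M) - 0 = 0
        rw [smul_zero, sub_zero]
      map_add' := fun m m' => by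
        apply Subtype.ext; apply Subtype.ext; funext g
        show g • (m + m') - (m + m') = (g • m - m) + (g • m' - m')
        rw [smul_add]; abel }
  have hδ : Function.Surjective δ := by
    rintro ⟨⟨c, hc⟩, m, hm⟩
    refine ⟨m, ?_⟩
    apply Subtype.ext; apply Subtype.ext; funext g
    exact (hm g).symm
  have h2 : Nat.card M = Nat.card ((B1 (LG q) M).addSubgroupOf (Z1l (LG q) M)) *
      Nat.card δ.ker := by
    rw [AddSubgroup.card_eq_card_quotient_mul_card_addSubgroup δ.ker]
    congr 1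
    exact Nat.card_congr (QuotientAddGroup.quotientKerEquivOfSurjective δ hδ).toEquiv
  have h3 : Nat.card δ.ker = Nat.card (FixG (LG q) M) := by
    refine Nat.card_congr (Equiv.subtypeEquivRight fun m => ?_)
    constructor
    · intro h4 g
      have h5 := congrArg (fun z => z.1.1 g) (show δ m = 0 from h4)
      exact sub_eq_zero.mp h5
    · intro h4
      show δ m = 0
      apply Subtype.ext; apply Subtype.ext; funext g
      exact sub_eq_zero.mpr (h4 g)
  rw [h1, h2, h3]
  calc Nat.card ((B1 (LG q) M).addSubgroupOf (Z1l (LG q) M)) * Nat.card (FixG (LG q) M) * h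
      = (Nat.card (FixG (LG q) M) * h) *
        Nat.card ((B1 (LG q) M).addSubgroupOf (Z1l (LG q) M)) := by ring
    _ ≤ _ := Nat.mul_le_mul_right _ hb

end loc

end

end Fermat.Agent.CFT
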