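import Fermat.Agent.CFT.GW1

set_option autoImplicit false
set_option maxHeartbeats 1000000

/-! Greenberg-Wiles bound. -/

namespace Fermat.Agent.CFT

open Finset Fermat.Agent.CFTSec Fermat.Agent.TWLocal Fermat.Agent.TWH1

noncomputable section

/-- global second cohomology -/
abbrev H2S (T : Finset Nat.Primes) (V : Type*) [AddCommGroup V] [DistribMulAction GQ V] : Type _ :=
  ↥(Z2S T V) ⧸ (B2S T V).addSubgroupOf (Z2S T V)

section h2

variable {T : Finset Nat.Primes} {V : Type*} [AddCommGroup V] [DistribMulAction GQ V]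

/-- restriction of global 2-cocycles -/
def resS2 (q : Nat.Primes) : Z2S T V →+ Z2l (LG q) (RL q V) where
  toFun x := ⟨fun d d' => x.1 (localGaloisToGlobal (q : ℕ) d) (localGaloisToGlobal (q : ℕ) d'),
    fun d1 d2 d3 => by
      show x.1 (localGaloisToGlobal (q : ℕ) d1) (localGaloisToGlobal (q : ℕ) d2) +
        x.1 (localGaloisToGlobal (q : ℕ) (d1 * d2)) (localGaloisToGlobal (q : ℕ) d3) =
        localGaloisToGlobal (q : ℕ) d1 •
          x.1 (localGaloisToGlobal (q : ℕ) d2) (localGaloisToGlobal (q : ℕ) d3) +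
        x.1 (localGaloisToGlobal (q : ℕ) d1) (localGaloisToGlobal (q : ℕ) (d2 * d3))
      rw [map_mul, map_mul]
      exact x.2.1 _ _ _, by
      obtain ⟨E, hE, h⟩ := x.2.2
      haveI := hE.1
      refine ⟨_, isOpen_comap_lg q E, fun g h' n hn n' hn' => ?_⟩
      show x.1 (localGaloisToGlobal (q : ℕ) (g * n)) (localGaloisToGlobal (q : ℕ) (h' * n')) = _
      rw [map_mul, map_mul]
      exact h _ _ _ hn _ hn'⟩
  map_zero' := rfl
  map_add' _ _ := rfl

theorem sh2_of_res {x : Z2S T V} (h : ∀ q ∈ T, (resS2 q x).1 ∈ B2l (LG q) (RL q V)) :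
    x.1 ∈ Sh2 T V := by
  refine ⟨x.2, fun q hq => ?_⟩
  obtain ⟨b, hb, hb'⟩ := h q hq
  exact ⟨b, locLev_of_LC1 hb, fun d d' => hb' d d'⟩

/-- the localisation map in degree two -/
def locH2 (T : Finset Nat.Primes) (V : Type*) [AddCommGroup V] [DistribMulAction GQ V] :
    H2S T V →+ ∀ q : T, H2l (LG q.1) (RL q.1 V) :=
  QuotientAddGroup.lift _
    ({ toFun := fun x q => QuotientAddGroup.mk (resS2 q.1 x)
       map_zero' := rfl
       map_add' := fun _ _ => rfl } : Z2S T V →+ ∀ q : T, H2l (LG q.1) (RL q.1 V))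
    (fun x hx => by
      funext q
      show QuotientAddGroup.mk (resS2 q.1 x) = _
      refine (QuotientAddGroup.eq_zero_iff _).mpr ?_
      obtain ⟨b, hb, hb'⟩ := hx
      obtain ⟨E, hE, h⟩ := hb
      haveI := hE.1
      refine ⟨fun d => b (localGaloisToGlobal (q.1 : ℕ) d), ⟨_, isOpen_comap_lg q.1 E,
        fun g n hn => ?_⟩, fun d d' => ?_⟩
      · show b (localGaloisToGlobal (q.1 : ℕ) (g * n)) = _
        rw [map_mul]; exact h _ _ hn
      · show x.1 _ _ = b _ + localGaloisToGlobal (q.1 : ℕ) d • b _ -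
          b (localGaloisToGlobal (q.1 : ℕ) (d * d'))
        rw [map_mul]
        exact hb' _ _)

theorem locH2_inj (h : Sh2 T V ≤ B2S T V) : Function.Injective (locH2 T V) := by
  rw [injective_iff_map_eq_zero]
  intro x hx
  obtain ⟨x, rfl⟩ := QuotientAddGroup.mk_surjective x
  refine (QuotientAddGroup.eq_zero_iff _).mpr (h (sh2_of_res fun q hq => ?_))
  have h1 : (QuotientAddGroup.mk (resS2 q x) : H2l (LG q) (RL q V)) = 0 := congrFun hx ⟨q, hq⟩
  exact (QuotientAddGroup.eq_zero_iff (resS2 q x)).mp h1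

end h2

section main

variable {p : ℕ} [hp : Fact p.Prime] (hp2 : 2 < p) {T : Finset Nat.Primes} (hpT : pP p ∈ T)
  {ζ : Qb} (hζ : IsPrimitiveRoot ζ p)
  {V W : Type*} [AddCommGroup V] [AddCommGroup W] [DistribMulAction GQ V] [DistribMulAction GQ W]
  [Finite V] {B : V →+ W →+ ZMod p} (hB : PData p ζ B) (hV : LevM T V)

include hζ hB hV in
theorem sh1_of_dual (Lc : ∀ q : Nat.Primes, AddSubgroup (LG q → V))
    (hLZ : ∀ q ∈ T, Lc q ≤ Z1q q V) (hD : DualZero B T Lc) : Sh1 T W ≤ B1 GQ W := by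
  intro x hx
  refine hD x hx.1 (fun q hq a ha => ?_)
  obtain ⟨u, hu⟩ := hx.2 q hq
  have haZ := hLZ q hq ha
  have h1 : (fun d => x (localGaloisToGlobal (q : ℕ) d)) ∈ Z1q q W := (resS T q W ⟨x, hx.1⟩).2
  refine (orth_iff hζ hB (hV.opK q) ⟨_, h1⟩ ⟨a, haZ⟩).mpr ?_
  have h3 := cupF_cob_left (q := q) hζ hB haZ.1 haZ.2 u
  have e : (cupq hζ hB (hV.opK q) ⟨_, h1⟩ ⟨a, haZ⟩).1 =
      cupF hζ q B (fun d => localGaloisToGlobal (q : ℕ) d • u - u) a := by
    rw [cupq_val]
    congr 1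
    funext d
    exact hu d
  rw [e]
  exact h3

include hp2 hpT hζ hB hV in
theorem sh2_of_dual (Lc : ∀ q : Nat.Primes, AddSubgroup (LG q → V))
    (hLZ : ∀ q ∈ T, Lc q ≤ Z1q q V) (hD : DualZero B T Lc) : Sh2 T V ≤ B2S T V := by
  haveI := hB.finiteW
  obtain ⟨h1, h2, h3⟩ := sha_count hp2 hpT hζ hB.flip (hB.levM hpT hζ hV)
  have h4 := sh1_of_dual hζ hB hV Lc hLZ hD
  have h5 : Nat.card (↥(Sh1 T W) ⧸ (B1 GQ W).addSubgroupOf (Sh1 T W)) = 1 := by
    rw [Nat.card_eq_one_iff_unique]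
    refine ⟨⟨fun a b => ?_⟩, ⟨0⟩⟩
    obtain ⟨a, rfl⟩ := QuotientAddGroup.mk_surjective a
    obtain ⟨b, rfl⟩ := QuotientAddGroup.mk_surjective b
    rw [QuotientAddGroup.eq]
    exact h4 (-a + b).2
  rw [h5, Nat.card_eq_one_iff_unique] at h3
  haveI := h3.1
  intro x hx
  have h6 : (QuotientAddGroup.mk (⟨x, hx⟩ : Sh2 T V) :
    ↥(Sh2 T V) ⧸ (B2S T V).addSubgroupOf (Sh2 T V)) = 0 := Subsingleton.elim _ _
  exact (QuotientAddGroup.eq_zero_iff (⟨x, hx⟩ : Sh2 T V)).mp h6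

include hζ hB hV in
theorem finite_H2l (q : Nat.Primes) : Finite (H2l (LG q) (RL q V)) := by
  haveI : Finite (RL q V) := inferInstanceAs (Finite V)
  refine (card_H2_le (p := p) (q := (q : ℕ)) (M := RL q V) (fun m : RL q V => hB.tors m) ?_).1
  obtain ⟨N, hN, h⟩ := hV.opK q
  exact ⟨N, hN, fun n hn m => h n hn m⟩

/-- the form of the Euler characteristic estimate used below -/
def ECz (T : Finset Nat.Primes) (V : Type*) [AddCommGroup V] [DistribMulAction GQ V] (c : GQ) :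
    Prop :=
  Nat.card (Z1S T V) * Nat.card (fix V (Subgroup.zpowers c)) ≤
    Nat.card V ^ 2 * Nat.card (H2S T V)

/-- the local Euler characteristic estimate -/
def LECz (p : ℕ) (q : Nat.Primes) (V : Type*) [AddCommGroup V] [DistribMulAction GQ V] : Prop :=
  Nat.card V * (Nat.card (H2l (LG q) (RL q V)) * (if (q : ℕ) = p then Nat.card V else 1)) ≤
    Nat.card (Z1q q V)

include hp2 hpT hζ hB hV in
/-- **the Greenberg-Wiles bound** -/
theorem gw_bound (c : GQ) (hEC : ECz T V c) (hLEC : ∀ q ∈ T, LECz p q V) : GWBound B T c := by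
  classical
  intro Lc hLZ hLB hD
  haveI := finite_Z1S hp2 hpT hζ hB hV
  haveI : ∀ q : T, Finite (Z1q q.1 V) := fun q => finite_Z1q hζ hB.tors (hV.opK q.1)
  haveI hH2 : ∀ q : T, Finite (H2l (LG q.1) (RL q.1 V)) := fun q => finite_H2l hζ hB hV q.1
  have hsurj := sel_surj hp2 hpT hζ hB hV Lc hLB hLZ hD
  have h1 := card_sel Lc hLZ hsurj
  refine ⟨Finite.of_injective (fun x : SelL T V Lc => (⟨x.1, x.2.1⟩ : Z1S T V))
    (fun x y h => Subtype.ext (congrArg (fun z : Z1S T V => z.1) h)), ?_⟩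
  have h2 : Nat.card (H2S T V) ≤ ∏ q : T, Nat.card (H2l (LG q.1) (RL q.1 V)) := by
    rw [← Nat.card_pi]
    exact Nat.card_le_card_of_injective _
      (locH2_inj (sh2_of_dual hp2 hpT hζ hB hV Lc hLZ hD))
  set a := Nat.card (SelL T V Lc) with ha
  set v := Nat.card V with hv
  set vc := Nat.card (fix V (Subgroup.zpowers c)) with hvc
  have hZpos : 0 < ∏ q : T, Nat.card (Z1q q.1 V) := Finset.prod_pos fun q _ => Nat.card_pos
  have hprodLc : ∏ q ∈ T, Nat.card (Lc q) = ∏ q : T, Nat.card (Lc q.1) :=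
    (Finset.prod_coe_sort T (fun q => Nat.card (Lc q))).symm
  have hcard : v ^ T.card = ∏ q : T, v := by
    rw [Finset.prod_const, Finset.card_univ, Fintype.card_coe]
  have he : ∏ q : T, (if (q.1 : ℕ) = p then v else 1) = v := by
    rw [Finset.prod_eq_single (⟨pP p, hpT⟩ : T)]
    · rw [if_pos]; rfl
    · intro q _ hq
      rw [if_neg]
      intro h
      apply hq
      exact Subtype.ext (Subtype.ext h)
    · intro h
      exact absurd (Finset.mem_univ _) h
  have h3 : (∏ q : T, v) * (∏ q : T, Nat.card (H2l (LG q.1) (RL q.1 V))) * v ≤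
      ∏ q : T, Nat.card (Z1q q.1 V) := by
    calc (∏ q : T, v) * (∏ q : T, Nat.card (H2l (LG q.1) (RL q.1 V))) * v
        = ∏ q : T, (v * (Nat.card (H2l (LG q.1) (RL q.1 V)) *
            (if (q.1 : ℕ) = p then v else 1))) := by
          rw [Finset.prod_mul_distrib, Finset.prod_mul_distrib, he, mul_assoc]
      _ ≤ _ := Finset.prod_le_prod' fun q _ => hLEC q.1 q.2
  rw [hprodLc, hcard]
  refine Nat.le_of_mul_le_mul_left ?_ hZpos
  have hEC' : Nat.card (Z1S T V) * vc ≤ v ^ 2 * Nat.card (H2S T V) := hEC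
  calc (∏ q : T, Nat.card (Z1q q.1 V)) * (a * vc * ∏ q : T, v)
      = (a * ∏ q : T, Nat.card (Z1q q.1 V)) * vc * ∏ q : T, v := by ring
    _ = (Nat.card (Z1S T V) * vc) * (∏ q : T, Nat.card (Lc q.1)) * ∏ q : T, v := by
        rw [h1]; ring
    _ ≤ (v ^ 2 * ∏ q : T, Nat.card (H2l (LG q.1) (RL q.1 V))) *
          (∏ q : T, Nat.card (Lc q.1)) * ∏ q : T, v :=
        Nat.mul_le_mul_right _ (Nat.mul_le_mul_right _
          (hEC'.trans (Nat.mul_le_mul_left _ h2)))
    _ = ((∏ q : T, v) * (∏ q : T, Nat.card (H2l (LG q.1) (RL q.1 V))) * v) *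
          (v * ∏ q : T, Nat.card (Lc q.1)) := by ring
    _ ≤ _ := Nat.mul_le_mul_right _ h3

end main

/-- local estimate from the cohomological form -/
theorem LECz_of {p : ℕ} [hp : Fact p.Prime] {q : Nat.Primes} {V : Type*} [AddCommGroup V]
    [DistribMulAction GQ V] [Finite V] (hV : OpK q V)
    (h : Nat.card (FixG (LG q) (RL q V)) * Nat.card (H2l (LG q) (RL q V)) *
      (if (q : ℕ) = p then Nat.card (RL q V) else 1) ≤ Nat.card (H1l (LG q) (RL q V))) :
    LECz p q V := by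
  haveI : Finite (RL q V) := inferInstanceAs (Finite V)
  rw [mul_assoc] at h
  have hM : B1 (LG q) (RL q V) ≤ Z1l (LG q) (RL q V) := B1q_le_Z1q (V := V) hV
  exact card_Z1l_of (q := (q : ℕ)) (M := RL q V) hM h

end

end Fermat.Agent.CFT
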