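import Fermat.Agent.CFT.Index

set_option autoImplicit false
set_option maxHeartbeats 400000
set_option linter.unusedSectionVars false
set_option linter.unusedVariables false

/-! Chevalley's theorem: the Herbrand quotient for a cyclic group of prime order. -/

namespace Fermat.Agent.CFT

open Polynomial

variable {A : Type*} [AddCommGroup A]

/-- multiplication by `n` -/
abbrev mulN (A : Type*) [AddCommGroup A] (n : ℕ) : A →+ A := nsmulAddMonoidHom n

/-- multiplication by `n`, linear version -/
abbrev mulL (A : Type*) [AddCommGroup A] (n : ℕ) : Module.End ℤ A := (mulN A n).toIntLinearMap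

/-- underlying additive map of an endomorphism -/
abbrev ad (f : Module.End ℤ A) : A →+ A := LinearMap.toAddMonoidHom f

/-- `s - 1` -/
def dif (s : Module.End ℤ A) : Module.End ℤ A := s - 1

/-- the norm `1 + s + ... + s^{p-1}` -/
def nrm (p : ℕ) (s : Module.End ℤ A) : Module.End ℤ A := ∑ i ∈ Finset.range p, s ^ i

theorem dif_apply (s : Module.End ℤ A) (x : A) : dif s x = s x - x := rfl

theorem nrm_apply (p : ℕ) (s : Module.End ℤ A) (x : A) :
    nrm p s x = ∑ i ∈ Finset.range p, (s ^ i) x :=
  LinearMap.sum_apply _ _ _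

theorem nrm_mul_dif (p : ℕ) (s : Module.End ℤ A) (hs : s ^ p = 1) :
    nrm p s * dif s = 0 := by
  rw [nrm, dif, geom_sum_mul, hs, sub_self]

theorem dif_mul_nrm (p : ℕ) (s : Module.End ℤ A) (hs : s ^ p = 1) :
    dif s * nrm p s = 0 := by
  rw [nrm, dif, mul_geom_sum, hs, sub_self]

theorem pow_apply_of_fixed (s : Module.End ℤ A) {x : A} (hx : s x = x) (i : ℕ) :
    (s ^ i) x = x := by
  induction i with
  | zero => rfl
  | succ n ih => rw [pow_succ, Module.End.mul_apply, hx, ih]

theorem nrm_apply_of_fixed (p : ℕ) (s : Module.End ℤ A) {x : A} (hx : s x = x) :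
    nrm p s x = p • x := by
  rw [nrm_apply, Finset.sum_congr rfl (fun i _ => pow_apply_of_fixed s hx i), Finset.sum_const,
    Finset.card_range]

/-- the polynomial `∏_{i=1}^{m} (1 - X^i)`. -/
noncomputable def prodPoly (m : ℕ) : ℤ[X] := ∏ i ∈ Finset.range m, (1 - X ^ (i + 1))

theorem exists_poly_identity (p : ℕ) [Fact p.Prime] :
    ∃ W : ℤ[X], (C (p : ℤ)) = prodPoly (p - 1) + cyclotomic p ℤ * W := by
  have hp : p.Prime := Fact.out
  have hprim : IsPrimitiveRoot (Complex.exp (2 * Real.pi * Complex.I / p)) p :=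
    Complex.isPrimitiveRoot_exp p hp.ne_zero
  set ζ := Complex.exp (2 * Real.pi * Complex.I / p)
  have h0 : aeval ζ (C (p : ℤ) - prodPoly (p - 1)) = 0 := by
    rw [map_sub, prodPoly, map_prod]
    simp only [map_sub, map_one, map_pow, aeval_X, aeval_C]
    have h1 : ∏ i ∈ Finset.range (p - 1), (1 - ζ ^ (i + 1)) = p := by
      have hprim' : IsPrimitiveRoot ζ (p - 1 + 1) := by
        rwa [Nat.sub_add_cancel hp.one_le]
      have h := hprim'.prod_one_sub_pow_eq_order
      rw [h]
      have : p = (p - 1) + 1 := (Nat.sub_add_cancel hp.one_le).symm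
      conv_rhs => rw [this]
      push_cast
      ring
    rw [h1]; simp
  have h2 : cyclotomic p ℤ ∣ (C (p : ℤ) - prodPoly (p - 1)) := by
    rw [cyclotomic_eq_minpoly hprim hp.pos]
    exact minpoly.isIntegrallyClosed_dvd (hprim.isIntegral hp.pos) h0
  obtain ⟨W, hW⟩ := h2
  exact ⟨W, by rw [← hW]; ring⟩

/-- On a module killed by the norm, the index of `p` is the `(p-1)`-st power of the index of
`s - 1`. -/
theorem ind_of_nrm_eq_zero (p : ℕ) [Fact p.Prime] (s : Module.End ℤ A) (hs : s ^ p = 1)
    (hN : nrm p s = 0) (hfin : FinInd (mulN A p)) :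
    FinInd (ad (dif s)) ∧ ind (mulN A p) = ind (ad (dif s)) ^ (p - 1) := by
  have hp : p.Prime := Fact.out
  -- `1 - s^i` has the same kernel and range as `s - 1` for `p ∤ i`
  have key : ∀ i : ℕ, ¬ p ∣ i → (ad (1 - s ^ i)).ker = (ad (dif s)).ker ∧
      (ad (1 - s ^ i)).range = (ad (dif s)).range := by
    intro i hi
    have hcop : Nat.Coprime i p := ((Nat.Prime.coprime_iff_not_dvd hp).mpr hi).symm
    obtain ⟨j, hj⟩ : ∃ j : ℕ, i * j % p = 1 := by
      obtain ⟨j, -, hj⟩ := Nat.exists_mul_mod_eq_one_of_coprime hcop hp.one_lt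
      exact ⟨j, hj⟩
    have hsij : s ^ (i * j) = s := by
      rw [← Nat.mod_add_div (i * j) p, hj, pow_add, pow_mul, hs, one_pow, mul_one, pow_one]
    -- identities
    have c1 : (1 - s ^ i : Module.End ℤ A) = -((∑ k ∈ Finset.range i, s ^ k) * dif s) := by
      rw [dif, geom_sum_mul]; abel
    have c2 : (1 - s ^ i : Module.End ℤ A) = -(dif s * (∑ k ∈ Finset.range i, s ^ k)) := by
      rw [dif, mul_geom_sum]; abel
    have c3 : dif s = -((∑ k ∈ Finset.range j, (s ^ i) ^ k) * (1 - s ^ i)) := by
      rw [← neg_sub (s ^ i) 1, mul_neg, neg_neg, geom_sum_mul, ← pow_mul, hsij, dif]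
    have c4 : dif s = -((1 - s ^ i) * (∑ k ∈ Finset.range j, (s ^ i) ^ k)) := by
      rw [← neg_sub (s ^ i) 1, neg_mul, neg_neg, mul_geom_sum, ← pow_mul, hsij, dif]
    constructor
    · ext x
      rw [AddMonoidHom.mem_ker, AddMonoidHom.mem_ker]
      constructor
      · intro h
        have := DFunLike.congr_fun c3 x
        change dif s x = -((∑ k ∈ Finset.range j, (s ^ i) ^ k : Module.End ℤ A)
          ((1 - s ^ i : Module.End ℤ A) x)) at this
        change dif s x = 0
        rw [this, show (1 - s ^ i : Module.End ℤ A) x = 0 from h, map_zero, neg_zero]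
      · intro h
        have := DFunLike.congr_fun c1 x
        change (1 - s ^ i : Module.End ℤ A) x = -((∑ k ∈ Finset.range i, s ^ k : Module.End ℤ A)
          (dif s x)) at this
        change (1 - s ^ i : Module.End ℤ A) x = 0
        rw [this, show dif s x = 0 from h, map_zero, neg_zero]
    · apply le_antisymm
      · rintro _ ⟨x, rfl⟩
        refine ⟨-((∑ k ∈ Finset.range i, s ^ k : Module.End ℤ A) x), ?_⟩
        rw [map_neg]
        exact (DFunLike.congr_fun c2 x).symm
      · rintro _ ⟨x, rfl⟩
        refine ⟨-((∑ k ∈ Finset.range j, (s ^ i) ^ k : Module.End ℤ A) x), ?_⟩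
        rw [map_neg]
        exact (DFunLike.congr_fun c4 x).symm
  have keyF : ∀ i : ℕ, ¬ p ∣ i → FinInd (ad (dif s)) →
      FinInd (ad (1 - s ^ i)) ∧
      ind (ad (1 - s ^ i)) = ind (ad (dif s)) := by
    intro i hi hF
    obtain ⟨k1, k2⟩ := key i hi
    refine ⟨⟨?_, ?_⟩, ?_⟩
    · rw [k1]; exact hF.ker
    · rw [k2]; exact hF.coker
    · unfold ind; rw [k1, k2]
  -- the polynomial identity
  obtain ⟨W, hW⟩ := exists_poly_identity p
  have hcyc : aeval s (cyclotomic p ℤ) = (0 : Module.End ℤ A) := by
    rw [cyclotomic_prime, map_sum]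
    simp only [map_pow, aeval_X]
    exact hN
  have hpe : (mulL A p) = aeval s (prodPoly (p - 1)) := by
    have h1 := congrArg (aeval s) hW
    rw [map_add, map_mul, hcyc, zero_mul, add_zero] at h1
    rw [← h1]
    ext x
    simp
  have hcomm : ∀ P Q : ℤ[X], aeval s P * aeval s Q = aeval s Q * (aeval s P : Module.End ℤ A) := by
    intro P Q
    rw [← map_mul, ← map_mul, mul_comm]
  have hprod1 : ∀ m : ℕ, (aeval s (prodPoly (m + 1)) : Module.End ℤ A) =
      aeval s (prodPoly m) * (1 - s ^ (m + 1)) := by
    intro m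
    rw [prodPoly, Finset.prod_range_succ, map_mul]
    simp [prodPoly]
  -- `dif s` is a factor of `p`
  have hfac : ∃ Q : ℤ[X], (mulL A p) = aeval s Q * dif s := by
    refine ⟨-∏ i ∈ Finset.range (p - 2), (1 - X ^ (i + 2)), ?_⟩
    rw [hpe, prodPoly]
    have : p - 1 = (p - 2) + 1 := by have := hp.two_le; omega
    rw [this, Finset.prod_range_succ', map_mul, map_neg, neg_mul, ← mul_neg]
    simp [dif]
  obtain ⟨Q, hQ⟩ := hfac
  have hD : (dif s : Module.End ℤ A) = aeval s (X - 1 : ℤ[X]) := by simp [dif]
  have hQ' : (mulL A p) = dif s * aeval s Q := by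
    rw [hQ, hD, hcomm]
  have hdF : FinInd (ad (dif s)) := by
    apply FinInd.of_comps (f := (ad (dif s))) (g := ad (aeval s Q : Module.End ℤ A))
    · have : (ad (aeval s Q : Module.End ℤ A)).comp (ad (dif s)) = mulN A p := by
        ext x; exact (DFunLike.congr_fun hQ x).symm
      rw [this]; exact hfin
    · have : (ad (dif s)).comp (ad (aeval s Q : Module.End ℤ A)) = mulN A p := by
        ext x; exact (DFunLike.congr_fun hQ' x).symm
      rw [this]; exact hfin
  refine ⟨hdF, ?_⟩
  have hind : ∀ m : ℕ, m ≤ p - 1 → FinInd (ad (aeval s (prodPoly m))) ∧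
      ind (ad (aeval s (prodPoly m))) = ind (ad (dif s)) ^ m := by
    intro m
    induction m with
    | zero =>
      intro _
      have : (aeval s (prodPoly 0) : Module.End ℤ A) = (1 : Module.End ℤ A) := by
        simp [prodPoly]
      rw [this]
      have k1 : (ad (1 : Module.End ℤ A)).ker = ⊥ :=
        (AddMonoidHom.ker_eq_bot_iff _).mpr fun _ _ h => h
      have k2 : (ad (1 : Module.End ℤ A)).range = ⊤ :=
        AddMonoidHom.range_eq_top.mpr fun x => ⟨x, rfl⟩
      refine ⟨⟨?_, ?_⟩, ?_⟩
      · rw [k1]; simp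
      · rw [k2]; simp
      · unfold ind; rw [k1, k2]; simp
    | succ m ih =>
      intro hm
      obtain ⟨h1, h2⟩ := ih (by omega)
      have hnd : ¬ p ∣ (m + 1) := fun h => by
        have := Nat.le_of_dvd (Nat.succ_pos m) h
        have := hp.two_le
        omega
      obtain ⟨h3, h4⟩ := keyF (m + 1) hnd hdF
      rw [hprod1]
      refine ⟨h3.comp h1, ?_⟩
      have h5 := ind_comp h3 h1
      rw [h2, h4, ← pow_succ] at h5
      exact h5
  have := (hind (p - 1) le_rfl).2
  rw [← hpe] at this
  exact this

section chevalley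

variable (p : ℕ) [Fact p.Prime] (s : Module.End ℤ A) (hs : s ^ p = 1)

/-- the fixed points -/
abbrev fixedG : AddSubgroup A := (ad (dif s)).ker

/-- the augmentation submodule `(s-1)A` -/
abbrev augG : AddSubgroup A := (ad (dif s)).range

theorem mem_fixedG {x : A} : x ∈ fixedG s ↔ s x = x := by
  rw [AddMonoidHom.mem_ker]
  change s x - x = 0 ↔ _
  rw [sub_eq_zero]

theorem s_mem_augG (x : A) (hx : x ∈ augG s) : s x ∈ augG s := by
  obtain ⟨y, rfl⟩ := hx
  refine ⟨s y, ?_⟩
  change s (s y) - s y = s (s y - y)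
  rw [map_sub]

/-- the restriction of `s` to `(s-1)A` -/
def sAug : Module.End ℤ (augG s) :=
  (((s.toAddMonoidHom).comp (augG s).subtype).codRestrict (augG s)
    (fun x => s_mem_augG s x x.2)).toIntLinearMap

theorem coe_sAug (x : augG s) : ((sAug s x : augG s) : A) = s (x : A) := rfl

theorem coe_sAug_pow (i : ℕ) (x : augG s) : (((sAug s ^ i) x : augG s) : A) = (s ^ i) (x : A) := by
  induction i generalizing x with
  | zero => rfl
  | succ n ih => rw [pow_succ, pow_succ, Module.End.mul_apply, Module.End.mul_apply, ih, coe_sAug]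

include hs

theorem sAug_pow : sAug s ^ p = 1 := by
  ext x
  rw [coe_sAug_pow, hs]
  rfl

theorem nrm_mem_fixedG (x : A) : nrm p s x ∈ fixedG s := by
  rw [mem_fixedG]
  have := DFunLike.congr_fun (dif_mul_nrm p s hs) x
  change s (nrm p s x) - nrm p s x = 0 at this
  exact sub_eq_zero.mp this

theorem nrm_eq_zero_of_mem_augG {x : A} (hx : x ∈ augG s) : nrm p s x = 0 := by
  obtain ⟨y, rfl⟩ := hx
  exact DFunLike.congr_fun (nrm_mul_dif p s hs) y

theorem nrm_sAug : nrm p (sAug s) = 0 := by
  ext x
  rw [nrm_apply]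
  have h1 : ((∑ i ∈ Finset.range p, (sAug s ^ i) x : augG s) : A) =
      ∑ i ∈ Finset.range p, (s ^ i) (x : A) := by
    rw [AddSubgroup.val_finset_sum]
    exact Finset.sum_congr rfl fun i _ => coe_sAug_pow s i x
  rw [h1, ← nrm_apply]
  exact nrm_eq_zero_of_mem_augG p s hs x.2

/-- the norm `A/(s-1)A → A^G`. -/
def nbar : A ⧸ augG s →+ fixedG s :=
  QuotientAddGroup.lift (augG s)
    ((ad (nrm p s)).codRestrict (fixedG s) (nrm_mem_fixedG p s hs))
    (fun x hx => Subtype.ext (nrm_eq_zero_of_mem_augG p s hs hx))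

omit hs [Fact p.Prime] in
theorem finite_of_card_ne {X : Type*} (h : Nat.card X ≠ 0) : Finite X :=
  Nat.finite_of_card_ne_zero h

/-- **Chevalley's theorem**. -/
theorem chevalley (hfin : FinInd (mulN A p)) :
    FinInd (mulN (fixedG s) p) ∧ (ad (nrm p s)).range.relIndex (fixedG s) ≠ 0 ∧
    (augG s).relIndex (ad (nrm p s)).ker ≠ 0 ∧
    (((ad (nrm p s)).range.relIndex (fixedG s) : ℚ) / (augG s).relIndex (ad (nrm p s)).ker) ^ (p - 1)
      * ind (mulN A p) = ind (mulN (fixedG s) p) ^ p := by
  have hp : p.Prime := Fact.out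
  have hp1 : p - 1 + 1 = p := Nat.sub_add_cancel hp.one_le
  set D : A →+ augG s := (ad (dif s)).rangeRestrict with hD
  have hDsurj : Function.Surjective D := (ad (dif s)).rangeRestrict_surjective
  have hDker : D.ker = fixedG s := (ad (dif s)).ker_rangeRestrict
  -- `p` on `B = (s-1)A`
  have hB : FinInd (mulN (augG s) p) := by
    constructor
    · have h1 : Finite (mulN A p).ker := finite_of_card_ne hfin.ker
      have h2 : Finite (mulN (augG s) p).ker := by
        refine Finite.of_injective
          (fun x : (mulN (augG s) p).ker => (⟨((x : augG s) : A), ?_⟩ : (mulN A p).ker)) ?_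
        · have := x.2
          rw [AddMonoidHom.mem_ker] at this ⊢
          exact congrArg Subtype.val this
        · intro x y h
          have h' := Subtype.mk.inj h
          exact Subtype.ext (Subtype.ext h')
      exact Nat.card_pos.ne'
    · have h1 : (mulN (augG s) p).range = (mulN A p).range.map D := by
        ext y
        constructor
        · rintro ⟨z, rfl⟩
          obtain ⟨x, rfl⟩ := hDsurj z
          exact ⟨p • x, ⟨x, rfl⟩, map_nsmul D p x⟩
        · rintro ⟨_, ⟨x, rfl⟩, rfl⟩
          exact ⟨D x, (map_nsmul D p x).symm⟩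
      rw [h1]
      intro h0
      have := AddSubgroup.index_map_dvd (f := D) (mulN A p).range hDsurj
      rw [h0, zero_dvd_iff] at this
      exact hfin.coker this
  obtain ⟨hDB, hindB⟩ := ind_of_nrm_eq_zero p (sAug s) (sAug_pow p s hs) (nrm_sAug p s hs) hB
  -- exact sequence `0 → A^G → A → B → 0`
  have hex1 : (fixedG s).subtype.range = D.ker := by
    rw [hDker, AddSubgroup.range_subtype]
  have hAG : FinInd (mulN (fixedG s) p) :=
    finInd_left (fixedG s).subtype D (fixedG s).subtype D (fixedG s).subtype_injective hDsurj hex1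
      (fixedG s).subtype_injective hDsurj hex1 (f' := mulN (fixedG s) p) (f := mulN A p)
      (f'' := mulN (augG s) p) (fun _ => rfl) (fun x => (map_nsmul D p x).symm) hfin hB
  have hind1 : ind (mulN A p) = ind (mulN (fixedG s) p) * ind (mulN (augG s) p) :=
    (ind_exact (fixedG s).subtype D (fixedG s).subtype D (fixedG s).subtype_injective hDsurj hex1
      (fixedG s).subtype_injective hDsurj hex1 (f' := mulN (fixedG s) p) (f := mulN A p)
      (f'' := mulN (augG s) p) (fun _ => rfl) (fun x => (map_nsmul D p x).symm) hAG hB).2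
  -- exact sequence `0 → B → A → A/B → 0`
  set q : A →+ A ⧸ augG s := QuotientAddGroup.mk' (augG s) with hq
  have hqs : Function.Surjective q := QuotientAddGroup.mk'_surjective _
  have hex2 : (augG s).subtype.range = q.ker := by
    rw [hq, QuotientAddGroup.ker_mk', AddSubgroup.range_subtype]
  have hAB : FinInd (mulN (A ⧸ augG s) p) :=
    finInd_right (augG s).subtype q (augG s).subtype q (augG s).subtype_injective hqs hex2
      (augG s).subtype_injective hqs hex2 (f' := mulN (augG s) p) (f := mulN A p)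
      (f'' := mulN (A ⧸ augG s) p) (fun _ => rfl) (fun x => (map_nsmul q p x).symm) hfin hB
  -- the maps `nbar` and `i`
  set N := nbar p s hs with hN
  set i : fixedG s →+ A ⧸ augG s := q.comp (fixedG s).subtype with hi
  have hNmk : ∀ x : A, ((N (q x) : fixedG s) : A) = nrm p s x := fun x => rfl
  have c1 : N.comp i = mulN (fixedG s) p := by
    ext x
    change ((N (q (x : A)) : fixedG s) : A) = _
    rw [hNmk, nrm_apply_of_fixed p s ((mem_fixedG s).mp x.2)]
    rfl
  have c2 : i.comp N = mulN (A ⧸ augG s) p := by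
    ext x
    change q ((N (q x) : fixedG s) : A) = p • q x
    rw [hNmk, ← map_nsmul, ← sub_eq_zero, ← map_sub, ← AddMonoidHom.mem_ker, hq,
      QuotientAddGroup.ker_mk']
    -- `N x - p x ∈ (s-1) A`
    have h3 : ∀ i : ℕ, (s ^ i) x - x ∈ augG s := by
      intro i
      refine ⟨(∑ k ∈ Finset.range i, s ^ k : Module.End ℤ A) x, ?_⟩
      have := DFunLike.congr_fun (mul_geom_sum s i) x
      exact this
    have h4 : nrm p s x - p • x = ∑ i ∈ Finset.range p, ((s ^ i) x - x) := by
      rw [Finset.sum_sub_distrib, Finset.sum_const, Finset.card_range, nrm_apply]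
    rw [h4]
    exact AddSubgroup.sum_mem _ fun i _ => h3 i
  have hNF : FinInd N := FinInd.of_comps (f := N) (g := i) (c2 ▸ hAB) (c1 ▸ hAG)
  have hiF : FinInd i := FinInd.of_comps (f := i) (g := N) (c1 ▸ hAG) (c2 ▸ hAB)
  have hind2 : ind (mulN (fixedG s) p) = ind N * ind i := by
    rw [← c1]; exact ind_comp hiF hNF
  -- index of N
  have hNr : N.range.index = (ad (nrm p s)).range.relIndex (fixedG s) := by
    rw [AddSubgroup.relIndex]
    congr 1
    ext x
    rw [AddSubgroup.mem_addSubgroupOf]
    constructor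
    · rintro ⟨y, rfl⟩
      obtain ⟨z, rfl⟩ := hqs y
      exact ⟨z, rfl⟩
    · rintro ⟨z, hz⟩
      exact ⟨q z, Subtype.ext hz⟩
  have hNk : Nat.card N.ker = (augG s).relIndex (ad (nrm p s)).ker := by
    have h1 : N.ker = (ad (nrm p s)).ker.map q := by
      ext y
      constructor
      · intro hy
        obtain ⟨z, rfl⟩ := hqs y
        exact ⟨z, congrArg Subtype.val (AddMonoidHom.mem_ker.mp hy), rfl⟩
      · rintro ⟨z, hz, rfl⟩
        exact AddMonoidHom.mem_ker.mpr (Subtype.ext hz)
    rw [h1, ← AddSubgroup.relIndex_ker, hq, QuotientAddGroup.ker_mk']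
  have hindN : ind N = ((ad (nrm p s)).range.relIndex (fixedG s) : ℚ) /
      (augG s).relIndex (ad (nrm p s)).ker := by
    unfold ind; rw [hNr, hNk]
  -- index of i
  have hindi : ind i = ind (ad (dif (sAug s))) := by
    have k1 : Nat.card i.ker = Nat.card (ad (dif (sAug s))).ker := by
      refine Nat.card_congr
        { toFun := fun x => ⟨⟨((x : fixedG s) : A), ?_⟩, ?_⟩
          invFun := fun x => ⟨⟨((x : augG s) : A), ?_⟩, ?_⟩
          left_inv := fun x => rfl
          right_inv := fun x => rfl }
      · have := x.2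
        rw [AddMonoidHom.mem_ker] at this
        change q ((x : fixedG s) : A) = 0 at this
        rwa [← AddMonoidHom.mem_ker, hq, QuotientAddGroup.ker_mk'] at this
      · rw [mem_fixedG]
        exact Subtype.ext ((mem_fixedG s).mp x.1.2)
      · rw [mem_fixedG]
        exact congrArg Subtype.val ((mem_fixedG _).mp x.2)
      · rw [AddMonoidHom.mem_ker]
        change q ((x : augG s) : A) = 0
        rw [← AddMonoidHom.mem_ker, hq, QuotientAddGroup.ker_mk']
        exact x.1.2
    have k2 : i.range.index = (ad (dif (sAug s))).range.index := by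
      have e1 : i.range.comap q = (ad (dif (sAug s))).range.comap D := by
        ext a
        rw [AddSubgroup.mem_comap, AddSubgroup.mem_comap]
        constructor
        · rintro ⟨g, hg⟩
          have : (a - g : A) ∈ augG s := by
            rw [← QuotientAddGroup.ker_mk' (augG s), AddMonoidHom.mem_ker, ← hq, map_sub,
              sub_eq_zero]
            exact hg.symm
          refine ⟨⟨a - g, this⟩, ?_⟩
          apply Subtype.ext
          change s (a - g) - (a - g) = s a - a
          rw [map_sub, (mem_fixedG s).mp g.2]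
          abel
        · rintro ⟨b, hb⟩
          have hb' : s (b : A) - b = s a - a := congrArg Subtype.val hb
          refine ⟨⟨a - b, ?_⟩, ?_⟩
          · rw [mem_fixedG, map_sub]
            rw [← sub_eq_zero]
            rw [← sub_eq_zero] at hb'
            rw [← neg_eq_zero, ← hb']
            abel
          · change q (a - b) = q a
            rw [map_sub, sub_eq_self, ← AddMonoidHom.mem_ker, hq, QuotientAddGroup.ker_mk']
            exact b.2
      rw [← AddSubgroup.index_comap_of_surjective _ hqs, e1,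
        AddSubgroup.index_comap_of_surjective _ hDsurj]
    unfold ind
    rw [k1, k2]
  refine ⟨hAG, hNr ▸ hNF.coker, hNk ▸ hNF.ker, ?_⟩
  rw [← hindN, hind1, hindB, ← hindi]
  have : ind (mulN (fixedG s) p) ^ p =
      ind (mulN (fixedG s) p) ^ (p - 1) * ind (mulN (fixedG s) p) := by
    rw [← pow_succ, hp1]
  rw [this, hind2]
  ring

end chevalley

end Fermat.Agent.CFT
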