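import Fermat.Agent.CFT.GW2
import Fermat.Agent.EulerC.Defs

set_option autoImplicit false
set_option maxHeartbeats 1000000

/-! Greenberg-Wiles bound: bridge to the Euler characteristic formula. -/

namespace Fermat.Agent.CFT

open Finset Fermat.Agent.CFTSec Fermat.Agent.TWLocal Fermat.Agent.TWH1 Fermat.Agent.EulerC

noncomputable section

variable {T : Finset Nat.Primes} {V : Type*} [AddCommGroup V] [DistribMulAction GQ V]

theorem Z1L_eq : Z1L T (MonoidHom.id GQ) V = Z1S T V := by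
  ext c
  exact ⟨fun ⟨h, E, hE, h'⟩ => ⟨h, E, hE, fun g s hs => h' g s hs⟩,
    fun ⟨h, E, hE, h'⟩ => ⟨h, E, hE, fun g s hs => h' g s hs⟩⟩

theorem Z2L_eq : Z2L T (MonoidHom.id GQ) V = Z2S T V := by
  ext c
  exact ⟨fun ⟨h, E, hE, h'⟩ => ⟨h, E, hE, fun g g' s hs s' hs' => h' g g' s s' hs hs'⟩,
    fun ⟨h, E, hE, h'⟩ => ⟨h, E, hE, fun g g' s s' hs hs' => h' g g' s hs s' hs'⟩⟩

theorem B2L_eq : B2L T (MonoidHom.id GQ) V = B2S T V := by
  ext c
  exact ⟨fun ⟨b, ⟨E, hE, h'⟩, h⟩ => ⟨b, ⟨E, hE, fun g s hs => h' g s hs⟩, h⟩,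
    fun ⟨b, ⟨E, hE, h'⟩, h⟩ => ⟨b, ⟨E, hE, fun g s hs => h' g s hs⟩, h⟩⟩

theorem card_B1 [Finite V] : Nat.card V = Nat.card (B1 GQ V) * Nat.card (fix V (⊤ : Subgroup GQ)) := by
  let δ : V →+ B1 GQ V :=
    { toFun := fun m => ⟨fun g => g • m - m, ⟨m, fun _ => rfl⟩⟩
      map_zero' := by
        apply Subtype.ext; funext g
        show g • (0 : V) - 0 = 0
        rw [smul_zero, sub_zero]
      map_add' := fun m m' => by
        apply Subtype.ext; funext g
        show g • (m + m') - (m + m') = (g • m - m) + (g • m' - m')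
        rw [smul_add]; abel }
  have hδ : Function.Surjective δ := by
    rintro ⟨c, m, hm⟩
    refine ⟨m, ?_⟩
    apply Subtype.ext; funext g
    exact (hm g).symm
  rw [AddSubgroup.card_eq_card_quotient_mul_card_addSubgroup δ.ker]
  congr 1
  · exact Nat.card_congr (QuotientAddGroup.quotientKerEquivOfSurjective δ hδ).toEquiv
  · refine Nat.card_congr (Equiv.subtypeEquivRight fun m => ?_)
    constructor
    · intro h4 g _
      have h5 := congrArg (fun z => z.1 g) (show δ m = 0 from h4)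
      exact sub_eq_zero.mp h5
    · intro h4
      show δ m = 0
      apply Subtype.ext; funext g
      exact sub_eq_zero.mpr (h4 g trivial)

theorem h2_eq : h2 T (MonoidHom.id GQ) V = Nat.card (H2S T V) := by
  unfold h2
  rw [Z2L_eq, B2L_eq]
  rfl

/-- from the Euler characteristic formula to the form used in the Greenberg-Wiles bound -/
theorem ECz_of [Finite V] (hV : LevM T V) (c : GQ)
    (h : h1 T (MonoidHom.id GQ) V * Nat.card (fix V (Subgroup.zpowers c)) ≤
      h0 GQ V * h2 T (MonoidHom.id GQ) V * Nat.card V) : ECz T V c := by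
  have hB : B1 GQ V ≤ Z1S T V := by
    rintro x ⟨v, hv⟩
    obtain ⟨E, hE, hEV⟩ := hV
    refine ⟨B1_le_Z1 ⟨v, hv⟩, E, hE, fun g s hs => ?_⟩
    rw [hv, hv, mul_smul, hEV s hs]
  have h3 : Nat.card (Z1S T V) = h1 T (MonoidHom.id GQ) V * Nat.card (B1 GQ V) := by
    unfold h1
    rw [Z1L_eq, AddSubgroup.card_eq_card_quotient_mul_card_addSubgroup
      ((B1 GQ V).addSubgroupOf (Z1S T V))]
    congr 1
    exact Nat.card_congr (AddSubgroup.addSubgroupOfEquivOfLe hB).toEquiv
  unfold ECz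
  rw [← h2_eq, h3]
  have h4 := card_B1 (V := V)
  calc h1 T (MonoidHom.id GQ) V * Nat.card (B1 GQ V) * Nat.card (fix V (Subgroup.zpowers c))
      = (h1 T (MonoidHom.id GQ) V * Nat.card (fix V (Subgroup.zpowers c))) *
        Nat.card (B1 GQ V) := by ring
    _ ≤ (h0 GQ V * h2 T (MonoidHom.id GQ) V * Nat.card V) * Nat.card (B1 GQ V) :=
        Nat.mul_le_mul_right _ h
    _ = (Nat.card (B1 GQ V) * Nat.card (fix V (⊤ : Subgroup GQ))) * Nat.card V *
        h2 T (MonoidHom.id GQ) V := by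
        show (Nat.card (fix V (⊤ : Subgroup GQ)) * h2 T (MonoidHom.id GQ) V * Nat.card V) *
          Nat.card (B1 GQ V) = _
        ring
    _ = Nat.card V ^ 2 * h2 T (MonoidHom.id GQ) V := by rw [← h4]; ring

end

end Fermat.Agent.CFT
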