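import Fermat.Agent.CFT.Sha4
import Fermat.Agent.TWLocal.Inst2

set_option autoImplicit false
set_option maxHeartbeats 400000

/-! Selmer groups and the statement of the Greenberg-Wiles bound. -/

namespace Fermat.Agent.CFT

open Finset Fermat.Agent.CFTSec Fermat.Agent.TWLocal

noncomputable section

section defs

variable (q : Nat.Primes) (V : Type*) [AddCommGroup V] [DistribMulAction GQ V]

/-- locally constant cocycles of the local Galois group at `q` -/
def Z1q : AddSubgroup (LG q → V) where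
  carrier := {c | (∀ d d', c (d * d') = c d + localGaloisToGlobal (q : ℕ) d • c d') ∧ LC1 c}
  zero_mem' := ⟨fun d d' => by simp, ⟨⊤, isOpen_univ, fun _ _ _ => rfl⟩⟩
  add_mem' := by
    rintro a b ⟨ha, ha'⟩ ⟨hb, hb'⟩
    refine ⟨fun d d' => ?_, ?_⟩
    · show a (d * d') + b (d * d') = a d + b d + _ • (a d' + b d')
      rw [ha, hb, smul_add]; abel
    · obtain ⟨N, hN, h⟩ := ha'
      obtain ⟨N', hN', h'⟩ := hb'
      refine ⟨N ⊓ N', hN.inter hN', fun g n hn => ?_⟩
      show a (g * n) + b (g * n) = a g + b g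
      rw [h g n hn.1, h' g n hn.2]
  neg_mem' := by
    rintro a ⟨ha, N, hN, h⟩
    refine ⟨fun d d' => ?_, N, hN, fun g n hn => ?_⟩
    · show - a (d * d') = - a d + _ • (- a d')
      rw [ha, smul_neg]; abel
    · show - a (g * n) = - a g
      rw [h g n hn]

/-- coboundaries of the local Galois group at `q` -/
def B1q : AddSubgroup (LG q → V) where
  carrier := {c | ∃ v : V, ∀ d, c d = localGaloisToGlobal (q : ℕ) d • v - v}
  zero_mem' := ⟨0, fun d => by rw [smul_zero, sub_zero]; rfl⟩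
  add_mem' := by
    rintro a b ⟨v, hv⟩ ⟨v', hv'⟩
    refine ⟨v + v', fun d => ?_⟩
    show a d + b d = _
    rw [hv, hv', smul_add]; abel
  neg_mem' := by
    rintro a ⟨v, hv⟩
    refine ⟨-v, fun d => ?_⟩
    show - a d = _
    rw [hv, smul_neg]; abel

variable {q V}

theorem mem_Z1q {c : LG q → V} : c ∈ Z1q q V ↔
    (∀ d d', c (d * d') = c d + localGaloisToGlobal (q : ℕ) d • c d') ∧ LC1 c := Iff.rfl

theorem mem_B1q {c : LG q → V} : c ∈ B1q q V ↔
    ∃ v : V, ∀ d, c d = localGaloisToGlobal (q : ℕ) d • v - v := Iff.rfl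

/-- local orthogonality of cochains: the cup product is a coboundary -/
def Orth {p : ℕ} {V W : Type*} [AddCommGroup V] [AddCommGroup W] [DistribMulAction GQ V]
    (B : V →+ W →+ ZMod p) (q : Nat.Primes) (x : LG q → W) (c : LG q → V) : Prop :=
  ∀ z : ZMod p →+ LM q,
    (fun d d' => z (B (localGaloisToGlobal (q : ℕ) d • c d') (x d))) ∈ B2l (LG q) (LM q)

/-- Selmer groups (cocycle form) -/
def SelL (T : Finset Nat.Primes) (V : Type*) [AddCommGroup V] [DistribMulAction GQ V]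
    (Lc : ∀ q : Nat.Primes, AddSubgroup (LG q → V)) : AddSubgroup (GQ → V) where
  carrier := {x | x ∈ Z1S T V ∧ ∀ q ∈ T, (fun d => x (localGaloisToGlobal (q : ℕ) d)) ∈ Lc q}
  zero_mem' := ⟨(Z1S T V).zero_mem, fun q _ => (Lc q).zero_mem⟩
  add_mem' := fun ha hb => ⟨(Z1S T V).add_mem ha.1 hb.1,
    fun q hq => (Lc q).add_mem (ha.2 q hq) (hb.2 q hq)⟩
  neg_mem' := fun ha => ⟨(Z1S T V).neg_mem ha.1, fun q hq => (Lc q).neg_mem (ha.2 q hq)⟩

theorem mem_SelL {T : Finset Nat.Primes} {V : Type*} [AddCommGroup V] [DistribMulAction GQ V]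
    {Lc : ∀ q : Nat.Primes, AddSubgroup (LG q → V)} {x : GQ → V} : x ∈ SelL T V Lc ↔
    x ∈ Z1S T V ∧ ∀ q ∈ T, (fun d => x (localGaloisToGlobal (q : ℕ) d)) ∈ Lc q := Iff.rfl

/-- The dual Selmer group vanishes (all its cocycles are coboundaries). -/
def DualZero {p : ℕ} {V W : Type*} [AddCommGroup V] [AddCommGroup W] [DistribMulAction GQ V]
    [DistribMulAction GQ W] (B : V →+ W →+ ZMod p) (T : Finset Nat.Primes)
    (Lc : ∀ q : Nat.Primes, AddSubgroup (LG q → V)) : Prop :=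
  ∀ x ∈ Z1S T W, (∀ q ∈ T, ∀ a ∈ Lc q,
    Orth B q (fun d => x (localGaloisToGlobal (q : ℕ) d)) a) → x ∈ B1 GQ W

/-- **Greenberg-Wiles bound** for the set `T` (statement) -/
def GWBound {p : ℕ} {V W : Type*} [AddCommGroup V] [AddCommGroup W] [DistribMulAction GQ V]
    [DistribMulAction GQ W] (B : V →+ W →+ ZMod p) (T : Finset Nat.Primes) (c : GQ) : Prop :=
  ∀ Lc : ∀ q : Nat.Primes, AddSubgroup (LG q → V),
    (∀ q ∈ T, Lc q ≤ Z1q q V) → (∀ q ∈ T, B1q q V ≤ Lc q) → DualZero B T Lc →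
    Finite (SelL T V Lc) ∧
      Nat.card (SelL T V Lc) * Nat.card (fix V (Subgroup.zpowers c)) * Nat.card V ^ T.card ≤
        Nat.card V * ∏ q ∈ T, Nat.card (Lc q)

end defs

end

end Fermat.Agent.CFT
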