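import Fermat.Agent.CFT.LocG

set_option autoImplicit false
set_option maxHeartbeats 400000

/-! Local elements with nontrivial reciprocity. -/

namespace Fermat.Agent.CFT

open Finset Fermat.Agent.CFTSec
open scoped Pointwise

noncomputable section

section arith

variable {p : ℕ} [hp : Fact p.Prime] (n : ℕ) (hp2 : 2 < p)

/-- the decomposition group acts on roots of unity through powers of `q` -/
theorem ch_lg {q : Nat.Primes} (hpq : p ≠ (q : ℕ)) (t : LG q) :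
    ∃ k : ℕ, ch n hp2 (localGaloisToGlobal (q : ℕ) t) = k * lq n hp2 q := by
  have hcop : Nat.Coprime (q : ℕ) (p ^ (n + 1)) := coprime_of_ne n hpq
  set M := Nat.totient (p ^ (n + 1)) with hM
  have hM0 : 0 < M := Nat.totient_pos.mpr (pow_pos hp.out.pos _)
  have hdvd : p ^ (n + 1) ∣ (q : ℕ) ^ M - 1 :=
    (Nat.modEq_iff_dvd' (Nat.one_le_pow _ _ q.2.pos)).mp (Nat.ModEq.pow_totient hcop).symm
  have hne : (q : ℕ) ^ M - 1 ≠ 0 := by
    have : 1 < (q : ℕ) ^ M := Nat.one_lt_pow hM0.ne' q.2.one_lt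
    omega
  haveI : NeZero ((q : ℕ) ^ M - 1) := ⟨hne⟩
  obtain ⟨ζ, hζ⟩ : ∃ ζ : PadicAlgCl (q : ℕ), IsPrimitiveRoot ζ ((q : ℕ) ^ M - 1) := by
    haveI : NeZero (((q : ℕ) ^ M - 1 : ℕ) : PadicAlgCl (q : ℕ)) := ⟨Nat.cast_ne_zero.mpr hne⟩
    exact HasEnoughRootsOfUnity.exists_primitiveRoot (PadicAlgCl (q : ℕ)) ((q : ℕ) ^ M - 1)
  obtain ⟨a, ha⟩ := Fermat.Agent.CFTLocal.gal_zeta hM0 hζ t
  set w := padicEmbedding (q : ℕ) (zN p n) with hw
  have hwN : w ^ (p ^ (n + 1)) = 1 := by rw [hw, ← map_pow, (zN_spec p n).pow_eq_one, map_one]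
  have hw1 : w ^ ((q : ℕ) ^ M - 1) = 1 := by
    obtain ⟨c, hc⟩ := hdvd
    rw [hc, pow_mul, hwN, one_pow]
  obtain ⟨i, -, hi⟩ := hζ.eq_pow_of_pow_eq_one hw1
  have htw : t w = w ^ ((q : ℕ) ^ a) := by
    rw [← hi, map_pow, ha, ← pow_mul, ← pow_mul, mul_comm]
  have h2 : localGaloisToGlobal (q : ℕ) t (zN p n) = zN p n ^ ((q : ℕ) ^ a) := by
    apply (padicEmbedding (q : ℕ)).toRingHom.injective
    show padicEmbedding (q : ℕ) _ = padicEmbedding (q : ℕ) _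
    rw [padicEmbedding_localGaloisToGlobal, map_pow]
    exact htw
  refine ⟨a, ?_⟩
  have h3 := cyc_eq p n h2
  have h4 : cyc p n (localGaloisToGlobal (q : ℕ) t) =
      (ZMod.unitOfCoprime (q : ℕ) hcop) ^ a := by
    apply Units.ext
    rw [h3, Units.val_pow_eq_pow_val, ZMod.coe_unitOfCoprime, Nat.cast_pow]
  show (lgz p n hp2 (cyc p n _)).toAdd = _
  rw [h4, map_pow, toAdd_pow, lq_of_ne n hp2 hpq, nsmul_eq_mul]

/-- the logarithm of a prime is nonzero at some level -/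
theorem exists_lq_ne {q : Nat.Primes} (hpq : p ≠ (q : ℕ)) : ∃ m, lq m hp2 q ≠ 0 := by
  by_contra hcon
  push Not at hcon
  set m := (q : ℕ) ^ (p - 1) with hm
  have h1 := hcon m
  rw [lq_of_ne m hp2 hpq] at h1
  have h2 : lgz p m hp2 (ZMod.unitOfCoprime (q : ℕ) (coprime_of_ne m hpq)) = 1 := h1
  rw [lgz_eq_one] at h2
  have h3 := congrArg (fun u : (ZMod (p ^ (m + 1)))ˣ => (u : ZMod (p ^ (m + 1)))) h2
  simp only [Units.val_pow_eq_pow_val, ZMod.coe_unitOfCoprime, Units.val_one] at h3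
  have h3' : (((q : ℕ) ^ (p - 1) : ℕ) : ZMod (p ^ (m + 1))) = ((1 : ℕ) : ZMod (p ^ (m + 1))) := by
    rw [Nat.cast_pow, Nat.cast_one]; exact h3
  rw [ZMod.natCast_eq_natCast_iff] at h3'
  have hlt : (q : ℕ) ^ (p - 1) < p ^ (m + 1) := by
    calc m < p ^ m := Nat.lt_pow_self hp.out.one_lt
      _ ≤ p ^ (m + 1) := Nat.pow_le_pow_right hp.out.pos (Nat.le_succ _)
  have hgt : 1 < (q : ℕ) ^ (p - 1) := Nat.one_lt_pow (by omega) q.2.one_lt
  have := Nat.ModEq.eq_of_lt_of_lt h3' hlt (by omega)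
  omega

theorem exists_pow_order {n : ℕ} {x : ZMod (p ^ n)} (hx : x ≠ 0) : ∃ c : ℕ, (c : ZMod (p ^ n)) * x ≠ 0 ∧
    ((p * c : ℕ) : ZMod (p ^ n)) * x = 0 := by
  classical
  have hex : ∃ j : ℕ, ((p ^ j : ℕ) : ZMod (p ^ n)) * x = 0 := ⟨n, by
    rw [ZMod.natCast_self, zero_mul]⟩
  have h1 := Nat.find_spec hex
  set j := Nat.find hex with hj
  have hj0 : j ≠ 0 := by
    intro h
    rw [h, pow_zero, Nat.cast_one, one_mul] at h1
    exact hx h1
  refine ⟨p ^ (j - 1), Nat.find_min hex (by omega), ?_⟩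
  have : p * p ^ (j - 1) = p ^ j := by
    rw [← pow_succ']; congr 1; omega
  rw [this]; exact h1

theorem log_one_add_p (h : ‖((1 + p : ℕ) : ℚ_[p])‖ = 1) :
    lgz p 1 hp2 (rU 1 ((1 + p : ℕ) : ℚ_[p]) h) ≠ 1 := by
  intro h1
  rw [lgz_eq_one] at h1
  have h2 := congrArg (fun u : (ZMod (p ^ (1 + 1)))ˣ => (u : ZMod (p ^ (1 + 1)))) h1
  simp only [Units.val_pow_eq_pow_val, Units.val_one] at h2
  rw [rU_natCast] at h2
  have h3 : (((1 + p : ℕ) : ZMod (p ^ (1 + 1)))) ^ p = 1 := by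
    have h4 := dvd_sub_pow_of_dvd_sub (R := ℤ) (p := p) (a := 1 + p) (b := 1) (by simp) 1
    rw [pow_one, one_pow] at h4
    have h5 : (((1 + (p : ℤ)) ^ p - 1 : ℤ) : ZMod (p ^ (1 + 1))) = 0 := by
      rw [ZMod.intCast_zmod_eq_zero_iff_dvd]
      exact_mod_cast h4
    push_cast at h5 ⊢
    exact sub_eq_zero.mp h5
  have h6 : (((1 + p : ℕ) : ZMod (p ^ (1 + 1)))) = 1 := by
    have h7 : p - 1 + 1 = p := by omega
    have h8 : (((1 + p : ℕ) : ZMod (p ^ (1 + 1)))) ^ (p - 1 + 1) = 1 := by rw [h7]; exact h3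
    rw [pow_succ (((1 + p : ℕ) : ZMod (p ^ (1 + 1)))) (p - 1), h2, one_mul] at h8
    exact h8
  push_cast at h6
  have h8 : ((p : ℕ) : ZMod (p ^ (1 + 1))) = 0 := by
    have := h6
    exact add_eq_left.mp this
  rw [ZMod.natCast_eq_zero_iff] at h8
  have h9 := Nat.le_of_dvd hp.out.pos h8
  have : p * 2 < p ^ (1 + 1) := by rw [pow_succ, pow_one]; exact Nat.mul_lt_mul_of_pos_left hp2 hp.out.pos
  omega

end arith

/-- constant elements -/
def constJ (q : Nat.Primes) (y : LM q) (hy : ∀ t : LG q, t • y = y) : ↥(fix (JQ q) (⊤ : Subgroup GQ)) :=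
  ⟨⟨fun _ => y, fun t _ => (hy t).symm⟩, fun _ _ => rfl⟩

theorem constJ_val (q : Nat.Primes) (y : LM q) (hy : ∀ t : LG q, t • y = y) (σ : GQ) :
    (constJ q y hy).1.1 σ = y := rfl

variable {S : Finset Nat.Primes}

open Classical in
/-- the inclusion of a local component -/
def sgT (q : Nat.Primes) (hq : q ∈ S) : JQ q →+ IdT S :=
  (AddMonoidHom.inl (∀ q : S, JQ q.1) (DivG S)).comp
    (AddMonoidHom.single (fun q : S => JQ q.1) ⟨q, hq⟩)

theorem sgT_fst (q : Nat.Primes) (hq : q ∈ S) (f : JQ q) : (sgT q hq f).1 ⟨q, hq⟩ = f := by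
  classical
  exact Pi.single_eq_same (M := fun q : S => JQ q.1) ⟨q, hq⟩ f

theorem sgT_ne (q : Nat.Primes) (hq : q ∈ S) (f : JQ q) (q' : S) (h : q'.1 ≠ q) :
    (sgT q hq f).1 q' = 0 := by
  have h' : q' ≠ ⟨q, hq⟩ := fun h' => h (congrArg Subtype.val h')
  simp only [sgT, AddMonoidHom.comp_apply, AddMonoidHom.inl_apply, AddMonoidHom.single_apply]
  exact Pi.single_eq_of_ne (M := fun q : S => JQ q.1) h' f

theorem sgT_snd (q : Nat.Primes) (hq : q ∈ S) (f : JQ q) : (sgT q hq f).2 = 0 := rfl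

theorem smul_IdT_fst (g : GQ) (x : IdT S) (q' : S) : (g • x).1 q' = g • (x.1 q') := rfl

theorem smul_IdT_snd (g : GQ) (x : IdT S) : (g • x).2 = g • x.2 := rfl

theorem sgT_smul (q : Nat.Primes) (hq : q ∈ S) (g : GQ) (f : JQ q) :
    sgT q hq (g • f) = g • sgT q hq f := by
  apply Prod.ext
  · funext q'
    rw [smul_IdT_fst]
    by_cases h : q' = ⟨q, hq⟩
    · subst h
      rw [sgT_fst, sgT_fst]
    · have hne : q'.1 ≠ q := fun h' => h (Subtype.ext h')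
      rw [sgT_ne q hq _ q' hne, sgT_ne q hq _ q' hne, smul_zero]
  · rw [smul_IdT_snd, sgT_snd, sgT_snd, smul_zero]

theorem sgT_fix (q : Nat.Primes) (hq : q ∈ S) {Γ : Subgroup GQ} {f : JQ q}
    (hf : f ∈ fix (JQ q) Γ) : sgT q hq f ∈ fix (IdT S) Γ := fun g hg => by
  rw [← sgT_smul, hf g hg]

/-- the inclusion of invariants of a local component -/
def sgN {L : IntermediateField ℚ Qb} (hL : L.IsUnramifiedOutside S) (q : Nat.Primes) (hq : q ∈ S) :
    ↥(fix (JQ q) L.fixingSubgroup) →+ ↥(fix (Jm S) L.fixingSubgroup) where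
  toFun f := ⟨⟨sgT q hq f.1, L, hL, sgT_fix q hq f.2⟩, fun g hg =>
    Subtype.ext (sgT_fix q hq f.2 g hg)⟩
  map_zero' := Subtype.ext (Subtype.ext (map_zero (sgT q hq)))
  map_add' a b := Subtype.ext (Subtype.ext (map_add (sgT q hq) a.1 b.1))

theorem sgN_val {L : IntermediateField ℚ Qb} (hL : L.IsUnramifiedOutside S) (q : Nat.Primes)
    (hq : q ∈ S) (f : ↥(fix (JQ q) L.fixingSubgroup)) : (sgN hL q hq f).1.1 = sgT q hq f.1 := rfl

/-- the idele concentrated at one prime -/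
def sgl (q : Nat.Primes) (hq : q ∈ S) : ↥(fix (JQ q) (⊤ : Subgroup GQ)) →+
    ↥(fix (Jm S) (⊤ : Subgroup GQ)) :=
  (topBot (Jm S)).symm.toAddMonoidHom.comp
    ((sgN (IntermediateField.isUnramifiedOutside_bot S) q hq).comp (topBot (JQ q)).toAddMonoidHom)

theorem sgl_val (q : Nat.Primes) (hq : q ∈ S) (f : ↥(fix (JQ q) (⊤ : Subgroup GQ))) :
    (sgl q hq f).1.1 = sgT q hq f.1 := rfl

theorem sgl_same (q : Nat.Primes) (hq : q ∈ S) (f : ↥(fix (JQ q) (⊤ : Subgroup GQ))) :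
    cmp q hq (sgl q hq f).1 = f.1 := by
  show (sgl q hq f).1.1.1 ⟨q, hq⟩ = f.1
  rw [sgl_val, sgT_fst]

theorem sgl_ne (q : Nat.Primes) (hq : q ∈ S) (f : ↥(fix (JQ q) (⊤ : Subgroup GQ))) (q' : S)
    (h : q'.1 ≠ q) : (sgl q hq f).1.1.1 q' = 0 := by
  rw [sgl_val, sgT_ne q hq _ q' h]

variable {p : ℕ} [hp : Fact p.Prime] (hp2 : 2 < p) (hpS : pP p ∈ S)

/-- local elements with nontrivial reciprocity -/
theorem exists_good (q : Nat.Primes) (hq : q ∈ S) :
    ∃ (m c : ℕ) (a : ↥(fix (JQ q) (⊤ : Subgroup GQ))), rS m hp2 hpS (sgl q hq (c • a)) ≠ 0 ∧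
      ∀ t : LG q, ((p * c : ℕ) : ZMod (p ^ m)) * ch m hp2 (localGaloisToGlobal (q : ℕ) t) = 0 := by
  by_cases hqp : q = pP p
  · subst hqp
    have hpr : ((1 + p : ℕ) : PadicAlgCl (pP p : Nat.Primes)) ≠ 0 :=
      Nat.cast_ne_zero.mpr (by omega)
    let y : LM (pP p : Nat.Primes) := Additive.ofMul (Units.mk0 _ hpr)
    have hy : ∀ t : LG (pP p : Nat.Primes), t • y = y := by
      intro t
      apply congrArg Additive.ofMul
      apply Units.ext
      show t ((1 + p : ℕ) : PadicAlgCl (pP p : Nat.Primes)) = _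
      rw [map_natCast]; rfl
    refine ⟨1, 1, constJ _ y hy, ?_, ?_⟩
    · rw [one_smul, rS_single_p 1 hp2 hpS _ (fun q' h => sgl_ne _ hq _ q' h) rfl]
      have hnorm : ‖((1 + p : ℕ) : ℚ_[p])‖ = 1 := by
        rw [Padic.norm_natCast_eq_one_iff]
        exact (Nat.coprime_add_self_right (m := p) (n := 1)).mpr (Nat.coprime_one_right p)
      have e1 : (locS (pP p) hpS (sgl (pP p) hq (constJ _ y hy))).1 = y := by
        rw [locS_val]
        have := sgl_same (pP p) hq (constJ _ y hy)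
        rw [this]; rfl
      have h1 := lgP_apply 1 hp2 (locS (pP p) hpS (sgl (pP p) hq (constJ _ y hy)))
        (a := ((1 + p : ℕ) : ℚ_[p])) (by rw [e1, map_natCast]; rfl) hnorm (up_of_norm hnorm)
      rw [h1, neg_ne_zero]
      intro h2
      exact log_one_add_p hp2 hnorm h2
    · intro t
      rw [mul_one]
      have : ((p : ℕ) : ZMod (p ^ 1)) = 0 := by
        rw [ZMod.natCast_eq_zero_iff, pow_one]
      rw [this, zero_mul]
  · have hpq : p ≠ (q : ℕ) := fun h => hqp (Subtype.ext h.symm)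
    obtain ⟨m, hm⟩ := exists_lq_ne hp2 hpq
    obtain ⟨c, hc1, hc2⟩ := exists_pow_order hm
    refine ⟨m, c, constJ q (qLM q) (smul_qLM q), ?_, ?_⟩
    · rw [map_nsmul, map_nsmul, rS_single m hp2 hpS q hq hqp _ (fun q' h => sgl_ne _ hq _ q' h) rfl,
        sgl_same, constJ_val]
      have : ordZ q (qLM q) = 1 := by
        apply ordZ_eq
        have := nmL_zsmul_qLM q 1
        rwa [one_smul] at this
      rw [this, one_smul, nsmul_eq_mul]
      exact hc1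
    · intro t
      obtain ⟨k, hk⟩ := ch_lg m hp2 hpq t
      rw [hk, ← mul_assoc, mul_comm _ (k : ZMod (p ^ m)), mul_assoc, hc2, mul_zero]

end

end Fermat.Agent.CFT
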