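import Fermat.Agent.CFT.Perm

set_option autoImplicit false
set_option maxHeartbeats 400000

/-! Modules of homomorphisms. -/

namespace Fermat.Agent.CFT

open Finset

noncomputable section

section defs

variable {U G : Type*} [Group U] [Group G] (π : U →* G) (F A : Type*) [AddCommGroup F]
  [DistribMulAction G F] [AddCommGroup A] [DistribMulAction U A]

/-- homomorphisms from `F` to `A` with the conjugation action of `U` -/
def HM (_π : U →* G) (F A : Type*) [AddCommGroup F]
    [DistribMulAction G F] [AddCommGroup A] [DistribMulAction U A] : Type _ := F →+ A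

instance : AddCommGroup (HM π F A) := inferInstanceAs (AddCommGroup (F →+ A))
instance : FunLike (HM π F A) F A := inferInstanceAs (FunLike (F →+ A) F A)
instance : AddMonoidHomClass (HM π F A) F A := inferInstanceAs (AddMonoidHomClass (F →+ A) F A)

variable {F A}

theorem HM.ext {h h' : HM π F A} (H : ∀ f, h f = h' f) : h = h' := DFunLike.ext _ _ H

/-- the underlying homomorphism -/
def HM.toHom (h : HM π F A) : F →+ A := h

instance hmAction : DistribMulAction U (HM π F A) where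
  smul u h := (DistribSMul.toAddMonoidHom A u).comp
    ((HM.toHom π h).comp (DistribSMul.toAddMonoidHom F (π u)⁻¹))
  one_smul h := by
    apply HM.ext
    intro f
    show (1 : U) • h ((π 1)⁻¹ • f) = h f
    rw [map_one, inv_one, one_smul, one_smul]
  mul_smul u v h := by
    apply HM.ext
    intro f
    show (u * v) • h ((π (u * v))⁻¹ • f) = u • v • h ((π v)⁻¹ • (π u)⁻¹ • f)
    rw [map_mul, mul_inv_rev, mul_smul, mul_smul]
  smul_zero u := by
    apply HM.ext
    intro f
    exact smul_zero u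
  smul_add u h h' := by
    apply HM.ext
    intro f
    exact smul_add u _ _

theorem hm_smul_apply (u : U) (h : HM π F A) (f : F) : (u • h) f = u • h ((π u)⁻¹ • f) := rfl
theorem hm_add_apply (h h' : HM π F A) (f : F) : (h + h') f = h f + h' f := rfl
theorem hm_sub_apply (h h' : HM π F A) (f : F) : (h - h') f = h f - h' f := rfl
theorem hm_zero_apply (f : F) : (0 : HM π F A) f = 0 := rfl

/-- evaluation -/
def hmEv (f : F) : HM π F A →+ A where
  toFun h := h f
  map_zero' := rfl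
  map_add' _ _ := rfl

theorem hm_sum_apply {ι : Type*} (s : Finset ι) (h : ι → HM π F A) (f : F) :
    (∑ i ∈ s, h i) f = ∑ i ∈ s, h i f := map_sum (hmEv π f) h s

/-- composition with an endomorphism of `F` -/
def hmComp (e : F →+ F) : HM π F A →+ HM π F A where
  toFun h := (HM.toHom π h).comp e
  map_zero' := rfl
  map_add' _ _ := rfl

theorem hmComp_apply (e : F →+ F) (h : HM π F A) (f : F) : hmComp π e h f = h (e f) := rfl

end defs

section proj

variable {G V : Type*} [Group G] [Fintype G] [AddCommGroup V] [DistribMulAction G V]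

theorem proj_shift (ε : V →+ V) (g z : G) (v : V) :
    g • z • ε (z⁻¹ • v) = (g * z) • ε ((g * z)⁻¹ • g • v) := by
  rw [mul_inv_rev, mul_smul z⁻¹, inv_smul_smul, mul_smul]

theorem z2_le_b2_of_proj (ε : V →+ V) (hε : ∀ v, ∑ z : G, z • ε (z⁻¹ • v) = v) :
    Z2 G V ≤ B2 G V := by
  intro x hx
  refine ⟨fun g => ∑ y, (g * y) • ε ((g * y)⁻¹ • x g y), fun g h => ?_⟩
  show x g h = ∑ y, (g * y) • ε ((g * y)⁻¹ • x g y) +
    g • ∑ y, (h * y) • ε ((h * y)⁻¹ • x h y) - ∑ y, (g * h * y) • ε ((g * h * y)⁻¹ • x (g * h) y)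
  have h1 : ∀ y, g • (h * y) • ε ((h * y)⁻¹ • x h y) =
      (g * h * y) • ε ((g * h * y)⁻¹ • x (g * h) y) + (g * h * y) • ε ((g * h * y)⁻¹ • x g h)
        - (g * h * y) • ε ((g * h * y)⁻¹ • x g (h * y)) := by
    intro y
    have h2 : g • x h y = x (g * h) y + x g h - x g (h * y) := by
      rw [eq_sub_iff_add_eq, ← hx g h y, add_comm]
    rw [proj_shift, h2, ← mul_assoc, smul_sub, smul_add, map_sub, map_add, smul_sub, smul_add]
  rw [Finset.smul_sum, Finset.sum_congr rfl fun y _ => h1 y, Finset.sum_sub_distrib,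
    Finset.sum_add_distrib]
  have h3 : ∑ y, (g * h * y) • ε ((g * h * y)⁻¹ • x g h) = x g h := by
    conv_rhs => rw [← hε (x g h)]
    exact Fintype.sum_equiv (Equiv.mulLeft (g * h)) _ _ fun y => rfl
  have h4 : ∑ y, (g * h * y) • ε ((g * h * y)⁻¹ • x g (h * y)) =
      ∑ y, (g * y) • ε ((g * y)⁻¹ • x g y) :=
    Fintype.sum_equiv (Equiv.mulLeft h) _ _ fun y => by
      show (g * h * y) • ε ((g * h * y)⁻¹ • x g (h * y)) =
        (g * (h * y)) • ε ((g * (h * y))⁻¹ • x g (h * y))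
      rw [mul_assoc]
  rw [h3, h4]
  abel

theorem z1_le_b1_of_proj (ε : V →+ V) (hε : ∀ v, ∑ z : G, z • ε (z⁻¹ • v) = v) :
    Z1 G V ≤ B1 G V := by
  intro c hc
  refine ⟨- ∑ y, y • ε (y⁻¹ • c y), fun g => ?_⟩
  have h1 : ∀ y, g • y • ε (y⁻¹ • c y) =
      (g * y) • ε ((g * y)⁻¹ • c (g * y)) - (g * y) • ε ((g * y)⁻¹ • c g) := by
    intro y
    have h2 : g • c y = c (g * y) - c g := by rw [hc g y]; abel
    rw [proj_shift, h2, smul_sub, map_sub, smul_sub]
  have h3 : ∑ y, (g * y) • ε ((g * y)⁻¹ • c g) = c g := by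
    conv_rhs => rw [← hε (c g)]
    exact Fintype.sum_equiv (Equiv.mulLeft g) _ _ fun y => rfl
  have h4 : ∑ y, (g * y) • ε ((g * y)⁻¹ • c (g * y)) = ∑ y, y • ε (y⁻¹ • c y) :=
    Fintype.sum_equiv (Equiv.mulLeft g) _ _ fun y => rfl
  rw [smul_neg, Finset.smul_sum, Finset.sum_congr rfl fun y _ => h1 y, Finset.sum_sub_distrib,
    h3, h4]
  abel

end proj

section hmproj

variable {G : Type*} [Group G] [Fintype G] {F A : Type*} [AddCommGroup F]
  [DistribMulAction G F] [AddCommGroup A] [DistribMulAction G A]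

theorem hm_proj (e : F →+ F) (he : ∀ f, ∑ x : G, x • e (x⁻¹ • f) = f) :
    ∃ ε : HM (MonoidHom.id G) F A →+ HM (MonoidHom.id G) F A,
      ∀ v, ∑ z : G, z • ε (z⁻¹ • v) = v := by
  refine ⟨hmComp (MonoidHom.id G) e, fun h => ?_⟩
  apply HM.ext
  intro f
  rw [hm_sum_apply]
  have h2 : ∀ z : G, (z • hmComp (MonoidHom.id G) e (z⁻¹ • h)) f = h (z • e (z⁻¹ • f)) := by
    intro z
    show z • z⁻¹ • h ((z⁻¹)⁻¹ • e (z⁻¹ • f)) = h (z • e (z⁻¹ • f))
    rw [inv_inv, smul_inv_smul]
  rw [Finset.sum_congr rfl fun z _ => h2 z, ← map_sum, he]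

theorem hm_z2 (e : F →+ F) (he : ∀ f, ∑ x : G, x • e (x⁻¹ • f) = f) :
    Z2 G (HM (MonoidHom.id G) F A) ≤ B2 G (HM (MonoidHom.id G) F A) := by
  obtain ⟨ε, hε⟩ := hm_proj (A := A) e he
  exact z2_le_b2_of_proj ε hε

theorem hm_z1 (e : F →+ F) (he : ∀ f, ∑ x : G, x • e (x⁻¹ • f) = f) :
    Z1 G (HM (MonoidHom.id G) F A) ≤ B1 G (HM (MonoidHom.id G) F A) := by
  obtain ⟨ε, hε⟩ := hm_proj (A := A) e he
  exact z1_le_b1_of_proj ε hε

end hmproj

section shap

variable {U G : Type*} [Group U] [Group G] (π : U →* G) {X : Type*} [Fintype X] [MulAction G X]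
  {A : Type*} [AddCommGroup A] [DistribMulAction U A]

/-- Shapiro for permutation modules -/
theorem hm_h1 {c : U → HM π (PM X) A} (hc : c ∈ Z1 U (HM π (PM X) A))
    (hloc : ∀ x : X, ∃ β : A, ∀ u, π u • x = x → c u (dl x) = u • β - β) :
    c ∈ B1 U (HM π (PM X) A) := by
  classical
  have hc' : ∀ u v (x : X), c (u * v) (dl x) = c u (dl x) + u • c v (dl ((π u)⁻¹ • x)) := by
    intro u v x
    have := DFunLike.congr_fun (hc u v) (dl x)
    rw [this, hm_add_apply, hm_smul_apply, smul_dl]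
  let st : Setoid X :=
    { r := fun x y => ∃ u : U, π u • x = y
      iseqv :=
        { refl := fun x => ⟨1, by rw [map_one, one_smul]⟩
          symm := fun {x y} ⟨u, hu⟩ => ⟨u⁻¹, by rw [← hu, map_inv, inv_smul_smul]⟩
          trans := fun {x y z} ⟨u, hu⟩ ⟨v, hv⟩ => ⟨v * u, by rw [map_mul, mul_smul, hu, hv]⟩ } }
  let rep : X → X := fun x => (Quotient.mk st x).out
  have hrep : ∀ x, ∃ u : U, π u • rep x = x := fun x =>
    @Quotient.exact X st _ _ (@Quotient.out_eq X st (Quotient.mk st x))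
  have hrep2 : ∀ (u : U) (x : X), rep ((π u)⁻¹ • x) = rep x := by
    intro u x
    have : (Quotient.mk st ((π u)⁻¹ • x)) = Quotient.mk st x :=
      Quotient.sound ⟨u, smul_inv_smul _ _⟩
    show (Quotient.mk st ((π u)⁻¹ • x)).out = (Quotient.mk st x).out
    rw [this]
  choose w hw using hrep
  choose β hβ using hloc
  let κ : X → A := fun x => w x • β (rep x) - c (w x) (dl x)
  let κ' : HM π (PM X) A := lf κ
  refine ⟨κ', fun u => ?_⟩
  refine HM.ext π (fun f => pm_hom_ext' (φ := HM.toHom π (c u))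
    (ψ := HM.toHom π (u • κ' - κ')) (fun x => ?_) f)
  show c u (dl x) = u • (lf κ ((π u)⁻¹ • dl x)) - lf κ (dl x)
  rw [smul_dl, lf_dl, lf_dl]
  show c u (dl x) = u • (w ((π u)⁻¹ • x) • β (rep ((π u)⁻¹ • x)) -
    c (w ((π u)⁻¹ • x)) (dl ((π u)⁻¹ • x))) - (w x • β (rep x) - c (w x) (dl x))
  rw [hrep2]
  generalize hy : (π u)⁻¹ • x = y
  have hwy : π (w y) • rep x = y := by rw [← hy, ← hrep2 u x]; exact hw _
  have hwx : π (w x) • rep x = x := hw x
  let s : U := (w x)⁻¹ * (u * w y)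
  have hs : π s • rep x = rep x := by
    show π ((w x)⁻¹ * (u * w y)) • rep x = rep x
    rw [map_mul, map_mul, mul_smul, mul_smul, hwy, ← hy, smul_inv_smul, map_inv, inv_smul_eq_iff,
      hwx]
  have h1 := hβ (rep x) s hs
  have h2 : u * w y = w x * s := by
    show u * w y = w x * ((w x)⁻¹ * (u * w y))
    rw [mul_inv_cancel_left]
  have h3 := hc' u (w y) x
  have h4 := hc' (w x) s x
  rw [← h2, h3, hy] at h4
  have h5 : (π (w x))⁻¹ • x = rep x := by rw [inv_smul_eq_iff, hwx]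
  rw [h5, h1, smul_sub, ← mul_smul, ← h2] at h4
  rw [smul_sub, ← mul_smul]
  have h6 : c u (dl x) = c (w x) (dl x) + ((u * w y) • β (rep x) - w x • β (rep x)) -
      u • c (w y) (dl y) := by rw [← h4]; abel
  rw [h6]
  abel

end shap

end

end Fermat.Agent.CFT
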