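import Mathlib

set_option autoImplicit false
set_option maxHeartbeats 400000

/-! Index (Herbrand type) calculus for homomorphisms of abelian groups. -/

namespace Fermat.Agent.CFT

variable {A B C : Type*} [AddCommGroup A] [AddCommGroup B] [AddCommGroup C]

/-- finite kernel and cokernel -/
structure FinInd (f : A →+ B) : Prop where
  ker : Nat.card f.ker ≠ 0
  coker : f.range.index ≠ 0

/-- the index `|coker| / |ker|` -/
noncomputable def ind (f : A →+ B) : ℚ := (f.range.index : ℚ) / Nat.card f.ker

theorem ind_pos {f : A →+ B} (hf : FinInd f) : 0 < ind f :=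
  div_pos (by exact_mod_cast Nat.pos_of_ne_zero hf.coker)
    (by exact_mod_cast Nat.pos_of_ne_zero hf.ker)

theorem ind_ne_zero {f : A →+ B} (hf : FinInd f) : ind f ≠ 0 := (ind_pos hf).ne'

theorem card_mul_relIndex' {H K : AddSubgroup A} (h : H ≤ K) :
    Nat.card H * H.relIndex K = Nat.card K := by
  rw [← AddSubgroup.relIndex_bot_left, ← AddSubgroup.relIndex_bot_left]
  exact AddSubgroup.relIndex_mul_relIndex _ _ _ bot_le h

theorem card_comap (f : A →+ B) (K : AddSubgroup B) :
    Nat.card (K.comap f) = Nat.card f.ker * Nat.card (f.range ⊓ K : AddSubgroup B) := by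
  rw [← AddSubgroup.map_comap_eq, ← AddSubgroup.relIndex_ker, card_mul_relIndex']
  intro x hx
  rw [AddSubgroup.mem_comap, (AddMonoidHom.mem_ker).mp hx]
  exact K.zero_mem

section comp

variable (f : A →+ B) (g : B →+ C)

theorem card_ker_comp : Nat.card (g.comp f).ker =
    Nat.card f.ker * Nat.card (f.range ⊓ g.ker : AddSubgroup B) := by
  rw [← card_comap, AddMonoidHom.comap_ker]

theorem index_range_comp : (g.comp f).range.index = (f.range ⊔ g.ker).index * g.range.index := by
  rw [← AddSubgroup.index_map, AddMonoidHom.map_range]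

theorem index_range_eq : f.range.index = f.range.relIndex g.ker * (f.range ⊔ g.ker).index := by
  rw [← AddSubgroup.relIndex_mul_index (le_sup_left : f.range ≤ f.range ⊔ g.ker),
    AddSubgroup.relIndex_sup_left]

theorem card_ker_eq : Nat.card g.ker =
    Nat.card (f.range ⊓ g.ker : AddSubgroup B) * f.range.relIndex g.ker := by
  rw [← AddSubgroup.inf_relIndex_right, card_mul_relIndex' inf_le_right]

variable {f g}

theorem FinInd.comp (hf : FinInd f) (hg : FinInd g) : FinInd (g.comp f) := by
  have h1 := hf.ker; have h2 := hf.coker; have h3 := hg.ker; have h4 := hg.coker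
  rw [index_range_eq f g] at h2
  rw [card_ker_eq f g] at h3
  refine ⟨?_, ?_⟩
  · rw [card_ker_comp]; exact mul_ne_zero h1 (left_ne_zero_of_mul h3)
  · rw [index_range_comp]; exact mul_ne_zero (right_ne_zero_of_mul h2) h4

theorem FinInd.of_comp_left (h : FinInd (g.comp f)) (hf : FinInd f) : FinInd g := by
  have h1 := h.ker; have h2 := h.coker; have h4 := hf.coker
  rw [index_range_eq f g] at h4
  rw [card_ker_comp] at h1
  rw [index_range_comp] at h2
  refine ⟨?_, right_ne_zero_of_mul h2⟩
  rw [card_ker_eq f g]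
  exact mul_ne_zero (right_ne_zero_of_mul h1) (left_ne_zero_of_mul h4)

theorem FinInd.of_comp_right (h : FinInd (g.comp f)) (hg : FinInd g) : FinInd f := by
  have h1 := h.ker; have h2 := h.coker; have h3 := hg.ker
  rw [card_ker_eq f g] at h3
  rw [card_ker_comp] at h1
  rw [index_range_comp] at h2
  refine ⟨left_ne_zero_of_mul h1, ?_⟩
  rw [index_range_eq f g]
  exact mul_ne_zero (right_ne_zero_of_mul h3) (left_ne_zero_of_mul h2)

theorem ind_comp (hf : FinInd f) (hg : FinInd g) : ind (g.comp f) = ind g * ind f := by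
  have h1 := hf.ker; have h2 := hf.coker; have h3 := hg.ker; have h4 := hg.coker
  have h5 := index_range_eq f g
  have h6 := card_ker_eq f g
  rw [h5] at h2
  rw [h6] at h3
  unfold ind
  rw [card_ker_comp, index_range_comp, h5, h6]
  have a1 : (Nat.card f.ker : ℚ) ≠ 0 := by exact_mod_cast h1
  have a2 : (f.range.relIndex g.ker : ℚ) ≠ 0 := by exact_mod_cast left_ne_zero_of_mul h2
  have a3 : (Nat.card (f.range ⊓ g.ker : AddSubgroup B) : ℚ) ≠ 0 := by
    exact_mod_cast left_ne_zero_of_mul h3
  push_cast
  field_simp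

end comp

theorem FinInd.of_comps {f : A →+ B} {g : B →+ A} (h1 : FinInd (g.comp f))
    (h2 : FinInd (f.comp g)) : FinInd f := by
  refine ⟨?_, ?_⟩
  · have h := h1.ker
    rw [card_ker_comp] at h
    exact left_ne_zero_of_mul h
  · have h := h2.coker
    rw [index_range_comp] at h
    exact right_ne_zero_of_mul h

theorem finInd_of_finite [Finite A] [Finite B] (f : A →+ B) : FinInd f :=
  ⟨Nat.card_pos.ne', AddSubgroup.index_ne_zero_of_finite⟩

theorem ind_of_finite [Finite A] (f : A →+ A) : ind f = 1 := by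
  have h1 : Nat.card f.range * f.range.index = Nat.card A := AddSubgroup.card_mul_index _
  have h2 : Nat.card f.ker * f.ker.index = Nat.card A := AddSubgroup.card_mul_index _
  have h3 : f.ker.index = Nat.card f.range := AddSubgroup.index_ker f
  have h4 : (Nat.card f.range : ℚ) ≠ 0 := by exact_mod_cast Nat.card_pos.ne'
  have h5 : (Nat.card f.ker : ℚ) ≠ 0 := by exact_mod_cast Nat.card_pos.ne'
  unfold ind
  rw [div_eq_one_iff_eq h5]
  rw [h3] at h2
  have h6 : (Nat.card f.range : ℚ) * f.range.index = Nat.card f.ker * Nat.card f.range := by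
    exact_mod_cast h1.trans h2.symm
  rw [mul_comm (Nat.card f.ker : ℚ)] at h6
  exact mul_left_cancel₀ h4 h6

/-- Snake lemma counting. -/
theorem snake_counts {A' A A'' B' B B'' : Type*} [AddCommGroup A'] [AddCommGroup A]
    [AddCommGroup A''] [AddCommGroup B'] [AddCommGroup B] [AddCommGroup B'']
    (i : A' →+ A) (π : A →+ A'') (i' : B' →+ B) (π' : B →+ B'')
    (f' : A' →+ B') (f : A →+ B) (f'' : A'' →+ B'')
    (hi : Function.Injective i) (hπ : Function.Surjective π) (hex : i.range = π.ker)
    (hi' : Function.Injective i') (hπ' : Function.Surjective π') (hex' : i'.range = π'.ker)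
    (h1 : ∀ x, f (i x) = i' (f' x)) (h2 : ∀ x, f'' (π x) = π' (f x)) :
    ∃ m r : ℕ, Nat.card f.ker = Nat.card f'.ker * m ∧ f.range.index = f''.range.index * r ∧
      r * Nat.card f''.ker = f'.range.index * m ∧ (Nat.card f''.ker ≠ 0 → m ≠ 0) := by
  -- counts
  have e1 : f.range.index = (i'.range ⊔ f.range).index * f.range.relIndex (i'.range) := by
    have e0 : f.range.relIndex (f.range ⊔ i'.range) = f.range.relIndex i'.range :=
      AddSubgroup.relIndex_sup_left _ _
    rw [mul_comm, ← e0, sup_comm i'.range f.range, AddSubgroup.relIndex_mul_index le_sup_left]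
  have hfr : f''.range = f.range.map π' := by
    ext y
    constructor
    · rintro ⟨a, rfl⟩
      obtain ⟨x, rfl⟩ := hπ a
      exact ⟨f x, ⟨x, rfl⟩, (h2 x).symm⟩
    · rintro ⟨_, ⟨x, rfl⟩, rfl⟩
      exact ⟨π x, h2 x⟩
  have e2 : f''.range.index = (i'.range ⊔ f.range).index := by
    rw [hfr, AddSubgroup.index_map, hex', sup_comm,
      (AddMonoidHom.range_eq_top).mpr hπ', AddSubgroup.index_top, mul_one]
  -- `K = f⁻¹(B')`
  set K : AddSubgroup A := i'.range.comap f with hK
  have hK2 : K = f''.ker.comap π := by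
    ext x
    rw [hK, AddSubgroup.mem_comap, AddSubgroup.mem_comap, hex', AddMonoidHom.mem_ker,
      AddMonoidHom.mem_ker, h2]
  -- range f ⊓ i'.range = map f K
  have e3 : f.range.relIndex i'.range * Nat.card (K.map π) =
      f'.range.index * Nat.card (f.ker.map π) := by
    -- `[i'range : f(i A')] = f'.range.index`
    have a1 : ((i.range).map f).relIndex i'.range = f'.range.index := by
      have : (i.range).map f = f'.range.map i' := by
        ext y
        constructor
        · rintro ⟨_, ⟨x, rfl⟩, rfl⟩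
          exact ⟨f' x, ⟨x, rfl⟩, (h1 x).symm⟩
        · rintro ⟨_, ⟨x, rfl⟩, rfl⟩
          exact ⟨i x, ⟨x, rfl⟩, h1 x⟩
      rw [this, show i'.range = (⊤ : AddSubgroup B').map i' from AddMonoidHom.range_eq_map i',
        AddSubgroup.relIndex_map_map_of_injective _ _ hi', AddSubgroup.relIndex_top_right]
    have a2 : ((i.range).map f).relIndex i'.range =
        ((i.range).map f).relIndex (K.map f) * (K.map f).relIndex i'.range := by
      rw [AddSubgroup.relIndex_mul_relIndex]
      · apply AddSubgroup.map_mono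
        rintro _ ⟨x, rfl⟩
        exact ⟨f' x, (h1 x).symm⟩
      · rintro _ ⟨x, hx, rfl⟩
        exact hx
    have a3 : (K.map f).relIndex i'.range = f.range.relIndex i'.range := by
      rw [hK, AddSubgroup.map_comap_eq, AddSubgroup.inf_relIndex_right]
    have a4 : ((i.range).map f).relIndex (K.map f) = (i.range ⊔ f.ker).relIndex K := by
      rw [AddSubgroup.relIndex_map_map]
      congr 1
      rw [sup_eq_left]
      intro x hx
      rw [hK, AddSubgroup.mem_comap, AddMonoidHom.mem_ker.mp hx]
      exact AddSubgroup.zero_mem _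
    have a5 : (i.range ⊔ f.ker).relIndex K * Nat.card (f.ker.map π) = Nat.card (K.map π) := by
      rw [← AddSubgroup.relIndex_ker _ π, ← AddSubgroup.relIndex_ker _ π, ← hex, mul_comm]
      have : i.range.relIndex f.ker = i.range.relIndex (i.range ⊔ f.ker) := by
        rw [AddSubgroup.relIndex_sup_left]
      rw [this, AddSubgroup.relIndex_mul_relIndex]
      · exact le_sup_left
      · refine sup_le ?_ ?_
        · rintro _ ⟨x, rfl⟩
          exact ⟨f' x, (h1 x).symm⟩
        · intro x hx
          rw [hK, AddSubgroup.mem_comap, AddMonoidHom.mem_ker.mp hx]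
          exact AddSubgroup.zero_mem _
    rw [← a1, a2, a3, a4, ← a5]
    ring
  have e4 : K.map π = f''.ker := by
    rw [hK2, AddSubgroup.map_comap_eq, (AddMonoidHom.range_eq_top).mpr hπ, top_inf_eq]
  have e5 : Nat.card f.ker = Nat.card f'.ker * Nat.card (f.ker.map π) := by
    rw [← AddSubgroup.relIndex_ker _ π, ← AddSubgroup.inf_relIndex_right]
    have : f'.ker.map i = π.ker ⊓ f.ker := by
      ext x
      constructor
      · rintro ⟨y, hy, rfl⟩
        refine ⟨?_, ?_⟩
        · rw [SetLike.mem_coe, ← hex]; exact ⟨y, rfl⟩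
        · change f (i y) = 0
          rw [h1, show f' y = 0 from hy, map_zero]
      · rintro ⟨hx1, hx2⟩
        rw [SetLike.mem_coe, ← hex] at hx1
        obtain ⟨y, rfl⟩ := hx1
        refine ⟨y, ?_, rfl⟩
        apply hi'
        rw [← h1, map_zero]
        exact hx2
    rw [← card_mul_relIndex' (inf_le_right : π.ker ⊓ f.ker ≤ f.ker), ← this,
      AddSubgroup.card_map_of_injective hi]
  rw [e4] at e3
  refine ⟨Nat.card (f.ker.map π), f.range.relIndex i'.range, e5, ?_, e3, ?_⟩
  · rw [e1, ← e2]
  · intro b3 h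
    have hle : f.ker.map π ≤ f''.ker := by
      rw [← e4]
      apply AddSubgroup.map_mono
      intro x hx
      rw [hK, AddSubgroup.mem_comap, AddMonoidHom.mem_ker.mp hx]
      exact AddSubgroup.zero_mem _
    have := card_mul_relIndex' hle
    rw [h, zero_mul] at this
    exact b3 this.symm

section exact

variable {A' A A'' B' B B'' : Type*} [AddCommGroup A'] [AddCommGroup A]
    [AddCommGroup A''] [AddCommGroup B'] [AddCommGroup B] [AddCommGroup B'']
    (i : A' →+ A) (π : A →+ A'') (i' : B' →+ B) (π' : B →+ B'')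
    {f' : A' →+ B'} {f : A →+ B} {f'' : A'' →+ B''}
    (hi : Function.Injective i) (hπ : Function.Surjective π) (hex : i.range = π.ker)
    (hi' : Function.Injective i') (hπ' : Function.Surjective π') (hex' : i'.range = π'.ker)
    (h1 : ∀ x, f (i x) = i' (f' x)) (h2 : ∀ x, f'' (π x) = π' (f x))

include hi hπ hex hi' hπ' hex' h1 h2

theorem ind_exact (hf' : FinInd f') (hf'' : FinInd f'') :
    FinInd f ∧ ind f = ind f' * ind f'' := by
  obtain ⟨m, r, e1, e2, e3, e4⟩ := snake_counts i π i' π' f' f f'' hi hπ hex hi' hπ' hex' h1 h2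
  have b1 := hf'.ker; have b2 := hf'.coker; have b3 := hf''.ker; have b4 := hf''.coker
  have c1 := e4 b3
  have c2 : r ≠ 0 := by
    rintro rfl
    rw [zero_mul] at e3
    exact mul_ne_zero b2 c1 e3.symm
  refine ⟨⟨?_, ?_⟩, ?_⟩
  · rw [e1]; exact mul_ne_zero b1 c1
  · rw [e2]; exact mul_ne_zero b4 c2
  · unfold ind
    rw [e1, e2]
    have q1 : (Nat.card f'.ker : ℚ) ≠ 0 := by exact_mod_cast b1
    have q2 : (Nat.card f''.ker : ℚ) ≠ 0 := by exact_mod_cast b3
    have q3 : (m : ℚ) ≠ 0 := by exact_mod_cast c1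
    have e3' : (r : ℚ) * Nat.card f''.ker = f'.range.index * m := by exact_mod_cast e3
    push_cast
    rw [div_mul_div_comm, div_eq_div_iff (mul_ne_zero q1 q3) (mul_ne_zero q1 q2)]
    linear_combination (f''.range.index : ℚ) * (Nat.card f'.ker : ℚ) * e3'

theorem finInd_left (hf : FinInd f) (hf'' : FinInd f'') : FinInd f' := by
  obtain ⟨m, r, e1, e2, e3, e4⟩ := snake_counts i π i' π' f' f f'' hi hπ hex hi' hπ' hex' h1 h2
  have b1 := hf.ker; have b2 := hf.coker; have b3 := hf''.ker; have b4 := hf''.coker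
  rw [e1] at b1
  rw [e2] at b2
  refine ⟨left_ne_zero_of_mul b1, ?_⟩
  have : f'.range.index * m ≠ 0 := e3 ▸ mul_ne_zero (right_ne_zero_of_mul b2) b3
  exact left_ne_zero_of_mul this

theorem finInd_right (hf : FinInd f) (hf' : FinInd f') : FinInd f'' := by
  obtain ⟨m, r, e1, e2, e3, e4⟩ := snake_counts i π i' π' f' f f'' hi hπ hex hi' hπ' hex' h1 h2
  have b1 := hf.ker; have b2 := hf.coker; have b3 := hf'.ker; have b4 := hf'.coker
  rw [e1] at b1
  rw [e2] at b2
  refine ⟨?_, left_ne_zero_of_mul b2⟩
  have : r * Nat.card f''.ker ≠ 0 := e3 ▸ mul_ne_zero b4 (right_ne_zero_of_mul b1)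
  exact right_ne_zero_of_mul this

end exact

theorem FinInd.of_addEquiv (e : A ≃+ B) (f : A →+ A) (g : B →+ B) (h : ∀ x, g (e x) = e (f x))
    (hf : FinInd f) : FinInd g ∧ ind g = ind f := by
  have h1 : g.comp (e : A →+ B) = (e : A →+ B).comp f := by
    ext x; exact h x
  have he : FinInd (e : A →+ B) := by
    refine ⟨?_, ?_⟩
    · rw [(AddMonoidHom.ker_eq_bot_iff _).mpr e.injective]; simp
    · rw [AddMonoidHom.range_eq_top.mpr e.surjective]; simp
  have h2 : FinInd (g.comp (e : A →+ B)) := h1 ▸ hf.comp he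
  have hg := h2.of_comp_left he
  refine ⟨hg, ?_⟩
  have h3 := ind_comp he hg
  rw [h1, ind_comp hf he, mul_comm (ind g)] at h3
  exact (mul_left_cancel₀ (ind_ne_zero he) h3).symm

end Fermat.Agent.CFT
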