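import Fermat.Agent.CFT.CohDefs

set_option autoImplicit false
set_option maxHeartbeats 400000

/-! Inflation-restriction in degree two. -/

namespace Fermat.Agent.CFT

variable {G : Type*} [Group G] {A : Type*} [AddCommGroup A] [DistribMulAction G A]

theorem Z2.one_left {x : G → G → A} (hx : x ∈ Z2 G A) (g : G) : x 1 g = x 1 1 := by
  have h := hx 1 1 g
  simp only [one_mul, one_smul] at h
  exact (add_right_cancel h).symm

theorem Z2.one_right {x : G → G → A} (hx : x ∈ Z2 G A) (g : G) : x g 1 = g • x 1 1 := by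
  have h := hx g 1 1
  simp only [mul_one] at h
  exact add_right_cancel h

theorem Z1.one {c : G → A} (hc : c ∈ Z1 G A) : c 1 = 0 := by
  have h := hc 1 1
  simp only [one_mul, one_smul] at h
  exact (add_eq_left.mp h.symm)

variable (H : Subgroup G) [hH : H.Normal]

section

open Classical in
/-- representative of the coset -/
noncomputable def rep (g : G) : G := if g ∈ H then 1 else (QuotientGroup.mk g : G ⧸ H).out

omit hH in
theorem rep_of_mem {g : G} (hg : g ∈ H) : rep H g = 1 := by
  classical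
  rw [rep, if_pos hg]

theorem rep_mul_left (k : H) (g : G) : rep H ((k : G) * g) = rep H g := by
  classical
  have h1 : ((k : G) * g ∈ H) ↔ g ∈ H := Subgroup.mul_mem_cancel_left H k.2
  have h2 : (QuotientGroup.mk ((k : G) * g) : G ⧸ H) = QuotientGroup.mk g := by
    rw [QuotientGroup.eq]
    have := hH.conj_mem (k : G)⁻¹ (H.inv_mem k.2) g⁻¹
    have h3 : ((k : G) * g)⁻¹ * g = g⁻¹ * (k : G)⁻¹ * (g⁻¹)⁻¹ := by group
    rw [h3]; exact this
  simp only [rep, h1, h2]

theorem mul_rep_inv_mem (g : G) : g * (rep H g)⁻¹ ∈ H := by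
  classical
  by_cases hg : g ∈ H
  · rw [rep_of_mem H hg]; simpa using hg
  · rw [rep, if_neg hg]
    have h1 : (QuotientGroup.mk ((QuotientGroup.mk g : G ⧸ H).out) : G ⧸ H) = QuotientGroup.mk g :=
      Quotient.out_eq _
    rw [QuotientGroup.eq] at h1
    set r := (QuotientGroup.mk g : G ⧸ H).out
    have h2 : g * r⁻¹ = g * (r⁻¹ * g) * g⁻¹ := by group
    rw [h2]; exact hH.conj_mem _ h1 g

end

/-- a 2-cochain is of level `H`: it only depends on classes mod `H`, with values fixed by `H` -/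
def IsLevel2 (x : G → G → A) : Prop :=
  (∀ g h, ∀ k ∈ H, x (g * k) h = x g h) ∧ (∀ g h, ∀ k ∈ H, x g (h * k) = x g h) ∧
    ∀ g h, x g h ∈ fix A H

/-- **Inflation-restriction** in degree 2. -/
theorem infres2 (h1 : Z1 H A ≤ B1 H A) {x : G → G → A} (hx : x ∈ Z2 G A)
    (hres : res2 H x ∈ B2 H A) :
    ∃ x' : G → G → A, x' ∈ Z2 G A ∧ x - x' ∈ B2 G A ∧ IsLevel2 H x' := by
  classical
  -- make `x` vanish on `H × H`
  obtain ⟨b0, hb0⟩ := hres
  let b0' : G → A := fun g => if hg : g ∈ H then b0 ⟨g, hg⟩ else 0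
  have hb0' : ∀ k : H, b0' k = b0 k := fun k => by simp [b0', k.2]
  obtain ⟨y, hy, hyx, hy0⟩ : ∃ y : G → G → A, y ∈ Z2 G A ∧ x - y ∈ B2 G A ∧
      ∀ k k' : H, y k k' = 0 := by
    refine ⟨x - dd b0', (Z2 G A).sub_mem hx (B2_le_Z2 (dd_mem_B2 _)), ?_, fun k k' => ?_⟩
    · simpa using dd_mem_B2 b0'
    · have h2 := hb0 k k'
      have h3 : b0' ((k : G) * k') = b0 (k * k') := hb0' (k * k')
      simp only [Pi.sub_apply, dd, hb0', h3]
      have h4 : x (k : G) (k' : G) = b0 k + k • b0 k' - b0 (k * k') := h2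
      rw [h4]
      exact sub_self _
  -- the cocycles f_s
  have hf : ∀ s : G, ∃ a : A, ∀ k : G, k ∈ H → y s (s⁻¹ * k * s) - y k s = k • a - a := by
    intro s
    have hcz : (fun k : H => y s (s⁻¹ * (k : G) * s) - y k s) ∈ Z1 H A := by
      intro k k'
      have hm : s⁻¹ * (k : G) * s ∈ H := by
        simpa using hH.conj_mem (k : G) k.2 s⁻¹
      have hm' : s⁻¹ * (k' : G) * s ∈ H := by
        simpa using hH.conj_mem (k' : G) k'.2 s⁻¹
      have e1 := hy s (s⁻¹ * (k : G) * s) (s⁻¹ * (k' : G) * s)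
      have e2 := hy (k : G) s (s⁻¹ * (k' : G) * s)
      have e3 := hy (k : G) (k' : G) s
      have z1 : y (s⁻¹ * (k : G) * s) (s⁻¹ * (k' : G) * s) = 0 := hy0 ⟨_, hm⟩ ⟨_, hm'⟩
      have z2 : y (k : G) (k' : G) = 0 := hy0 k k'
      have r1 : s * (s⁻¹ * (k : G) * s) = k * s := by group
      have r2 : s⁻¹ * (k : G) * s * (s⁻¹ * (k' : G) * s) = s⁻¹ * (k * k' : G) * s := by group
      have r3 : s * (s⁻¹ * (k' : G) * s) = k' * s := by group
      rw [z1, r1, r2, smul_zero, zero_add] at e1
      rw [r3] at e2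
      rw [z2, zero_add] at e3
      show y s (s⁻¹ * ((k * k' : H) : G) * s) - y ((k * k' : H) : G) s = _
      rw [Subgroup.coe_mul, ← e1, e3]
      show _ = (y s (s⁻¹ * (k : G) * s) - y k s) + (k : G) • (y s (s⁻¹ * (k' : G) * s) - y k' s)
      have e4 : y ((k : G) * s) (s⁻¹ * (k' : G) * s) =
          (k : G) • y s (s⁻¹ * (k' : G) * s) + y (k : G) ((k' : G) * s) - y k s := by
        rw [← e2]; abel
      rw [e4, smul_sub]; abel
    obtain ⟨a, ha⟩ := h1 hcz
    exact ⟨a, fun k hk => ha ⟨k, hk⟩⟩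
  choose a0 ha0 using hf
  let a : G → A := fun s => if s = 1 then 0 else a0 s
  have hy11 : y 1 1 = 0 := hy0 1 1
  have hyk1 : ∀ g : G, y g 1 = 0 := fun g => by rw [Z2.one_right hy, hy11, smul_zero]
  have hy1k : ∀ g : G, y 1 g = 0 := fun g => by rw [Z2.one_left hy, hy11]
  have ha : ∀ s k : G, k ∈ H → y s (s⁻¹ * k * s) - y k s = k • a s - a s := by
    intro s k hk
    by_cases hs : s = 1
    · subst hs
      simp only [a, if_true, smul_zero, hyk1, hy1k, sub_self]
    · simp only [a, if_neg hs]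
      exact ha0 s k hk
  have ha1 : a 1 = 0 := by simp [a]
  let hh : G → G := fun g => g * (rep H g)⁻¹
  have hhm : ∀ g, hh g ∈ H := mul_rep_inv_mem H
  have hdec : ∀ g, hh g * rep H g = g := fun g => by simp [hh]
  let b : G → A := fun g => hh g • a (rep H g) + y (hh g) (rep H g)
  have hbH : ∀ k : G, k ∈ H → b k = 0 := by
    intro k hk
    simp only [b, rep_of_mem H hk, ha1, smul_zero, hyk1, add_zero]
  have hbmul : ∀ k g : G, k ∈ H → b (k * g) = k • b g + y k g := by
    intro k g hk
    have h2 : rep H (k * g) = rep H g := rep_mul_left H ⟨k, hk⟩ g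
    have h3 : hh (k * g) = k * hh g := by simp only [hh, h2, mul_assoc]
    simp only [b, h2, h3]
    have e := hy k (hh g) (rep H g)
    have z : y k (hh g) = 0 := hy0 ⟨k, hk⟩ ⟨hh g, hhm g⟩
    rw [z, zero_add, hdec] at e
    rw [e, smul_add, mul_smul]; abel
  let x' : G → G → A := y + dd b
  have hx' : x' ∈ Z2 G A := (Z2 G A).add_mem hy (B2_le_Z2 (dd_mem_B2 b))
  have hxx' : x - x' ∈ B2 G A := by
    have : x - x' = (x - y) - dd b := by simp only [x']; abel
    rw [this]
    exact (B2 G A).sub_mem hyx (dd_mem_B2 b)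
  have hx'ap : ∀ g g', x' g g' = y g g' + (b g + g • b g' - b (g * g')) := fun _ _ => rfl
  -- left vanishing
  have hl : ∀ k g : G, k ∈ H → x' k g = 0 := by
    intro k g hk
    rw [hx'ap, hbmul k g hk, hbH k hk]; abel
  -- right vanishing for all `g`
  have hr : ∀ k g : G, k ∈ H → x' g k = 0 := by
    intro k g hk
    have hsk : ∀ s : G, rep H s = s → x' s k = 0 := by
      intro s hs
      have hbs : b s = a s := by
        have : hh s = 1 := by simp only [hh, hs]; group
        simp only [b, this, hs, one_smul, hy1k, add_zero]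
      have hc : s * k * s⁻¹ ∈ H := hH.conj_mem k hk s
      have h3 : b (s * k) = (s * k * s⁻¹) • b s + y (s * k * s⁻¹) s := by
        have := hbmul (s * k * s⁻¹) s hc
        rwa [show s * k * s⁻¹ * s = s * k by group] at this
      have h4 := ha s (s * k * s⁻¹) hc
      rw [show s⁻¹ * (s * k * s⁻¹) * s = k by group] at h4
      rw [hx'ap, hbH k hk, smul_zero, h3, hbs]
      have h5 : y s k = y (s * k * s⁻¹) s + ((s * k * s⁻¹) • a s - a s) := by
        rw [← h4]; abel
      rw [h5]; abel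
    have hrr : rep H (rep H g) = rep H g := by
      have h6 : (hh g) * rep H g = g := hdec g
      have h7 := rep_mul_left H (⟨hh g, hhm g⟩ : H) (rep H g)
      rw [h6] at h7
      exact h7.symm
    have h8 := hx' (hh g) (rep H g) k
    rw [hsk _ hrr, smul_zero, hdec, hl _ _ (hhm g), hl _ _ (hhm g)] at h8
    simpa using h8
  refine ⟨x', hx', hxx', ?_, ?_, ?_⟩
  · -- x' (g*k) h = x' g h
    have hmove : ∀ g k h : G, k ∈ H → x' (g * k) h = x' g (k * h) := by
      intro g k h hk
      have := hx' g k h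
      rw [hr _ _ hk, hl _ _ hk, smul_zero, zero_add, zero_add] at this
      exact this
    have hright : ∀ g h k : G, k ∈ H → x' g (h * k) = x' g h := by
      intro g h k hk
      have := hx' g h k
      rw [hr _ _ hk, hr _ _ hk, smul_zero, add_zero, zero_add] at this
      exact this.symm
    intro g h k hk
    rw [hmove g k h hk]
    have : k * h = h * (h⁻¹ * k * h) := by group
    rw [this]
    exact hright _ _ _ (by simpa using hH.conj_mem k hk h⁻¹)
  · intro g h k hk
    have := hx' g h k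
    rw [hr _ _ hk, hr _ _ hk, smul_zero, add_zero, zero_add] at this
    exact this.symm
  · intro g h k hk
    have hmove : ∀ g k h : G, k ∈ H → x' (g * k) h = x' g (k * h) := by
      intro g k h hk
      have := hx' g k h
      rw [hr _ _ hk, hl _ _ hk, smul_zero, zero_add, zero_add] at this
      exact this
    have hright : ∀ g h k : G, k ∈ H → x' g (h * k) = x' g h := by
      intro g h k hk
      have := hx' g h k
      rw [hr _ _ hk, hr _ _ hk, smul_zero, add_zero, zero_add] at this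
      exact this.symm
    have e := hx' k g h
    rw [hl _ _ hk, hl _ _ hk, zero_add, add_zero] at e
    rw [← e]
    have r1 : k * g = g * (g⁻¹ * k * g) := by group
    rw [r1, hmove _ _ _ (by simpa using hH.conj_mem k hk g⁻¹)]
    have r2 : g⁻¹ * k * g * h = h * (h⁻¹ * (g⁻¹ * k * g) * h) := by group
    rw [r2]
    apply hright
    have := hH.conj_mem _ (hH.conj_mem k hk g⁻¹) h⁻¹
    simpa using this

/-- Inflation is injective in degree 2. -/
theorem inf_inj2 (h1 : Z1 H A ≤ B1 H A) {x : G → G → A} (hlev : IsLevel2 H x)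
    (hb : x ∈ B2 G A) :
    ∃ b : G → A, (∀ g h, x g h = b g + g • b h - b (g * h)) ∧
      (∀ g, ∀ k ∈ H, b (g * k) = b g) ∧ ∀ g, b g ∈ fix A H := by
  have hx := B2_le_Z2 hb
  obtain ⟨b, hb⟩ := hb
  have hb1 : b 1 = x 1 1 := by
    have := hb 1 1
    simp only [one_mul, one_smul] at this
    rw [this]; abel
  have hfix : x 1 1 ∈ fix A H := hlev.2.2 1 1
  have hHH : ∀ k k' : G, k ∈ H → k' ∈ H → x k k' = x 1 1 := by
    intro k k' hk hk'
    have h2 := hlev.1 1 k' k hk
    have h3 := hlev.2.1 1 1 k' hk'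
    rw [one_mul] at h2 h3
    rw [h2, h3]
  have hcz : (fun k : H => b k - x 1 1) ∈ Z1 H A := by
    intro k k'
    have h2 := hb k k'
    rw [hHH _ _ k.2 k'.2] at h2
    show b ((k : G) * k') - x 1 1 = b k - x 1 1 + (k : G) • (b k' - x 1 1)
    rw [smul_sub, hfix _ k.2]
    have h3 : b ((k : G) * k') = b k + (k : G) • b k' - x 1 1 := by
      rw [h2]; abel
    rw [h3]; abel
  obtain ⟨a, ha⟩ := h1 hcz
  have ha' : ∀ k ∈ H, b k = x 1 1 + (k • a - a) := by
    intro k hk
    have := ha ⟨k, hk⟩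
    have h2 : b k - x 1 1 = k • a - a := this
    rw [← h2]; abel
  let b' : G → A := fun g => b g - (g • a - a)
  have hb' : ∀ g h, x g h = b' g + g • b' h - b' (g * h) := by
    intro g h
    rw [hb]; simp only [b', smul_sub, mul_smul]; abel
  have hb'H : ∀ k ∈ H, b' k = x 1 1 := by
    intro k hk
    simp only [b', ha' k hk]; abel
  have hlev1 : ∀ g, ∀ k ∈ H, b' (g * k) = b' g := by
    intro g k hk
    have h2 := hb' g k
    have h3 := hlev.2.1 g 1 k hk
    rw [one_mul] at h3
    rw [h3, Z2.one_right hx, hb'H k hk] at h2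
    have h4 : b' (g * k) = b' g + g • x 1 1 - (g • x 1 1) := by
      nth_rewrite 2 [h2]; abel
    rw [h4]; abel
  refine ⟨b', hb', hlev1, ?_⟩
  intro g k hk
  have h2 := hb' k g
  have h3 := hlev.1 1 g k hk
  rw [one_mul] at h3
  rw [h3, Z2.one_left hx, hb'H k hk] at h2
  have h4 : b' (k * g) = k • b' g := by
    have : x 1 1 + b' (k * g) = x 1 1 + k • b' g := by
      nth_rewrite 1 [h2]; abel
    exact add_left_cancel this
  rw [← h4]
  have r : k * g = g * (g⁻¹ * k * g) := by group
  rw [r]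
  exact hlev1 _ _ (by simpa using hH.conj_mem k hk g⁻¹)

end Fermat.Agent.CFT
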