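import Fermat.Agent.CFT.InfRes

set_option autoImplicit false
set_option maxHeartbeats 400000

/-! Vanishing of `H¹` and bound of `H²` for `p`-groups from layers of order `p`. -/

namespace Fermat.Agent.CFT

open Finset

/-- relative index finite and at most `n` -/
def RelFin {A : Type*} [AddCommGroup A] (H K : AddSubgroup A) (n : ℕ) : Prop :=
  H.relIndex K ≠ 0 ∧ H.relIndex K ≤ n

namespace RelFin

variable {A B : Type*} [AddCommGroup A] [AddCommGroup B] {H H' K K' : AddSubgroup A} {n m : ℕ}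

theorem mono_left (h : RelFin H K n) (hH : H ≤ H') : RelFin H' K n :=
  ⟨fun h0 => h.1 (AddSubgroup.relIndex_eq_zero_of_le_left hH h0),
    (AddSubgroup.relIndex_le_of_le_left hH h.1).trans h.2⟩

theorem mono_left' (h : RelFin H K n) (hH : H ⊓ K ≤ H') : RelFin H' K n := by
  have h2 : RelFin (H ⊓ K) K n := by
    unfold RelFin; rwa [AddSubgroup.inf_relIndex_right]
  exact h2.mono_left hH

theorem mono_right (h : RelFin H K n) (hK : K' ≤ K) : RelFin H K' n :=
  ⟨fun h0 => h.1 (AddSubgroup.relIndex_eq_zero_of_le_right hK h0),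
    (AddSubgroup.relIndex_le_of_le_right hK h.1).trans h.2⟩

theorem comap {f : B →+ A} {L : AddSubgroup B} (h : RelFin H K n) (hL : L.map f ≤ K) :
    RelFin (H.comap f) L n := by
  have h2 := h.mono_right hL
  unfold RelFin at h2 ⊢
  rwa [AddSubgroup.relIndex_comap]

theorem trans (h : RelFin H K n) (h' : RelFin K K' m) (hHK : H ≤ K) (hKK : K ≤ K') :
    RelFin H K' (n * m) := by
  unfold RelFin
  rw [← AddSubgroup.relIndex_mul_relIndex _ _ _ hHK hKK]
  exact ⟨mul_ne_zero h.1 h'.1, Nat.mul_le_mul h.2 h'.2⟩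

theorem sup (h : RelFin H K n) : RelFin H (K ⊔ H) n := by
  unfold RelFin
  rwa [AddSubgroup.relIndex_sup_right]

theorem mono_n (h : RelFin H K n) (hn : n ≤ m) : RelFin H K m := ⟨h.1, h.2.trans hn⟩

end RelFin

section cyc

variable {G : Type*} [Group G] {A : Type*} [AddCommGroup A] [DistribMulAction G A]

theorem Z1.pow {c : G → A} (hc : c ∈ Z1 G A) (s : G) (i : ℕ) :
    c (s ^ i) = ∑ j ∈ range i, s ^ j • c s := by
  induction i with
  | zero => simp [Z1.one hc]
  | succ i ih => rw [pow_succ, hc, ih, sum_range_succ]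

/-- `H¹` for a layer -/
theorem cyc1 {p : ℕ} (H : Subgroup G) [hH : H.Normal] (s : G) (hsp : s ^ p ∈ H)
    (hgen : ∀ g : G, ∃ i : ℕ, ∃ k ∈ H, g = s ^ i * k)
    (hH1 : Z1 H A ≤ B1 H A)
    (hs : ∀ a ∈ fix A H, ∑ i ∈ range p, s ^ i • a = 0 → ∃ b ∈ fix A H, a = s • b - b) :
    Z1 G A ≤ B1 G A := by
  intro c hc
  have hcH : (fun k : H => c k) ∈ Z1 H A := fun k k' => hc k k'
  obtain ⟨a, ha⟩ := hH1 hcH
  let c' : G → A := fun g => c g - (g • a - a)
  have hc' : c' ∈ Z1 G A := (Z1 G A).sub_mem hc (B1_le_Z1 ⟨a, fun _ => rfl⟩)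
  have hc'0 : ∀ k ∈ H, c' k = 0 := by
    intro k hk
    have := ha ⟨k, hk⟩
    simp only [c']
    rw [show c k = k • a - a from this, sub_self]
  have hc'r : ∀ g, ∀ k ∈ H, c' (g * k) = c' g := by
    intro g k hk
    rw [hc', hc'0 k hk, smul_zero, add_zero]
  have hfix : ∀ g, c' g ∈ fix A H := by
    intro g k hk
    have h1 : c' (k * g) = k • c' g := by rw [hc', hc'0 k hk, zero_add]
    rw [← h1, show k * g = g * (g⁻¹ * k * g) by group]
    exact hc'r _ _ (by simpa using hH.conj_mem k hk g⁻¹)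
  have hN : ∑ i ∈ range p, s ^ i • c' s = 0 := by
    rw [← Z1.pow hc', hc'0 _ hsp]
  obtain ⟨b, hb, hb2⟩ := hs _ (hfix s) hN
  have hsb : ∀ i : ℕ, c' (s ^ i) = s ^ i • b - b := by
    intro i
    rw [Z1.pow hc', hb2]
    simp only [smul_sub, smul_smul, ← pow_succ]
    rw [sum_range_sub (fun i => s ^ i • b)]
    simp
  refine ⟨a + b, fun g => ?_⟩
  obtain ⟨i, k, hk, rfl⟩ := hgen g
  have h2 := hc'r (s ^ i) k hk
  rw [hsb] at h2
  have h3 : (s ^ i * k) • b = s ^ i • b := by rw [mul_smul, hb k hk]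
  have h4 : c (s ^ i * k) = c' (s ^ i * k) + ((s ^ i * k) • a - a) := by simp [c']
  rw [h4, h2, smul_add, h3]; abel

/-- `H²` for a layer -/
theorem cyc2 {p : ℕ} (hp : 0 < p) (H : Subgroup G) [hH : H.Normal] (s : G) (hsp : s ^ p ∈ H)
    (hgen : ∀ g : G, ∃ i : ℕ, ∃ k ∈ H, g = s ^ i * k)
    (hord : ∀ i : ℕ, s ^ i ∈ H → p ∣ i)
    {x : G → G → A} (hx : x ∈ Z2 G A) (hlev : IsLevel2 H x)
    (hN : ∃ b ∈ fix A H, ∑ i ∈ range p, x (s ^ i) s = ∑ i ∈ range p, s ^ i • b) :
    x ∈ B2 G A := by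
  obtain ⟨b, hb, hbN⟩ := hN
  let β : ℕ → A := fun i => ∑ j ∈ range i, (x (s ^ j) s - s ^ j • b)
  have hβ0 : β 0 = 0 := by simp [β]
  have hβs : ∀ i, β (i + 1) = β i + (x (s ^ i) s - s ^ i • b) := fun i => by
    simp only [β, sum_range_succ]
  have hβp : β p = 0 := by
    simp only [β, sum_sub_distrib, hbN, sub_self]
  have hper : ∀ i, β (i + p) = β i := by
    intro i
    induction i with
    | zero => rw [zero_add, hβp, hβ0]
    | succ i ih =>
      rw [show i + 1 + p = (i + p) + 1 by ring, hβs, hβs, ih]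
      rw [pow_add, hlev.1 _ _ _ hsp, mul_smul, hb _ hsp]
  have hperm : ∀ i m, β (i + p * m) = β i := by
    intro i m
    induction m with
    | zero => simp
    | succ m ih => rw [Nat.mul_succ, ← add_assoc, hper, ih]
  have hwd : ∀ i j : ℕ, ∀ k ∈ H, ∀ k' ∈ H, s ^ i * k = s ^ j * k' → β i = β j := by
    have key : ∀ i j : ℕ, i ≤ j → ∀ k ∈ H, ∀ k' ∈ H, s ^ i * k = s ^ j * k' → β i = β j := by
      intro i j hij k hk k' hk' h
      obtain ⟨d, rfl⟩ := Nat.exists_eq_add_of_le hij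
      have h2 : s ^ d ∈ H := by
        have : s ^ d = k * k'⁻¹ := by
          rw [pow_add, mul_assoc] at h
          have := mul_left_cancel h
          rw [this]; group
        rw [this]; exact H.mul_mem hk (H.inv_mem hk')
      obtain ⟨m, rfl⟩ := hord d h2
      rw [hperm]
    intro i j k hk k' hk' h
    rcases le_total i j with hij | hij
    · exact key i j hij k hk k' hk' h
    · exact (key j i hij k' hk' k hk h.symm).symm
  choose e k hk hek using hgen
  have hform : ∀ i j : ℕ, x (s ^ i) (s ^ j) =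
      (x 1 1 - β i) + s ^ i • (x 1 1 - β j) - (x 1 1 - β (i + j)) := by
    intro i j
    induction j with
    | zero =>
      rw [pow_zero, Z2.one_right hx, hβ0, add_zero]; abel_nf
    | succ j ih =>
      have h1 := hx (s ^ i) (s ^ j) s
      rw [← pow_succ, ← pow_add] at h1
      have h2 : x (s ^ i) (s ^ (j + 1)) =
          x (s ^ i) (s ^ j) + x (s ^ (i + j)) s - s ^ i • x (s ^ j) s := by
        rw [h1]; abel
      rw [h2, ih, ← add_assoc, hβs, hβs]
      simp only [smul_sub, smul_add, smul_smul, pow_add]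
      abel
  refine ⟨fun g => x 1 1 - β (e g), fun g h => ?_⟩
  have h1 : x g h = x (s ^ e g) (s ^ e h) := by
    conv_lhs => rw [hek g, hek h]
    rw [hlev.1 _ _ _ (hk g), hlev.2.1 _ _ _ (hk h)]
  have hfixx : x 1 1 ∈ fix A H := hlev.2.2 1 1
  have hβfix : ∀ i, β i ∈ fix A H := by
    intro i
    refine (fix A H).sum_mem fun j _ => (fix A H).sub_mem (hlev.2.2 _ _) (smul_mem_fix _ hb)
  have h2 : g • (x 1 1 - β (e h)) = s ^ e g • (x 1 1 - β (e h)) := by
    conv_lhs => rw [hek g, mul_smul]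
    rw [(fix A H).sub_mem hfixx (hβfix _) _ (hk g)]
  have h3 : β (e (g * h)) = β (e g + e h) := by
    apply hwd _ _ (k (g * h)) (hk _) ((s ^ e h)⁻¹ * k g * s ^ e h * k h)
    · exact H.mul_mem (by simpa using hH.conj_mem _ (hk g) (s ^ e h)⁻¹) (hk h)
    · rw [← hek, pow_add]
      conv_lhs => rw [hek g, hek h]
      group
  simp only []
  rw [h1, hform, h2, h3]

/-- the invariant of a cocycle for a layer -/
def theta (p : ℕ) (s : G) : (G → G → A) →+ A where
  toFun x := ∑ i ∈ range p, x (s ^ i) s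
  map_zero' := by simp
  map_add' := by intro x y; simp [sum_add_distrib]

omit [DistribMulAction G A] in
theorem theta_apply (p : ℕ) (s : G) (x : G → G → A) :
    theta p s x = ∑ i ∈ range p, x (s ^ i) s := rfl

theorem theta_fixed {p : ℕ} (H : Subgroup G) [hH : H.Normal] (s : G) (hsp : s ^ p ∈ H)
    (hgen : ∀ g : G, ∃ i : ℕ, ∃ k ∈ H, g = s ^ i * k)
    {x : G → G → A} (hx : x ∈ Z2 G A) (hlev : IsLevel2 H x) :
    theta p s x ∈ fix A (⊤ : Subgroup G) := by
  have hsx : s • theta p s x = theta p s x := by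
    have h1 : ∀ i : ℕ, s • x (s ^ i) s = x s (s ^ i) + x (s ^ (i + 1)) s - x s (s ^ (i + 1)) := by
      intro i
      have := hx s (s ^ i) s
      rw [← pow_succ', ← pow_succ] at this
      rw [this]; abel
    rw [theta_apply, smul_sum, sum_congr rfl fun i _ => h1 i]
    rw [show (∑ i ∈ range p, (x s (s ^ i) + x (s ^ (i + 1)) s - x s (s ^ (i + 1)))) =
      ∑ i ∈ range p, (x (s ^ (i + 1)) s - x (s ^ i) s) -
        ∑ i ∈ range p, (x s (s ^ (i + 1)) - x s (s ^ i)) + ∑ i ∈ range p, x (s ^ i) s by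
      rw [← sum_sub_distrib, ← sum_add_distrib]
      exact sum_congr rfl fun i _ => by abel]
    rw [sum_range_sub (fun i => x (s ^ i) s), sum_range_sub (fun i => x s (s ^ i))]
    have h2 : x (s ^ p) s = x (s ^ 0) s := by
      have := hlev.1 1 s _ hsp
      rw [one_mul] at this
      rw [this, pow_zero]
    have h3 : x s (s ^ p) = x s (s ^ 0) := by
      have := hlev.2.1 s 1 _ hsp
      rw [one_mul] at this
      rw [this, pow_zero]
    rw [h2, h3]; abel
  have hfixH : theta p s x ∈ fix A H := by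
    rw [theta_apply]
    exact (fix A H).sum_mem fun i _ => hlev.2.2 _ _
  rintro g -
  obtain ⟨i, k, hk, rfl⟩ := hgen g
  rw [mul_smul, hfixH k hk]
  clear hk
  induction i with
  | zero => simp
  | succ i ih => rw [pow_succ, mul_smul, hsx, ih]

/-- the group of norms for a layer -/
def nrmGrp (p : ℕ) (s : G) (H : Subgroup G) : AddSubgroup A where
  carrier := {a | ∃ b ∈ fix A H, a = ∑ i ∈ range p, s ^ i • b}
  zero_mem' := ⟨0, (fix A H).zero_mem, by simp⟩
  add_mem' := by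
    rintro a b ⟨x, hx, rfl⟩ ⟨y, hy, rfl⟩
    exact ⟨x + y, (fix A H).add_mem hx hy, by simp [sum_add_distrib]⟩
  neg_mem' := by
    rintro a ⟨x, hx, rfl⟩
    exact ⟨-x, (fix A H).neg_mem hx, by simp⟩

theorem mem_nrmGrp {p : ℕ} {s : G} {H : Subgroup G} {a : A} :
    a ∈ (nrmGrp p s H : AddSubgroup A) ↔ ∃ b ∈ fix A H, a = ∑ i ∈ range p, s ^ i • b := Iff.rfl

variable (A) in
/-- restriction as a homomorphism -/
def resHom (H : Subgroup G) : (G → G → A) →+ (H → H → A) where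
  toFun x := res2 H x
  map_zero' := rfl
  map_add' _ _ := rfl

theorem h2_bound_step {p n : ℕ} (hp : 0 < p) (H : Subgroup G) [hH : H.Normal] (s : G)
    (hsp : s ^ p ∈ H) (hgen : ∀ g : G, ∃ i : ℕ, ∃ k ∈ H, g = s ^ i * k)
    (hord : ∀ i : ℕ, s ^ i ∈ H → p ∣ i)
    (hH1 : Z1 H A ≤ B1 H A) (hH2 : RelFin (B2 H A) (Z2 H A) n)
    (hN : RelFin (nrmGrp p s H) (fix A (⊤ : Subgroup G)) p) :
    RelFin (B2 G A) (Z2 G A) (p * n) := by
  let K : AddSubgroup (G → G → A) := (B2 H A).comap (resHom A H) ⊓ Z2 G A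
  let K' : AddSubgroup (G → G → A) :=
    { carrier := {x | x ∈ Z2 G A ∧ IsLevel2 H x}
      zero_mem' := ⟨(Z2 G A).zero_mem, fun _ _ _ _ => rfl, fun _ _ _ _ => rfl,
        fun _ _ => (fix A H).zero_mem⟩
      add_mem' := by
        rintro x y ⟨hx, hx1, hx2, hx3⟩ ⟨hy, hy1, hy2, hy3⟩
        refine ⟨(Z2 G A).add_mem hx hy, fun g h k hk => ?_, fun g h k hk => ?_, fun g h => ?_⟩
        · simp only [Pi.add_apply, hx1 g h k hk, hy1 g h k hk]
        · simp only [Pi.add_apply, hx2 g h k hk, hy2 g h k hk]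
        · exact (fix A H).add_mem (hx3 g h) (hy3 g h)
      neg_mem' := by
        rintro x ⟨hx, hx1, hx2, hx3⟩
        refine ⟨(Z2 G A).neg_mem hx, fun g h k hk => ?_, fun g h k hk => ?_, fun g h => ?_⟩
        · simp only [Pi.neg_apply, hx1 g h k hk]
        · simp only [Pi.neg_apply, hx2 g h k hk]
        · exact (fix A H).neg_mem (hx3 g h) }
  have hK'B : RelFin (B2 G A) K' p := by
    have h1 : RelFin ((nrmGrp p s H : AddSubgroup A).comap (theta p s)) K' p := by
      refine hN.comap ?_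
      rintro _ ⟨x, ⟨hx, hl⟩, rfl⟩
      exact theta_fixed H s hsp hgen hx hl
    refine h1.mono_left' ?_
    rintro x ⟨hx1, hx, hl⟩
    obtain ⟨b, hb, hb2⟩ := hx1
    exact cyc2 hp H s hsp hgen hord hx hl ⟨b, hb, hb2⟩
  have hBK : RelFin (B2 G A) K p := by
    refine hK'B.sup.mono_right ?_
    rintro x ⟨hx1, hx⟩
    obtain ⟨x', hx', hxx', hl⟩ := infres2 H hH1 hx hx1
    rw [show x = x' + (x - x') by abel]
    exact AddSubgroup.add_mem_sup ⟨hx', hl⟩ hxx'
  have hKZ : RelFin K (Z2 G A) n := by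
    have h1 : RelFin ((B2 H A).comap (resHom A H)) (Z2 G A) n := by
      refine hH2.comap ?_
      rintro _ ⟨x, hx, rfl⟩
      intro g h k
      exact hx g h k
    exact h1.mono_left' le_rfl
  refine hBK.trans hKZ ?_ inf_le_right
  rintro x ⟨b, hb⟩
  refine ⟨⟨fun k => b k, fun g h => hb g h⟩, ⟨b, hb⟩ |> fun h => B2_le_Z2 (A := A) h⟩

end cyc

/-- layer hypothesis: for all `Q' ◁ Q ≤ G` of index `p` and `s ∈ Q` generating `Q/Q'`,
`Ĥ⁻¹ = 0` and `|Ĥ⁰| ≤ p`. -/
def LayerHyp (p : ℕ) (G : Type*) [Group G] (A : Type*) [AddCommGroup A] [DistribMulAction G A] :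
    Prop :=
  ∀ (Q' Q : Subgroup G) (s : G), Q' ≤ Q → IsPGroup p Q → s ∈ Q → s ∉ Q' → Q'.relIndex Q = p →
    (∀ g ∈ Q, ∀ k ∈ Q', g * k * g⁻¹ ∈ Q') →
    (∀ a ∈ fix A Q', ∑ i ∈ range p, s ^ i • a = 0 → ∃ b ∈ fix A Q', a = s • b - b) ∧
      RelFin (nrmGrp p s Q') (fix A Q) p

section main

theorem LayerHyp.subgroup {p : ℕ} {G : Type*} [Group G] {A : Type*} [AddCommGroup A]
    [DistribMulAction G A] (h : LayerHyp p G A) (H : Subgroup G) : LayerHyp p H A := by
  intro Q' Q s hQ hpQ hs hs' hrel hnorm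
  have hfixe : ∀ R : Subgroup H, fix A (R.map H.subtype) = fix A R := by
    intro R
    ext a
    constructor
    · intro ha n hn
      exact ha (n : G) ⟨n, hn, rfl⟩
    · rintro ha _ ⟨n, hn, rfl⟩
      exact ha n hn
  have key := h (Q'.map H.subtype) (Q.map H.subtype) s (Subgroup.map_mono hQ)
    (hpQ.map _) ⟨s, hs, rfl⟩ (by
      rintro ⟨t, ht, hts⟩
      exact hs' (by rwa [← Subtype.ext hts]))
    (by rw [Subgroup.relIndex_map_map_of_injective _ _ H.subtype_injective]; exact hrel) (by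
      rintro _ ⟨g, hg, rfl⟩ _ ⟨k, hk, rfl⟩
      exact ⟨g * k * g⁻¹, hnorm g hg k hk, rfl⟩)
  rw [hfixe, hfixe] at key
  refine ⟨key.1, ?_⟩
  have e : (nrmGrp p (s : G) (Q'.map H.subtype) : AddSubgroup A) = nrmGrp p s Q' := by
    ext a
    rw [mem_nrmGrp, mem_nrmGrp, hfixe]
    rfl
  rw [← e]
  exact key.2

theorem pow_of_index {p : ℕ} [hp : Fact p.Prime] {G : Type*} [Group G] (H : Subgroup G)
    [hH : H.Normal] (hi : H.index = p) {s : G} (hs : s ∉ H) :
    s ^ p ∈ H ∧ (∀ g : G, ∃ i : ℕ, ∃ k ∈ H, g = s ^ i * k) ∧ ∀ i : ℕ, s ^ i ∈ H → p ∣ i := by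
  have hcard : Nat.card (G ⧸ H) = p := hi
  haveI : Finite (G ⧸ H) := Nat.finite_of_card_ne_zero (by rw [hcard]; exact hp.out.ne_zero)
  have hs1 : (s : G ⧸ H) ≠ 1 := by rwa [ne_eq, QuotientGroup.eq_one_iff]
  have hord : orderOf (s : G ⧸ H) = p := by
    have h1 : orderOf (s : G ⧸ H) ∣ p := by rw [← hcard]; exact orderOf_dvd_natCard _
    rcases (Nat.dvd_prime hp.out).mp h1 with h2 | h2
    · rw [orderOf_eq_one_iff] at h2; exact absurd h2 hs1
    · exact h2
  refine ⟨?_, fun g => ?_, fun i hi' => ?_⟩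
  · rw [← QuotientGroup.eq_one_iff, QuotientGroup.mk_pow, ← hord, pow_orderOf_eq_one]
  · have h2 : (g : G ⧸ H) ∈ Subgroup.zpowers (s : G ⧸ H) :=
      mem_zpowers_of_prime_card (p := p) hcard hs1
    rw [← mem_powers_iff_mem_zpowers] at h2
    obtain ⟨i, hi2⟩ := h2
    have hi3 : (s : G ⧸ H) ^ i = g := hi2
    refine ⟨i, (s ^ i)⁻¹ * g, ?_, by group⟩
    rw [← QuotientGroup.mk_pow, QuotientGroup.eq] at hi3
    exact hi3
  · rw [← QuotientGroup.eq_one_iff, QuotientGroup.mk_pow] at hi'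
    rw [← hord]; exact orderOf_dvd_of_pow_eq_one hi'

theorem pgroup_h1_h2 {p : ℕ} [hp : Fact p.Prime] {A : Type*} [AddCommGroup A] (n : ℕ) :
    ∀ (Q : Type*) [Group Q] [Finite Q] [DistribMulAction Q A], Nat.card Q = n → IsPGroup p Q →
      LayerHyp p Q A → Z1 Q A ≤ B1 Q A ∧ RelFin (B2 Q A) (Z2 Q A) (Nat.card Q) := by
  induction n using Nat.strong_induction_on with
  | _ n ih =>
  intro Q _ _ _ hcard hpQ hlay
  obtain ⟨m, hm⟩ := IsPGroup.iff_card.mp hpQ
  rcases Nat.eq_zero_or_pos m with hm0 | hmpos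
  · -- trivial group
    rw [hm0, pow_zero] at hm
    haveI : Subsingleton Q := (Nat.card_eq_one_iff_unique.mp hm).1
    refine ⟨fun c hc => ⟨0, fun g => ?_⟩, ?_⟩
    · rw [Subsingleton.elim g 1, Z1.one hc]; simp
    · have hle : Z2 Q A ≤ B2 Q A := by
        intro x hx
        refine ⟨fun _ => x 1 1, fun g h => ?_⟩
        rw [Subsingleton.elim g 1, Subsingleton.elim h 1, one_smul]; abel
      unfold RelFin
      rw [AddSubgroup.relIndex_eq_one.mpr hle, hm]
      exact ⟨one_ne_zero, le_rfl⟩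
  · obtain ⟨k, rfl⟩ : ∃ k, m = k + 1 := ⟨m - 1, by omega⟩
    obtain ⟨H, hHc⟩ := Sylow.exists_subgroup_card_pow_prime (G := Q) p (n := k)
      (by rw [hm]; exact pow_dvd_pow p (Nat.le_succ k))
    have hind : H.index = p := by
      have h1 := H.card_mul_index
      rw [hHc, hm, pow_succ] at h1
      exact Nat.eq_of_mul_eq_mul_left (pow_pos hp.out.pos k) h1
    haveI hHn : H.Normal := by
      apply Subgroup.normal_of_index_eq_minFac_card
      rw [hind, hm, hp.out.pow_minFac (Nat.succ_ne_zero k)]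
    obtain ⟨s, hs⟩ : ∃ s : Q, s ∉ H := by
      by_contra hcon
      push Not at hcon
      have : H = ⊤ := by ext x; simp [hcon x]
      rw [this, Subgroup.index_top] at hind
      exact hp.out.one_lt.ne hind
    obtain ⟨hsp, hgen, hord⟩ := pow_of_index H hind hs
    have hlt : Nat.card H < n := by
      rw [← hcard, hHc, hm]
      exact Nat.pow_lt_pow_right hp.out.one_lt (Nat.lt_succ_self k)
    obtain ⟨hH1, hH2⟩ := ih _ hlt H rfl (hpQ.to_subgroup H) (hlay.subgroup H)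
    have hl := hlay H ⊤ s le_top (hpQ.to_subgroup ⊤) trivial hs
      (by rw [Subgroup.relIndex_top_right, hind]) (fun g _ k hk => hHn.conj_mem k hk g)
    refine ⟨cyc1 H s hsp hgen hH1 hl.1, ?_⟩
    have := h2_bound_step hp.out.pos H s hsp hgen hord hH1 hH2 hl.2
    refine this.mono_n (le_of_eq ?_)
    rw [hHc, hm, pow_succ']

/-- **Layers imply `H¹ = 0` and `|H²| ≤ |P|`.** -/
theorem layers {p : ℕ} [hp : Fact p.Prime] {G : Type*} [Group G] [Finite G] {A : Type*}
    [AddCommGroup A] [DistribMulAction G A] (hlay : LayerHyp p G A) (P : Subgroup G)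
    (hP : IsPGroup p P) :
    Z1 P A ≤ B1 P A ∧ RelFin (B2 P A) (Z2 P A) (Nat.card P) :=
  pgroup_h1_h2 _ P rfl hP (hlay.subgroup P)

end main

end Fermat.Agent.CFT
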