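import Fermat.Agent.CFT.ClassG

set_option autoImplicit false
set_option maxHeartbeats 400000

/-! Local components over a finite Galois group. -/

namespace Fermat.Agent.CFT

open Finset Fermat.Agent.CFTSec
open scoped Pointwise

noncomputable section

section maps

variable {G : Type*} [Group G] {B C : Type*} [AddCommGroup B] [DistribMulAction G B]
  [AddCommGroup C] [DistribMulAction G C]

theorem mapZ2 {x : G → G → B} (hx : x ∈ Z2 G B) (φ : B →+ C) (hφ : ∀ (g : G) b, φ (g • b) = g • φ b) :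
    (fun g h => φ (x g h)) ∈ Z2 G C := by
  intro g h k
  have := congrArg φ (hx g h k)
  rw [map_add, map_add, hφ] at this
  exact this

theorem mapB2 {x : G → G → B} (hx : x ∈ B2 G B) (φ : B →+ C) (hφ : ∀ (g : G) b, φ (g • b) = g • φ b) :
    (fun g h => φ (x g h)) ∈ B2 G C := by
  obtain ⟨b, hb⟩ := hx
  refine ⟨fun g => φ (b g), fun g h => ?_⟩
  show φ (x g h) = φ (b g) + g • φ (b h) - φ (b (g * h))
  rw [hb, map_sub, map_add, hφ]

end maps

variable (q : Nat.Primes) (N : Subgroup GQ) [hN : N.Normal]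

/-- the local subgroup -/
def dN : Subgroup (LG q) := N.comap (localGaloisToGlobal (q : ℕ))

instance dN_normal : (dN q N).Normal := by unfold dN; infer_instance

theorem mem_dN {t : LG q} : t ∈ dN q N ↔ localGaloisToGlobal (q : ℕ) t ∈ N := Iff.rfl

/-- the decomposition group -/
def iotaD : (LG q ⧸ dN q N) →* (GQ ⧸ N) :=
  QuotientGroup.map (dN q N) N (localGaloisToGlobal (q : ℕ)) le_rfl

theorem iotaD_mk (t : LG q) : iotaD q N (QuotientGroup.mk t) =
    QuotientGroup.mk (localGaloisToGlobal (q : ℕ) t) := rfl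

theorem iotaD_injective : Function.Injective (iotaD q N) := by
  rw [injective_iff_map_eq_one]
  intro t ht
  induction t using QuotientGroup.induction_on with
  | H t =>
    rw [iotaD_mk] at ht
    have h1 : localGaloisToGlobal (q : ℕ) t ∈ N :=
      (QuotientGroup.eq_one_iff (N := N) (localGaloisToGlobal (q : ℕ) t)).mp ht
    exact (QuotientGroup.eq_one_iff (N := dN q N) t).mpr h1

/-- invariance of the values -/
theorem val_mem_fix {f : JQ q} (hf : f ∈ fix (JQ q) N) (σ : GQ) : f.1 σ ∈ fix (LM q) (dN q N) := by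
  intro t ht
  have h1 : f.1 (localGaloisToGlobal q t * σ) = t • f.1 σ := f.2 t σ
  have h2 : σ⁻¹ * localGaloisToGlobal (q : ℕ) t * σ ∈ N := by
    have := hN.conj_mem _ ht σ⁻¹
    rwa [inv_inv] at this
  have h3 := congrArg (fun g : JQ q => g.1 σ) (hf _ h2)
  simp only [coind_smul_apply] at h3
  rw [← h1, ← h3]
  congr 1; group

theorem val_mul {f : JQ q} (hf : f ∈ fix (JQ q) N) (σ : GQ) {n : GQ} (hn : n ∈ N) :
    f.1 (σ * n) = f.1 σ := by
  have h3 := congrArg (fun g : JQ q => g.1 σ) (hf _ hn)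
  simpa only [coind_smul_apply] using h3

/-- evaluation at the identity -/
def evN : ↥(fix (JQ q) N) →+ ↥(fix (LM q) (dN q N)) where
  toFun f := ⟨f.1.1 1, val_mem_fix q N f.2 1⟩
  map_zero' := rfl
  map_add' _ _ := rfl

theorem evN_val (f : ↥(fix (JQ q) N)) : (evN q N f).1 = f.1.1 1 := rfl

/-- identification with a coinduced module -/
def toCo : ↥(fix (JQ q) N) ≃+ CoInd (iotaD q N) ↥(fix (LM q) (dN q N)) where
  toFun f := ⟨fun g => ⟨f.1.1 g.out, val_mem_fix q N f.2 _⟩, by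
    intro d g
    induction d using QuotientGroup.induction_on with
    | H t =>
    apply Subtype.ext
    show f.1.1 (Quotient.out (iotaD q N (QuotientGroup.mk t) * g)) = t • f.1.1 g.out
    have h1 : f.1.1 (localGaloisToGlobal q t * g.out) = t • f.1.1 g.out := f.1.2 t _
    rw [← h1]
    have h2 : (QuotientGroup.mk (localGaloisToGlobal (q : ℕ) t * g.out) : GQ ⧸ N) =
        QuotientGroup.mk (Quotient.out (iotaD q N (QuotientGroup.mk t) * g)) := by
      have e1 : (QuotientGroup.mk (Quotient.out (iotaD q N (QuotientGroup.mk t) * g)) : GQ ⧸ N) =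
        iotaD q N (QuotientGroup.mk t) * g := QuotientGroup.out_eq' _
      have e2 : (QuotientGroup.mk g.out : GQ ⧸ N) = g := QuotientGroup.out_eq' _
      rw [e1, QuotientGroup.mk_mul, e2, iotaD_mk]
    rw [QuotientGroup.eq] at h2
    have h3 := val_mul q N f.2 (localGaloisToGlobal (q : ℕ) t * g.out) h2
    rw [← h3]
    congr 1; group⟩
  invFun f := ⟨⟨fun σ => (f.1 (QuotientGroup.mk σ)).1, by
    intro t σ
    have h := congrArg Subtype.val (f.2 (QuotientGroup.mk t) (QuotientGroup.mk σ))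
    exact h⟩, by
    intro n hn
    apply Subtype.ext
    funext σ
    show (f.1 (QuotientGroup.mk (σ * n))).1 = (f.1 (QuotientGroup.mk σ)).1
    have : (QuotientGroup.mk (σ * n) : GQ ⧸ N) = QuotientGroup.mk σ := by
      rw [eq_comm, QuotientGroup.eq, inv_mul_cancel_left]; exact hn
    rw [this]⟩
  left_inv f := by
    apply Subtype.ext
    apply Subtype.ext
    funext σ
    show f.1.1 ((QuotientGroup.mk σ : GQ ⧸ N).out) = f.1.1 σ
    have h1 : (QuotientGroup.mk σ : GQ ⧸ N) = QuotientGroup.mk ((QuotientGroup.mk σ : GQ ⧸ N).out) :=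
      (QuotientGroup.out_eq' _).symm
    rw [QuotientGroup.eq] at h1
    have h3 := val_mul q N f.2 σ h1
    rw [← h3]
    congr 1; group
  right_inv f := by
    apply Subtype.ext
    funext g
    apply Subtype.ext
    show (f.1 (QuotientGroup.mk g.out)).1 = (f.1 g).1
    have e2 : (QuotientGroup.mk g.out : GQ ⧸ N) = g := QuotientGroup.out_eq' _
    rw [e2]
  map_add' _ _ := rfl

theorem toCo_apply (f : ↥(fix (JQ q) N)) (σ : GQ) :
    ((toCo q N f).1 (QuotientGroup.mk σ)).1 = f.1.1 σ := by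
  show f.1.1 ((QuotientGroup.mk σ : GQ ⧸ N).out) = f.1.1 σ
  have h1 : (QuotientGroup.mk σ : GQ ⧸ N) = QuotientGroup.mk ((QuotientGroup.mk σ : GQ ⧸ N).out) :=
    (QuotientGroup.out_eq' _).symm
  rw [QuotientGroup.eq] at h1
  have h3 := val_mul q N f.2 σ h1
  rw [← h3]
  congr 1; group

theorem toCo_one (f : ↥(fix (JQ q) N)) : (toCo q N f).1 1 = evN q N f :=
  Subtype.ext (toCo_apply q N f 1)

theorem toCo_smul (g : GQ ⧸ N) (f : ↥(fix (JQ q) N)) : toCo q N (g • f) = g • toCo q N f := by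
  induction g using QuotientGroup.induction_on with
  | H g =>
  apply Subtype.ext
  funext x
  induction x using QuotientGroup.induction_on with
  | H x =>
  apply Subtype.ext
  rw [toCo_apply]
  have h : ((QuotientGroup.mk g : GQ ⧸ N) • toCo q N f).1 (QuotientGroup.mk x) =
    (toCo q N f).1 (QuotientGroup.mk (x * g)) := rfl
  rw [h, toCo_apply]
  rfl

theorem toCo_symm_smul (g : GQ ⧸ N) (f : CoInd (iotaD q N) ↥(fix (LM q) (dN q N))) :
    (toCo q N).symm (g • f) = g • (toCo q N).symm f := by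
  apply (toCo q N).injective
  rw [AddEquiv.apply_symm_apply, toCo_smul, AddEquiv.apply_symm_apply]

theorem shap2 {x : (GQ ⧸ N) → (GQ ⧸ N) → ↥(fix (JQ q) N)} (hx : x ∈ Z2 (GQ ⧸ N) (fix (JQ q) N))
    (h : (fun d d' : LG q ⧸ dN q N => evN q N (x (iotaD q N d) (iotaD q N d'))) ∈
      B2 (LG q ⧸ dN q N) ↥(fix (LM q) (dN q N))) : x ∈ B2 (GQ ⧸ N) (fix (JQ q) N) := by
  have h1 : (fun g g' => toCo q N (x g g')) ∈ Z2 (GQ ⧸ N) (CoInd (iotaD q N) ↥(fix (LM q) (dN q N))) :=
    mapZ2 hx (toCo q N).toAddMonoidHom (toCo_smul q N)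
  have h2 : (fun d d' : LG q ⧸ dN q N => (toCo q N (x (iotaD q N d) (iotaD q N d'))).1 1) ∈
      B2 (LG q ⧸ dN q N) ↥(fix (LM q) (dN q N)) := by
    simp_rw [toCo_one]; exact h
  have h3 := shapiro2 (iotaD q N) (iotaD_injective q N) h1 h2
  have h4 := mapB2 h3 (toCo q N).symm.toAddMonoidHom (toCo_symm_smul q N)
  have e : (fun g h => (toCo q N).symm.toAddMonoidHom (toCo q N (x g h))) = x := by
    funext g h; exact (toCo q N).symm_apply_apply _
  rwa [e] at h4

theorem shap2_surj {y : (LG q ⧸ dN q N) → (LG q ⧸ dN q N) → ↥(fix (LM q) (dN q N))}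
    (hy : y ∈ Z2 (LG q ⧸ dN q N) ↥(fix (LM q) (dN q N))) :
    ∃ x ∈ Z2 (GQ ⧸ N) (fix (JQ q) N),
      (fun d d' : LG q ⧸ dN q N => evN q N (x (iotaD q N d) (iotaD q N d'))) - y ∈
        B2 (LG q ⧸ dN q N) ↥(fix (LM q) (dN q N)) := by
  obtain ⟨x, hx, hxy⟩ := shapiro2_surj (iotaD q N) (iotaD_injective q N) hy
  refine ⟨fun g h => (toCo q N).symm (x g h),
    mapZ2 hx (toCo q N).symm.toAddMonoidHom (toCo_symm_smul q N), ?_⟩
  have e : (fun d d' : LG q ⧸ dN q N => evN q N ((toCo q N).symm (x (iotaD q N d) (iotaD q N d')))) =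
      fun d d' : LG q ⧸ dN q N => (x (iotaD q N d) (iotaD q N d')).1 1 := by
    funext d d'
    rw [← toCo_one, AddEquiv.apply_symm_apply]
  rw [e]; exact hxy

theorem evN_smul (d : LG q ⧸ dN q N) (f : ↥(fix (JQ q) N)) :
    evN q N (iotaD q N d • f) = d • evN q N f := by
  induction d using QuotientGroup.induction_on with
  | H t =>
  apply Subtype.ext
  show f.1.1 (1 * localGaloisToGlobal (q : ℕ) t) = t • f.1.1 1
  have h1 : f.1.1 (localGaloisToGlobal q t * 1) = t • f.1.1 1 := f.1.2 t _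
  rw [← h1, one_mul, mul_one]

/-- coinduction of homomorphisms -/
def coHom {R : Type*} [AddCommGroup R] [DistribMulAction (GQ ⧸ N) R]
    (φ : R →+ ↥(fix (LM q) (dN q N)))
    (hφ : ∀ (d : LG q ⧸ dN q N) r, φ (iotaD q N d • r) = d • φ r) : R →+ ↥(fix (JQ q) N) where
  toFun r := ⟨⟨fun σ => (φ ((QuotientGroup.mk σ : GQ ⧸ N) • r)).1, by
    intro t σ
    have h := congrArg Subtype.val (hφ (QuotientGroup.mk t) ((QuotientGroup.mk σ : GQ ⧸ N) • r))
    rw [smul_smul] at h
    exact h⟩, by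
    intro n hn
    apply Subtype.ext
    funext σ
    show (φ ((QuotientGroup.mk (σ * n) : GQ ⧸ N) • r)).1 = (φ ((QuotientGroup.mk σ : GQ ⧸ N) • r)).1
    have : (QuotientGroup.mk (σ * n) : GQ ⧸ N) = QuotientGroup.mk σ := by
      rw [eq_comm, QuotientGroup.eq, inv_mul_cancel_left]; exact hn
    rw [this]⟩
  map_zero' := by
    apply Subtype.ext
    apply Subtype.ext
    funext σ
    show (φ ((QuotientGroup.mk σ : GQ ⧸ N) • (0 : R))).1 = 0
    rw [smul_zero, map_zero]; rfl
  map_add' r s := by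
    apply Subtype.ext
    apply Subtype.ext
    funext σ
    show (φ ((QuotientGroup.mk σ : GQ ⧸ N) • (r + s))).1 = (φ ((QuotientGroup.mk σ : GQ ⧸ N) • r)).1 +
      (φ ((QuotientGroup.mk σ : GQ ⧸ N) • s)).1
    rw [smul_add, map_add]; rfl

theorem coHom_ev {R : Type*} [AddCommGroup R] [DistribMulAction (GQ ⧸ N) R]
    (φ : R →+ ↥(fix (LM q) (dN q N)))
    (hφ : ∀ (d : LG q ⧸ dN q N) r, φ (iotaD q N d • r) = d • φ r) (r : R) :
    evN q N (coHom q N φ hφ r) = φ r := by
  apply Subtype.ext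
  show (φ ((QuotientGroup.mk 1 : GQ ⧸ N) • r)).1 = (φ r).1
  have : (QuotientGroup.mk 1 : GQ ⧸ N) = 1 := rfl
  rw [this, one_smul]

theorem coHom_smul {R : Type*} [AddCommGroup R] [DistribMulAction (GQ ⧸ N) R]
    (φ : R →+ ↥(fix (LM q) (dN q N)))
    (hφ : ∀ (d : LG q ⧸ dN q N) r, φ (iotaD q N d • r) = d • φ r) (g : GQ ⧸ N) (r : R) :
    coHom q N φ hφ (g • r) = g • coHom q N φ hφ r := by
  induction g using QuotientGroup.induction_on with
  | H g =>
  apply Subtype.ext
  apply Subtype.ext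
  funext σ
  show (φ ((QuotientGroup.mk σ : GQ ⧸ N) • (QuotientGroup.mk g : GQ ⧸ N) • r)).1 =
    (φ ((QuotientGroup.mk (σ * g) : GQ ⧸ N) • r)).1
  rw [smul_smul]; rfl

end

end Fermat.Agent.CFT
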