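import Fermat.Agent.CFT.Good

set_option autoImplicit false
set_option maxHeartbeats 400000

/-! Local classes of order `p` inject into the global ones. -/

namespace Fermat.Agent.CFT

open Finset Fermat.Agent.CFTSec
open scoped Pointwise

noncomputable section

theorem cup_nsmul_left {G : Type*} [Group G] {A : Type*} [AddCommGroup A] {n : ℕ} {f : G → ℤ}
    (hf : ∀ g h, (n : ℤ) ∣ f g + f h - f (g * h)) (k : ℕ) (a : A) :
    cup n (fun g => (k : ℤ) * f g) a = k • cup n f a := by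
  funext g h
  show (((k : ℤ) * f g + (k : ℤ) * f h - (k : ℤ) * f (g * h)) / (n : ℤ)) • a =
    k • (((f g + f h - f (g * h)) / (n : ℤ)) • a)
  have e : (k : ℤ) * f g + (k : ℤ) * f h - (k : ℤ) * f (g * h) =
    (k : ℤ) * (f g + f h - f (g * h)) := by ring
  rw [e, Int.mul_ediv_assoc _ (hf g h), mul_smul, natCast_zsmul]

/-- torsion of cup products -/
theorem cup_ptorsion {D : Type*} [Group D] {A : Type*} [AddCommGroup A] [DistribMulAction D A]
    {p m c : ℕ} [hp : Fact p.Prime] (χ : D → ZMod (p ^ m)) (hχ : ∀ g h, χ (g * h) = χ g + χ h)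
    (hord : ∀ d, ((p * c : ℕ) : ZMod (p ^ m)) * χ d = 0) {e : A} (he : e ∈ fix A (⊤ : Subgroup D)) :
    p • cup (p ^ m) (lft χ) (c • e) ∈ B2 D A := by
  have hpm : 0 < p ^ m := pow_pos hp.out.pos _
  have hlift := lft_dvd χ hχ
  have e1 : p • cup (p ^ m) (lft χ) (c • e) =
      cup (p ^ m) (fun g => ((p * c : ℕ) : ℤ) * lft χ g) e := by
    rw [cup_nsmul_left hlift, mul_smul]
    congr 1
    funext d d'
    exact smul_comm ((lft χ d + lft χ d' - lft χ (d * d')) / ((p ^ m : ℕ) : ℤ)) c e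
  rw [e1]
  have h0 : cup (p ^ m) (fun _ : D => (0 : ℤ)) e = 0 := by
    funext d d'
    show ((0 + 0 - 0 : ℤ) / _) • e = 0
    simp
  have h1 := cup_congr hpm (f := fun g => ((p * c : ℕ) : ℤ) * lft χ g) (f' := fun _ => 0)
    (a := e) (fun g h => by
      have := Dvd.dvd.mul_left (hlift g h) ((p * c : ℕ) : ℤ)
      have e3 : ((p * c : ℕ) : ℤ) * lft χ g + ((p * c : ℕ) : ℤ) * lft χ h -
        ((p * c : ℕ) : ℤ) * lft χ (g * h) =
        ((p * c : ℕ) : ℤ) * (lft χ g + lft χ h - lft χ (g * h)) := by ring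
      rw [e3]; exact this) (fun g => by
      rw [sub_zero]
      have h2 := hord g
      have h3 : (((p * c : ℕ) : ℤ) * lft χ g : ℤ) =
        ((p * c * (χ g).val : ℕ) : ℤ) := by
        rw [Nat.cast_mul (p * c)]; rfl
      rw [h3]
      have h4 : ((p * c * (χ g).val : ℕ) : ZMod (p ^ m)) = 0 := by
        rw [Nat.cast_mul (p * c), ZMod.natCast_zmod_val]; exact h2
      exact_mod_cast (ZMod.natCast_eq_zero_iff _ _).mp h4) he
  rw [h0, sub_zero] at h1
  exact h1

section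

variable {S : Finset Nat.Primes} {L : IntermediateField ℚ Qb} (hL : L.IsUnramifiedOutside S)
  [hLn : L.fixingSubgroup.Normal]

theorem fixToC_smul (g : GQ ⧸ L.fixingSubgroup) (j : ↥(fix (Jm S) L.fixingSubgroup)) :
    fixToC L S (g • j) = g • fixToC L S j := by
  induction g using QuotientGroup.induction_on with
  | H g => exact Subtype.ext (toC_smul g j.1)

theorem sgN_smul (q : Nat.Primes) (hq : q ∈ S) (g : GQ ⧸ L.fixingSubgroup)
    (f : ↥(fix (JQ q) L.fixingSubgroup)) : sgN hL q hq (g • f) = g • sgN hL q hq f := by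
  induction g using QuotientGroup.induction_on with
  | H g => exact Subtype.ext (Subtype.ext (sgT_smul q hq g f.1))

/-- local component into idele classes -/
def inC (q : Nat.Primes) (hq : q ∈ S) : ↥(fix (JQ q) L.fixingSubgroup) →+
    ↥(fix (Cm S) L.fixingSubgroup) := (fixToC L S).comp (sgN hL q hq)

theorem inC_val (q : Nat.Primes) (hq : q ∈ S) (f : ↥(fix (JQ q) L.fixingSubgroup)) :
    (inC hL q hq f).1 = toC S (sgN hL q hq f).1 := rfl

theorem inC_smul (q : Nat.Primes) (hq : q ∈ S) (g : GQ ⧸ L.fixingSubgroup)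
    (f : ↥(fix (JQ q) L.fixingSubgroup)) : inC hL q hq (g • f) = g • inC hL q hq f := by
  show fixToC L S (sgN hL q hq (g • f)) = g • fixToC L S (sgN hL q hq f)
  rw [sgN_smul, fixToC_smul]

variable {p : ℕ} [hp : Fact p.Prime] (hp2 : 2 < p) (hpS : pP p ∈ S)
  {ζ : Qb} (hζ : IsPrimitiveRoot ζ p) (hζL : ζ ∈ L)

include hζ hζL in
/-- **local classes of order `p` inject** -/
theorem local_global_inj (q : Nat.Primes) (hq : q ∈ S) {m c : ℕ}
    {a : ↥(fix (JQ q) (⊤ : Subgroup GQ))} (hgood : rS m hp2 hpS (sgl q hq (c • a)) ≠ 0)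
    (hord : ∀ t : LG q, ((p * c : ℕ) : ZMod (p ^ m)) * ch m hp2 (localGaloisToGlobal (q : ℕ) t) = 0)
    (hE : L.fixingSubgroup ≤ (EF m hp2).fixingSubgroup)
    {y : (GQ ⧸ L.fixingSubgroup) → (GQ ⧸ L.fixingSubgroup) → ↥(fix (JQ q) L.fixingSubgroup)}
    (hy : y ∈ Z2 (GQ ⧸ L.fixingSubgroup) ↥(fix (JQ q) L.fixingSubgroup))
    (hpy : p • y ∈ B2 (GQ ⧸ L.fixingSubgroup) ↥(fix (JQ q) L.fixingSubgroup))
    (hC : (fun g h => inC hL q hq (y g h)) ∈
      B2 (GQ ⧸ L.fixingSubgroup) ↥(fix (Cm S) L.fixingSubgroup)) :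
    y ∈ B2 (GQ ⧸ L.fixingSubgroup) ↥(fix (JQ q) L.fixingSubgroup) := by
  haveI := hL.1
  haveI hLf : L.fixingSubgroup.FiniteIndex := finiteIndex_fixingSubgroup L
  haveI : Finite (GQ ⧸ L.fixingSubgroup) := inferInstance
  have hlay := layer_global hp2 hpS hL hζ hζL
  have hopen : IsOpen ((dN q L.fixingSubgroup : Subgroup (LG q)) : Set (LG q)) := isOpen_comap_lg q L
  haveI hDfin : Finite (LG q ⧸ dN q L.fixingSubgroup) := Subgroup.quotient_finite_of_isOpen _ hopen
  obtain ⟨u, hu⟩ := Fermat.Agent.CFTLocal.L3 p (dN q L.fixingSubgroup) hopen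
  obtain ⟨I, hI⟩ := exists_inv hu
  let a1 : ↥(fix (JQ q) L.fixingSubgroup) := ⟨a.1, fix_mono le_top a.2⟩
  have ha1top : ∀ k : ℕ, k • a1 ∈ fix (fix (JQ q) L.fixingSubgroup) (⊤ : Subgroup (GQ ⧸ L.fixingSubgroup)) := by
    intro k
    apply (fix _ _).nsmul_mem
    intro g _
    induction g using QuotientGroup.induction_on with
    | H g => exact Subtype.ext (a.2 g trivial)
  have hpm : 0 < p ^ m := pow_pos hp.out.pos _
  have hlift := lft_dvd (cQ m hp2 L.fixingSubgroup hE) (cQ_mul m hp2 L.fixingSubgroup hE)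
  set y0 := cup (p ^ m) (lft (cQ m hp2 L.fixingSubgroup hE)) (c • a1) with hy0
  have hy0Z : y0 ∈ Z2 (GQ ⧸ L.fixingSubgroup) (fix (JQ q) L.fixingSubgroup) := cup_mem_Z2 hpm hlift (ha1top c)
  -- the global nonvanishing
  have hy0C : (fun g h => inC hL q hq (y0 g h)) ∉ B2 (GQ ⧸ L.fixingSubgroup) ↥(fix (Cm S) L.fixingSubgroup) := by
    intro hcon
    have e : (fun g h => inC hL q hq (y0 g h)) =
        cup (p ^ m) (lft (cQ m hp2 L.fixingSubgroup hE)) (inC hL q hq (c • a1)) := by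
      funext g h
      show inC hL q hq (_ • (c • a1)) = _ • inC hL q hq (c • a1)
      rw [map_zsmul]
    rw [e] at hcon
    have e2 : (inC hL q hq (c • a1)).1 = toC S (sgl q hq (c • a)).1 := by
      rw [inC_val]
      congr 1
    have h1 := rC_of_cup m hp2 hpS L.fixingSubgroup hE hlay ⟨toC S (sgl q hq (c • a)).1,
      toC_mem_fix (sgl q hq (c • a)).2⟩ _ e2 hcon
    rw [rC_toC m hp2 hpS _ (sgl q hq (c • a)) rfl] at h1
    exact hgood h1
  -- restriction to the decomposition group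
  let rs : ((GQ ⧸ L.fixingSubgroup) → (GQ ⧸ L.fixingSubgroup) → ↥(fix (JQ q) L.fixingSubgroup)) →
      ((LG q ⧸ dN q L.fixingSubgroup) → (LG q ⧸ dN q L.fixingSubgroup) → ↥(fix (LM q) (dN q L.fixingSubgroup))) :=
    fun x d d' => evN q L.fixingSubgroup (x (iotaD q L.fixingSubgroup d) (iotaD q L.fixingSubgroup d'))
  have hrsZ : ∀ x ∈ Z2 (GQ ⧸ L.fixingSubgroup) ↥(fix (JQ q) L.fixingSubgroup), rs x ∈
      Z2 (LG q ⧸ dN q L.fixingSubgroup) ↥(fix (LM q) (dN q L.fixingSubgroup)) := by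
    intro x hx d1 d2 d3
    have h1 := congrArg (evN q L.fixingSubgroup) (hx (iotaD q L.fixingSubgroup d1) (iotaD q L.fixingSubgroup d2) (iotaD q L.fixingSubgroup d3))
    rw [map_add, map_add, evN_smul] at h1
    show evN q L.fixingSubgroup _ + evN q L.fixingSubgroup (x (iotaD q L.fixingSubgroup (d1 * d2)) _) = _ + evN q L.fixingSubgroup (x _ (iotaD q L.fixingSubgroup (d2 * d3)))
    rw [map_mul, map_mul]
    exact h1
  have hrsB : ∀ x ∈ B2 (GQ ⧸ L.fixingSubgroup) ↥(fix (JQ q) L.fixingSubgroup), rs x ∈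
      B2 (LG q ⧸ dN q L.fixingSubgroup) ↥(fix (LM q) (dN q L.fixingSubgroup)) := by
    rintro x ⟨b, hb⟩
    refine ⟨fun d => evN q L.fixingSubgroup (b (iotaD q L.fixingSubgroup d)), fun d d' => ?_⟩
    show evN q L.fixingSubgroup (x _ _) = evN q L.fixingSubgroup _ + d • evN q L.fixingSubgroup _ - evN q L.fixingSubgroup (b (iotaD q L.fixingSubgroup (d * d')))
    rw [hb, map_sub, map_add, evN_smul, map_mul]
  have hrsadd : ∀ x x', rs (x + x') = rs x + rs x' := by
    intro x x'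
    funext d d'
    exact map_add (evN q L.fixingSubgroup) _ _
  have hrsz : ∀ (k : ℤ) x, rs (k • x) = k • rs x := by
    intro k x
    funext d d'
    exact map_zsmul (evN q L.fixingSubgroup) _ _
  have hrsn : ∀ (k : ℕ) x, rs (k • x) = k • rs x := by
    intro k x
    funext d d'
    exact map_nsmul (evN q L.fixingSubgroup) _ _
  have hz : rs y ∈ T2p p (LG q ⧸ dN q L.fixingSubgroup) ↥(fix (LM q) (dN q L.fixingSubgroup)) := by
    refine ⟨hrsZ y hy, ?_⟩
    rw [← hrsn]; exact hrsB _ hpy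
  have hz0 : rs y0 ∈ T2p p (LG q ⧸ dN q L.fixingSubgroup) ↥(fix (LM q) (dN q L.fixingSubgroup)) := by
    refine ⟨hrsZ y0 hy0Z, ?_⟩
    have hefix : evN q L.fixingSubgroup a1 ∈ fix (fix (LM q) (dN q L.fixingSubgroup)) (⊤ : Subgroup (LG q ⧸ dN q L.fixingSubgroup)) := by
      intro d _
      rw [← evN_smul]
      congr 1
      have := ha1top 1 (iotaD q L.fixingSubgroup d) trivial
      rwa [one_smul] at this
    have hχm : ∀ g h : LG q ⧸ dN q L.fixingSubgroup, cQ m hp2 L.fixingSubgroup hE (iotaD q L.fixingSubgroup (g * h)) =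
        cQ m hp2 L.fixingSubgroup hE (iotaD q L.fixingSubgroup g) + cQ m hp2 L.fixingSubgroup hE (iotaD q L.fixingSubgroup h) := by
      intro g h
      rw [map_mul, cQ_mul]
    have h1 := cup_ptorsion (c := c) (fun d : LG q ⧸ dN q L.fixingSubgroup => cQ m hp2 L.fixingSubgroup hE (iotaD q L.fixingSubgroup d)) hχm
      (fun d => by
        induction d using QuotientGroup.induction_on with
        | H t => exact hord t) hefix
    have e1 : rs y0 = cup (p ^ m) (lft (fun d : LG q ⧸ dN q L.fixingSubgroup => cQ m hp2 L.fixingSubgroup hE (iotaD q L.fixingSubgroup d)))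
        (c • evN q L.fixingSubgroup a1) := by
      funext d d'
      show evN q L.fixingSubgroup (_ • (c • a1)) = _ • (c • evN q L.fixingSubgroup a1)
      rw [map_zsmul, map_nsmul, ← map_mul]
      rfl
    rw [e1]
    exact h1
  -- conclusion
  have hyB : I ⟨rs y, hz⟩ = 0 → y ∈ B2 (GQ ⧸ L.fixingSubgroup) ↥(fix (JQ q) L.fixingSubgroup) := fun h =>
    shap2 q L.fixingSubgroup hy ((hI _).mp h)
  by_contra hcon
  have hIy : I ⟨rs y, hz⟩ ≠ 0 := fun h => hcon (hyB h)
  obtain ⟨k, hk⟩ : ∃ k : ℤ, I ⟨rs y0, hz0⟩ = k • I ⟨rs y, hz⟩ := by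
    refine ⟨((I ⟨rs y0, hz0⟩ * (I ⟨rs y, hz⟩)⁻¹).val : ℤ), ?_⟩
    rw [natCast_zsmul, nsmul_eq_mul, ZMod.natCast_zmod_val, mul_assoc, inv_mul_cancel₀ hIy, mul_one]
  have h1 : I (⟨rs y0, hz0⟩ - k • ⟨rs y, hz⟩) = 0 := by
    rw [map_sub, map_zsmul, hk, sub_self]
  have h2 := (hI _).mp h1
  have h3 : rs (y0 + (-k) • y) ∈ B2 (LG q ⧸ dN q L.fixingSubgroup) ↥(fix (LM q) (dN q L.fixingSubgroup)) := by
    rw [hrsadd, hrsz, neg_smul, ← sub_eq_add_neg]
    exact h2
  have h4 : y0 + (-k) • y ∈ B2 (GQ ⧸ L.fixingSubgroup) ↥(fix (JQ q) L.fixingSubgroup) :=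
    shap2 q L.fixingSubgroup ((Z2 _ _).add_mem hy0Z ((Z2 _ _).zsmul_mem hy _)) h3
  have h5 := mapB2 h4 (inC hL q hq) (inC_smul hL q hq)
  apply hy0C
  have h6 := (B2 _ _).add_mem h5 ((B2 _ _).zsmul_mem hC k)
  have e : ((fun g h => inC hL q hq ((y0 + (-k) • y) g h)) + k • fun g h => inC hL q hq (y g h)) =
      fun g h => inC hL q hq (y0 g h) := by
    funext g h
    show inC hL q hq (y0 g h + (-k) • y g h) + k • inC hL q hq (y g h) = _
    rw [map_add, map_zsmul, neg_smul, neg_add_cancel_right]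
  rwa [e] at h6

end

end

end Fermat.Agent.CFT
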