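import Fermat.Prelude.Def_GroupCohomology_ContinuousUnramified
import Fermat.Agent.CFT.CohDefs

set_option autoImplicit false
set_option maxHeartbeats 400000

/-! Local Galois modules. -/

namespace Fermat.Agent.CFT

/-- additive version of a multiplicative action -/
instance additiveAction {G M : Type*} [Monoid G] [CommGroup M] [MulDistribMulAction G M] :
    DistribMulAction G (Additive M) where
  smul g a := Additive.ofMul (g • a.toMul)
  one_smul a := congrArg Additive.ofMul (one_smul G a.toMul)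
  mul_smul g h a := congrArg Additive.ofMul (mul_smul g h a.toMul)
  smul_zero g := congrArg Additive.ofMul (smul_one g)
  smul_add g a b := congrArg Additive.ofMul (smul_mul' g a.toMul b.toMul)

theorem toMul_smul {G M : Type*} [Monoid G] [CommGroup M] [MulDistribMulAction G M] (g : G)
    (a : Additive M) : (g • a).toMul = g • a.toMul := rfl

/-- the absolute Galois group of `ℚ_q` -/
abbrev LG (q : ℕ) [Fact q.Prime] : Type := PadicAlgCl q ≃ₐ[ℚ_[q]] PadicAlgCl q

/-- the multiplicative group of the algebraic closure of `ℚ_q`, written additively -/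
abbrev LM (q : ℕ) [Fact q.Prime] : Type := Additive (PadicAlgCl q)ˣ

theorem val_smul_LM (q : ℕ) [Fact q.Prime] (g : LG q) (a : LM q) :
    ((g • a).toMul : PadicAlgCl q) = g (a.toMul : PadicAlgCl q) := rfl

/-- units: elements of norm one -/
noncomputable def LU (q : ℕ) [Fact q.Prime] : AddSubgroup (LM q) where
  carrier := {a | ‖(a.toMul : PadicAlgCl q)‖₊ = 1}
  zero_mem' := by
    show ‖((1 : (PadicAlgCl q)ˣ) : PadicAlgCl q)‖₊ = 1
    rw [Units.val_one, nnnorm_one]
  add_mem' := by
    intro a b ha hb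
    show ‖((a.toMul * b.toMul : (PadicAlgCl q)ˣ) : PadicAlgCl q)‖₊ = 1
    rw [Units.val_mul, nnnorm_mul, show ‖(a.toMul : PadicAlgCl q)‖₊ = 1 from ha,
      show ‖(b.toMul : PadicAlgCl q)‖₊ = 1 from hb, one_mul]
  neg_mem' := by
    intro a ha
    show ‖((a.toMul⁻¹ : (PadicAlgCl q)ˣ) : PadicAlgCl q)‖₊ = 1
    rw [Units.val_inv_eq_inv_val, nnnorm_inv, show ‖(a.toMul : PadicAlgCl q)‖₊ = 1 from ha, inv_one]

theorem mem_LU {q : ℕ} [Fact q.Prime] {a : LM q} :
    a ∈ LU q ↔ ‖(a.toMul : PadicAlgCl q)‖₊ = 1 := Iff.rfl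

theorem smul_mem_LU {q : ℕ} [Fact q.Prime] (g : LG q) {a : LM q} (ha : a ∈ LU q) :
    g • a ∈ LU q := by
  rw [mem_LU] at ha ⊢
  rw [val_smul_LM, nnnorm_padicAlgCl_algEquiv]; exact ha

end Fermat.Agent.CFT
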