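import Fermat.Agent.CFT.Sha4
import Fermat.Agent.TWLocal.Inst2

set_option autoImplicit false
set_option maxHeartbeats 400000

/-! Local tools for the middle part of the Poitou-Tate sequence. -/

namespace Fermat.Agent.CFT

open Finset Fermat.Agent.CFTSec Fermat.Agent.TWLocal

noncomputable section

section inf

variable {G : Type*} [Group G] {A : Type*} [AddCommGroup A] [DistribMulAction G A]
  (H : Subgroup G) [hH : H.Normal]

/-- inflation is injective, explicit form -/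
theorem inf_inj2c {x : G → G → A} (hlev : IsLevel2 H x) {b : G → A}
    (hb : ∀ g h, x g h = b g + g • b h - b (g * h))
    (h1 : (fun k : H => b k - x 1 1) ∈ Z1 H A → ∃ a : A, ∀ k : H, b k - x 1 1 = (k : G) • a - a) :
    ∃ b' : G → A, (∀ g h, x g h = b' g + g • b' h - b' (g * h)) ∧
      (∀ g, ∀ k ∈ H, b' (g * k) = b' g) ∧ ∀ g, b' g ∈ fix A H := by
  have hx := B2_le_Z2 (⟨b, hb⟩ : x ∈ B2 G A)
  have hfix : x 1 1 ∈ fix A H := hlev.2.2 1 1
  have hHH : ∀ k k' : G, k ∈ H → k' ∈ H → x k k' = x 1 1 := by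
    intro k k' hk hk'
    have h2 := hlev.1 1 k' k hk
    have h3 := hlev.2.1 1 1 k' hk'
    rw [one_mul] at h2 h3
    rw [h2, h3]
  have hcz : (fun k : H => b k - x 1 1) ∈ Z1 H A := by
    intro k k'
    have h2 := hb k k'
    rw [hHH _ _ k.2 k'.2] at h2
    show b ((k : G) * k') - x 1 1 = b k - x 1 1 + (k : G) • (b k' - x 1 1)
    rw [smul_sub, hfix _ k.2]
    have h3 : b ((k : G) * k') = b k + (k : G) • b k' - x 1 1 := by
      rw [h2]; abel
    rw [h3]; abel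
  obtain ⟨a, ha⟩ := h1 hcz
  have ha' : ∀ k ∈ H, b k = x 1 1 + (k • a - a) := by
    intro k hk
    have h2 := ha ⟨k, hk⟩
    rw [← h2]; abel
  let b' : G → A := fun g => b g - (g • a - a)
  have hb' : ∀ g h, x g h = b' g + g • b' h - b' (g * h) := by
    intro g h
    rw [hb]; simp only [b', smul_sub, mul_smul]; abel
  have hb'H : ∀ k ∈ H, b' k = x 1 1 := by
    intro k hk
    simp only [b', ha' k hk]; abel
  have hlev1 : ∀ g, ∀ k ∈ H, b' (g * k) = b' g := by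
    intro g k hk
    have h2 := hb' g k
    have h3 := hlev.2.1 g 1 k hk
    rw [one_mul] at h3
    rw [h3, Z2.one_right hx, hb'H k hk] at h2
    have h4 : b' (g * k) = b' g + g • x 1 1 - (g • x 1 1) := by
      nth_rewrite 2 [h2]; abel
    rw [h4]; abel
  refine ⟨b', hb', hlev1, ?_⟩
  intro g k hk
  have h2 := hb' k g
  have h3 := hlev.1 1 g k hk
  rw [one_mul] at h3
  rw [h3, Z2.one_left hx, hb'H k hk] at h2
  have h4 : b' (k * g) = k • b' g := by
    have : x 1 1 + b' (k * g) = x 1 1 + k • b' g := by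
      nth_rewrite 1 [h2]; abel
    exact add_left_cancel this
  rw [← h4]
  have r : k * g = g * (g⁻¹ * k * g) := by group
  rw [r]
  exact hlev1 _ _ (by simpa using hH.conj_mem k hk g⁻¹)

/-- inflation of 2-cochains -/
def infl2 (x : (G ⧸ H) → (G ⧸ H) → ↥(fix A H)) : G → G → A :=
  fun g h => ((x (QuotientGroup.mk g) (QuotientGroup.mk h) : ↥(fix A H)) : A)

theorem infl2_add (x y : (G ⧸ H) → (G ⧸ H) → ↥(fix A H)) :
    infl2 H (x + y) = infl2 H x + infl2 H y := rfl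

theorem infl2_sub (x y : (G ⧸ H) → (G ⧸ H) → ↥(fix A H)) :
    infl2 H (x - y) = infl2 H x - infl2 H y := rfl

theorem infl2_nsmul (n : ℕ) (x : (G ⧸ H) → (G ⧸ H) → ↥(fix A H)) :
    infl2 H (n • x) = n • infl2 H x := rfl

theorem infl2_level (x : (G ⧸ H) → (G ⧸ H) → ↥(fix A H)) : IsLevel2 H (infl2 H x) := by
  refine ⟨fun g h k hk => ?_, fun g h k hk => ?_, fun g h => (x _ _).2⟩
  · show ((x (QuotientGroup.mk (g * k)) _ : ↥(fix A H)) : A) = _
    rw [QuotientGroup.mk_mul_of_mem g hk]; rfl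
  · show ((x _ (QuotientGroup.mk (h * k)) : ↥(fix A H)) : A) = _
    rw [QuotientGroup.mk_mul_of_mem h hk]; rfl

theorem infl2_Z2 {x : (G ⧸ H) → (G ⧸ H) → ↥(fix A H)} (hx : x ∈ Z2 (G ⧸ H) ↥(fix A H)) :
    infl2 H x ∈ Z2 G A := fun g h k =>
  congrArg (fun z : ↥(fix A H) => (z : A))
    (hx (QuotientGroup.mk g) (QuotientGroup.mk h) (QuotientGroup.mk k))

theorem infl2_of_level {x : (G ⧸ H) → (G ⧸ H) → ↥(fix A H)} {b : G → A}
    (hb : ∀ g h, infl2 H x g h = b g + g • b h - b (g * h))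
    (hb1 : ∀ g, ∀ k ∈ H, b (g * k) = b g) (hb2 : ∀ g, b g ∈ fix A H) :
    x ∈ B2 (G ⧸ H) ↥(fix A H) := by
  have hout : ∀ g : G, b (QuotientGroup.mk g : G ⧸ H).out = b g := by
    intro g
    have h1 : (QuotientGroup.mk g : G ⧸ H) = QuotientGroup.mk (QuotientGroup.mk g : G ⧸ H).out :=
      (QuotientGroup.out_eq' _).symm
    have h2 := hb1 g _ (QuotientGroup.eq.mp h1)
    rwa [mul_inv_cancel_left] at h2
  refine ⟨fun u => ⟨b u.out, hb2 _⟩, fun u v => ?_⟩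
  obtain ⟨u, rfl⟩ := QuotientGroup.mk_surjective u
  obtain ⟨v, rfl⟩ := QuotientGroup.mk_surjective v
  apply Subtype.ext
  have h3 := hb u v
  show infl2 H x u v = b (QuotientGroup.mk u : G ⧸ H).out + u • b (QuotientGroup.mk v : G ⧸ H).out -
    b (QuotientGroup.mk (u * v) : G ⧸ H).out
  rw [hout, hout, hout, h3]

end inf

section loc

variable {q : ℕ} [hq : Fact q.Prime]

theorem infl2_LC2 {N : Subgroup (LG q)} [hN : N.Normal] (hNo : IsOpen (N : Set (LG q)))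
    (x : (LG q ⧸ N) → (LG q ⧸ N) → ↥(fix (LM q) N)) : LC2 (infl2 N x) :=
  LC2.of_level hNo (infl2_level N x)

theorem infl2_B2l {N : Subgroup (LG q)} [hN : N.Normal] (hNo : IsOpen (N : Set (LG q)))
    {x : (LG q ⧸ N) → (LG q ⧸ N) → ↥(fix (LM q) N)} (hx : x ∈ B2 (LG q ⧸ N) ↥(fix (LM q) N)) :
    infl2 N x ∈ B2l (LG q) (LM q) := by
  obtain ⟨b, hb⟩ := hx
  refine ⟨fun g => (b (QuotientGroup.mk g)).1, ⟨N, hNo, fun g n hn => ?_⟩, fun g h => ?_⟩
  · show (b (QuotientGroup.mk (g * n))).1 = _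
    rw [QuotientGroup.mk_mul_of_mem g hn]
  · exact congrArg Subtype.val (hb (QuotientGroup.mk g) (QuotientGroup.mk h))

/-- local inflation is injective -/
theorem inf_inj_loc {N : Subgroup (LG q)} [hN : N.Normal] (hNo : IsOpen (N : Set (LG q)))
    {x : (LG q ⧸ N) → (LG q ⧸ N) → ↥(fix (LM q) N)} (hx : infl2 N x ∈ B2l (LG q) (LM q)) :
    x ∈ B2 (LG q ⧸ N) ↥(fix (LM q) N) := by
  obtain ⟨b, hb1, hb2⟩ := hx
  obtain ⟨b', h1, h2, h3⟩ := inf_inj2c N (infl2_level N x) hb2 (fun hc => by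
    obtain ⟨a, ha⟩ := h90_U hNo _ hc (by
      have h4 : LC1 (fun k : LG q => b k - infl2 N x 1 1) :=
        hb1.comp (fun z => z - infl2 N x 1 1)
      exact res_LC1 N h4)
    exact ⟨a, ha⟩)
  exact infl2_of_level N h1 h2 h3

theorem infl2_T2l {p : ℕ} {N : Subgroup (LG q)} [hN : N.Normal]
    (hNo : IsOpen (N : Set (LG q)))
    {x : (LG q ⧸ N) → (LG q ⧸ N) → ↥(fix (LM q) N)}
    (hx : x ∈ T2p p (LG q ⧸ N) ↥(fix (LM q) N)) : infl2 N x ∈ T2l (LG q) (LM q) p :=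
  ⟨⟨infl2_Z2 N hx.1, infl2_LC2 hNo x⟩, by
    rw [← infl2_nsmul]
    exact infl2_B2l hNo hx.2⟩

theorem LC1_of_top {X : Type*} {b : (⊤ : Subgroup (LG q)) → X} (hb : LC1 b) :
    LC1 (fun g : LG q => b ⟨g, trivial⟩) := by
  obtain ⟨N, hN, h⟩ := hb
  refine ⟨N.map (⊤ : Subgroup (LG q)).subtype, ?_, fun g n hn => ?_⟩
  · have h1 : IsOpenMap (Subtype.val : (⊤ : Subgroup (LG q)) → LG q) :=
      IsOpen.isOpenMap_subtype_val isOpen_univ
    exact h1 _ hN
  · obtain ⟨m, hm, rfl⟩ := hn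
    exact h ⟨g, trivial⟩ m hm

theorem res_T2l {p : ℕ} (U : Subgroup (LG q)) {x : LG q → LG q → LM q}
    (hx : x ∈ T2l (LG q) (LM q) p) : (fun g h : U => x g h) ∈ T2l U (LM q) p :=
  ⟨res_Z2l U hx.1, res_B2l U hx.2⟩

/-- the local invariant -/
theorem exists_inv_LG (q : ℕ) [hq : Fact q.Prime] (p : ℕ) [hp : Fact p.Prime] :
    ∃ I : T2l (LG q) (LM q) p →+ ZMod p, ∀ x, I x = 0 ↔ x.1 ∈ B2l (LG q) (LM q) := by
  obtain ⟨I, hI⟩ := inv_U (q := q) (U := ⊤) isOpen_univ p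
  refine ⟨AddMonoidHom.mk' (fun x => I ⟨_, res_T2l ⊤ x.2⟩) (fun x y => ?_), fun x => ?_⟩
  · rw [← map_add]; rfl
  · show I ⟨_, res_T2l ⊤ x.2⟩ = 0 ↔ _
    rw [hI]
    constructor
    · rintro ⟨b, hb1, hb2⟩
      exact ⟨_, LC1_of_top hb1, fun g h => hb2 ⟨g, trivial⟩ ⟨h, trivial⟩⟩
    · intro h
      exact res_B2l ⊤ h

end loc

section lev

variable {q : Nat.Primes}

theorem LC1_of_locLev {Y : Type*} {n : LG q → Y} (h : LocLev q n) : LC1 n := by
  obtain ⟨E, hE, h⟩ := h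
  exact ⟨E.fixingSubgroup.comap (localGaloisToGlobal (q : ℕ)), isOpen_comap_lg q E,
    fun g n hn => h g n hn⟩

theorem exists_field_le {N : Subgroup (LG q)} (hN : IsOpen (N : Set (LG q))) :
    ∃ E : IntermediateField ℚ Qb, FiniteDimensional ℚ E ∧
      ∀ t : LG q, localGaloisToGlobal (q : ℕ) t ∈ E.fixingSubgroup → t ∈ N := by
  have h1 : (N : Set (LG q)) ∈ nhds 1 := hN.mem_nhds N.one_mem
  obtain ⟨F, hF, hFN⟩ := (krullTopology_mem_nhds_one_iff ℚ_[(q : ℕ)] (PadicAlgCl (q : ℕ)) _).mp h1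
  haveI := hF
  let bs := Module.finBasis ℚ_[(q : ℕ)] F
  have h2 := fun i => exists_level_local q (bs i).1
  choose E hE hEf using h2
  haveI := hE
  refine ⟨⨆ i, E i, inferInstance, fun t ht => hFN ?_⟩
  show t ∈ F.fixingSubgroup
  rw [IntermediateField.mem_fixingSubgroup_iff]
  intro x hx
  have h4 : ∀ i, t (bs i).1 = (bs i).1 := fun i => hEf i t
    (IntermediateField.fixingSubgroup_antitone (le_iSup E i) ht)
  have h5 : ∀ y : F, t y.1 = y.1 := by
    intro y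
    have h6 : y.1 = ∑ i, (bs.repr y i) • (bs i).1 := by
      have h7 := congrArg F.val (bs.sum_repr y)
      rw [map_sum] at h7
      exact h7.symm
    rw [h6, map_sum]
    refine Finset.sum_congr rfl fun i _ => ?_
    rw [Algebra.smul_def, map_mul, h4 i]
    exact congrArg (· * (bs i).1) (t.commutes _)
  exact h5 ⟨x, hx⟩

theorem locLev_of_LC1 {Y : Type*} {n : LG q → Y} (h : LC1 n) : LocLev q n := by
  obtain ⟨N, hN, h⟩ := h
  obtain ⟨E, hE, hEN⟩ := exists_field_le hN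
  exact ⟨E, hE, fun d s hs => h d s (hEN s hs)⟩

end lev

end

end Fermat.Agent.CFT
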