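import Fermat.Agent.CFT.PT9

set_option autoImplicit false
set_option maxHeartbeats 1000000

/-! Surjectivity of the localisation map modulo local conditions; finiteness. -/

namespace Fermat.Agent.CFT

open Finset Fermat.Agent.CFTSec Fermat.Agent.TWLocal

noncomputable section

section local_

variable {p : ℕ} [hp : Fact p.Prime] {ζ : Qb} (hζ : IsPrimitiveRoot ζ p) {q : Nat.Primes}
  {V W : Type*} [AddCommGroup V] [AddCommGroup W] [DistribMulAction GQ V] [DistribMulAction GQ W]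
  {B : V →+ W →+ ZMod p} (hB : PData p ζ B)

theorem B1q_le_Z1q (hV : OpK q V) : B1q q V ≤ Z1q q V := by
  rintro c ⟨v, hv⟩
  obtain ⟨N, hN, h⟩ := hV
  refine ⟨fun d d' => ?_, N, hN, fun d n hn => ?_⟩
  · rw [hv, hv, hv, map_mul, mul_smul, smul_sub]; abel
  · rw [hv, hv, map_mul, mul_smul, h n hn]

/-- every functional is a cup product -/
theorem local_dual [Finite V] (hV : OpK q V)
    (I : T2l (LG q) (LM q) p →+ ZMod p) (hI : ∀ x, I x = 0 ↔ x.1 ∈ B2l (LG q) (LM q))
    (f : Z1q q V →+ ZMod p) (hf : ∀ c : Z1q q V, c.1 ∈ B1q q V → f c = 0) :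
    ∃ w : Z1q q W, ∀ c, f c = I (cupq hζ hB hV w c) := by
  haveI := finite_Z1q hζ hB.tors hV
  letI : Module (ZMod p) (Z1q q V) := AddCommGroup.zmodModule (fun c => Subtype.ext (by
    funext d
    exact hB.tors _))
  let Φ : Z1q q W →+ (Z1q q V →+ ZMod p) :=
    AddMonoidHom.mk' (fun w => I.comp (cupq hζ hB hV w)) (fun w w' => by
      ext c
      show I (cupq hζ hB hV (w + w') c) = I (cupq hζ hB hV w c) + I (cupq hζ hB hV w' c)
      rw [map_add, AddMonoidHom.add_apply, map_add])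
  have h1 : f ∈ Φ.range := by
    apply mem_of_double_ann
    intro c hc
    apply hf
    refine local_nondeg hζ hB hV c.1 c.2 (fun w hw => ?_)
    have h2 : I (cupq hζ hB hV ⟨w, hw⟩ c) = 0 := hc (Φ ⟨w, hw⟩) ⟨_, rfl⟩
    exact (hI _).mp h2
  obtain ⟨w, hw⟩ := h1
  exact ⟨w, fun c => (DFunLike.congr_fun hw c).symm⟩

end local_

section glob

variable {p : ℕ} [hp : Fact p.Prime] (hp2 : 2 < p) {T : Finset Nat.Primes} (hpT : pP p ∈ T)
  {ζ : Qb} (hζ : IsPrimitiveRoot ζ p)
  {V W : Type*} [AddCommGroup V] [AddCommGroup W] [DistribMulAction GQ V] [DistribMulAction GQ W]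
  [Finite V] {B : V →+ W →+ ZMod p} (hB : PData p ζ B) (hV : LevM T V)

include hp2 hpT hζ hB hV in
/-- the localisation map is surjective modulo the local conditions -/
theorem sel_surj (Lc : ∀ q : Nat.Primes, AddSubgroup (LG q → V))
    (hLB : ∀ q ∈ T, B1q q V ≤ Lc q) (hLZ : ∀ q ∈ T, Lc q ≤ Z1q q V) (hD : DualZero B T Lc)
    (y : ∀ q : T, Z1q q.1 V) :
    ∃ x : Z1S T V, ∀ q : T, (y q).1 - (resS T q.1 V x).1 ∈ Lc q.1 := by
  classical
  obtain ⟨I, hI1, hI2⟩ := poitou_middle hp2 hpT hζ hB hV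
  let Y : AddSubgroup (∀ q : T, Z1q q.1 V) :=
    { carrier := {y | ∃ x : Z1S T V, ∀ q : T, (y q).1 - (resS T q.1 V x).1 ∈ Lc q.1}
      zero_mem' := ⟨0, fun q => by
        rw [map_zero]
        show (0 : LG q.1 → V) - 0 ∈ _
        rw [sub_zero]; exact (Lc q.1).zero_mem⟩
      add_mem' := by
        rintro a b ⟨x, hx⟩ ⟨x', hx'⟩
        refine ⟨x + x', fun q => ?_⟩
        have h := (Lc q.1).add_mem (hx q) (hx' q)
        have e : ((a + b) q).1 - (resS T q.1 V (x + x')).1 =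
          ((a q).1 - (resS T q.1 V x).1) + ((b q).1 - (resS T q.1 V x').1) := by
          rw [map_add]
          show ((a q).1 + (b q).1) - ((resS T q.1 V x).1 + (resS T q.1 V x').1) = _
          abel
        rw [e]; exact h
      neg_mem' := by
        rintro a ⟨x, hx⟩
        refine ⟨-x, fun q => ?_⟩
        have h := (Lc q.1).neg_mem (hx q)
        have e : ((-a) q).1 - (resS T q.1 V (-x)).1 = -((a q).1 - (resS T q.1 V x).1) := by
          rw [map_neg]
          show (-(a q).1) - (-(resS T q.1 V x).1) = _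
          abel
        rw [e]; exact h }
  by_contra hcon
  have hy : y ∉ Y := hcon
  letI : Module (ZMod p) ((∀ q : T, Z1q q.1 V) ⧸ Y) := AddCommGroup.zmodModule (fun c => by
    obtain ⟨c, rfl⟩ := QuotientAddGroup.mk_surjective c
    rw [← QuotientAddGroup.mk_nsmul]
    have h1 : p • c = 0 := by
      funext q
      apply Subtype.ext
      funext d
      exact hB.tors _
    rw [h1]; rfl)
  have hne : ∃ f : ((∀ q : T, Z1q q.1 V) ⧸ Y) →+ ZMod p, f (QuotientAddGroup.mk y) ≠ 0 := by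
    by_contra h
    push Not at h
    exact hy ((QuotientAddGroup.eq_zero_iff _).mp (eq_zero_of_dual h))
  obtain ⟨f, hf⟩ := hne
  let F : (∀ q : T, Z1q q.1 V) →+ ZMod p := f.comp (QuotientAddGroup.mk' Y)
  have hFY : ∀ y ∈ Y, F y = 0 := fun y hy => by
    show f (QuotientAddGroup.mk y) = 0
    rw [(QuotientAddGroup.eq_zero_iff _).mpr hy, map_zero]
  let fq : ∀ q : T, Z1q q.1 V →+ ZMod p := fun q =>
    F.comp (AddMonoidHom.single (fun q : T => Z1q q.1 V) q)
  have hFsum : ∀ y, F y = ∑ q : T, fq q (y q) := by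
    intro y
    conv_lhs => rw [← Finset.univ_sum_single y, map_sum]
    rfl
  have hfL : ∀ (q : T) (c : Z1q q.1 V), c.1 ∈ Lc q.1 → fq q c = 0 := by
    intro q c hc
    apply hFY
    refine ⟨0, fun q' => ?_⟩
    have e : ((AddMonoidHom.single (fun q : T => Z1q q.1 V) q c) q').1 - (resS T q'.1 V 0).1 =
        ((Pi.single q c : ∀ q : T, Z1q q.1 V) q').1 := by
      rw [map_zero]
      show _ - (0 : LG q'.1 → V) = _
      rw [sub_zero]; rfl
    rw [e]
    by_cases hqq : q' = q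
    · subst hqq
      rw [Pi.single_eq_same]; exact hc
    · rw [Pi.single_eq_of_ne hqq]; exact (Lc q'.1).zero_mem
  have hdual := fun q : T => local_dual hζ hB (hV.opK q.1) (I q) (hI1 q) (fq q)
    (fun c hc => hfL q c (hLB q.1 q.2 hc))
  choose w hw using hdual
  have hsum : ∀ c : Z1S T V, ∑ q : T, I q (cupq hζ hB (hV.opK q.1) (w q) (resS T q.1 V c)) = 0 := by
    intro c
    have h1 : (fun q : T => resS T q.1 V c) ∈ Y := ⟨c, fun q => by
      rw [sub_self]; exact (Lc q.1).zero_mem⟩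
    have h2 := hFY _ h1
    rw [hFsum] at h2
    rw [← h2]
    exact Finset.sum_congr rfl fun q _ => (hw q _).symm
  obtain ⟨x, hx, hxq⟩ := hI2 w hsum
  -- the global class is in the dual Selmer group
  have hxB : x ∈ B1 GQ W := by
    apply hD x hx
    intro q hq a ha
    obtain ⟨u, hu⟩ := hxq ⟨q, hq⟩
    have haZ := hLZ q hq ha
    have hxZ : (fun d => x (localGaloisToGlobal (q : ℕ) d)) ∈ Z1q q W :=
      (resS T q W ⟨x, hx⟩).2
    refine (orth_iff hζ hB (hV.opK q) ⟨_, hxZ⟩ ⟨a, haZ⟩).mpr ?_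
    have h1 : I ⟨q, hq⟩ (cupq hζ hB (hV.opK q) (w ⟨q, hq⟩) ⟨a, haZ⟩) = 0 := by
      rw [← hw ⟨q, hq⟩]
      exact hfL ⟨q, hq⟩ ⟨a, haZ⟩ ha
    have h2 := (hI1 ⟨q, hq⟩ _).mp h1
    have h3 := cupF_cob_left (q := q) hζ hB haZ.1 haZ.2 u
    have h4 := (B2l (LG q) (LM q)).add_mem h2 h3
    have e : (cupq hζ hB (hV.opK q) (w ⟨q, hq⟩) ⟨a, haZ⟩).1 +
        cupF hζ q B (fun d => localGaloisToGlobal (q : ℕ) d • u - u) a =
        (cupq hζ hB (hV.opK q) ⟨_, hxZ⟩ ⟨a, haZ⟩).1 := by
      funext d d'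
      show zl hζ q (B (_ • a d') ((w ⟨q, hq⟩).1 d)) +
        zl hζ q (B (_ • a d') (localGaloisToGlobal (q : ℕ) d • u - u)) =
        zl hζ q (B (_ • a d') (x (localGaloisToGlobal (q : ℕ) d)))
      rw [← zl_add_right, ← hu]
    rwa [e] at h4
  obtain ⟨v, hv⟩ := hxB
  apply hf
  show F y = 0
  rw [hFsum]
  refine Finset.sum_eq_zero fun q _ => ?_
  rw [hw, hI1]
  obtain ⟨u, hu⟩ := hxq q
  have h1 : (w q).1 = fun d => localGaloisToGlobal (q.1 : ℕ) d • (v - u) - (v - u) := by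
    funext d
    have h2 := hu d
    rw [hv] at h2
    have h3 : (w q).1 d = (localGaloisToGlobal (q.1 : ℕ) d • v - v) -
      (localGaloisToGlobal (q.1 : ℕ) d • u - u) := by rw [h2]; abel
    rw [h3, smul_sub]; abel
  show cupF hζ q.1 B (w q).1 (y q).1 ∈ _
  rw [h1]
  exact cupF_cob_left (q := q.1) hζ hB (y q).2.1 (y q).2.2 (v - u)

end glob

theorem finite_of_quot {A : Type*} [AddCommGroup A] (K : AddSubgroup A) [Finite (A ⧸ K)]
    [Finite K] : Finite A :=
  Finite.of_equiv _ (AddSubgroup.addGroupEquivQuotientProdAddSubgroup (s := K)).symm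

theorem finite_of_hom {A C : Type*} [AddCommGroup A] [AddCommGroup C] (f : A →+ C) [Finite C]
    (hk : Finite f.ker) : Finite A := by
  haveI : Finite (A ⧸ f.ker) := Finite.of_injective _ (QuotientAddGroup.kerLift_injective f)
  exact finite_of_quot f.ker

theorem finite_B1 (V : Type*) [AddCommGroup V] [DistribMulAction GQ V] [Finite V] :
    Finite (B1 GQ V) := by
  refine Finite.of_surjective (fun v : V => (⟨fun g => g • v - v, v, fun _ => rfl⟩ : B1 GQ V)) ?_
  rintro ⟨c, v, hv⟩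
  exact ⟨v, Subtype.ext (funext fun g => (hv g).symm)⟩

/-- finiteness of the group of cocycles -/
theorem finite_Z1S {p : ℕ} [hp : Fact p.Prime] (hp2 : 2 < p) {T : Finset Nat.Primes}
    (hpT : pP p ∈ T) {ζ : Qb} (hζ : IsPrimitiveRoot ζ p)
    {V W : Type*} [AddCommGroup V] [AddCommGroup W] [DistribMulAction GQ V]
    [DistribMulAction GQ W] [Finite V] {B : V →+ W →+ ZMod p} (hB : PData p ζ B)
    (hV : LevM T V) : Finite (Z1S T V) := by
  obtain ⟨hfin, -, -⟩ := sha_count hp2 hpT hζ hB hV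
  haveI hB1 := finite_B1 V
  haveI : Finite ((B1 GQ V).addSubgroupOf (Sh1 T V)) :=
    Finite.of_injective (fun c => (⟨c.1.1, c.2⟩ : B1 GQ V)) (fun c c' h => by
      apply Subtype.ext; apply Subtype.ext
      exact congrArg (fun z : B1 GQ V => z.1) h)
  haveI hSh : Finite (Sh1 T V) := finite_of_quot ((B1 GQ V).addSubgroupOf (Sh1 T V))
  haveI : ∀ q : T, Finite (Z1q q.1 V) := fun q => finite_Z1q hζ hB.tors (hV.opK q.1)
  let ρ : Z1S T V →+ ∀ q : T, Z1q q.1 V :=
    { toFun := fun c q => resS T q.1 V c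
      map_zero' := rfl
      map_add' := fun _ _ => rfl }
  refine finite_of_hom ρ ?_
  refine Finite.of_injective (fun c : ρ.ker => (⟨c.1.1, c.1.2, fun q hq => ⟨0, fun d => ?_⟩⟩ :
    Sh1 T V)) (fun c c' h => ?_)
  · have h1 : ρ c.1 = 0 := c.2
    have h2 := congrArg Subtype.val (congrFun h1 ⟨q, hq⟩)
    rw [smul_zero, sub_zero]
    exact congrFun h2 d
  · apply Subtype.ext; apply Subtype.ext
    exact congrArg (fun z : Sh1 T V => z.1) h

end

end Fermat.Agent.CFT
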