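import Fermat.Agent.CFT.PT1
import Fermat.Agent.CFT.GWDefs

set_option autoImplicit false
set_option maxHeartbeats 400000

/-! Compatibility of local and global invariants. -/

namespace Fermat.Agent.CFT

open Finset Fermat.Agent.CFTSec Fermat.Agent.TWLocal

noncomputable section

theorem ratio_hom {D : Type*} [AddCommGroup D] {p : ℕ} [hp : Fact p.Prime] (f g : D →+ ZMod p)
    (h : ∀ x, f x = 0 ↔ g x = 0) : ∃ s : ZMod p, s ≠ 0 ∧ ∀ x, f x = s * g x := by
  by_cases hg : ∀ x, g x = 0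
  · exact ⟨1, one_ne_zero, fun x => by rw [hg x, (h x).mpr (hg x), mul_zero]⟩
  · push Not at hg
    obtain ⟨x1, hx1⟩ := hg
    have hf1 : f x1 ≠ 0 := fun h1 => hx1 ((h x1).mp h1)
    refine ⟨f x1 * (g x1)⁻¹, mul_ne_zero hf1 (inv_ne_zero hx1), fun x => ?_⟩
    set k : ZMod p := g x * (g x1)⁻¹ with hk
    have h1 : g (x - k.val • x1) = 0 := by
      rw [map_sub, map_nsmul, nsmul_eq_mul, ZMod.natCast_zmod_val, hk, mul_assoc,
        inv_mul_cancel₀ hx1, mul_one, sub_self]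
    have h2 := (h _).mpr h1
    rw [map_sub, map_nsmul, nsmul_eq_mul, ZMod.natCast_zmod_val, sub_eq_zero] at h2
    rw [h2, hk]
    ring

section maps

variable {G : Type*} [Group G] {A C : Type*} [AddCommGroup A] [DistribMulAction G A]
  [AddCommGroup C] [DistribMulAction G C] (p : ℕ)

/-- functoriality of `T2p` -/
def t2map (φ : A →+ C) (hφ : ∀ (g : G) a, φ (g • a) = g • φ a) : T2p p G A →+ T2p p G C where
  toFun x := ⟨fun g h => φ (x.1 g h), mapZ2 x.2.1 φ hφ, by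
    have h1 := mapB2 x.2.2 φ hφ
    have e : (fun g h => φ ((p • x.1) g h)) = p • (fun g h => φ (x.1 g h)) := by
      funext g h
      exact map_nsmul φ p (x.1 g h)
    rwa [e] at h1⟩
  map_zero' := Subtype.ext (by funext g h; exact map_zero φ)
  map_add' x y := Subtype.ext (by funext g h; exact map_add φ _ _)

theorem t2map_val (φ : A →+ C) (hφ : ∀ (g : G) a, φ (g • a) = g • φ a) (x : T2p p G A) :
    (t2map p φ hφ x).1 = fun g h => φ (x.1 g h) := rfl

end maps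

section res

variable (p : ℕ) (q : Nat.Primes) (N : Subgroup GQ) [hN : N.Normal]

theorem rs_Z2 {x : (GQ ⧸ N) → (GQ ⧸ N) → ↥(fix (JQ q) N)} (hx : x ∈ Z2 (GQ ⧸ N) ↥(fix (JQ q) N)) :
    (fun d d' : LG q ⧸ dN q N => evN q N (x (iotaD q N d) (iotaD q N d'))) ∈
      Z2 (LG q ⧸ dN q N) ↥(fix (LM q) (dN q N)) := by
  intro d1 d2 d3
  have h1 := congrArg (evN q N) (hx (iotaD q N d1) (iotaD q N d2) (iotaD q N d3))
  rw [map_add, map_add, evN_smul] at h1
  show evN q N _ + evN q N (x (iotaD q N (d1 * d2)) _) = _ + evN q N (x _ (iotaD q N (d2 * d3)))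
  rw [map_mul, map_mul]
  exact h1

theorem rs_B2 {x : (GQ ⧸ N) → (GQ ⧸ N) → ↥(fix (JQ q) N)} (hx : x ∈ B2 (GQ ⧸ N) ↥(fix (JQ q) N)) :
    (fun d d' : LG q ⧸ dN q N => evN q N (x (iotaD q N d) (iotaD q N d'))) ∈
      B2 (LG q ⧸ dN q N) ↥(fix (LM q) (dN q N)) := by
  obtain ⟨b, hb⟩ := hx
  refine ⟨fun d => evN q N (b (iotaD q N d)), fun d d' => ?_⟩
  show evN q N (x _ _) = evN q N _ + d • evN q N _ - evN q N (b (iotaD q N (d * d')))
  rw [hb, map_sub, map_add, evN_smul, map_mul]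

/-- restriction to the decomposition group -/
def rsT : T2p p (GQ ⧸ N) ↥(fix (JQ q) N) →+ T2p p (LG q ⧸ dN q N) ↥(fix (LM q) (dN q N)) where
  toFun x := ⟨fun d d' => evN q N (x.1 (iotaD q N d) (iotaD q N d')), rs_Z2 q N x.2.1, by
    have h1 := rs_B2 q N x.2.2
    have e : (fun d d' : LG q ⧸ dN q N => evN q N ((p • x.1) (iotaD q N d) (iotaD q N d'))) =
        p • (fun d d' : LG q ⧸ dN q N => evN q N (x.1 (iotaD q N d) (iotaD q N d'))) := by
      funext d d'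
      exact map_nsmul (evN q N) p _
    rwa [e] at h1⟩
  map_zero' := Subtype.ext (by funext d d'; exact map_zero (evN q N))
  map_add' x y := Subtype.ext (by funext d d'; exact map_add (evN q N) _ _)

/-- local inflation -/
def inT {q : ℕ} [hq : Fact q.Prime] {N : Subgroup (LG q)} [hN : N.Normal]
    (hNo : IsOpen (N : Set (LG q))) :
    T2p p (LG q ⧸ N) ↥(fix (LM q) N) →+ T2l (LG q) (LM q) p where
  toFun x := ⟨infl2 N x.1, infl2_T2l hNo x.2⟩
  map_zero' := rfl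
  map_add' _ _ := rfl

/-- the localisation map -/
def locT (hNo : IsOpen ((dN q N : Subgroup (LG q)) : Set (LG q))) :
    T2p p (GQ ⧸ N) ↥(fix (JQ q) N) →+ T2l (LG q) (LM q) p := (inT p hNo).comp (rsT p q N)

theorem locT_val (hNo : IsOpen ((dN q N : Subgroup (LG q)) : Set (LG q)))
    (x : T2p p (GQ ⧸ N) ↥(fix (JQ q) N)) (d d' : LG q) : (locT p q N hNo x).1 d d' =
      (x.1 (QuotientGroup.mk (localGaloisToGlobal (q : ℕ) d))
        (QuotientGroup.mk (localGaloisToGlobal (q : ℕ) d'))).1.1 1 := rfl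

theorem locT_ker (hNo : IsOpen ((dN q N : Subgroup (LG q)) : Set (LG q)))
    (x : T2p p (GQ ⧸ N) ↥(fix (JQ q) N)) : (locT p q N hNo x).1 ∈ B2l (LG q) (LM q) ↔
      x.1 ∈ B2 (GQ ⧸ N) ↥(fix (JQ q) N) := by
  constructor
  · intro h
    exact shap2 q N x.2.1 (inf_inj_loc hNo h)
  · intro h
    exact infl2_B2l hNo (rs_B2 q N h)

end res

section compat

variable {S : Finset Nat.Primes} {L : IntermediateField ℚ Qb} (hL : L.IsUnramifiedOutside S)
  [hLn : L.fixingSubgroup.Normal]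
  {p : ℕ} [hp : Fact p.Prime] (hp2 : 2 < p) (hpS : pP p ∈ S)
  {ζ : Qb} (hζ : IsPrimitiveRoot ζ p) (hζL : ζ ∈ L)

/-- the map to idele classes -/
def inCT (q : Nat.Primes) (hq : q ∈ S) :
    T2p p (GQ ⧸ L.fixingSubgroup) ↥(fix (JQ q) L.fixingSubgroup) →+
      T2p p (GQ ⧸ L.fixingSubgroup) ↥(fix (Cm S) L.fixingSubgroup) :=
  t2map p (inC hL q hq) (inC_smul hL q hq)

include hζ hζL in
/-- **compatible local invariants** -/
theorem exists_local_inv (q : Nat.Primes) (hq : q ∈ S) {m c : ℕ}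
    {a : ↥(fix (JQ q) (⊤ : Subgroup GQ))} (hgood : rS m hp2 hpS (sgl q hq (c • a)) ≠ 0)
    (hord : ∀ t : LG q, ((p * c : ℕ) : ZMod (p ^ m)) * ch m hp2 (localGaloisToGlobal (q : ℕ) t) = 0)
    (hE : L.fixingSubgroup ≤ (EF m hp2).fixingSubgroup)
    (hNo : IsOpen ((dN q L.fixingSubgroup : Subgroup (LG q)) : Set (LG q)))
    (Iv : ↥(T2p p (GQ ⧸ L.fixingSubgroup) ↥(fix (Cm S) L.fixingSubgroup)) →+ ZMod p)
    (hIv : ∀ x, Iv x = 0 ↔ x.1 ∈ B2 (GQ ⧸ L.fixingSubgroup) ↥(fix (Cm S) L.fixingSubgroup)) :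
    ∃ I : T2l (LG q) (LM q) p →+ ZMod p, (∀ x, I x = 0 ↔ x.1 ∈ B2l (LG q) (LM q)) ∧
      ∀ y, Iv (inCT hL q hq y) = I (locT p q L.fixingSubgroup hNo y) := by
  obtain ⟨I, hI⟩ := exists_inv_LG (q : ℕ) p
  obtain ⟨s, hs, h⟩ := ratio_hom (Iv.comp (inCT hL (p := p) q hq))
    (I.comp (locT p q L.fixingSubgroup hNo)) (fun y => by
      show Iv _ = 0 ↔ I _ = 0
      rw [hIv, hI, locT_ker]
      constructor
      · intro h
        exact local_global_inj hL hp2 hpS hζ hζL q hq hgood hord hE y.2.1 y.2.2 h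
      · intro h
        exact mapB2 h (inC hL q hq) (inC_smul hL q hq))
  refine ⟨(AddMonoidHom.mulLeft s).comp I, fun x => ?_, fun y => h y⟩
  rw [← hI]
  show s * I x = 0 ↔ _
  exact ⟨fun h1 => (mul_eq_zero.mp h1).resolve_left hs, fun h1 => by rw [h1, mul_zero]⟩

end compat

end

end Fermat.Agent.CFT
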