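import Fermat.Agent.CFT.PT2

set_option autoImplicit false
set_option maxHeartbeats 400000

/-! The local cup product. -/

namespace Fermat.Agent.CFT

open Finset Fermat.Agent.CFTSec Fermat.Agent.TWLocal

noncomputable section

section zl

variable {p : ℕ} [hp : Fact p.Prime] {ζ : Qb} (hζ : IsPrimitiveRoot ζ p) (q : Nat.Primes)

/-- the local root of unity -/
def zl : ZMod p →+ LM q := TWLocal.zq (ζ := padicEmbedding q ζ)
  (hζ.map_of_injective (f := (padicEmbedding q : Qb →+* PadicAlgCl (q : ℕ)))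
      (padicEmbedding q : Qb →+* PadicAlgCl (q : ℕ)).injective)

theorem zl_val (a : ZMod p) : ((zl hζ q a).toMul : PadicAlgCl (q : ℕ)) = padicEmbedding q ζ ^ a.val :=
  TWLocal.el_zq _ a

theorem zl_inj : Function.Injective (zl hζ q) := TWLocal.zq_inj _

theorem zl_tors (c : LM q) (hc : p • c = 0) : ∃ t, zl hζ q t = c := TWLocal.zq_tors _ c hc

theorem zl_smul (t : LG q) (c : ZMod p) (hc : localGaloisToGlobal (q : ℕ) t ζ = ζ ^ c.val)
    (a : ZMod p) : t • zl hζ q a = zl hζ q (c * a) := by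
  refine congrArg Additive.ofMul (Units.ext ?_)
  have h1 : t (padicEmbedding q ζ) = padicEmbedding q (localGaloisToGlobal (q : ℕ) t ζ) :=
    (padicEmbedding_localGaloisToGlobal (q : ℕ) t ζ).symm
  show t ((zl hζ q a).toMul : PadicAlgCl (q : ℕ)) = ((zl hζ q (c * a)).toMul : PadicAlgCl (q : ℕ))
  rw [zl_val, zl_val, map_pow, h1, hc, map_pow, ← pow_mul]
  have h2 : IsPrimitiveRoot (padicEmbedding q ζ) p :=
    hζ.map_of_injective (f := (padicEmbedding q : Qb →+* PadicAlgCl (q : ℕ)))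
      (padicEmbedding q : Qb →+* PadicAlgCl (q : ℕ)).injective
  rw [← pow_mod_orderOf (padicEmbedding q ζ) (c.val * a.val), ← h2.eq_orderOf, ZMod.val_mul]

theorem zl_peQ {S : Finset Nat.Primes} {L : IntermediateField ℚ Qb}
    (hL : L.IsUnramifiedOutside S) (hζL : ζ ∈ L) (a : ZMod p) :
    peQ S q (zQ hL hζ hζL a) = zl hζ q a := by
  refine congrArg Additive.ofMul (Units.ext ?_)
  show padicEmbedding q ((zQ hL hζ hζL a).1.toMul : Qb) = ((zl hζ q a).toMul : PadicAlgCl (q : ℕ))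
  rw [zQ_val, zl_val, map_pow]

end zl

section cup

variable {p : ℕ} [hp : Fact p.Prime] {ζ : Qb} (hζ : IsPrimitiveRoot ζ p) (q : Nat.Primes)
  {V W : Type*} [AddCommGroup V] [AddCommGroup W] [DistribMulAction GQ V] [DistribMulAction GQ W]
  {B : V →+ W →+ ZMod p} (hB : PData p ζ B)

include hB in
theorem zl_equi (t : LG q) (v : V) (w : W) :
    zl hζ q (B (localGaloisToGlobal (q : ℕ) t • v) (localGaloisToGlobal (q : ℕ) t • w)) =
      t • zl hζ q (B v w) := by
  obtain ⟨i, hi1, hi⟩ := hζ.eq_pow_of_pow_eq_one (ξ := localGaloisToGlobal (q : ℕ) t ζ) (by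
    rw [← map_pow, hζ.pow_eq_one, map_one])
  have hc : localGaloisToGlobal (q : ℕ) t ζ = ζ ^ ((i : ZMod p)).val := by
    rw [ZMod.val_natCast_of_lt hi1, hi]
  rw [zl_smul hζ q t _ hc, ← hB.equi _ _ hc]

theorem zl_add_left (v v' : V) (w : W) :
    zl hζ q (B (v + v') w) = zl hζ q (B v w) + zl hζ q (B v' w) := by
  rw [map_add, AddMonoidHom.add_apply, map_add]

theorem zl_add_right (v : V) (w w' : W) :
    zl hζ q (B v (w + w')) = zl hζ q (B v w) + zl hζ q (B v w') := by
  rw [map_add, map_add]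

theorem zl_sub_left (v v' : V) (w : W) :
    zl hζ q (B (v - v') w) = zl hζ q (B v w) - zl hζ q (B v' w) := by
  rw [map_sub, AddMonoidHom.sub_apply, map_sub]

theorem zl_sub_right (v : V) (w w' : W) :
    zl hζ q (B v (w - w')) = zl hζ q (B v w) - zl hζ q (B v w') := by
  rw [map_sub, map_sub]

/-- the cup product cochain -/
def cupF (B : V →+ W →+ ZMod p) (x : LG q → W) (c : LG q → V) : LG q → LG q → LM q :=
  fun d d' => zl hζ q (B (localGaloisToGlobal (q : ℕ) d • c d') (x d))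

/-- discreteness of the local action -/
def OpK (V : Type*) [AddCommGroup V] [DistribMulAction GQ V] : Prop :=
  ∃ N : Subgroup (LG q), IsOpen (N : Set (LG q)) ∧ ∀ n ∈ N, ∀ v : V,
    localGaloisToGlobal (q : ℕ) n • v = v

variable {q}

theorem cupF_LC2 (hV : OpK q V) {x : LG q → W} {c : LG q → V} (hx : LC1 x) (hc : LC1 c) :
    LC2 (cupF hζ q B x c) := by
  obtain ⟨N1, hN1, h1⟩ := hV
  obtain ⟨N2, hN2, h2⟩ := hx
  obtain ⟨N3, hN3, h3⟩ := hc
  refine ⟨N1 ⊓ N2 ⊓ N3, open_inf (open_inf hN1 hN2) hN3, fun g h n hn m hm => ?_⟩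
  show zl hζ q (B (localGaloisToGlobal (q : ℕ) (g * n) • c (h * m)) (x (g * n))) = _
  rw [h2 g n hn.1.2, h3 h m hm.2, map_mul, mul_smul, h1 n hn.1.1]
  rfl

include hB in
theorem cupF_Z2 {x : LG q → W} {c : LG q → V}
    (hx : ∀ d d', x (d * d') = x d + localGaloisToGlobal (q : ℕ) d • x d')
    (hc : ∀ d d', c (d * d') = c d + localGaloisToGlobal (q : ℕ) d • c d') :
    cupF hζ q B x c ∈ Z2 (LG q) (LM q) := by
  intro g h k
  show zl hζ q (B (localGaloisToGlobal (q : ℕ) g • c h) (x g)) +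
      zl hζ q (B (localGaloisToGlobal (q : ℕ) (g * h) • c k) (x (g * h))) =
    g • zl hζ q (B (localGaloisToGlobal (q : ℕ) h • c k) (x h)) +
      zl hζ q (B (localGaloisToGlobal (q : ℕ) g • c (h * k)) (x g))
  rw [← zl_equi hζ q hB, hx, hc, smul_add, map_mul, mul_smul, zl_add_right, zl_add_left]
  abel

theorem p_zl (a : ZMod p) : p • zl hζ q a = 0 := by
  rw [← map_nsmul, nsmul_eq_mul, CharP.cast_eq_zero, zero_mul, map_zero]

include hB in
theorem cupF_T2l (hV : OpK q V) {x : LG q → W} {c : LG q → V} (hx : x ∈ Z1q q W)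
    (hc : c ∈ Z1q q V) : cupF hζ q B x c ∈ T2l (LG q) (LM q) p :=
  ⟨⟨cupF_Z2 hζ hB hx.1 hc.1, cupF_LC2 hζ hV hx.2 hc.2⟩, by
    have e : p • cupF hζ q B x c = 0 := by
      funext d d'
      exact p_zl hζ _
    rw [e]
    exact (B2l _ _).zero_mem⟩

/-- the cup product -/
def cupq (hB : PData p ζ B) (hV : OpK q V) : Z1q q W →+ Z1q q V →+ T2l (LG q) (LM q) p :=
  AddMonoidHom.mk' (fun x => AddMonoidHom.mk' (fun c => ⟨_, cupF_T2l hζ hB hV x.2 c.2⟩)
    (fun c c' => Subtype.ext (by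
      funext d d'
      show zl hζ q (B (_ • (c.1 d' + c'.1 d')) (x.1 d)) = zl hζ q (B (_ • (c.1 d')) (x.1 d)) +
        zl hζ q (B (_ • (c'.1 d')) (x.1 d))
      rw [smul_add, zl_add_left])))
    (fun x x' => AddMonoidHom.ext fun c => Subtype.ext (by
      funext d d'
      show zl hζ q (B (_ • (c.1 d')) (x.1 d + x'.1 d)) = zl hζ q (B (_ • (c.1 d')) (x.1 d)) +
        zl hζ q (B (_ • (c.1 d')) (x'.1 d))
      rw [zl_add_right]))

theorem cupq_val (hV : OpK q V) (x : Z1q q W) (c : Z1q q V) :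
    (cupq hζ hB hV x c).1 = cupF hζ q B x.1 c.1 := rfl

/-- the orthogonality relation is vanishing of the cup product -/
theorem orth_iff (hV : OpK q V) (x : Z1q q W) (c : Z1q q V) :
    Orth B q x.1 c.1 ↔ (cupq hζ hB hV x c).1 ∈ B2l (LG q) (LM q) := by
  constructor
  · intro h
    exact h (zl hζ q)
  · intro h z
    obtain ⟨t, ht⟩ := zl_tors hζ q (z 1) (by rw [← map_nsmul, nsmul_eq_mul, CharP.cast_eq_zero, zero_mul, map_zero])
    have hz : ∀ a, z a = t.val • zl hζ q a := by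
      intro a
      have h1 : a = a.val • (1 : ZMod p) := by rw [nsmul_eq_mul, ZMod.natCast_zmod_val, mul_one]
      have h2 : t = t.val • (1 : ZMod p) := by rw [nsmul_eq_mul, ZMod.natCast_zmod_val, mul_one]
      rw [h1, map_nsmul, ← ht, map_nsmul]
      conv_lhs => rw [h2, map_nsmul]
      rw [smul_comm]
    have e : (fun d d' => z (B (localGaloisToGlobal (q : ℕ) d • c.1 d') (x.1 d))) =
        t.val • (cupq hζ hB hV x c).1 := by
      funext d d'
      exact hz _
    rw [e]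
    exact (B2l _ _).nsmul_mem h _

include hB in
/-- coboundaries in the first argument -/
theorem cupF_cob_left {c : LG q → V}
    (hc : ∀ d d', c (d * d') = c d + localGaloisToGlobal (q : ℕ) d • c d') (hlc : LC1 c) (u : W) :
    cupF hζ q B (fun d => localGaloisToGlobal (q : ℕ) d • u - u) c ∈ B2l (LG q) (LM q) := by
  refine ⟨fun d => zl hζ q (B (c d) u), hlc.comp (fun v => zl hζ q (B v u)), fun d d' => ?_⟩
  show zl hζ q (B (localGaloisToGlobal (q : ℕ) d • c d')
    (localGaloisToGlobal (q : ℕ) d • u - u)) = zl hζ q (B (c d) u) + d • zl hζ q (B (c d') u) -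
      zl hζ q (B (c (d * d')) u)
  rw [← zl_equi hζ q hB, hc, zl_add_left, zl_sub_right]
  abel

include hB in
/-- coboundaries in the second argument -/
theorem cupF_cob_right (hV : OpK q V) {x : LG q → W}
    (hx : ∀ d d', x (d * d') = x d + localGaloisToGlobal (q : ℕ) d • x d') (hlx : LC1 x) (v : V) :
    cupF hζ q B x (fun d => localGaloisToGlobal (q : ℕ) d • v - v) ∈ B2l (LG q) (LM q) := by
  have hdv : LC1 (fun d : LG q => localGaloisToGlobal (q : ℕ) d • v) := by
    obtain ⟨N, hN, h⟩ := hV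
    exact ⟨N, hN, fun g n hn => by
      show localGaloisToGlobal (q : ℕ) (g * n) • v = _
      rw [map_mul, mul_smul, h n hn]⟩
  refine ⟨fun d => - zl hζ q (B (localGaloisToGlobal (q : ℕ) d • v) (x d)),
    hdv.map₂ hlx (fun a b => - zl hζ q (B a b)), fun d d' => ?_⟩
  show zl hζ q (B (localGaloisToGlobal (q : ℕ) d • (localGaloisToGlobal (q : ℕ) d' • v - v)) (x d)) =
    - zl hζ q (B (localGaloisToGlobal (q : ℕ) d • v) (x d)) +
      d • (- zl hζ q (B (localGaloisToGlobal (q : ℕ) d' • v) (x d'))) -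
      (- zl hζ q (B (localGaloisToGlobal (q : ℕ) (d * d') • v) (x (d * d'))))
  rw [smul_neg, ← zl_equi hζ q hB, hx, smul_sub, zl_sub_left, map_mul, mul_smul, zl_add_right]
  abel

/-- anticommutativity -/
theorem cupF_comm (hBf : PData p ζ B) {x : LG q → W} {c : LG q → V}
    (hx : ∀ d d', x (d * d') = x d + localGaloisToGlobal (q : ℕ) d • x d')
    (hc : ∀ d d', c (d * d') = c d + localGaloisToGlobal (q : ℕ) d • c d')
    (hlx : LC1 x) (hlc : LC1 c) :
    cupF hζ q B x c + cupF hζ q B.flip c x ∈ B2l (LG q) (LM q) := by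
  refine ⟨fun d => - zl hζ q (B (c d) (x d)), hlc.map₂ hlx (fun a b => - zl hζ q (B a b)),
    fun d d' => ?_⟩
  show zl hζ q (B (localGaloisToGlobal (q : ℕ) d • c d') (x d)) +
    zl hζ q (B (c d) (localGaloisToGlobal (q : ℕ) d • x d')) =
    - zl hζ q (B (c d) (x d)) + d • (- zl hζ q (B (c d') (x d'))) -
      (- zl hζ q (B (c (d * d')) (x (d * d'))))
  rw [smul_neg, ← zl_equi hζ q hBf, hx, hc, zl_add_left, zl_add_right, zl_add_right]
  abel

end cup

end

end Fermat.Agent.CFT
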