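import Fermat.Agent.CFT.PT3
import Fermat.Agent.CFT.EMain2

set_option autoImplicit false
set_option maxHeartbeats 400000

/-! Extension of idele class valued homomorphisms. -/

namespace Fermat.Agent.CFT

open Finset Fermat.Agent.CFTSec Fermat.Agent.TWLocal

noncomputable section

section principal

variable {S : Finset Nat.Primes} {L : IntermediateField ℚ Qb} [hLn : L.fixingSubgroup.Normal]
  {I : Type*} [Fintype I] {p : ℕ} [hp : Fact p.Prime]
  {R : AddSubgroup (PM (GI (GQ ⧸ L.fixingSubgroup) I))} [hR : Stab (GQ ⧸ L.fixingSubgroup) R]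

/-- from idele class homomorphisms to principal ones -/
theorem exists_principal (hpS : pP p ∈ S) (hL : L.IsUnramifiedOutside S) (hpR : ∀ f, p • f ∈ R)
    {ψ : R →+ Jm S} (hψ1 : ∀ (g : GQ) r, ψ (prL L g • r) = g • ψ r) (hψ2 : ∀ r, (ψ r).1.2 = 0)
    {θ : PM (GI (GQ ⧸ L.fixingSubgroup) I) →+ Cm S}
    (hθ1 : ∀ (g : GQ) f, θ (prL L g • f) = g • θ f) (hθ2 : ∀ r : R, toC S (ψ r) = θ r.1) :
    ∃ (Θ : PM (GI (GQ ⧸ L.fixingSubgroup) I) →+ Jm S)
      (k' : HM (prL L) (PM (GI (GQ ⧸ L.fixingSubgroup) I)) (QS S)),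
      (∀ (g : GQ) f, Θ (prL L g • f) = g • Θ f) ∧ (∀ r : R, diag S (k' r.1) = ψ r - Θ r.1) ∧
      LevC S (fun g : GQ => g • k' - k') ∧ ∀ (g : GQ) (r : R), (g • k' - k') r.1 = 0 := by
  classical
  haveI := hL.1
  haveI : L.fixingSubgroup.FiniteIndex := finiteIndex_fixingSubgroup L
  haveI : Finite (GQ ⧸ L.fixingSubgroup) := Subgroup.finite_quotient_of_finiteIndex
  haveI : Fintype (GQ ⧸ L.fixingSubgroup) := Fintype.ofFinite _
  have hS : S.Nonempty := ⟨_, hpS⟩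
  -- lift θ
  have hlift : ∀ i : I, ∃ j ∈ fix (Jm S) L.fixingSubgroup, toC S j = θ (dl (gi 1 i)) := by
    intro i
    refine exists_fix_lift hS hL (fun g hg => ?_)
    rw [← hθ1]
    have : prL L g = 1 := (QuotientGroup.eq_one_iff g).mpr hg
    rw [this, one_smul]
  choose j hj hjθ using hlift
  obtain ⟨Θ, hΘ1, hΘ2⟩ := exists_fh j hj
  have hΘθ : ∀ f, toC S (Θ f) = θ f := by
    intro f
    refine pm_hom_ext' (φ := (toC S).comp Θ) (ψ := θ) (fun x => ?_) f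
    show toC S (Θ (dl x)) = θ (dl x)
    obtain ⟨g, hg⟩ := QuotientGroup.mk_surjective x.1
    have hx : dl x = (g : GQ ⧸ L.fixingSubgroup) • dl (gi 1 x.2) := by rw [hg]; exact dl_eq_smul x
    rw [hx, hΘ1, toC_smul, hΘ2, hjθ]
    exact (hθ1 g _).symm
  -- the difference is principal
  have hker : ∀ r : R, ∃ k : QS S, diag S k = ψ r - Θ r.1 := by
    intro r
    rw [← toC_eq_zero, map_sub, hθ2, hΘθ, sub_self]
  choose κ hκ using hker
  let κh : R →+ QS S := AddMonoidHom.mk' κ (fun r r' => by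
    apply diag_injective hS
    rw [map_add, hκ, hκ, hκ, map_add]
    show (ψ r + ψ r') - Θ (r.1 + r'.1) = _
    rw [map_add]; abel)
  have hκh : ∀ r, diag S (κh r) = ψ r - Θ r.1 := hκ
  have hκb : ∀ g r, g • κh ((prL L g)⁻¹ • r) = κh r := by
    intro g r
    apply diag_injective hS
    rw [diag_smul, hκh, hκh]
    have e1 : g • ψ ((prL L g)⁻¹ • r) = ψ r := by rw [← hψ1, smul_inv_smul]
    have e2 : g • Θ (((prL L g)⁻¹ • r : R)).1 = Θ r.1 := by
      show g • Θ ((prL L g)⁻¹ • r.1) = Θ r.1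
      rw [← hΘ1]
      show Θ (prL L g • (prL L g)⁻¹ • r.1) = Θ r.1
      rw [smul_inv_smul]
    rw [smul_sub, e1, e2]
  -- divisibility
  have hdiv : ∀ x, ∃ a : QS S, p • a = κh ⟨p • dl x, hpR _⟩ := by
    intro x
    have h5 : divQ (κh ⟨p • dl x, hpR _⟩) = p • (- (Θ (dl x)).1.2) := by
      have h6 : divQ (κh ⟨p • dl x, hpR _⟩) = (diag S (κh ⟨p • dl x, hpR _⟩)).1.2 := rfl
      rw [h6, hκh]
      show (ψ ⟨p • dl x, hpR _⟩).1.2 - (Θ (p • dl x)).1.2 = _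
      rw [hψ2, zero_sub, map_nsmul, smul_neg]
      rfl
    obtain ⟨a, ha, -⟩ := exists_root_of_div hpS _ _ h5
    exact ⟨a, ha⟩
  obtain ⟨κ', hκ'⟩ := exists_ext_div hpR κh hdiv
  let k' : HM (prL L) (PM (GI (GQ ⧸ L.fixingSubgroup) I)) (QS S) := κ'
  -- level of κ'
  have hlev : ∃ E' : IntermediateField ℚ Qb, E'.IsUnramifiedOutside S ∧
      ∀ x, κ' (dl x) ∈ fix (QS S) E'.fixingSubgroup := by
    have := fun x => exists_field_mem (κ' (dl x))
    choose E' hE' hE'm using this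
    refine ⟨⨆ x, E' x, IsUnramifiedOutside.iSup hE', fun x => ?_⟩
    refine fix_mono (IntermediateField.fixingSubgroup_antitone (le_iSup E' x)) ?_
    intro g hg
    exact Subtype.ext ((mem_fix_of_mem _).mpr (hE'm x) g hg)
  obtain ⟨E', hE', hκE⟩ := hlev
  have hκfix : ∀ s ∈ E'.fixingSubgroup, ∀ f, s • κ' f = κ' f := by
    intro s hs f
    exact pm_hom_ext' (φ := (DistribSMul.toAddMonoidHom (QS S) s).comp κ') (ψ := κ')
      (fun x => hκE x s hs) f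
  refine ⟨Θ, k', hΘ1, fun r => ?_, ⟨E' ⊔ L, hE'.sup hL, fun g s hs => ?_⟩, fun g r => ?_⟩
  · show diag S (κ' r.1) = _
    rw [hκ', hκh]
  · have hs2 : s ∈ E'.fixingSubgroup := IntermediateField.fixingSubgroup_antitone le_sup_left hs
    have hs3 : s ∈ L.fixingSubgroup := IntermediateField.fixingSubgroup_antitone le_sup_right hs
    have h6 : s • k' = k' := by
      apply HM.ext
      intro f
      show s • κ' ((prL L s)⁻¹ • f) = κ' f
      have : prL L s = 1 := (QuotientGroup.eq_one_iff s).mpr hs3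
      rw [this, inv_one, one_smul, hκfix s hs2]
    show (g * s) • k' - k' = g • k' - k'
    rw [mul_smul, h6]
  · show g • κ' ((prL L g)⁻¹ • r.1) - κ' r.1 = 0
    have h6 : κ' ((prL L g)⁻¹ • r.1) = κh ((prL L g)⁻¹ • r) := hκ' ((prL L g)⁻¹ • r)
    rw [h6, hκ', hκb, sub_self]

end principal

section ext

variable {p : ℕ} [hp : Fact p.Prime] (hp2 : 2 < p) {S : Finset Nat.Primes} (hpS : pP p ∈ S)
  {K L : IntermediateField ℚ Qb} (hL : L.IsUnramifiedOutside S) [hLn : L.fixingSubgroup.Normal]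
  {ζ : Qb} (hζ : IsPrimitiveRoot ζ p) (hζL : ζ ∈ L)
  {I : Type*} [Fintype I] {R : AddSubgroup (PM (GI (GQ ⧸ L.fixingSubgroup) I))}
  [hR : Stab (GQ ⧸ L.fixingSubgroup) R]

/-- homomorphisms orthogonal to all cocycles extend -/
theorem ext_of_pair [Finite (PM (GI (GQ ⧸ L.fixingSubgroup) I) ⧸ R)] (hpR : ∀ f, p • f ∈ R)
    {u : (GQ ⧸ L.fixingSubgroup) → (GQ ⧸ L.fixingSubgroup) → ↥(fix (Cm S) L.fixingSubgroup)}
    [Finite (GQ ⧸ L.fixingSubgroup)]
    (hH : ∀ h ∈ HK K L, ∀ f : PM (GI (GQ ⧸ L.fixingSubgroup) I), h • f - f ∈ R)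
    (htr : ∀ (hfin : Fintype (HK K L)) (c : ↥(fix (Cm S) L.fixingSubgroup)),
      ∃ a ∈ fix (Cm S) K.fixingSubgroup, (∑ h : HK K L, h • c).1 = p • a)
    (hKL : K ≤ L)
    (hu : CFLayer p (GQ ⧸ L.fixingSubgroup) ↥(fix (Cm S) L.fixingSubgroup) u)
    (φ : R →+ ↥(fix (Cm S) L.fixingSubgroup))
    (hφ : ∀ (g : GQ ⧸ L.fixingSubgroup) (r : R), φ (g • r) = g • φ r)
    (hpair : ∀ (c : (GQ ⧸ L.fixingSubgroup) → PM (GI (GQ ⧸ L.fixingSubgroup) I))
      (hc : ∀ g h, dd c g h ∈ R), (fun g h => φ (rr c hc g h)) ∈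
        B2 (GQ ⧸ L.fixingSubgroup) ↥(fix (Cm S) L.fixingSubgroup)) :
    ∃ θ : PM (GI (GQ ⧸ L.fixingSubgroup) I) →+ ↥(fix (Cm S) L.fixingSubgroup),
      (∀ (g : GQ ⧸ L.fixingSubgroup) f, θ (g • f) = g • θ f) ∧ ∀ r : R, φ r = θ r.1 := by
  classical
  haveI : Fintype (GQ ⧸ L.fixingSubgroup) := Fintype.ofFinite _
  haveI : Fintype (HK K L) := Fintype.ofFinite _
  obtain ⟨e, he⟩ := exists_pr_gi (I := I) (MonoidHom.id (GQ ⧸ L.fixingSubgroup))
    Function.injective_id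
  have he' : ∀ f : PM (GI (GQ ⧸ L.fixingSubgroup) I),
      ∑ x : GQ ⧸ L.fixingSubgroup, x • e (x⁻¹ • f) = f := he
  obtain ⟨m, hm, γ, hγ⟩ := T2 hu hpR e he' φ hφ hpair
  obtain ⟨ψ, hψ1, hψ2, θ, hθ1, hθ2⟩ := norm_decomp hpR (fixToC L S) (fun g j => fixToC_smul g j)
    ⊥ (fun g j hj => by
      rw [AddSubgroup.mem_bot] at hj ⊢
      rw [hj, smul_zero]) (HK K L) hH
    (fun c => by
      obtain ⟨a, ha, haj⟩ := htr inferInstance c
      have hle : L.fixingSubgroup ≤ K.fixingSubgroup :=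
        IntermediateField.fixingSubgroup_antitone hKL
      refine ⟨⟨a, fix_mono hle ha⟩, ?_, 0, (fix _ _).zero_mem, AddSubgroup.zero_mem _, ?_⟩
      · rintro h ⟨k, hk, rfl⟩
        exact Subtype.ext (ha k hk)
      · rw [map_zero, add_zero]
        exact Subtype.ext haj) γ
  have h1 : m • φ ∈ JJg (GQ ⧸ L.fixingSubgroup) R (fixToC L S) ⊥ := by
    refine ⟨ψ, hψ1, hψ2, θ, hθ1, fun r => ?_⟩
    rw [← hθ2 r, ← hγ r]; rfl
  have h2 : p • φ ∈ JJg (GQ ⧸ L.fixingSubgroup) R (fixToC L S) ⊥ := by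
    refine ⟨0, fun g r => (smul_zero g).symm, fun r => AddSubgroup.zero_mem _,
      AddMonoidHom.mk' (fun f => φ ⟨p • f, hpR f⟩) (fun f f' => ?_), fun g f => ?_, fun r => ?_⟩
    · rw [← map_add]
      congr 1
      exact Subtype.ext (smul_add _ _ _)
    · show φ ⟨p • g • f, hpR _⟩ = g • φ ⟨p • f, hpR f⟩
      rw [← hφ]
      exact congrArg φ (Subtype.ext (smul_comm p g f))
    · show p • φ r = fixToC L S 0 + φ ⟨p • r.1, _⟩
      rw [map_zero, zero_add, ← map_nsmul]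
      rfl
  obtain ⟨ψ', -, hψ2', θ', hθ1', hθ2'⟩ := mem_of_coprime_nsmul _
    ((Nat.Prime.coprime_iff_not_dvd hp.out).mpr hm).symm h1 h2
  refine ⟨θ', hθ1', fun r => ?_⟩
  have h3 : ψ' r = 0 := AddSubgroup.mem_bot.mp (hψ2' r)
  rw [hθ2', h3, map_zero, zero_add]

end ext

end

end Fermat.Agent.CFT
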