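import Fermat.Agent.CFT.PT4

set_option autoImplicit false
set_option maxHeartbeats 400000

/-! The middle part of the Poitou-Tate sequence: fixed level. -/

namespace Fermat.Agent.CFT

open Finset Fermat.Agent.CFTSec Fermat.Agent.TWLocal

noncomputable section

/-- restriction of global cocycles -/
def resS (S : Finset Nat.Primes) (q : Nat.Primes) (V : Type*) [AddCommGroup V]
    [DistribMulAction GQ V] : Z1S S V →+ Z1q q V where
  toFun c := ⟨fun d => c.1 (localGaloisToGlobal (q : ℕ) d), fun d d' => by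
      show c.1 (localGaloisToGlobal (q : ℕ) (d * d')) = _
      rw [map_mul]; exact c.2.1 _ _, by
      obtain ⟨E, hE, h⟩ := c.2.2
      haveI := hE.1
      exact LC1_of_locLev ⟨E, hE.1, fun d s hs => by
        show c.1 (localGaloisToGlobal (q : ℕ) (d * s)) = _
        rw [map_mul]; exact h _ _ hs⟩⟩
  map_zero' := rfl
  map_add' _ _ := rfl

theorem resS_val {S : Finset Nat.Primes} {q : Nat.Primes} {V : Type*} [AddCommGroup V]
    [DistribMulAction GQ V] (c : Z1S S V) (d : LG q) :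
    (resS S q V c).1 d = c.1 (localGaloisToGlobal (q : ℕ) d) := rfl

section main

variable {p : ℕ} [hp : Fact p.Prime] {S : Finset Nat.Primes}
  {L : IntermediateField ℚ Qb} (hL : L.IsUnramifiedOutside S) [hLn : L.fixingSubgroup.Normal]
  {ζ : Qb} (hζ : IsPrimitiveRoot ζ p) (hζL : ζ ∈ L)
  {V W : Type*} [AddCommGroup V] [AddCommGroup W] [DistribMulAction GQ V] [DistribMulAction GQ W]
  {B : V →+ W →+ ZMod p} (hB : PData p ζ B)
  {F : Type*} [AddCommGroup F] [DistribMulAction (GQ ⧸ L.fixingSubgroup) F]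
  (π : F →+ V) (hπ : ∀ (g : GQ) f, π (prL L g • f) = g • π f)
  {R : AddSubgroup F} [hR : Stab (GQ ⧸ L.fixingSubgroup) R] (hRπ : ∀ f, f ∈ R ↔ π f = 0)

theorem pushq_jG (q : Nat.Primes) (w : W) (f : F) :
    pushq q (jG hL hζ hζL B π w : HM (prL L) F (QS S)) f = zl hζ q (B (π f) w) :=
  zl_peQ hζ q hL hζL _

include hB hπ in
/-- a local cocycle gives a cocycle in the homomorphism module -/
theorem loc_Z1 (q : Nat.Primes) {w : LG q → W}
    (hw : ∀ d d', w (d * d') = w d + localGaloisToGlobal (q : ℕ) d • w d') :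
    (fun d => pushq q (jG hL hζ hζL B π (w d) : HM (prL L) F (QS S))) ∈
      Z1 (LG q) (HM (piq q L) F (LM q)) := by
  intro d d'
  show pushq q (jG hL hζ hζL B π (w (d * d')) : HM (prL L) F (QS S)) = _
  rw [hw, map_add, map_add, jG_smul hL hζ hζL hB π hπ, pushq_smul]

section fixk

variable {q : Nat.Primes} {w : LG q → W} {k : HM (piq q L) F (LM q)}
  (hk : ∀ d, pushq q (jG hL hζ hζL B π (w d) : HM (prL L) F (QS S)) = d • k - k)

include hk in
theorem k_spec (d : LG q) (f : F) :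
    zl hζ q (B (π f) (w d)) = d • k ((piq q L d)⁻¹ • f) - k f := by
  rw [← pushq_jG hL hζ hζL, hk]
  rfl

include hk hRπ in
theorem k_equi (d : LG q) (r : R) : k ((piq q L d • r : R)).1 = d • k r.1 := by
  have h1 := k_spec hL hζ hζL π hk d (piq q L d • r : R).1
  rw [(hRπ _).mp (piq q L d • r : R).2] at h1
  have h2 : (piq q L d)⁻¹ • (piq q L d • r : R).1 = r.1 := by
    show (piq q L d)⁻¹ • piq q L d • r.1 = r.1
    rw [inv_smul_smul]
  rw [h2, map_zero, AddMonoidHom.zero_apply, map_zero] at h1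
  exact (sub_eq_zero.mp h1.symm).symm

/-- the restriction of `k` to the relations -/
def phiK (hRπ : ∀ f, f ∈ R ↔ π f = 0)
    (hk : ∀ d, pushq q (jG hL hζ hζL B π (w d) : HM (prL L) F (QS S)) = d • k - k) :
    R →+ ↥(fix (LM q) (dN q L.fixingSubgroup)) where
  toFun r := ⟨k r.1, fun n hn => by
    rw [← k_equi hL hζ hζL π hRπ hk]
    have h1 : piq q L n = 1 := (QuotientGroup.eq_one_iff _).mpr hn
    rw [h1, one_smul]⟩
  map_zero' := Subtype.ext (map_zero k)
  map_add' r r' := Subtype.ext (map_add k r.1 r'.1)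

theorem phiK_val (r : R) : (phiK hL hζ hζL π hRπ hk r).1 = k r.1 := rfl

theorem phiK_smul (d : LG q ⧸ dN q L.fixingSubgroup) (r : R) :
    phiK hL hζ hζL π hRπ hk (iotaD q L.fixingSubgroup d • r) = d • phiK hL hζ hζL π hRπ hk r := by
  induction d using QuotientGroup.induction_on with
  | H d => exact Subtype.ext (k_equi hL hζ hζL π hRπ hk d r)

/-- the co-extension -/
def psiK (hRπ : ∀ f, f ∈ R ↔ π f = 0)
    (hk : ∀ d, pushq q (jG hL hζ hζL B π (w d) : HM (prL L) F (QS S)) = d • k - k) :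
    R →+ ↥(fix (JQ q) L.fixingSubgroup) :=
  coHom q L.fixingSubgroup (phiK hL hζ hζL π hRπ hk) (phiK_smul hL hζ hζL π hRπ hk)

theorem psiK_smul (g : GQ ⧸ L.fixingSubgroup) (r : R) :
    psiK hL hζ hζL π hRπ hk (g • r) = g • psiK hL hζ hζL π hRπ hk r :=
  coHom_smul _ _ _ _ g r

theorem psiK_ev (r : R) : (psiK hL hζ hζL π hRπ hk r).1.1 1 = k r.1 :=
  congrArg Subtype.val (coHom_ev q L.fixingSubgroup (phiK hL hζ hζL π hRπ hk)
    (phiK_smul hL hζ hζL π hRπ hk) r)

/-- the key local identity -/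
theorem loc_identity (hNo : IsOpen ((dN q L.fixingSubgroup : Subgroup (LG q)) : Set (LG q)))
    (hπ : ∀ (g : GQ) f, π (prL L g • f) = g • π f)
    (hpR : ∀ f, p • f ∈ R) (c : (GQ ⧸ L.fixingSubgroup) → F) (hc : ∀ g h, dd c g h ∈ R)
    (y : T2p p (GQ ⧸ L.fixingSubgroup) ↥(fix (JQ q) L.fixingSubgroup))
    (hy : y.1 = fun g h => psiK hL hζ hζL π hRπ hk (rr c hc g h)) :
    (locT p q L.fixingSubgroup hNo y).1 +
      cupF hζ q B w (fun d => π (c (prL L (localGaloisToGlobal (q : ℕ) d)))) ∈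
      B2l (LG q) (LM q) := by
  refine ⟨fun d => k (c (prL L (localGaloisToGlobal (q : ℕ) d))), ⟨_, hNo, fun g n hn => ?_⟩,
    fun d d' => ?_⟩
  · have h1 : prL L (localGaloisToGlobal (q : ℕ) n) = 1 := (QuotientGroup.eq_one_iff _).mpr hn
    show k (c (prL L (localGaloisToGlobal (q : ℕ) (g * n)))) = _
    rw [map_mul, map_mul, h1, mul_one]
  · have h1 : (locT p q L.fixingSubgroup hNo y).1 d d' =
        k (dd c (prL L (localGaloisToGlobal (q : ℕ) d)) (prL L (localGaloisToGlobal (q : ℕ) d'))) := by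
      rw [locT_val, hy]
      exact psiK_ev hL hζ hζL π hRπ hk _
    have h2 : cupF hζ q B w (fun d => π (c (prL L (localGaloisToGlobal (q : ℕ) d)))) d d' =
        zl hζ q (B (π (prL L (localGaloisToGlobal (q : ℕ) d) •
          c (prL L (localGaloisToGlobal (q : ℕ) d')))) (w d)) := by
      rw [hπ]; rfl
    show (locT p q L.fixingSubgroup hNo y).1 d d' + cupF hζ q B w _ d d' = _
    rw [h1, h2, k_spec hL hζ hζL π hk]
    have h3 : (piq q L d)⁻¹ • prL L (localGaloisToGlobal (q : ℕ) d) •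
        c (prL L (localGaloisToGlobal (q : ℕ) d')) = c (prL L (localGaloisToGlobal (q : ℕ) d')) :=
      inv_smul_smul (prL L (localGaloisToGlobal (q : ℕ) d)) _
    rw [h3]
    have h4 : dd c (prL L (localGaloisToGlobal (q : ℕ) d)) (prL L (localGaloisToGlobal (q : ℕ) d')) =
        c (prL L (localGaloisToGlobal (q : ℕ) d)) +
        prL L (localGaloisToGlobal (q : ℕ) d) • c (prL L (localGaloisToGlobal (q : ℕ) d')) -
        c (prL L (localGaloisToGlobal (q : ℕ) (d * d'))) := by
      rw [map_mul, map_mul]; rfl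
    rw [h4, map_sub k, map_add k]
    abel

end fixk

include hL hπ hRπ in
/-- global cocycles from cocycles modulo `R` -/
theorem mem_Z1S (c : (GQ ⧸ L.fixingSubgroup) → F) (hc : ∀ g h, dd c g h ∈ R) :
    (fun g => π (c (prL L g))) ∈ Z1S S V := by
  refine ⟨fun g h => ?_, L, hL, fun g s hs => ?_⟩
  · show π (c (prL L (g * h))) = π (c (prL L g)) + g • π (c (prL L h))
    have h1 := (hRπ _).mp (hc (prL L g) (prL L h))
    have h2 : π (c (prL L g) + prL L g • c (prL L h) - c (prL L g * prL L h)) = 0 := h1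
    rw [map_sub, map_add, hπ, sub_eq_zero] at h2
    rw [map_mul, ← h2]
  · show π (c (prL L (g * s))) = π (c (prL L g))
    have h1 : prL L s = 1 := (QuotientGroup.eq_one_iff _).mpr hs
    rw [map_mul, h1, mul_one]

end main

end

end Fermat.Agent.CFT
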