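import Fermat.Agent.CFT.PT5

set_option autoImplicit false
set_option maxHeartbeats 4000000

/-! The middle part of the Poitou-Tate sequence: fixed level, main argument. -/

namespace Fermat.Agent.CFT

open Finset Fermat.Agent.CFTSec Fermat.Agent.TWLocal

noncomputable section

theorem evJ_sgN {S : Finset Nat.Primes} {L : IntermediateField ℚ Qb}
    (hL : L.IsUnramifiedOutside S) (q q' : S) (f : ↥(fix (JQ q'.1) L.fixingSubgroup))
    (h : q' ≠ q) : evJ q.1 q.2 (sgN hL q'.1 q'.2 f).1 = 0 := by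
  show (((sgN hL q'.1 q'.2 f).1.1).1 q).1 1 = 0
  rw [sgN_val, sgT_ne q'.1 q'.2 f.1 q (fun h1 => h (Subtype.ext h1.symm))]
  rfl

theorem evJ_sgN_same {S : Finset Nat.Primes} {L : IntermediateField ℚ Qb}
    (hL : L.IsUnramifiedOutside S) (q : S) (f : ↥(fix (JQ q.1) L.fixingSubgroup)) :
    evJ q.1 q.2 (sgN hL q.1 q.2 f).1 = f.1.1 1 := by
  show (((sgN hL q.1 q.2 f).1.1).1 ⟨q.1, q.2⟩).1 1 = _
  rw [sgN_val, sgT_fst q.1 q.2 f.1]

section main

variable {p : ℕ} [hp : Fact p.Prime] {S : Finset Nat.Primes} (hpS : pP p ∈ S)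
  {K L : IntermediateField ℚ Qb} (hL : L.IsUnramifiedOutside S) [hLn : L.fixingSubgroup.Normal]
  {ζ : Qb} (hζ : IsPrimitiveRoot ζ p) (hζL : ζ ∈ L)
  {V W : Type*} [AddCommGroup V] [AddCommGroup W] [DistribMulAction GQ V] [DistribMulAction GQ W]
  [Fintype V] {B : V →+ W →+ ZMod p} (hB : PData p ζ B)
  (π : PM (GI (GQ ⧸ L.fixingSubgroup) V) →+ V) (hπ : ∀ (g : GQ) f, π (prL L g • f) = g • π f)
  (hσ : ∀ v, π (dl (gi 1 v)) = v)
  {R : AddSubgroup (PM (GI (GQ ⧸ L.fixingSubgroup) V))} [hR : Stab (GQ ⧸ L.fixingSubgroup) R]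
  (hRπ : ∀ f, f ∈ R ↔ π f = 0)

include hpS hζL hπ hσ hRπ in
/-- **middle exactness** at a fixed level -/
theorem middle_level [Finite (GQ ⧸ L.fixingSubgroup)]
    [Finite (PM (GI (GQ ⧸ L.fixingSubgroup) V) ⧸ R)] (hpR : ∀ f, p • f ∈ R)
    (hH : ∀ h ∈ HK K L, ∀ f : PM (GI (GQ ⧸ L.fixingSubgroup) V), h • f - f ∈ R)
    (htr : ∀ (hfin : Fintype (HK K L)) (c : ↥(fix (Cm S) L.fixingSubgroup)),
      ∃ a ∈ fix (Cm S) K.fixingSubgroup, (∑ h : HK K L, h • c).1 = p • a)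
    (hKL : K ≤ L)
    {u : (GQ ⧸ L.fixingSubgroup) → (GQ ⧸ L.fixingSubgroup) → ↥(fix (Cm S) L.fixingSubgroup)}
    (hu : CFLayer p (GQ ⧸ L.fixingSubgroup) ↥(fix (Cm S) L.fixingSubgroup) u)
    (Iv : ↥(T2p p (GQ ⧸ L.fixingSubgroup) ↥(fix (Cm S) L.fixingSubgroup)) →+ ZMod p)
    (hIv : ∀ x, Iv x = 0 ↔ x.1 ∈ B2 (GQ ⧸ L.fixingSubgroup) ↥(fix (Cm S) L.fixingSubgroup))
    (hNo : ∀ q : S, IsOpen ((dN q.1 L.fixingSubgroup : Subgroup (LG q.1)) : Set (LG q.1)))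
    (hVo : ∀ q : S, OpK q.1 V)
    (I : ∀ q : S, T2l (LG q.1) (LM q.1) p →+ ZMod p)
    (hI : ∀ (q : S) y, Iv (inCT hL q.1 q.2 y) = I q (locT p q.1 L.fixingSubgroup (hNo q) y))
    (hI2 : ∀ (q : S) x, x.1 ∈ B2l (LG q.1) (LM q.1) → I q x = 0)
    (w : ∀ q : S, Z1q q.1 W)
    (hw : ∀ c : Z1S S V, ∑ q : S, I q (cupq hζ hB (hVo q) (w q) (resS S q.1 V c)) = 0) :
    ∃ x ∈ Z1S S W, ∀ q : S, ∃ u : W, ∀ d : LG q.1, x (localGaloisToGlobal (q.1 : ℕ) d) =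
      (w q).1 d + (localGaloisToGlobal (q.1 : ℕ) d • u - u) := by
  classical
  -- the local coboundaries
  have hkex : ∀ q : S, ∃ k : HM (piq q.1 L) (PM (GI (GQ ⧸ L.fixingSubgroup) V)) (LM q.1),
      ∀ d, pushq q.1 (jG hL hζ hζL B π ((w q).1 d) :
        HM (prL L) (PM (GI (GQ ⧸ L.fixingSubgroup) V)) (QS S)) = d • k - k := by
    intro q
    have h1 := locLev_of_LC1 (w q).2.2
    obtain ⟨E, hE, h⟩ := h1
    obtain ⟨k, hk⟩ := h1_loc hL.1 q.1 (loc_Z1 hL hζ hζL hB π hπ q.1 (w q).2.1) ⟨E, hE,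
      fun d s hs => by
        show pushq q.1 (jG hL hζ hζL B π ((w q).1 (d * s)) :
          HM (prL L) (PM (GI (GQ ⧸ L.fixingSubgroup) V)) (QS S)) = _
        rw [h d s hs]⟩
    exact ⟨k, hk⟩
  choose k hk using hkex
  -- the idele valued homomorphism
  let ψ : R →+ ↥(fix (Jm S) L.fixingSubgroup) :=
    ∑ q : S, (sgN hL q.1 q.2).comp (psiK hL hζ hζL π hRπ (hk q))
  have hψv : ∀ r, ψ r = ∑ q : S, sgN hL q.1 q.2 (psiK hL hζ hζL π hRπ (hk q) r) := by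
    intro r
    show (∑ q : S, (sgN hL q.1 q.2).comp (psiK hL hζ hζL π hRπ (hk q))) r = _
    rw [AddMonoidHom.finset_sum_apply]
    rfl
  have hψ1 : ∀ (g : GQ ⧸ L.fixingSubgroup) r, ψ (g • r) = g • ψ r := by
    intro g r
    rw [hψv, hψv, Finset.smul_sum]
    refine Finset.sum_congr rfl fun q _ => ?_
    rw [psiK_smul, sgN_smul]
  have hψ2 : ∀ r, ψ r ∈ PDiv S L := by
    intro r
    rw [hψv]
    exact AddSubgroup.sum_mem _ fun q _ => rfl
  have hψev : ∀ (q : S) (r : R), evJ q.1 q.2 (ψ r).1 = k q r.1 := by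
    intro q r
    have h1 : (ψ r).1 = ∑ q' : S, (sgN hL q'.1 q'.2 (psiK hL hζ hζL π hRπ (hk q') r)).1 := by
      rw [hψv]
      exact map_sum (fix (Jm S) L.fixingSubgroup).subtype _ _
    rw [h1, map_sum, Finset.sum_eq_single q (fun q' _ hq' => evJ_sgN hL q q' _ hq')
      (fun h => absurd (Finset.mem_univ q) h), evJ_sgN_same, psiK_ev]
  let φ : R →+ ↥(fix (Cm S) L.fixingSubgroup) := (fixToC L S).comp ψ
  have hφ : ∀ (g : GQ ⧸ L.fixingSubgroup) (r : R), φ (g • r) = g • φ r := by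
    intro g r
    show fixToC L S (ψ (g • r)) = g • fixToC L S (ψ r)
    rw [hψ1, fixToC_smul]
  -- the pairing condition
  have hpair : ∀ (c : (GQ ⧸ L.fixingSubgroup) → PM (GI (GQ ⧸ L.fixingSubgroup) V))
      (hc : ∀ g h, dd c g h ∈ R), (fun g h => φ (rr c hc g h)) ∈
        B2 (GQ ⧸ L.fixingSubgroup) ↥(fix (Cm S) L.fixingSubgroup) := by
    intro c hc
    let y : ∀ q : S, T2p p (GQ ⧸ L.fixingSubgroup) ↥(fix (JQ q.1) L.fixingSubgroup) := fun q =>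
      ⟨fun g h => psiK hL hζ hζL π hRπ (hk q) (rr c hc g h),
        mapZ2 (rr_mem' c hc) _ (psiK_smul hL hζ hζL π hRπ (hk q)),
        ptors_rr hpR c hc _ (psiK_smul hL hζ hζL π hRπ (hk q))⟩
    have h1 : (fun g h => φ (rr c hc g h)) = (∑ q : S, inCT hL q.1 q.2 (y q)).1 := by
      have h2 : (∑ q : S, inCT hL q.1 q.2 (y q)).1 = ∑ q : S, (inCT hL q.1 q.2 (y q)).1 :=
        map_sum (T2p p (GQ ⧸ L.fixingSubgroup) ↥(fix (Cm S) L.fixingSubgroup)).subtype _ _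
      rw [h2]
      funext g h
      rw [Finset.sum_apply, Finset.sum_apply]
      show fixToC L S (ψ (rr c hc g h)) = _
      rw [hψv, map_sum]
      rfl
    rw [h1, ← hIv, map_sum]
    let C : Z1S S V := ⟨_, mem_Z1S hL π hπ hRπ c hc⟩
    have h3 := hw C
    have h4 : ∀ q : S, Iv (inCT hL q.1 q.2 (y q)) =
        - I q (cupq hζ hB (hVo q) (w q) (resS S q.1 V C)) := by
      intro q
      rw [hI, eq_neg_iff_add_eq_zero, ← map_add]
      apply hI2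
      exact loc_identity hL hζ hζL π hRπ (hk q) (hNo q) hπ hpR c hc (y q) rfl
    rw [Finset.sum_congr rfl fun q _ => h4 q, Finset.sum_neg_distrib, h3, neg_zero]
  obtain ⟨θ, hθ1, hθ2⟩ := ext_of_pair hpR hH htr hKL hu φ hφ hpair
  obtain ⟨Θ, K', hΘ1, hK1, hK2, hK3⟩ := exists_principal hpS hL hpR
    (ψ := (fix (Jm S) L.fixingSubgroup).subtype.comp ψ)
    (fun g r => congrArg Subtype.val (hψ1 (prL L g) r)) (fun r => hψ2 r)
    (θ := (fix (Cm S) L.fixingSubgroup).subtype.comp θ)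
    (fun g f => congrArg Subtype.val (hθ1 (prL L g) f))
    (fun r => congrArg Subtype.val (hθ2 r))
  -- the global cocycle
  have hxex : ∀ g : GQ, ∃ x, g • K' - K' = jG hL hζ hζL B π x := fun g =>
    exists_jG hL hζ hζL hB π (fun v => dl (gi 1 v)) hσ (g • K' - K')
      (fun f hf => hK3 g ⟨f, (hRπ f).mpr hf⟩)
  choose x hx using hxex
  have hinj := jG_inj hL hζ hζL hB π (fun v => dl (gi 1 v)) hσ
  refine ⟨x, ⟨fun g h => ?_, ?_⟩, fun q => ?_⟩
  · apply hinj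
    rw [map_add, jG_smul hL hζ hζL hB π hπ, ← hx, ← hx, ← hx, mul_smul, smul_sub]
    abel
  · obtain ⟨E, hE, h⟩ := hK2
    refine ⟨E, hE, fun g s hs => ?_⟩
    apply hinj
    rw [← hx, ← hx]
    exact h g s hs
  · -- local comparison
    let Kq : HM (piq q.1 L) (PM (GI (GQ ⧸ L.fixingSubgroup) V)) (LM q.1) := pushq q.1 K'
    let Tq : HM (piq q.1 L) (PM (GI (GQ ⧸ L.fixingSubgroup) V)) (LM q.1) :=
      (evJ q.1 q.2).comp Θ
    have hTq : ∀ d : LG q.1, d • Tq = Tq := by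
      intro d
      apply HM.ext
      intro f
      show d • evJ q.1 q.2 (Θ ((piq q.1 L d)⁻¹ • f)) = evJ q.1 q.2 (Θ f)
      rw [← evJ_smul, ← hΘ1]
      show evJ q.1 q.2 (Θ (prL L (localGaloisToGlobal (q.1 : ℕ) d) •
        (prL L (localGaloisToGlobal (q.1 : ℕ) d))⁻¹ • f)) = _
      rw [smul_inv_smul]
    obtain ⟨u, hu⟩ := exists_jGq hL hζ hζL hB π (fun v => dl (gi 1 v)) hσ q.1 (Kq - k q + Tq)
      (fun f hf => by
        have h1 : Kq f = k q f - Tq f := by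
          show peQ S q.1 (K' f) = k q f - evJ q.1 q.2 (Θ f)
          rw [← evJ_diag q.1 q.2]
          have h2 := hK1 ⟨f, (hRπ f).mpr hf⟩
          have h3 : diag S (K' f) = (ψ ⟨f, (hRπ f).mpr hf⟩).1 - Θ f := h2
          rw [h3, map_sub, hψev]
        show Kq f - k q f + Tq f = 0
        rw [h1]; abel)
    refine ⟨u, fun d => ?_⟩
    apply jGq_inj hL hζ hζL hB π (fun v => dl (gi 1 v)) hσ q.1
    show pushq q.1 (jG hL hζ hζL B π (x (localGaloisToGlobal (q.1 : ℕ) d)) :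
        HM (prL L) (PM (GI (GQ ⧸ L.fixingSubgroup) V)) (QS S)) =
      pushq q.1 (jG hL hζ hζL B π ((w q).1 d + (localGaloisToGlobal (q.1 : ℕ) d • u - u)) :
        HM (prL L) (PM (GI (GQ ⧸ L.fixingSubgroup) V)) (QS S))
    rw [← hx, map_sub, pushq_smul, map_add (jG hL hζ hζL B π), map_sub (jG hL hζ hζL B π),
      jG_smul hL hζ hζL hB π hπ, map_add, map_sub, pushq_smul, hk q, ← hu]
    show d • Kq - Kq = (d • k q - k q) + (d • (Kq - k q + Tq) - (Kq - k q + Tq))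
    rw [smul_add, smul_sub, hTq]
    abel

end main

end

end Fermat.Agent.CFT
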