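import Fermat.Agent.CFT.PT6

set_option autoImplicit false
set_option maxHeartbeats 1000000

/-! The middle part of the Poitou-Tate sequence. -/

namespace Fermat.Agent.CFT

open Finset Fermat.Agent.CFTSec Fermat.Agent.TWLocal

noncomputable section

/-- the module has a level -/
def LevM (S : Finset Nat.Primes) (V : Type*) [AddCommGroup V] [DistribMulAction GQ V] : Prop :=
  ∃ E : IntermediateField ℚ Qb, E.IsUnramifiedOutside S ∧
      ∀ s ∈ E.fixingSubgroup, ∀ v : V, s • v = v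

theorem LevM.opK {S : Finset Nat.Primes} {V : Type*} [AddCommGroup V] [DistribMulAction GQ V]
    (h : LevM S V) (q : Nat.Primes) : OpK q V := by
  obtain ⟨E, hE, h⟩ := h
  haveI := hE.1
  exact ⟨_, isOpen_comap_lg q E, fun n hn v => h _ hn v⟩

/-- **middle exactness of the Poitou-Tate sequence** -/
theorem poitou_middle {p : ℕ} [hp : Fact p.Prime] (hp2 : 2 < p) {S : Finset Nat.Primes}
    (hpS : pP p ∈ S) {ζ : Qb} (hζ : IsPrimitiveRoot ζ p)
    {V W : Type*} [AddCommGroup V] [AddCommGroup W] [DistribMulAction GQ V]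
    [DistribMulAction GQ W] [Finite V] {B : V →+ W →+ ZMod p} (hB : PData p ζ B)
    (hV : LevM S V) :
    ∃ I : ∀ q : S, T2l (LG q.1) (LM q.1) p →+ ZMod p,
      (∀ q x, I q x = 0 ↔ x.1 ∈ B2l (LG q.1) (LM q.1)) ∧
      ∀ w : ∀ q : S, Z1q q.1 W,
        (∀ c : Z1S S V, ∑ q : S, I q (cupq hζ hB (hV.opK q.1) (w q) (resS S q.1 V c)) = 0) →
        ∃ x ∈ Z1S S W, ∀ q : S, ∃ u : W, ∀ d : LG q.1, x (localGaloisToGlobal (q.1 : ℕ) d) =
          (w q).1 d + (localGaloisToGlobal (q.1 : ℕ) d • u - u) := by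
  classical
  haveI := Fermat.Agent.Frob.isGalois_Qbar
  haveI : Fintype V := Fintype.ofFinite V
  have hV0 := hV
  obtain ⟨EV, hEV, hEVf⟩ := hV
  have hZ : (Zf p 0).IsUnramifiedOutside S := (Zf_unram (p := p) 0).mono (sub0 hpS)
  have hζZ : ζ ∈ Zf p 0 := by
    have h1 : IsPrimitiveRoot (zN p 0) p := by
      have := zN_spec p 0
      rwa [zero_add, pow_one] at this
    obtain ⟨i, -, hi⟩ := h1.eq_pow_of_pow_eq_one hζ.pow_eq_one
    rw [← hi]
    exact pow_mem (zN_mem p 0) i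
  obtain ⟨K, hKle, hK, hKg⟩ := exists_galois_unram (hEV.sup hZ)
  haveI hKn : K.fixingSubgroup.Normal := inferInstance
  have hζK : ζ ∈ K := hKle (le_sup_right (a := EV) hζZ)
  have hVK : ∀ s ∈ K.fixingSubgroup, ∀ v : V, s • v = v := fun s hs =>
    hEVf s (IntermediateField.fixingSubgroup_antitone (le_sup_left.trans hKle) hs)
  obtain ⟨M, hM, hKM, hMn, hMχ, hMtr⟩ := exists_trace2 hp2 hpS hK hζ hζK
  have hgood := fun q : S => exists_good hp2 hpS q.1 q.2
  choose m c a hg1 hg2 using hgood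
  have hE : ∀ q : S, (EF (m q) hp2).IsUnramifiedOutside S := fun q =>
    (EF_unram (m q) hp2).mono (sub0 hpS)
  let L0 : IntermediateField ℚ Qb := M ⊔ ⨆ q : S, EF (m q) hp2
  have hL0 : L0.IsUnramifiedOutside S := hM.sup (IsUnramifiedOutside.iSup hE)
  obtain ⟨L, hLle, hL, hLg⟩ := exists_galois_unram hL0
  haveI hLn : L.fixingSubgroup.Normal := inferInstance
  have hML : M ≤ L := le_sup_left.trans hLle
  have hKL : K ≤ L := hKM.trans hML
  have hζL := hKL hζK
  haveI := hL.1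
  haveI : L.fixingSubgroup.FiniteIndex := finiteIndex_fixingSubgroup L
  haveI : Finite (GQ ⧸ L.fixingSubgroup) := Subgroup.finite_quotient_of_finiteIndex
  obtain ⟨π, hπ, hσ⟩ := exists_pi hL (fun s hs => hVK s (IntermediateField.fixingSubgroup_antitone
    hKL hs))
  haveI hR : Stab (GQ ⧸ L.fixingSubgroup) π.ker := by
    refine ⟨fun g f hf => ?_⟩
    obtain ⟨g, rfl⟩ := QuotientGroup.mk_surjective g
    have h2 : π ((QuotientGroup.mk g : GQ ⧸ L.fixingSubgroup) • f) = g • π f := hπ g f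
    rw [AddMonoidHom.mem_ker] at hf ⊢
    rw [h2, hf, smul_zero]
  have hRπ : ∀ f, f ∈ π.ker ↔ π f = 0 := fun f => AddMonoidHom.mem_ker
  haveI : Finite (PM (GI (GQ ⧸ L.fixingSubgroup) V) ⧸ π.ker) :=
    Finite.of_injective _ (QuotientAddGroup.kerLift_injective π)
  obtain ⟨u, hu⟩ := exists_global_class hp2 hpS hL hζ hζL
  obtain ⟨Iv, hIv⟩ := exists_inv hu
  have hNo : ∀ q : S, IsOpen ((dN q.1 L.fixingSubgroup : Subgroup (LG q.1)) : Set (LG q.1)) :=
    fun q => isOpen_comap_lg q.1 L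
  have hIex := fun q : S => exists_local_inv hL hp2 hpS hζ hζL q.1 q.2 (hg1 q) (hg2 q)
    (IntermediateField.fixingSubgroup_antitone
      ((le_iSup (fun q : S => EF (m q) hp2) q).trans (le_sup_right.trans hLle))) (hNo q) Iv hIv
  choose I hI1 hI2 using hIex
  refine ⟨I, hI1, fun w hw => ?_⟩
  exact middle_level (K := K) hpS hL hζ hζL hB π hπ hσ hRπ (hpR_of hB π hRπ)
    (fun h hh f => by
      obtain ⟨k, hk, rfl⟩ := hh
      rw [hRπ, map_sub]
      have h2 : π ((QuotientGroup.mk' L.fixingSubgroup) k • f) = k • π f := hπ k f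
      rw [h2, hVK k hk, sub_self])
    (fun hfin c => hMtr L hL hLn hML hfin c) hKL hu Iv hIv hNo (fun q => hV0.opK q.1) I hI2
    (fun q x hx => (hI1 q x).mpr hx) w hw

end

end Fermat.Agent.CFT
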