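import Fermat.Agent.CFT.PT3
import Fermat.Agent.CFT.FDual2

set_option autoImplicit false
set_option maxHeartbeats 1000000

/-! Local nondegeneracy of the cup product. -/

namespace Fermat.Agent.CFT

open Finset Fermat.Agent.CFTSec Fermat.Agent.TWLocal

noncomputable section

section fh

variable {U : Type*} [Group U] (N : Subgroup U) [hN : N.Normal] {I : Type*} [Fintype I]
  {A : Type*} [AddCommGroup A] [DistribMulAction U A]

/-- homomorphisms from the free module -/
theorem exists_fhU [Fintype (U ⧸ N)] (a : I → A) (ha : ∀ i, a i ∈ fix A N) :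
    ∃ θ : PM (GI (U ⧸ N) I) →+ A,
      (∀ (g : U) f, θ ((g : U ⧸ N) • f) = g • θ f) ∧ ∀ i, θ (dl (gi 1 i)) = a i := by
  refine ⟨lf (fun x => x.1.out • a x.2), fun g f => ?_, fun i => ?_⟩
  · refine pm_hom_ext' (φ := (lf (fun x : GI (U ⧸ N) I => x.1.out • a x.2)).comp
      (DistribSMul.toAddMonoidHom _ (g : U ⧸ N)))
      (ψ := (DistribSMul.toAddMonoidHom A g).comp
        (lf (fun x : GI (U ⧸ N) I => x.1.out • a x.2))) (fun x => ?_) f
    show lf (fun x : GI (U ⧸ N) I => x.1.out • a x.2) ((g : U ⧸ N) • dl x) =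
      g • lf (fun x : GI (U ⧸ N) I => x.1.out • a x.2) (dl x)
    rw [smul_dl, lf_dl, lf_dl, ← mul_smul]
    refine smul_eq_of_mk (ha _) ?_
    show (QuotientGroup.mk (((g : U ⧸ N) * x.1).out) : U ⧸ N) = QuotientGroup.mk (g * x.1.out)
    rw [QuotientGroup.mk_mul, QuotientGroup.out_eq', QuotientGroup.out_eq']
  · rw [lf_dl]
    show (1 : U ⧸ N).out • a i = a i
    have h1 : (QuotientGroup.mk ((1 : U ⧸ N).out) : U ⧸ N) = QuotientGroup.mk 1 := by
      rw [QuotientGroup.out_eq']; rfl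
    rw [smul_eq_of_mk (ha i) h1, one_smul]

end fh

/-- a global module as local module -/
def RL (_q : Nat.Primes) (V : Type*) : Type _ := V

instance (q : Nat.Primes) (V : Type*) [h : AddCommGroup V] : AddCommGroup (RL q V) := h

instance rlAction (q : Nat.Primes) (V : Type*) [AddCommGroup V] [DistribMulAction GQ V] :
    DistribMulAction (LG q) (RL q V) where
  smul g v := (localGaloisToGlobal (q : ℕ) g • (show V from v) : V)
  one_smul v := by
    show localGaloisToGlobal (q : ℕ) 1 • (show V from v) = _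
    rw [map_one]; exact one_smul _ (show V from v)
  mul_smul g h v := by
    show localGaloisToGlobal (q : ℕ) (g * h) • (show V from v) = _
    rw [map_mul]; exact mul_smul _ _ (show V from v)
  smul_zero g := smul_zero (A := V) (localGaloisToGlobal (q : ℕ) g)
  smul_add g := smul_add (A := V) (localGaloisToGlobal (q : ℕ) g)

theorem rl_smul {q : Nat.Primes} {V : Type*} [AddCommGroup V] [DistribMulAction GQ V] (g : LG q)
    (v : RL q V) : (g • v : RL q V) = (localGaloisToGlobal (q : ℕ) g • (show V from v) : V) := rfl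

theorem exists_smul_eq_of_finite {q : Nat.Primes} {X : Type*} [Finite X] (a : X → LM q) :
    ∃ N : Subgroup (LG q), IsOpen (N : Set (LG q)) ∧ ∀ n ∈ N, ∀ x, n • a x = a x := by
  have h1 := fun x => disc_LM (q := (q : ℕ)) (a x)
  choose N hN h using h1
  refine ⟨⨅ x, N x, ?_, fun n hn x => h x n ((Subgroup.mem_iInf.mp hn) x)⟩
  rw [Subgroup.coe_iInf]
  exact isOpen_iInter_of_finite hN

section main

variable {p : ℕ} [hp : Fact p.Prime] {ζ : Qb} (hζ : IsPrimitiveRoot ζ p) {q : Nat.Primes}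
  {V W : Type*} [AddCommGroup V] [AddCommGroup W] [DistribMulAction GQ V] [DistribMulAction GQ W]
  {B : V →+ W →+ ZMod p} (hB : PData p ζ B)
  {N : Subgroup (LG q)} [hN : N.Normal]
  {F : Type*} [AddCommGroup F] [DistribMulAction (LG q ⧸ N) F]
  (π : F →+ V) (hπ : ∀ (g : LG q) f, π ((g : LG q ⧸ N) • f) = localGaloisToGlobal (q : ℕ) g • π f)
  (σ : V → F) (hσ : ∀ v, π (σ v) = v)

variable (B N) in
/-- the embedding of `W`, local version -/
def jL : W →+ HM (QuotientGroup.mk' N) F (LM q) where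
  toFun w := (zl hζ q).comp ((B.flip w).comp π)
  map_zero' := by
    apply HM.ext
    intro f
    show zl hζ q (B (π f) 0) = 0
    rw [map_zero, map_zero]
  map_add' w w' := by
    apply HM.ext
    intro f
    show zl hζ q (B (π f) (w + w')) = zl hζ q (B (π f) w) + zl hζ q (B (π f) w')
    rw [map_add, map_add]

theorem jL_apply (w : W) (f : F) : jL hζ B N π w f = zl hζ q (B (π f) w) := rfl

include hB hπ in
theorem jL_smul (g : LG q) (w : W) :
    jL hζ B N π (localGaloisToGlobal (q : ℕ) g • w) = g • jL hζ B N π w := by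
  apply HM.ext
  intro f
  rw [hm_smul_apply, jL_apply, jL_apply, ← zl_equi hζ q hB, ← hπ]
  have h1 : (QuotientGroup.mk g : LG q ⧸ N) • ((QuotientGroup.mk' N) g)⁻¹ • f = f :=
    smul_inv_smul ((QuotientGroup.mk' N) g) f
  rw [h1]

include hB hσ in
theorem jL_inj : Function.Injective (jL hζ B N π : W →+ HM (QuotientGroup.mk' N) F (LM q)) := by
  rw [injective_iff_map_eq_zero]
  intro w hw
  apply hB.sep
  intro v
  apply zl_inj hζ q
  have := DFunLike.congr_fun hw (σ v)
  rw [jL_apply, hσ] at this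
  rw [this, map_zero]
  rfl

end main

/-- **local nondegeneracy** -/
theorem local_nondeg {p : ℕ} [hp : Fact p.Prime] {ζ : Qb} (hζ : IsPrimitiveRoot ζ p)
    {q : Nat.Primes} {V W : Type*} [AddCommGroup V] [AddCommGroup W] [DistribMulAction GQ V]
    [DistribMulAction GQ W] [Finite V] {B : V →+ W →+ ZMod p} (hB : PData p ζ B)
    (hV : OpK q V) (c : LG q → V) (hc : c ∈ Z1q q V)
    (horth : ∀ w ∈ Z1q q W, cupF hζ q B w c ∈ B2l (LG q) (LM q)) : c ∈ B1q q V := by
  classical
  haveI : Fintype V := Fintype.ofFinite V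
  obtain ⟨N1, hN1, h1⟩ := hV
  obtain ⟨hcz, N2, hN2, h2⟩ := hc
  obtain ⟨N, hN, hNo, hNle⟩ := exists_normal_le (U := LG q) (open_inf hN1 hN2)
  haveI : Finite (LG q ⧸ N) := Subgroup.quotient_finite_of_isOpen _ hNo
  haveI : Fintype (LG q ⧸ N) := Fintype.ofFinite _
  have hVN : ∀ n ∈ N, ∀ v : V, localGaloisToGlobal (q : ℕ) n • v = v := fun n hn v =>
    h1 n (hNle hn).1 v
  have hcN : ∀ d, ∀ n ∈ N, c (d * n) = c d := fun d n hn => h2 d n (hNle hn).2
  obtain ⟨π, hπ, hσ⟩ : ∃ π : PM (GI (LG q ⧸ N) V) →+ V,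
      (∀ (g : LG q) f, π ((g : LG q ⧸ N) • f) = localGaloisToGlobal (q : ℕ) g • π f) ∧
      ∀ v, π (dl (gi 1 v)) = v :=
    exists_fhU (A := RL q V) N (fun v : V => (v : RL q V)) (fun v n hn => hVN n hn v)
  haveI hR : Stab (LG q ⧸ N) π.ker := by
    refine ⟨fun g f hf => ?_⟩
    obtain ⟨g, rfl⟩ := QuotientGroup.mk_surjective g
    rw [AddMonoidHom.mem_ker] at hf ⊢
    rw [hπ, hf, smul_zero]
  have hpR : ∀ f, p • f ∈ π.ker := fun f => by
    rw [AddMonoidHom.mem_ker, map_nsmul, hB.tors]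
  let c' : LG q ⧸ N → V := fun g => c g.out
  have hc' : ∀ d : LG q, c' (QuotientGroup.mk d) = c d := by
    intro d
    have h3 : (QuotientGroup.mk d : LG q ⧸ N) =
      QuotientGroup.mk (QuotientGroup.mk d : LG q ⧸ N).out := (QuotientGroup.out_eq' _).symm
    have h4 := hcN d _ (QuotientGroup.eq.mp h3)
    rw [mul_inv_cancel_left] at h4
    exact h4
  let ct : LG q ⧸ N → PM (GI (LG q ⧸ N) V) := fun g => dl (gi 1 (c' g))
  have hct : ∀ d : LG q, π (ct (QuotientGroup.mk d)) = c d := fun d => by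
    show π (dl (gi 1 (c' _))) = c d
    rw [hσ, hc']
  have hdd : ∀ g h, dd ct g h ∈ π.ker := by
    intro g h
    obtain ⟨g, rfl⟩ := QuotientGroup.mk_surjective g
    obtain ⟨h, rfl⟩ := QuotientGroup.mk_surjective h
    rw [AddMonoidHom.mem_ker]
    show π (ct (QuotientGroup.mk g) + (QuotientGroup.mk g : LG q ⧸ N) • ct (QuotientGroup.mk h) -
      ct (QuotientGroup.mk (g * h))) = 0
    rw [map_sub, map_add, hπ, hct, hct, hct, hcz, sub_self]
  by_contra hnot
  have hnc : ¬ ∃ m, ∀ g, ct g - (g • m - m) ∈ π.ker := by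
    rintro ⟨m, hm⟩
    apply hnot
    refine ⟨π m, fun d => ?_⟩
    have h3 := hm (QuotientGroup.mk d)
    rw [AddMonoidHom.mem_ker, map_sub, map_sub, hπ, hct, sub_eq_zero] at h3
    exact h3
  obtain ⟨u, hu⟩ := Fermat.Agent.CFTLocal.L3 p N hNo
  obtain ⟨e, he⟩ := exists_pr_gi (I := V) (MonoidHom.id (LG q ⧸ N)) Function.injective_id
  have he' : ∀ f : PM (GI (LG q ⧸ N) V), ∑ x : LG q ⧸ N, x • e (x⁻¹ • f) = f := he
  obtain ⟨φ, hφ, hnφ⟩ := T1 hu hpR e he' ct hdd hnc
  obtain ⟨k, hk⟩ := exists_ext_div hpR ((fix (LM q) N).subtype.comp φ)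
    (fun x => exists_div_LM q _)
  let k' : HM (QuotientGroup.mk' N) (PM (GI (LG q ⧸ N) V)) (LM q) := k
  have hk' : ∀ r : π.ker, k' r.1 = (φ r).1 := hk
  have hkeq : ∀ (d : LG q) (r : π.ker), (d • k' - k') r.1 = 0 := by
    intro d r
    show d • k' ((QuotientGroup.mk d : LG q ⧸ N)⁻¹ • r.1) - k' r.1 = 0
    have h3 : k' ((QuotientGroup.mk d : LG q ⧸ N)⁻¹ • r.1) =
        (φ ((QuotientGroup.mk d : LG q ⧸ N)⁻¹ • r)).1 := hk' ((QuotientGroup.mk d : LG q ⧸ N)⁻¹ • r)
    rw [h3, hk', hφ]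
    have h4 : d • ((QuotientGroup.mk d : LG q ⧸ N)⁻¹ • φ r : ↥(fix (LM q) N)).1 =
        ((QuotientGroup.mk d : LG q ⧸ N) • (QuotientGroup.mk d : LG q ⧸ N)⁻¹ • φ r :
          ↥(fix (LM q) N)).1 := rfl
    rw [h4, smul_inv_smul, sub_self]
  have hwex : ∀ d : LG q, ∃ w, d • k' - k' = jL hζ B N π w := by
    intro d
    obtain ⟨w, hw⟩ := exists_w_aux hB π (fun v => dl (gi 1 v)) hσ (zl hζ q) (zl_inj hζ q)
      (zl_tors hζ q) (HM.toHom _ (d • k' - k')) (fun f hf => hkeq d ⟨f, hf⟩)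
    exact ⟨w, HM.ext _ hw⟩
  choose w hw using hwex
  have hinj := jL_inj (N := N) hζ hB π (fun v => dl (gi 1 v)) hσ
  have hwz : ∀ d d', w (d * d') = w d + localGaloisToGlobal (q : ℕ) d • w d' := by
    intro g h
    apply hinj
    rw [map_add, jL_smul hζ hB π hπ, ← hw, ← hw, ← hw, mul_smul, smul_sub]
    abel
  have hwl : LC1 w := by
    obtain ⟨N3, hN3, h3⟩ := exists_smul_eq_of_finite (fun x => k (dl x))
    refine ⟨N ⊓ N3, open_inf hNo hN3, fun g n hn => ?_⟩
    apply hinj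
    rw [← hw, ← hw, mul_smul]
    have h4 : n • k' = k' := by
      apply HM.ext
      intro f
      show n • k ((QuotientGroup.mk n : LG q ⧸ N)⁻¹ • f) = k f
      have : (QuotientGroup.mk n : LG q ⧸ N) = 1 := (QuotientGroup.eq_one_iff n).mpr hn.1
      rw [this, inv_one, one_smul]
      exact pm_hom_ext' (φ := (DistribSMul.toAddMonoidHom (LM q) n).comp k) (ψ := k)
        (fun x => h3 n hn.2 x) f
    rw [h4]
  have h5 := horth w ⟨hwz, hwl⟩
  apply hnφ
  apply inf_inj_loc hNo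
  have h6 : infl2 N (fun g h => φ (rr ct hdd g h)) + cupF hζ q B w c ∈ B2l (LG q) (LM q) := by
    refine ⟨fun d => k (ct (QuotientGroup.mk d)), ⟨N, hNo, fun g n hn => ?_⟩, fun d d' => ?_⟩
    · show k (ct (QuotientGroup.mk (g * n))) = _
      rw [QuotientGroup.mk_mul_of_mem g hn]
    · have e1 : infl2 N (fun g h => φ (rr ct hdd g h)) d d' =
          k (ct (QuotientGroup.mk d) + (QuotientGroup.mk d : LG q ⧸ N) • ct (QuotientGroup.mk d') -
            ct (QuotientGroup.mk (d * d'))) := (hk (rr ct hdd _ _)).symm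
      have e2 : cupF hζ q B w c d d' =
          d • k (ct (QuotientGroup.mk d')) -
            k ((QuotientGroup.mk d : LG q ⧸ N) • ct (QuotientGroup.mk d')) := by
        have h7 : (d • k' - k') ((QuotientGroup.mk d : LG q ⧸ N) • ct (QuotientGroup.mk d')) =
            cupF hζ q B w c d d' := by
          rw [hw, jL_apply, hπ, hct]; rfl
        rw [← h7]
        show d • k ((QuotientGroup.mk d : LG q ⧸ N)⁻¹ •
          (QuotientGroup.mk d : LG q ⧸ N) • ct (QuotientGroup.mk d')) - _ = _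
        rw [inv_smul_smul]
      show infl2 N (fun g h => φ (rr ct hdd g h)) d d' + cupF hζ q B w c d d' = _
      rw [e1, e2, map_sub, map_add]
      abel
  have h7 := (B2l (LG q) (LM q)).sub_mem h6 h5
  rwa [add_sub_cancel_right] at h7

end

end Fermat.Agent.CFT
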