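import Fermat.Agent.CFT.PT7
import Fermat.Agent.CFT.PT8
import Fermat.Agent.TWH1.Final

set_option autoImplicit false
set_option maxHeartbeats 1000000

/-! Perfectness of the local pairings and consequences. -/

namespace Fermat.Agent.CFT

open Finset Fermat.Agent.CFTSec Fermat.Agent.TWLocal

noncomputable section

section flip

variable {p : ℕ} [hp : Fact p.Prime] {ζ : Qb} {V W : Type*} [AddCommGroup V]
    [AddCommGroup W] [DistribMulAction GQ V] [DistribMulAction GQ W] {B : V →+ W →+ ZMod p}

theorem PData.torsW (hB : PData p ζ B) (w : W) : p • w = 0 := by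
  apply hB.sep
  intro v
  rw [map_nsmul, nsmul_eq_mul, CharP.cast_eq_zero, zero_mul]

theorem PData.sepV [Finite V] (hB : PData p ζ B) (v : V) (h : ∀ w, B v w = 0) : v = 0 := by
  letI : Module (ZMod p) V := AddCommGroup.zmodModule hB.tors
  apply eq_zero_of_dual (p := p)
  intro f
  obtain ⟨w, hw⟩ := hB.surj f
  rw [hw, h]

theorem PData.finiteW [Finite V] (hB : PData p ζ B) : Finite W := by
  have h1 : Function.Injective (fun w : W => (fun v => B v w : V → ZMod p)) := by
    intro w w' h
    have h2 : w - w' = 0 := hB.sep _ (fun v => by rw [map_sub, sub_eq_zero]; exact congrFun h v)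
    exact sub_eq_zero.mp h2
  exact Finite.of_injective _ h1

theorem PData.card_eq [Finite V] (hB : PData p ζ B) : Nat.card W = Nat.card V := by
  letI : Module (ZMod p) V := AddCommGroup.zmodModule hB.tors
  rw [← card_dual (M := V) (p := p)]
  refine Nat.card_congr (Equiv.ofBijective (fun w => B.flip w) ⟨fun w w' h => ?_, fun f => ?_⟩)
  · have h2 : w - w' = 0 := hB.sep _ (fun v => by
      rw [map_sub, sub_eq_zero]; exact DFunLike.congr_fun h v)
    exact sub_eq_zero.mp h2
  · obtain ⟨w, hw⟩ := hB.surj f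
    exact ⟨w, AddMonoidHom.ext fun v => (hw v).symm⟩

theorem PData.flip [Finite V] (hB : PData p ζ B) : PData p ζ B.flip where
  tors := hB.torsW
  equi g c hc w v := hB.equi g c hc v w
  sep v h := hB.sepV v (fun w => h w)
  surj f := by
    haveI := hB.finiteW
    letI : Module (ZMod p) W := AddCommGroup.zmodModule hB.torsW
    haveI : Finite (W →+ ZMod p) := DFunLike.finite _
    have hinj : Function.Injective (fun v : V => B v) := by
      intro v v' h
      have h2 : v - v' = 0 := hB.sepV _ (fun w => by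
        rw [map_sub, AddMonoidHom.sub_apply, sub_eq_zero]; exact DFunLike.congr_fun h w)
      exact sub_eq_zero.mp h2
    have hc : Nat.card V = Nat.card (W →+ ZMod p) := by
      rw [card_dual (M := W) (p := p), hB.card_eq]
    have hbij : Function.Bijective (fun v : V => B v) :=
      (Nat.bijective_iff_injective_and_card _).mpr ⟨hinj, hc⟩
    obtain ⟨v, hv⟩ := hbij.2 f
    exact ⟨v, fun w => (DFunLike.congr_fun hv w).symm⟩

/-- elements acting trivially on `V` and `ζ` act trivially on `W` -/
theorem PData.triv (hB : PData p ζ B) {g : GQ} (hζ : g ζ = ζ) (hg : ∀ v : V, g • v = v) (w : W) :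
    g • w = w := by
  have h1 : ∀ v, B v (g • w) = B v w := by
    intro v
    haveI : Fact (1 < p) := ⟨hp.out.one_lt⟩
    have h2 := hB.equi g 1 (by rw [ZMod.val_one, pow_one, hζ]) v w
    rwa [hg, one_mul] at h2
  have h2 : g • w - w = 0 := hB.sep _ (fun v => by rw [map_sub, h1, sub_self])
  exact sub_eq_zero.mp h2

theorem exists_zeta_field {S : Finset Nat.Primes} (hpS : pP p ∈ S) (hζ : IsPrimitiveRoot ζ p) :
    ∃ E : IntermediateField ℚ Qb, E.IsUnramifiedOutside S ∧ ζ ∈ E := by
  refine ⟨Zf p 0, (Zf_unram (p := p) 0).mono (sub0 hpS), ?_⟩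
  have h1 : IsPrimitiveRoot (zN p 0) p := by
    have := zN_spec p 0
    rwa [zero_add, pow_one] at this
  obtain ⟨i, -, hi⟩ := h1.eq_pow_of_pow_eq_one hζ.pow_eq_one
  rw [← hi]
  exact pow_mem (zN_mem p 0) i

theorem PData.levM (hB : PData p ζ B) {S : Finset Nat.Primes} (hpS : pP p ∈ S)
    (hζ : IsPrimitiveRoot ζ p) (hV : LevM S V) : LevM S W := by
  obtain ⟨E, hE, h⟩ := hV
  obtain ⟨E', hE', hζE⟩ := exists_zeta_field hpS hζ
  exact ⟨E ⊔ E', hE.sup hE', fun s hs w => hB.triv
    ((IntermediateField.mem_fixingSubgroup_iff _ _).mp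
      (IntermediateField.fixingSubgroup_antitone le_sup_right hs) ζ hζE)
    (h s (IntermediateField.fixingSubgroup_antitone le_sup_left hs)) w⟩

theorem PData.opK (hB : PData p ζ B) {q : Nat.Primes} (hV : OpK q V) : OpK q W := by
  obtain ⟨N, hN, h⟩ := hV
  have hfd : FiniteDimensional ℚ (IntermediateField.adjoin ℚ {ζ}) :=
    IntermediateField.adjoin.finiteDimensional (Algebra.IsIntegral.isIntegral _)
  refine ⟨N ⊓ _, open_inf hN (isOpen_comap_lg q (IntermediateField.adjoin ℚ {ζ})),
    fun n hn w => hB.triv ?_ (h n hn.1) w⟩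
  exact (IntermediateField.mem_fixingSubgroup_iff _ _).mp hn.2 _
    (IntermediateField.mem_adjoin_simple_self _ _)

end flip

section local_

variable {p : ℕ} [hp : Fact p.Prime] {ζ : Qb} (hζ : IsPrimitiveRoot ζ p) {q : Nat.Primes}
  {V W : Type*} [AddCommGroup V] [AddCommGroup W] [DistribMulAction GQ V] [DistribMulAction GQ W]
  {B : V →+ W →+ ZMod p} (hB : PData p ζ B)

include hζ in
theorem finite_Z1q [Finite V] (hpV : ∀ v : V, p • v = 0) (hV : OpK q V) : Finite (Z1q q V) := by
  have h1 : IsPrimitiveRoot (padicEmbedding q ζ) p :=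
    hζ.map_of_injective (f := (padicEmbedding q : Qb →+* PadicAlgCl (q : ℕ)))
      (padicEmbedding q : Qb →+* PadicAlgCl (q : ℕ)).injective
  obtain ⟨N1, hN1, hn1⟩ := hV
  obtain ⟨N2, hN2, hn2⟩ := exists_smul_eq_of_finite (q := q) (fun t : ZMod p => zq h1 t)
  obtain ⟨N, hN, hNo, hNle⟩ := exists_normal_le (U := LG q) (open_inf hN1 hN2)
  haveI : Finite (RL q V) := inferInstanceAs (Finite V)
  exact Fermat.Agent.TWH1.finite_Z1l (M := RL q V) h1 (N := N) (fun m : RL q V => hpV m)
    (fun n hn m => hn1 n (hNle hn).1 m) (fun n hn t => hn2 n (hNle hn).2 t) hNo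

include hζ hB in
/-- **local perfectness**: orthogonal to everything implies coboundary -/
theorem orth_all [Finite V] (hV : OpK q V) {x : LG q → W} (hx : x ∈ Z1q q W)
    (h : ∀ c ∈ Z1q q V, Orth B q x c) : x ∈ B1q q W := by
  haveI := hB.finiteW
  refine local_nondeg hζ hB.flip (hB.opK hV) x hx (fun c hc => ?_)
  have h1 := cupF_comm (q := q) hζ hB hx.1 hc.1 hx.2 hc.2
  have h2 := h c hc (zl hζ q)
  have h3 := (B2l (LG q) (LM q)).sub_mem h1 h2
  have e : cupF hζ q B x c + cupF hζ q B.flip c x -
    (fun d d' => zl hζ q (B (localGaloisToGlobal (q : ℕ) d • c d') (x d))) =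
      cupF hζ q B.flip c x := by
    show cupF hζ q B x c + cupF hζ q B.flip c x - cupF hζ q B x c = _
    rw [add_sub_cancel_left]
  rwa [e] at h3

end local_

end

end Fermat.Agent.CFT
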