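import Fermat.Agent.CFT.LocalDefs
import Fermat.Agent.Frob.Qbar
import Fermat.Agent.Mink.Minkowski

set_option autoImplicit false
set_option maxHeartbeats 400000

/-! Dictionary of places: absolute values on number fields inside `Qbar`. -/

namespace Fermat.Agent.CFT

open scoped NNReal Pointwise

abbrev Qb : Type := AlgebraicClosure ℚ
abbrev GQ : Type := Qb ≃ₐ[ℚ] Qb

instance isAlgebraicQb : Algebra.IsAlgebraic ℚ Qb := AlgebraicClosure.isAlgebraic ℚ

section av

variable (q : ℕ) [hq : Fact q.Prime]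

/-- the `q`-adic absolute value on `Qbar` -/
noncomputable def av (x : Qb) : ℝ := ‖padicEmbedding q x‖

theorem av_mul (x y : Qb) : av q (x * y) = av q x * av q y := by
  simp [av]

theorem av_one : av q 1 = 1 := by simp [av]

theorem av_inv (x : Qb) : av q x⁻¹ = (av q x)⁻¹ := by simp [av]

theorem av_div (x y : Qb) : av q (x / y) = av q x / av q y := by simp [av]

theorem av_pow (x : Qb) (n : ℕ) : av q (x ^ n) = av q x ^ n := by simp [av]

theorem av_zpow (x : Qb) (n : ℤ) : av q (x ^ n) = av q x ^ n := by simp [av]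

theorem av_neg (x : Qb) : av q (-x) = av q x := by simp [av]

theorem av_nonneg (x : Qb) : 0 ≤ av q x := norm_nonneg _

theorem av_eq_zero {x : Qb} : av q x = 0 ↔ x = 0 := by simp [av]

theorem av_pos {x : Qb} (hx : x ≠ 0) : 0 < av q x :=
  lt_of_le_of_ne (av_nonneg q x) (Ne.symm (by rwa [ne_eq, av_eq_zero]))

theorem av_add_le (x y : Qb) : av q (x + y) ≤ max (av q x) (av q y) := by
  simp only [av, map_add]
  exact PadicAlgCl.isNonarchimedean q _ _

theorem av_sub_le (x y : Qb) : av q (x - y) ≤ max (av q x) (av q y) := by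
  rw [sub_eq_add_neg, ← av_neg q y]; exact av_add_le q _ _

theorem av_lg (τ : LG q) (x : Qb) : av q (localGaloisToGlobal q τ x) = av q x := by
  simp only [av, padicEmbedding_localGaloisToGlobal]
  have := nnnorm_padicAlgCl_algEquiv q τ (padicEmbedding q x)
  exact congrArg NNReal.toReal this

theorem av_ratCast (r : ℚ) : av q (r : Qb) = ‖(r : ℚ_[q])‖ := by
  simp only [av]
  rw [map_ratCast, ← map_ratCast (algebraMap ℚ_[q] (PadicAlgCl q)), PadicAlgCl.norm_extends]

theorem av_intCast (r : ℤ) : av q (r : Qb) = ‖(r : ℚ_[q])‖ := by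
  have := av_ratCast q r
  rwa [Rat.cast_intCast, Rat.cast_intCast] at this

theorem av_natCast (r : ℕ) : av q (r : Qb) = ‖(r : ℚ_[q])‖ := by
  have := av_intCast q r
  rwa [Int.cast_natCast, Int.cast_natCast] at this

theorem av_int_le (r : ℤ) : av q (r : Qb) ≤ 1 := by
  rw [av_intCast]; exact Padic.norm_int_le_one r

theorem av_q : av q (q : Qb) = (q : ℝ)⁻¹ := by
  rw [av_natCast, Padic.norm_p]

theorem av_q_lt : av q (q : Qb) < 1 := by
  rw [av_q]
  exact inv_lt_one_of_one_lt₀ (by exact_mod_cast hq.out.one_lt)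

theorem valuation_lt_one_iff_av (x : Qb) : (padicPlace q).valuation x < 1 ↔ av q x < 1 := by
  rcases eq_or_ne x 0 with rfl | hx
  · simp [av]
  have h1 : x⁻¹ ∈ padicPlace q ↔ 1 ≤ av q x := by
    rw [mem_padicPlace_iff]
    have h2 : ‖padicEmbedding q x⁻¹‖₊ ≤ 1 ↔ av q x⁻¹ ≤ 1 := Iff.rfl
    rw [h2, av_inv, inv_le_one_iff₀]
    constructor
    · rintro (h | h)
      · exact absurd (av_pos q hx) (not_lt.mpr h)
      · exact h
    · exact Or.inr
  have h3 : x⁻¹ ∈ padicPlace q ↔ 1 ≤ (padicPlace q).valuation x := by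
    rw [← ValuationSubring.valuation_le_one_iff, map_inv₀, inv_le_one₀]
    exact zero_lt_iff.mpr ((Valuation.ne_zero_iff _).mpr hx)
  rw [← not_le, ← not_le, ← h1, ← h3]

theorem padicPlace_liesOver : (padicPlace q).LiesOverPrime q := by
  show _ ∈ (padicPlace q).nonunits
  rw [Fermat.Agent.Frob.mem_nonunits_iff_valuation, valuation_lt_one_iff_av]
  exact av_q_lt q

theorem av_le_of_isIntegral {x : Qb} (hx : IsIntegral ℤ x) : av q x ≤ 1 := by
  have := Fermat.Agent.Frob.mem_of_isIntegral (padicPlace q) hx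
  rwa [mem_padicPlace_iff] at this

end av

section dense

variable (q : ℕ) [hq : Fact q.Prime] (F : IntermediateField ℚ Qb)

theorem exists_approx (y : PadicAlgCl q)
    (hy : ∀ τ : LG q, localGaloisToGlobal q τ ∈ F.fixingSubgroup → τ y = y) {ε : ℝ} (hε : 0 < ε) :
    ∃ a ∈ F, ‖y - padicEmbedding q a‖ < ε := by
  let T : Set (PadicAlgCl q) := (padicEmbedding q) '' (F : Set Qb)
  let K1 : IntermediateField ℚ_[q] (PadicAlgCl q) := IntermediateField.adjoin ℚ_[q] T
  have hyK : y ∈ K1 := by
    haveI : IsGalois ℚ_[q] (PadicAlgCl q) := IsAlgClosure.isGalois ℚ_[q] _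
    rw [← InfiniteGalois.fixedField_fixingSubgroup K1, IntermediateField.mem_fixedField_iff]
    intro τ hτ
    apply hy
    rw [IntermediateField.mem_fixingSubgroup_iff]
    intro x hx
    apply (padicEmbedding q).toRingHom.injective
    show padicEmbedding q _ = padicEmbedding q _
    rw [padicEmbedding_localGaloisToGlobal]
    rw [IntermediateField.mem_fixingSubgroup_iff] at hτ
    exact hτ _ (IntermediateField.subset_adjoin _ _ ⟨x, hx, rfl⟩)
  have hspan : y ∈ Submodule.span ℚ_[q] T := by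
    have h1 : y ∈ K1.toSubalgebra := hyK
    rw [IntermediateField.adjoin_toSubalgebra, ← Subalgebra.mem_toSubmodule,
      Algebra.adjoin_eq_span] at h1
    have h2 : ((Submonoid.closure T : Submonoid (PadicAlgCl q)) : Set (PadicAlgCl q)) = T := by
      let M : Submonoid (PadicAlgCl q) :=
        { carrier := T
          one_mem' := ⟨1, F.one_mem, map_one _⟩
          mul_mem' := by
            rintro _ _ ⟨a, ha, rfl⟩ ⟨b, hb, rfl⟩
            exact ⟨a * b, F.mul_mem ha hb, map_mul _ _ _⟩ }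
      have : Submonoid.closure T = M := le_antisymm
        ((Submonoid.closure_le).mpr (le_refl (T : Set (PadicAlgCl q)))) Submonoid.subset_closure
      rw [this]; rfl
    rwa [h2] at h1
  clear hyK
  revert ε
  refine Submodule.span_induction (p := fun y _ => ∀ {ε : ℝ}, 0 < ε →
    ∃ a ∈ F, ‖y - padicEmbedding q a‖ < ε) ?_ ?_ ?_ ?_ hspan
  · rintro _ ⟨a, ha, rfl⟩ ε hε
    exact ⟨a, ha, by simpa using hε⟩
  · intro ε hε
    exact ⟨0, F.zero_mem, by simpa using hε⟩
  · intro x z _ _ hx hz ε hε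
    obtain ⟨a, ha, ha'⟩ := hx hε
    obtain ⟨b, hb, hb'⟩ := hz hε
    refine ⟨a + b, F.add_mem ha hb, ?_⟩
    rw [map_add, add_sub_add_comm]
    exact lt_of_le_of_lt (PadicAlgCl.isNonarchimedean q _ _) (max_lt ha' hb')
  · intro c x _ hx ε hε
    obtain ⟨a, ha, ha'⟩ := hx (show 0 < ε / (‖c‖ + 1) by positivity)
    obtain ⟨r, hr⟩ := Padic.rat_dense q c (show 0 < ε / (‖padicEmbedding q a‖ + 1) by positivity)
    refine ⟨(r : Qb) * a, F.mul_mem ?_ ha, ?_⟩
    · exact F.algebraMap_mem r
    · have e1 : c • x - padicEmbedding q ((r : Qb) * a) =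
        c • (x - padicEmbedding q a) + (c - (r : ℚ_[q])) • padicEmbedding q a := by
        rw [map_mul, map_ratCast, smul_sub, sub_smul]
        have : ((r : ℚ_[q]) • padicEmbedding q a : PadicAlgCl q) = (r : PadicAlgCl q) * padicEmbedding q a := by
          rw [Algebra.smul_def, map_ratCast]
        rw [this]; ring
      rw [e1]
      refine lt_of_le_of_lt (PadicAlgCl.isNonarchimedean q _ _) (max_lt ?_ ?_)
      · rw [norm_smul]
        calc ‖c‖ * ‖x - padicEmbedding q a‖ ≤ (‖c‖ + 1) * ‖x - padicEmbedding q a‖ := by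
              gcongr; linarith
          _ < (‖c‖ + 1) * (ε / (‖c‖ + 1)) := by gcongr
          _ = ε := by field_simp
      · rw [norm_smul]
        calc ‖c - (r : ℚ_[q])‖ * ‖padicEmbedding q a‖
            ≤ ‖c - (r : ℚ_[q])‖ * (‖padicEmbedding q a‖ + 1) := by gcongr; linarith
          _ < ε / (‖padicEmbedding q a‖ + 1) * (‖padicEmbedding q a‖ + 1) := by gcongr
          _ = ε := by field_simp

/-- two embeddings inducing the same absolute value are conjugate -/
theorem exists_lg_eq [FiniteDimensional ℚ F] (σ σ' : GQ)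
    (h : ∀ x ∈ F, av q (σ x) = av q (σ' x)) :
    ∃ τ : LG q, ∀ x ∈ F, localGaloisToGlobal q τ (σ x) = σ' x := by
  classical
  obtain ⟨θ, hθ⟩ := Field.exists_primitive_element ℚ F
  set y := padicEmbedding q (σ θ) with hy
  set y' := padicEmbedding q (σ' θ) with hy'
  have hyint : IsIntegral ℚ_[q] y := Algebra.IsIntegral.isIntegral y
  set P := minpoly ℚ_[q] y with hP
  have hroot : Polynomial.aeval y' P = 0 := by
    by_contra hne
    have hδ : 0 < ‖Polynomial.aeval y' P‖ := norm_pos_iff.mpr hne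
    set δ := ‖Polynomial.aeval y' P‖ with hδdef
    set n := P.natDegree with hn
    have hr : ∀ i : ℕ, ∃ r : ℚ, ‖P.coeff i - (r : ℚ_[q])‖ < δ / (max ‖y‖ ‖y'‖ ^ i + 1) := by
      intro i
      exact Padic.rat_dense q (P.coeff i) (by positivity)
    choose r hr using hr
    -- the rational approximation evaluated at θ
    let R : F := ∑ i ∈ Finset.range (n + 1), (algebraMap ℚ F (r i)) * θ ^ i
    have hRσ : ∀ g : GQ, padicEmbedding q (g (R : Qb)) =
        ∑ i ∈ Finset.range (n + 1), ((r i : ℚ_[q]) : ℚ_[q]) • (padicEmbedding q (g θ)) ^ i := by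
      intro g
      have e1 : ((R : F) : Qb) = ∑ i ∈ Finset.range (n + 1), ((r i : ℚ) : Qb) * (θ : Qb) ^ i := by
        simp [R]
      rw [e1]
      simp only [map_sum, map_mul, map_pow, map_ratCast]
      refine Finset.sum_congr rfl fun i _ => ?_
      rw [Algebra.smul_def, map_ratCast]
    have hbound : ∀ z : PadicAlgCl q, ‖z‖ ≤ max ‖y‖ ‖y'‖ →
        ‖Polynomial.aeval z P - ∑ i ∈ Finset.range (n + 1), (r i : ℚ_[q]) • z ^ i‖ < δ := by
      intro z hz
      rw [Polynomial.aeval_eq_sum_range, ← Finset.sum_sub_distrib]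
      have hlt : ∀ i ∈ Finset.range (n + 1), ‖P.coeff i • z ^ i - (r i : ℚ_[q]) • z ^ i‖ < δ := by
        intro i _
        rw [← sub_smul, norm_smul, norm_pow]
        have h3 : ‖z‖ ^ i ≤ max ‖y‖ ‖y'‖ ^ i := by gcongr
        calc ‖P.coeff i - (r i : ℚ_[q])‖ * ‖z‖ ^ i
            ≤ ‖P.coeff i - (r i : ℚ_[q])‖ * (max ‖y‖ ‖y'‖ ^ i + 1) := by gcongr; linarith
          _ < δ / (max ‖y‖ ‖y'‖ ^ i + 1) * (max ‖y‖ ‖y'‖ ^ i + 1) := by
              gcongr
              exact hr i
          _ = δ := by field_simp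
      obtain ⟨i, hi, hle⟩ := IsUltrametricDist.exists_norm_finsetSum_le
        (Finset.range (n + 1)) (fun i => P.coeff i • z ^ i - (r i : ℚ_[q]) • z ^ i)
      have hi' : i ∈ Finset.range (n + 1) := hi ⟨0, by simp⟩
      exact lt_of_le_of_lt hle (hlt i hi')
    have h1 := hbound y (le_max_left _ _)
    have h2 := hbound y' (le_max_right _ _)
    rw [minpoly.aeval, zero_sub, norm_neg, ← hRσ σ] at h1
    rw [← hRσ σ'] at h2
    have h5 := h R R.2
    simp only [av] at h5
    rw [h5] at h1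
    have e : Polynomial.aeval y' P = (Polynomial.aeval y' P - padicEmbedding q (σ' (R : Qb))) +
        padicEmbedding q (σ' (R : Qb)) := by ring
    have h6 : ‖Polynomial.aeval y' P‖ < δ := by
      rw [e]
      exact lt_of_le_of_lt (PadicAlgCl.isNonarchimedean q _ _) (max_lt h2 h1)
    exact lt_irrefl _ h6
  obtain ⟨τ, hτ⟩ := minpoly.exists_algEquiv_of_root' (K := ℚ_[q]) (L := PadicAlgCl q)
    (x := y') (y := y) hyint.isAlgebraic hroot
  refine ⟨τ, fun x hx => ?_⟩
  have h1 : localGaloisToGlobal q τ (σ θ) = σ' θ := by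
    apply (padicEmbedding q).toRingHom.injective
    show padicEmbedding q _ = padicEmbedding q _
    rw [padicEmbedding_localGaloisToGlobal, ← hy, hτ]
  -- both maps agree on `F = ℚ(θ)`
  let f1 : F →ₐ[ℚ] Qb := ((localGaloisToGlobal q τ * σ : GQ) : Qb →ₐ[ℚ] Qb).comp F.val
  let f2 : F →ₐ[ℚ] Qb := (σ' : Qb →ₐ[ℚ] Qb).comp F.val
  have h2 : f1 = f2 := by
    apply AlgHom.ext
    intro z
    have hz : z ∈ IntermediateField.adjoin ℚ {θ} := by rw [hθ]; trivial
    induction hz using IntermediateField.adjoin_induction with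
    | mem x hx =>
      rw [Set.mem_singleton_iff] at hx
      rw [hx]; exact h1
    | algebraMap x => rw [AlgHom.commutes, AlgHom.commutes]
    | add x y _ _ hx hy => rw [map_add, map_add, hx, hy]
    | inv x _ hx => rw [map_inv₀, map_inv₀, hx]
    | mul x y _ _ hx hy => rw [map_mul, map_mul, hx, hy]
  exact DFunLike.congr_fun h2 ⟨x, hx⟩

end dense

end Fermat.Agent.CFT
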