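import Fermat.Agent.CFT.Places

set_option autoImplicit false
set_option maxHeartbeats 400000

/-! Primes of number fields inside `Qbar` and absolute values. -/

namespace Fermat.Agent.CFT

open NumberField IsDedekindDomain
open scoped Pointwise WithZero

instance numberFieldOfFin (F : IntermediateField ℚ Qb) [h : FiniteDimensional ℚ F] :
    NumberField F where
  to_charZero := inferInstance
  to_finiteDimensional := by
    have e : (F.algebra' : Algebra ℚ F) = DivisionRing.toRatAlgebra := Subsingleton.elim _ _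
    exact e ▸ h

section generic

variable {L : Type} [Field L] [CharZero L] [Algebra ℚ L] [IsGalois ℚ L]

theorem exists_smul_center (K : IntermediateField ℚ L) (v : Ideal (𝓞 K)) [v.IsMaximal] {ℓ : ℕ}
    (hℓ : ℓ.Prime) (hv : (ℓ : 𝓞 K) ∈ v) (A : ValuationSubring L) (hA : A.LiesOverPrime ℓ) :
    ∃ g : L ≃ₐ[ℚ] L, ∀ x : 𝓞 K, x ∈ v ↔ A.valuation (g ((x : K) : L)) < 1 := by
  letI : Algebra (𝓞 K) (integralClosure ℤ L) := (Fermat.Agent.Mink.incl K).toAlgebra
  haveI : IsScalarTower ℤ (𝓞 K) (integralClosure ℤ L) :=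
    IsScalarTower.of_algebraMap_eq' (Subsingleton.elim _ _)
  haveI : Algebra.IsIntegral (𝓞 K) (integralClosure ℤ L) := by
    refine ⟨fun t => ?_⟩
    have : IsIntegral ℤ t := Algebra.IsIntegral.isIntegral t
    exact this.tower_top
  obtain ⟨P, hP1, hP2⟩ := Ideal.exists_ideal_over_maximal_of_isIntegral
    (S := integralClosure ℤ L) v
    (by
      rw [(RingHom.injective_iff_ker_eq_bot _).mp]
      · exact bot_le
      · intro a b hab
        apply Subtype.ext
        apply Subtype.ext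
        exact congrArg (fun t : integralClosure ℤ L => (t : L)) hab)
  haveI := hP1
  have hover : v = P.comap (algebraMap (𝓞 K) (integralClosure ℤ L)) := hP2.symm
  letI : TopologicalSpace (integralClosure ℤ L) := ⊥
  haveI : DiscreteTopology (integralClosure ℤ L) := ⟨rfl⟩
  haveI : ContinuousSMul (L ≃ₐ[ℚ] L) (integralClosure ℤ L) :=
    Fermat.Agent.Frob.continuousSMul_integralClosure
  have hunder : (Fermat.Agent.Frob.center A).under ℤ = P.under ℤ := by
    rw [Fermat.Agent.Frob.center_under _ hℓ hA]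
    have hmax : (Ideal.span {(ℓ : ℤ)}).IsMaximal := by
      apply PrincipalIdealRing.isMaximal_of_irreducible
      exact (Nat.prime_iff_prime_int.mp hℓ).irreducible
    haveI : (P.under ℤ).IsPrime := inferInstance
    apply hmax.eq_of_le (Ideal.IsPrime.ne_top inferInstance)
    rw [Ideal.span_singleton_le_iff_mem, Ideal.mem_comap]
    have : (ℓ : 𝓞 K) ∈ P.comap (algebraMap (𝓞 K) (integralClosure ℤ L)) := hover ▸ hv
    rw [Ideal.mem_comap] at this
    simpa using this
  obtain ⟨g, hg⟩ := Algebra.IsInvariant.exists_smul_of_under_eq_of_profinite (A := ℤ)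
    (G := L ≃ₐ[ℚ] L) (Fermat.Agent.Frob.center A) P hunder
  refine ⟨g⁻¹, fun x => ?_⟩
  rw [hover, Ideal.mem_comap, hg, Ideal.mem_pointwise_smul_iff_inv_smul_mem,
    Fermat.Agent.Frob.mem_center_iff]
  rfl

end generic

section

variable (q : ℕ) [hq : Fact q.Prime] (F : IntermediateField ℚ Qb) [FiniteDimensional ℚ F] (σ : GQ)

theorem isIntegral_coe (x : 𝓞 F) : IsIntegral ℤ ((x : F) : Qb) := by
  have h := x.2
  exact h.map (IsScalarTower.toAlgHom ℤ F Qb)

theorem av_int_le_one (x : 𝓞 F) : av q (σ ((x : F) : Qb)) ≤ 1 := by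
  apply av_le_of_isIntegral
  exact (isIntegral_coe F x).map (σ : Qb ≃ₐ[ℚ] Qb)

/-- the prime of `F` attached to `(q, σ)` -/
noncomputable def primeOf : HeightOneSpectrum (𝓞 F) where
  asIdeal :=
    { carrier := {x | av q (σ ((x : F) : Qb)) < 1}
      zero_mem' := by
        show av q (σ (((0 : 𝓞 F) : F) : Qb)) < 1
        simp [av]
      add_mem' := by
        intro a b ha hb
        show av q (σ (((a + b : 𝓞 F) : F) : Qb)) < 1
        have e : (((a + b : 𝓞 F) : F) : Qb) = ((a : F) : Qb) + ((b : F) : Qb) := rfl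
        rw [e, map_add]
        exact lt_of_le_of_lt (av_add_le q _ _) (max_lt ha hb)
      smul_mem' := by
        intro c a ha
        show av q (σ (((c * a : 𝓞 F) : F) : Qb)) < 1
        have e : (((c * a : 𝓞 F) : F) : Qb) = ((c : F) : Qb) * ((a : F) : Qb) := rfl
        rw [e, map_mul, av_mul]
        exact mul_lt_one_of_nonneg_of_lt_one_right (av_int_le_one q F σ c) (av_nonneg q _) ha }
  isPrime := by
    rw [Ideal.isPrime_iff]
    refine ⟨?_, ?_⟩
    · rw [Ideal.ne_top_iff_one]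
      show ¬ av q (σ (((1 : 𝓞 F) : F) : Qb)) < 1
      have e : (((1 : 𝓞 F) : F) : Qb) = 1 := rfl
      rw [e, map_one, av_one]; exact lt_irrefl _
    · intro x y hxy
      change av q (σ (((x * y : 𝓞 F) : F) : Qb)) < 1 at hxy
      have e : (((x * y : 𝓞 F) : F) : Qb) = ((x : F) : Qb) * ((y : F) : Qb) := rfl
      rw [e, map_mul, av_mul] at hxy
      by_contra hcon
      push Not at hcon
      have h1 : 1 ≤ av q (σ ((x : F) : Qb)) := not_lt.mp hcon.1
      have h2 : 1 ≤ av q (σ ((y : F) : Qb)) := not_lt.mp hcon.2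
      exact absurd hxy (not_lt.mpr (by nlinarith))
  ne_bot := by
    intro h
    have h1 : ((q : 𝓞 F)) ∈ (⊥ : Ideal (𝓞 F)) := by
      rw [← h]
      show av q (σ (((q : 𝓞 F) : F) : Qb)) < 1
      have e : (((q : 𝓞 F) : F) : Qb) = (q : Qb) := by simp
      rw [e, map_natCast]; exact av_q_lt q
    rw [Ideal.mem_bot] at h1
    exact hq.out.ne_zero (by exact_mod_cast h1)

theorem mem_primeOf (x : 𝓞 F) : x ∈ (primeOf q F σ).asIdeal ↔ av q (σ ((x : F) : Qb)) < 1 := Iff.rfl

theorem notMem_primeOf (x : 𝓞 F) :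
    x ∉ (primeOf q F σ).asIdeal ↔ av q (σ ((x : F) : Qb)) = 1 := by
  rw [mem_primeOf, not_lt]
  exact ⟨fun h => le_antisymm (av_int_le_one q F σ x) h, fun h => h.ge⟩

theorem av_le_one_of_valuation (x : F) (h : (primeOf q F σ).valuation F x ≤ 1) :
    av q (σ (x : Qb)) ≤ 1 := by
  obtain ⟨n, ⟨d, hd⟩, hnd⟩ := HeightOneSpectrum.exists_primeCompl_mul_eq_of_integer (K := F)
    (primeOf q F σ) x h
  have hd' : av q (σ ((d : F) : Qb)) = 1 := (notMem_primeOf q F σ d).mp hd
  have h1 := congrArg (fun z : F => av q (σ (z : Qb))) hnd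
  simp only at h1
  have e : ((x * algebraMap (𝓞 F) F d : F) : Qb) = (x : Qb) * ((d : F) : Qb) := rfl
  rw [e, map_mul, av_mul, hd', mul_one] at h1
  rw [h1]
  exact av_int_le_one q F σ n

theorem valuation_coe_lt_one (x : 𝓞 F) : (primeOf q F σ).valuation F (x : F) < 1 ↔
    av q (σ ((x : F) : Qb)) < 1 := by
  rw [HeightOneSpectrum.valuation_lt_one_iff_mem, mem_primeOf]

theorem valuation_coe_eq_one (x : 𝓞 F) : (primeOf q F σ).valuation F (x : F) = 1 ↔
    av q (σ ((x : F) : Qb)) = 1 := by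
  rw [HeightOneSpectrum.valuation_eq_one_iff_notMem, notMem_primeOf]

theorem av_lt_one_of_valuation (x : F) (h : (primeOf q F σ).valuation F x < 1) :
    av q (σ (x : Qb)) < 1 := by
  obtain ⟨n, ⟨d, hd⟩, hnd⟩ := HeightOneSpectrum.exists_primeCompl_mul_eq_of_integer (K := F)
    (primeOf q F σ) x h.le
  have hd' : av q (σ ((d : F) : Qb)) = 1 := (notMem_primeOf q F σ d).mp hd
  have hd'' : (primeOf q F σ).valuation F (d : F) = 1 := (valuation_coe_eq_one q F σ d).mpr hd'
  have h0 := congrArg (fun z : F => av q (σ (z : Qb))) hnd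
  simp only at h0
  have e : ((x * algebraMap (𝓞 F) F d : F) : Qb) = (x : Qb) * ((d : F) : Qb) := rfl
  rw [e, map_mul, av_mul, hd', mul_one] at h0
  rw [h0]
  have h5 := congrArg ((primeOf q F σ).valuation F) hnd
  rw [map_mul] at h5
  simp only at h5
  rw [hd'', mul_one] at h5
  exact (valuation_coe_lt_one q F σ n).mp (h5 ▸ h)

theorem av_le_one_iff (x : F) : av q (σ (x : Qb)) ≤ 1 ↔ (primeOf q F σ).valuation F x ≤ 1 := by
  refine ⟨fun h => ?_, av_le_one_of_valuation q F σ x⟩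
  by_contra hcon
  rw [not_le] at hcon
  have hx : x ≠ 0 := by
    rintro rfl
    rw [map_zero] at hcon
    exact absurd hcon (not_lt.mpr zero_le)
  have h1 : (primeOf q F σ).valuation F x⁻¹ < 1 := by
    rw [map_inv₀]; exact inv_lt_one_of_one_lt₀ hcon
  have h2 := av_lt_one_of_valuation q F σ _ h1
  have e : ((x⁻¹ : F) : Qb) = (x : Qb)⁻¹ := rfl
  rw [e, map_inv₀, av_inv] at h2
  have hx' : (x : Qb) ≠ 0 := fun h => hx (Subtype.ext h)
  have h3 : 0 < av q (σ (x : Qb)) := av_pos q (by rwa [ne_eq, EmbeddingLike.map_eq_zero_iff])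
  have h4 : 1 < av q (σ (x : Qb)) := by
    by_contra h5
    rw [not_lt] at h5
    exact absurd h2 (not_lt.mpr ((one_le_inv₀ h3).mpr h5))
  exact absurd h (not_le.mpr h4)

theorem coe_inv_av (x : F) : av q (σ ((x⁻¹ : F) : Qb)) = (av q (σ (x : Qb)))⁻¹ := by
  have e : ((x⁻¹ : F) : Qb) = (x : Qb)⁻¹ := rfl
  rw [e, map_inv₀, av_inv]

theorem av_eq_one_iff {x : F} (hx : x ≠ 0) :
    av q (σ (x : Qb)) = 1 ↔ (primeOf q F σ).valuation F x = 1 := by
  have hx' : (x : Qb) ≠ 0 := fun h => hx (Subtype.ext h)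
  have h3 : 0 < av q (σ (x : Qb)) := av_pos q (by rwa [ne_eq, EmbeddingLike.map_eq_zero_iff])
  have hv : (primeOf q F σ).valuation F x ≠ 0 := (Valuation.ne_zero_iff _).mpr hx
  have h1 := av_le_one_iff q F σ x
  have h2 := av_le_one_iff q F σ x⁻¹
  rw [coe_inv_av, map_inv₀, inv_le_one₀ h3, inv_le_one₀ (zero_lt_iff.mpr hv)] at h2
  constructor
  · intro h
    exact le_antisymm (h1.mp h.le) (h2.mp h.ge)
  · intro h
    exact le_antisymm (h1.mpr h.le) (h2.mpr h.ge)

theorem av_eq_iff {x y : F} (hx : x ≠ 0) (hy : y ≠ 0) :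
    av q (σ (x : Qb)) = av q (σ (y : Qb)) ↔
      (primeOf q F σ).valuation F x = (primeOf q F σ).valuation F y := by
  have hy' : (y : Qb) ≠ 0 := fun h => hy (Subtype.ext h)
  have h3 : 0 < av q (σ (y : Qb)) := av_pos q (by rwa [ne_eq, EmbeddingLike.map_eq_zero_iff])
  have hv : (primeOf q F σ).valuation F y ≠ 0 := (Valuation.ne_zero_iff _).mpr hy
  have h1 := av_eq_one_iff q F σ (x := x / y) (div_ne_zero hx hy)
  have e : ((x / y : F) : Qb) = (x : Qb) / (y : Qb) := rfl
  rw [e, map_div₀, av_div, map_div₀, div_eq_one_iff_eq h3.ne', div_eq_one_iff_eq hv] at h1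
  exact h1

theorem natCast_mem_primeOf : (q : 𝓞 F) ∈ (primeOf q F σ).asIdeal := by
  rw [mem_primeOf]
  have e : (((q : 𝓞 F) : F) : Qb) = (q : Qb) := by simp
  rw [e, map_natCast]; exact av_q_lt q

/-- the prime determines the absolute value -/
theorem av_eq_of_primeOf_eq {σ σ' : GQ} (h : primeOf q F σ = primeOf q F σ') (x : F) :
    av q (σ (x : Qb)) = av q (σ' (x : Qb)) := by
  rcases eq_or_ne x 0 with rfl | hx
  · simp [av]
  have hq0 : (q : F) ≠ 0 := by exact_mod_cast hq.out.ne_zero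
  set v := primeOf q F σ with hv
  -- valuation of q
  have hvq : v.valuation F (q : F) < 1 := by
    have := (HeightOneSpectrum.valuation_lt_one_iff_mem (K := F) v (q : 𝓞 F)).mpr
      (natCast_mem_primeOf q F σ)
    simpa using this
  have hvq0 : v.valuation F (q : F) ≠ 0 := (Valuation.ne_zero_iff _).mpr hq0
  have hvx0 : v.valuation F x ≠ 0 := (Valuation.ne_zero_iff _).mpr hx
  obtain ⟨a, ha⟩ : ∃ a : ℤ, v.valuation F (q : F) = WithZero.exp a := by
    exact ⟨WithZero.log (v.valuation F (q : F)), (WithZero.exp_log hvq0).symm⟩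
  obtain ⟨b, hb⟩ : ∃ b : ℤ, v.valuation F x = WithZero.exp b :=
    ⟨WithZero.log (v.valuation F x), (WithZero.exp_log hvx0).symm⟩
  have ha0 : a < 0 := by
    rw [ha] at hvq
    rw [← WithZero.exp_zero] at hvq
    exact WithZero.exp_lt_exp.mp hvq
  have hval : v.valuation F (x ^ a) = v.valuation F ((q : F) ^ b) := by
    rw [map_zpow₀, map_zpow₀, ha, hb, ← WithZero.exp_zsmul, ← WithZero.exp_zsmul]
    congr 1
    simp [mul_comm]
  have key : ∀ g : GQ, primeOf q F g = v → av q (g (x : Qb)) ^ a = av q (q : Qb) ^ b := by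
    intro g hg
    have h1 := (av_eq_iff q F g (x := x ^ a) (y := (q : F) ^ b) (zpow_ne_zero _ hx)
      (zpow_ne_zero _ hq0)).mpr (by rw [hg]; exact hval)
    have e1 : ((x ^ a : F) : Qb) = (x : Qb) ^ a := by push_cast; rfl
    have e2 : (((q : F) ^ b : F) : Qb) = (q : Qb) ^ b := by push_cast; rfl
    rw [e1, e2, map_zpow₀, map_zpow₀, av_zpow, av_zpow, map_natCast] at h1
    exact h1
  have h1 := key σ hv.symm
  have h2 := key σ' h.symm
  rw [← h2] at h1
  have hx' : (x : Qb) ≠ 0 := fun h => hx (Subtype.ext h)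
  exact (zpow_left_inj₀ (av_pos q (by rwa [ne_eq, EmbeddingLike.map_eq_zero_iff])).le
    (av_pos q (by rwa [ne_eq, EmbeddingLike.map_eq_zero_iff])).le ha0.ne).mp h1

theorem exists_prime_mem (v : HeightOneSpectrum (𝓞 F)) :
    ∃ ℓ : ℕ, ℓ.Prime ∧ (ℓ : 𝓞 F) ∈ v.asIdeal := by
  let I : Ideal ℤ := v.asIdeal.comap (algebraMap ℤ (𝓞 F))
  haveI : I.IsPrime := inferInstance
  have hI : I ≠ ⊥ := by
    intro h0
    have h1 : ((Ideal.absNorm v.asIdeal : ℕ) : ℤ) ∈ I := by
      rw [Ideal.mem_comap]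
      have := Ideal.absNorm_mem v.asIdeal
      simpa using this
    rw [h0, Ideal.mem_bot] at h1
    have h2 : Ideal.absNorm v.asIdeal = 0 := by exact_mod_cast h1
    rw [Ideal.absNorm_eq_zero_iff] at h2
    exact v.ne_bot h2
  obtain ⟨g, hg⟩ := (IsPrincipalIdealRing.principal I).principal
  have hg' : I = Ideal.span {g} := hg
  have hg0 : g ≠ 0 := by
    rintro rfl
    apply hI
    rw [hg']; simp
  have hgp : Prime g := (Ideal.span_singleton_prime hg0).mp (hg' ▸ inferInstance)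
  refine ⟨g.natAbs, Int.prime_iff_natAbs_prime.mp hgp, ?_⟩
  have h3 : ((g.natAbs : ℕ) : ℤ) ∈ I := by
    rw [hg', Ideal.mem_span_singleton]
    exact Int.dvd_natAbs.mpr dvd_rfl
  rw [Ideal.mem_comap] at h3
  simpa using h3

/-- every prime of `F` is of the form `primeOf ℓ F σ` -/
theorem exists_primeOf_eq (v : HeightOneSpectrum (𝓞 F)) {ℓ : ℕ} [hℓ : Fact ℓ.Prime]
    (hv : (ℓ : 𝓞 F) ∈ v.asIdeal) : ∃ σ : GQ, primeOf ℓ F σ = v := by
  haveI := Fermat.Agent.Frob.isGalois_Qbar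
  haveI := v.isMaximal
  obtain ⟨g, hg⟩ := exists_smul_center F v.asIdeal hℓ.out hv (padicPlace ℓ) (padicPlace_liesOver ℓ)
  refine ⟨g, ?_⟩
  ext x
  rw [mem_primeOf, hg, valuation_lt_one_iff_av]

theorem primeOf_inj {ℓ ℓ' : ℕ} [hℓ : Fact ℓ.Prime] [hℓ' : Fact ℓ'.Prime] {σ σ' : GQ}
    (h : primeOf ℓ F σ = primeOf ℓ' F σ') : ℓ = ℓ' := by
  by_contra hne
  have hcop : IsCoprime (ℓ : ℤ) (ℓ' : ℤ) := by
    rw [Nat.isCoprime_iff_coprime]
    exact (Nat.coprime_primes hℓ.out hℓ'.out).mpr hne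
  obtain ⟨a, b, hab⟩ := hcop
  have h1 := natCast_mem_primeOf ℓ F σ
  have h2 := natCast_mem_primeOf ℓ' F σ'
  rw [← h] at h2
  have h3 : (1 : 𝓞 F) ∈ (primeOf ℓ F σ).asIdeal := by
    have e : (1 : 𝓞 F) = (a : 𝓞 F) * (ℓ : 𝓞 F) + (b : 𝓞 F) * (ℓ' : 𝓞 F) := by
      have := congrArg (Int.cast : ℤ → 𝓞 F) hab
      push_cast at this
      exact this.symm
    rw [e]
    exact Ideal.add_mem _ (Ideal.mul_mem_left _ _ h1) (Ideal.mul_mem_left _ _ h2)
  exact (primeOf ℓ F σ).isPrime.ne_top ((Ideal.eq_top_iff_one _).mpr h3)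

/-- the prime determines the double coset -/
theorem exists_lg_of_primeOf_eq {σ σ' : GQ} (h : primeOf q F σ = primeOf q F σ') :
    ∃ τ : LG q, ∃ n ∈ F.fixingSubgroup, σ' = localGaloisToGlobal q τ * σ * n := by
  obtain ⟨τ, hτ⟩ := exists_lg_eq q F σ σ' (fun x hx => av_eq_of_primeOf_eq q F h ⟨x, hx⟩)
  refine ⟨τ, (localGaloisToGlobal q τ * σ)⁻¹ * σ', ?_, by group⟩
  rw [IntermediateField.mem_fixingSubgroup_iff]
  intro x hx
  show (localGaloisToGlobal q τ * σ)⁻¹ (σ' x) = x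
  rw [← hτ x hx]
  exact AlgEquiv.symm_apply_apply (localGaloisToGlobal q τ * σ) x

theorem primeOf_mul (τ : LG q) {n : GQ} (hn : n ∈ F.fixingSubgroup) :
    primeOf q F (localGaloisToGlobal q τ * σ * n) = primeOf q F σ := by
  ext x
  rw [mem_primeOf, mem_primeOf]
  have h1 : (localGaloisToGlobal q τ * σ * n) ((x : F) : Qb) =
      localGaloisToGlobal q τ (σ ((x : F) : Qb)) := by
    have : n ((x : F) : Qb) = ((x : F) : Qb) :=
      (IntermediateField.mem_fixingSubgroup_iff F n).mp hn _ (x : F).2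
    show localGaloisToGlobal q τ (σ (n ((x : F) : Qb))) = _
    rw [this]
  rw [h1, av_lg]

end

end Fermat.Agent.CFT
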