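import Fermat.Agent.CFT.Herbrand
import Fermat.Agent.CFT.Shapiro

set_option autoImplicit false
set_option maxHeartbeats 400000

/-! Index calculus: products, lattices, equivariant functions. -/

namespace Fermat.Agent.CFT

open Finset

section pi

variable {ι : Type*} [Fintype ι] (A : ι → Type*) [∀ i, AddCommGroup (A i)] (p : ℕ)

theorem ind_pi (h : ∀ i, FinInd (mulN (A i) p)) :
    FinInd (mulN (∀ i, A i) p) ∧ ind (mulN (∀ i, A i) p) = ∏ i, ind (mulN (A i) p) := by
  classical
  have hr : (mulN (∀ i, A i) p).range = AddSubgroup.pi Set.univ (fun i => (mulN (A i) p).range) := by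
    ext f
    rw [AddSubgroup.mem_pi]
    constructor
    · rintro ⟨g, rfl⟩ i _
      exact ⟨g i, rfl⟩
    · intro hf
      choose g hg using fun i => hf i trivial
      exact ⟨g, funext hg⟩
  have hk : Nat.card (mulN (∀ i, A i) p).ker = ∏ i, Nat.card (mulN (A i) p).ker := by
    rw [← Nat.card_pi]
    refine Nat.card_congr
      { toFun := fun f i => ⟨f.1 i, ?_⟩
        invFun := fun f => ⟨fun i => (f i).1, ?_⟩
        left_inv := fun f => rfl
        right_inv := fun f => rfl }
    · have := f.2
      rw [AddMonoidHom.mem_ker] at this ⊢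
      exact congrFun this i
    · rw [AddMonoidHom.mem_ker]
      funext i
      have := (f i).2
      rw [AddMonoidHom.mem_ker] at this
      exact this
  have hi : (mulN (∀ i, A i) p).range.index = ∏ i, (mulN (A i) p).range.index := by
    let φ : (∀ i, A i) →+ (∀ i, A i ⧸ (mulN (A i) p).range) :=
      { toFun := fun f i => QuotientAddGroup.mk' _ (f i)
        map_zero' := rfl
        map_add' := fun _ _ => rfl }
    have hφ : φ.ker = (mulN (∀ i, A i) p).range := by
      rw [hr]
      ext f
      rw [AddMonoidHom.mem_ker, AddSubgroup.mem_pi]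
      constructor
      · intro h i _
        have := congrFun h i
        exact (QuotientAddGroup.eq_zero_iff _).mp this
      · intro h
        funext i
        exact (QuotientAddGroup.eq_zero_iff _).mpr (h i trivial)
    have hsurj : Function.Surjective φ := by
      intro f
      choose g hg using fun i => QuotientAddGroup.mk'_surjective (mulN (A i) p).range (f i)
      exact ⟨g, funext hg⟩
    rw [← hφ, AddSubgroup.index_ker, AddMonoidHom.range_eq_top.mpr hsurj,
      Nat.card_congr (AddSubgroup.topEquiv).toEquiv, Nat.card_pi]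
    rfl
  refine ⟨⟨?_, ?_⟩, ?_⟩
  · rw [hk, Finset.prod_ne_zero_iff]; exact fun i _ => (h i).ker
  · rw [hi, Finset.prod_ne_zero_iff]; exact fun i _ => (h i).coker
  · unfold ind
    rw [hk, hi]
    push_cast
    rw [Finset.prod_div_distrib]

end pi

theorem ind_int {p : ℕ} (hp : p ≠ 0) : FinInd (mulN ℤ p) ∧ ind (mulN ℤ p) = p := by
  have hker : (mulN ℤ p).ker = ⊥ := by
    rw [eq_bot_iff]
    intro x hx
    rw [AddMonoidHom.mem_ker] at hx
    have : (p : ℤ) * x = 0 := by
      have h1 : mulN ℤ p x = p • x := rfl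
      rw [h1, nsmul_eq_mul] at hx
      exact hx
    rcases mul_eq_zero.mp this with h | h
    · exact absurd (by exact_mod_cast h) hp
    · rw [AddSubgroup.mem_bot]; exact h
  have hrange : (mulN ℤ p).range = AddSubgroup.zmultiples (p : ℤ) := by
    ext x
    rw [AddSubgroup.mem_zmultiples_iff]
    constructor
    · rintro ⟨y, rfl⟩
      refine ⟨y, ?_⟩
      show y • (p : ℤ) = p • y
      simp [mul_comm]
    · rintro ⟨y, rfl⟩
      refine ⟨y, ?_⟩
      show p • y = y • (p : ℤ)
      simp [mul_comm]
  have hidx : (mulN ℤ p).range.index = p := by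
    rw [hrange, Int.index_zmultiples]; simp
  refine ⟨⟨?_, ?_⟩, ?_⟩
  · rw [hker]; simp
  · rw [hidx]; exact hp
  · unfold ind
    rw [hidx, hker]; simp

/-- a finitely generated group: exact sequence with finite kernel and lattice quotient -/
theorem ind_of_lattice {E : Type*} [AddCommGroup E] {p r : ℕ} (hp : p ≠ 0) (T : AddSubgroup E)
    [Finite T] (e : (E ⧸ T) ≃+ (Fin r → ℤ)) :
    FinInd (mulN E p) ∧ ind (mulN E p) = (p : ℚ) ^ r := by
  have h1 := ind_pi (fun _ : Fin r => ℤ) p (fun _ => (ind_int hp).1)
  have h2 : FinInd (mulN (E ⧸ T) p) ∧ ind (mulN (E ⧸ T) p) = ind (mulN (Fin r → ℤ) p) :=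
    h1.1.of_addEquiv e.symm _ _ (fun x => (map_nsmul e.symm p x).symm)
  have h3 := ind_exact (f' := mulN T p) (f := mulN E p) (f'' := mulN (E ⧸ T) p)
    (i := T.subtype) (π := QuotientAddGroup.mk' T) (i' := T.subtype) (π' := QuotientAddGroup.mk' T)
    T.subtype_injective (QuotientAddGroup.mk'_surjective T) (by simp)
    T.subtype_injective (QuotientAddGroup.mk'_surjective T) (by simp)
    (by intro x; rfl) (by intro x; rfl) (finInd_of_finite _) h2.1
  refine ⟨h3.1, ?_⟩
  rw [h3.2, ind_of_finite, h2.2, h1.2, Finset.prod_const, (ind_int hp).2, one_mul]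
  simp

end Fermat.Agent.CFT
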