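import Fermat.Agent.CFT.First
import Fermat.Agent.CFTSec.Main

set_option autoImplicit false
set_option maxHeartbeats 400000

/-! The cyclotomic character and the cyclotomic tower of degree a power of `p`. -/

namespace Fermat.Agent.CFT

open Finset
open scoped Pointwise

noncomputable section

/-- `p` as an element of `Nat.Primes` -/
abbrev pP (p : ℕ) [hp : Fact p.Prime] : Nat.Primes := ⟨p, hp.out⟩

section log

variable (p : ℕ) [hp : Fact p.Prime] (n : ℕ)

theorem exists_log (hp2 : 2 < p) : ∃ f : (ZMod (p ^ (n + 1)))ˣ →* Multiplicative (ZMod (p ^ n)),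
    Function.Surjective f ∧ ∀ x, f x = 1 ↔ x ^ (p - 1) = 1 := by
  haveI hcyc : IsCyclic (ZMod (p ^ (n + 1)))ˣ :=
    ZMod.isCyclic_units_of_prime_pow p hp.out (by omega) (n + 1)
  have hcard : Nat.card (ZMod (p ^ (n + 1)))ˣ = p ^ n * (p - 1) := by
    rw [Nat.card_eq_fintype_card, ZMod.card_units_eq_totient, Nat.totient_prime_pow_succ hp.out]
  have hN : p ^ n * (p - 1) ≠ 0 := by
    have := hp.out.pos
    have h1 : p ^ n ≠ 0 := by positivity
    exact Nat.mul_ne_zero h1 (by omega)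
  let e := zmodCyclicMulEquiv hcyc
  let c : ZMod (Nat.card (ZMod (p ^ (n + 1)))ˣ) →+* ZMod (p ^ n) :=
    ZMod.castHom (by rw [hcard]; exact dvd_mul_right _ _) _
  refine ⟨(AddMonoidHom.toMultiplicative c.toAddMonoidHom).comp e.symm.toMonoidHom, ?_, ?_⟩
  · intro y
    obtain ⟨z, hz⟩ := ZMod.castHom_surjective (show p ^ n ∣ Nat.card (ZMod (p ^ (n + 1)))ˣ by
      rw [hcard]; exact dvd_mul_right _ _) y.toAdd
    refine ⟨e (Multiplicative.ofAdd z), ?_⟩
    show Multiplicative.ofAdd (c (e.symm (e (Multiplicative.ofAdd z))).toAdd) = y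
    rw [e.symm_apply_apply]
    exact congrArg Multiplicative.ofAdd hz
  · intro x
    obtain ⟨z, rfl⟩ := e.surjective x
    rw [← map_pow, MulEquiv.map_eq_one_iff]
    show Multiplicative.ofAdd (c (e.symm (e z)).toAdd) = 1 ↔ _
    rw [e.symm_apply_apply]
    haveI : NeZero (Nat.card (ZMod (p ^ (n + 1)))ˣ) := ⟨by rw [hcard]; exact hN⟩
    obtain ⟨k, hk⟩ : ∃ k : ℕ, z = Multiplicative.ofAdd (k : ZMod (Nat.card (ZMod (p ^ (n + 1)))ˣ)) :=
      ⟨z.toAdd.val, by rw [ZMod.natCast_zmod_val]; rfl⟩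
    subst hk
    rw [ofAdd_eq_one, toAdd_ofAdd, map_natCast, ZMod.natCast_eq_zero_iff, ← ofAdd_nsmul,
      ofAdd_eq_one, nsmul_eq_mul, ← Nat.cast_mul, ZMod.natCast_eq_zero_iff, hcard, mul_comm (p - 1) k]
    have : 0 < p - 1 := by omega
    exact (Nat.mul_dvd_mul_iff_right this).symm

/-- discrete logarithm -/
def lgz (hp2 : 2 < p) : (ZMod (p ^ (n + 1)))ˣ →* Multiplicative (ZMod (p ^ n)) :=
  (exists_log p n hp2).choose

variable {p} (hp2 : 2 < p)

theorem lgz_surj : Function.Surjective (lgz p n hp2) := (exists_log p n hp2).choose_spec.1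

theorem lgz_eq_one {x : (ZMod (p ^ (n + 1)))ˣ} : lgz p n hp2 x = 1 ↔ x ^ (p - 1) = 1 :=
  (exists_log p n hp2).choose_spec.2 x

theorem lgz_neg_one : lgz p n hp2 (-1) = 1 := by
  rw [lgz_eq_one]
  have : Even (p - 1) := by
    rcases hp.out.eq_two_or_odd' with h | h
    · omega
    · exact (Nat.odd_iff.mp h ▸ by
        obtain ⟨k, hk⟩ := h
        exact ⟨k, by omega⟩)
  exact this.neg_one_pow

end log

section cyc

variable (p : ℕ) [hp : Fact p.Prime] (n : ℕ)

instance neZero_pow : NeZero (p ^ n) := ⟨pow_ne_zero _ hp.out.ne_zero⟩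

theorem exists_zN : ∃ z : Qb, IsPrimitiveRoot z (p ^ (n + 1)) :=
  HasEnoughRootsOfUnity.exists_primitiveRoot Qb (p ^ (n + 1))

/-- a primitive `p^(n+1)`-th root of unity -/
def zN : Qb := (exists_zN p n).choose

theorem zN_spec : IsPrimitiveRoot (zN p n) (p ^ (n + 1)) := (exists_zN p n).choose_spec

/-- the cyclotomic character -/
def cyc : GQ →* (ZMod (p ^ (n + 1)))ˣ := (zN_spec p n).autToPow ℚ

theorem cyc_spec (g : GQ) : zN p n ^ ((cyc p n g : (ZMod (p ^ (n + 1)))ˣ) : ZMod (p ^ (n + 1))).val =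
    g (zN p n) := (zN_spec p n).autToPow_spec ℚ g

theorem cyc_eq {g : GQ} {k : ℕ} (h : g (zN p n) = zN p n ^ k) :
    ((cyc p n g : (ZMod (p ^ (n + 1)))ˣ) : ZMod (p ^ (n + 1))) = k := by
  have h1 := cyc_spec p n g
  have hpos : 0 < p ^ (n + 1) := pow_pos hp.out.pos _
  rw [h, ← pow_mod_orderOf _ k, ← (zN_spec p n).eq_orderOf] at h1
  have h2 := (zN_spec p n).pow_inj (ZMod.val_lt _) (Nat.mod_lt _ hpos) h1
  have h3 := congrArg (Nat.cast : ℕ → ZMod (p ^ (n + 1))) h2
  rwa [ZMod.natCast_zmod_val, ZMod.natCast_mod] at h3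

theorem cyc_surj : Function.Surjective (cyc p n) := by
  intro a
  have h1 : IsPrimitiveRoot (zN p n ^ (a : ZMod (p ^ (n + 1))).val) (p ^ (n + 1)) :=
    (zN_spec p n).pow_of_coprime _ (ZMod.val_coe_unit_coprime a)
  have h2 : IsConjRoot ℚ (zN p n) (zN p n ^ (a : ZMod (p ^ (n + 1))).val) := by
    show minpoly ℚ _ = minpoly ℚ _
    rw [← Polynomial.cyclotomic_eq_minpoly_rat (zN_spec p n) (pow_pos hp.out.pos _),
      ← Polynomial.cyclotomic_eq_minpoly_rat h1 (pow_pos hp.out.pos _)]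
  haveI := Fermat.Agent.Frob.isGalois_Qbar
  obtain ⟨g, hg⟩ := isConjRoot_iff_exists_algEquiv.mp h2.symm
  refine ⟨g, Units.ext ?_⟩
  rw [cyc_eq p n hg, ZMod.natCast_zmod_val]

/-- the field of `p^(n+1)`-th roots of unity -/
def Zf : IntermediateField ℚ Qb := IntermediateField.adjoin ℚ {zN p n}

theorem zN_mem : zN p n ∈ Zf p n := IntermediateField.mem_adjoin_simple_self ℚ _

theorem mem_Zf_fixing {g : GQ} : g ∈ (Zf p n).fixingSubgroup ↔ g (zN p n) = zN p n := by
  rw [IntermediateField.mem_fixingSubgroup_iff]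
  constructor
  · exact fun h => h _ (zN_mem p n)
  · intro h x hx
    induction hx using IntermediateField.adjoin_induction with
    | mem x hx => rw [Set.mem_singleton_iff] at hx; rw [hx]; exact h
    | algebraMap x => exact g.commutes x
    | add x y _ _ hx hy => rw [map_add, hx, hy]
    | inv x _ hx => rw [map_inv₀, hx]
    | mul x y _ _ hx hy => rw [map_mul, hx, hy]

instance Zf_fin : FiniteDimensional ℚ (Zf p n) :=
  IntermediateField.adjoin.finiteDimensional (Algebra.IsIntegral.isIntegral _)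

instance Zf_cyc : IsCyclotomicExtension {p ^ (n + 1)} ℚ (Zf p n) :=
  (zN_spec p n).intermediateField_adjoin_isCyclotomicExtension ℚ

theorem Zf_unram : (Zf p n).IsUnramifiedOutside {pP p} := by
  refine ⟨inferInstance, fun q hq A hA g hg => ?_⟩
  rw [mem_Zf_fixing]
  obtain ⟨σ, rfl⟩ := Fermat.Agent.CFTSec.exists_padicPlace_eq hA
  have hpq : p ≠ (q : ℕ) := by
    intro h
    exact hq (Finset.mem_singleton.mpr (Subtype.ext h.symm))
  set z := zN p n with hzdef
  have hz0 : z ≠ 0 := (zN_spec p n).ne_zero (pow_ne_zero _ hp.out.ne_zero)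
  have hzn : ∀ σ : GQ, av q (σ z) = 1 := by
    intro σ
    have h1 : av q (σ z) ^ (p ^ (n + 1)) = 1 := by
      rw [← av_pow, ← map_pow, (zN_spec p n).pow_eq_one, map_one, av_one]
    exact (pow_eq_one_iff_of_nonneg (av_nonneg _ _) (pow_ne_zero _ hp.out.ne_zero)).mp h1
  have hzA : z ∈ σ⁻¹ • padicPlace (q : ℕ) := by
    rw [Fermat.Agent.CFTSec.mem_inv_smul, hzn]
  have h1 := Fermat.Agent.CFTSec.inertia_valuation hg hzA
  rw [Fermat.Agent.CFTSec.valuation_inv_smul] at h1
  have h2 : (σ⁻¹ • padicPlace (q : ℕ)).valuation (g z / z - 1) < 1 := by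
    rw [Fermat.Agent.CFTSec.valuation_inv_smul]
    have e : g z / z - 1 = (g z - z) / z := by field_simp
    rw [e, map_div₀, av_div, hzn, div_one]
    exact h1
  have h3 := Fermat.Agent.CFTSec.eq_one_of_valuation (σ⁻¹ • padicPlace (q : ℕ))
    (p := p ^ (n + 1)) (ζ := g z / z) (by
      have h4 : av q (σ ((p ^ (n + 1) : ℕ) : Qb)) = 1 := by
        rw [map_natCast, Nat.cast_pow, av_pow, Fermat.Agent.CFTSec.av_prime_eq_one hpq, one_pow]
      apply le_antisymm
      · rw [ValuationSubring.valuation_le_one_iff, Fermat.Agent.CFTSec.mem_inv_smul, h4]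
      · rw [← not_lt, Fermat.Agent.CFTSec.valuation_inv_smul, h4]; exact lt_irrefl _)
    (by rw [div_pow, ← map_pow, (zN_spec p n).pow_eq_one, map_one, div_one]) h2
  rwa [div_eq_one_iff_eq hz0] at h3

/-- total ramification -/
theorem Zf_total (σ : GQ) : ∃ τ : LG p, ∃ k ∈ (Zf p n).fixingSubgroup,
    σ = localGaloisToGlobal p τ * k := by
  have h0 : ∀ σ : GQ, (primeOf p (Zf p n) σ).asIdeal =
      Ideal.span {(show IsPrimitiveRoot (⟨zN p n, zN_mem p n⟩ : Zf p n) (p ^ (n + 1)) from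
        IsPrimitiveRoot.coe_submonoidClass_iff.mp (zN_spec p n)).toInteger - 1} := by
    intro σ
    haveI : (primeOf p (Zf p n) σ).asIdeal.LiesOver (Ideal.span {(p : ℤ)}) := by
      rw [Ideal.liesOver_span_iff (primeOf p (Zf p n) σ).isPrime.ne_top
        (Nat.prime_iff_prime_int.mp hp.out), map_natCast]
      exact natCast_mem_primeOf p (Zf p n) σ
    exact IsCyclotomicExtension.Rat.eq_span_zeta_sub_one_of_liesOver p n (Zf p n) _ _
  have h : primeOf p (Zf p n) 1 = primeOf p (Zf p n) σ := by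
    apply IsDedekindDomain.HeightOneSpectrum.ext
    rw [h0, h0]
  obtain ⟨τ, k, hk, h⟩ := exists_lg_of_primeOf_eq p (Zf p n) h
  exact ⟨τ, k, hk, by rw [h, mul_one]⟩

variable {p} (hp2 : 2 < p)

/-- the character of the cyclotomic tower -/
def chC : GQ →* Multiplicative (ZMod (p ^ n)) := (lgz p n hp2).comp (cyc p n)

/-- the character of the cyclotomic tower, additive version -/
def ch (g : GQ) : ZMod (p ^ n) := (chC n hp2 g).toAdd

theorem ch_mul (g h : GQ) : ch n hp2 (g * h) = ch n hp2 g + ch n hp2 h :=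
  congrArg Multiplicative.toAdd (map_mul (chC n hp2) g h)

theorem ch_surj (a : ZMod (p ^ n)) : ∃ g, ch n hp2 g = a := by
  obtain ⟨x, hx⟩ := lgz_surj n hp2 (Multiplicative.ofAdd a)
  obtain ⟨g, rfl⟩ := cyc_surj p n x
  exact ⟨g, congrArg Multiplicative.toAdd hx⟩

theorem ch_of_Zf {g : GQ} (hg : g ∈ (Zf p n).fixingSubgroup) : ch n hp2 g = 0 := by
  have h1 : cyc p n g = 1 := by
    apply Units.ext
    rw [cyc_eq p n (k := 1) (by rw [pow_one]; exact (mem_Zf_fixing p n).mp hg)]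
    simp
  show ((lgz p n hp2) (cyc p n g)).toAdd = 0
  rw [h1, map_one]; rfl

/-- the cyclotomic layer of degree `p^n` -/
def EF : IntermediateField ℚ Qb := IntermediateField.fixedField (chC n hp2).ker

theorem mem_EF_fixing {g : GQ} : g ∈ (EF n hp2).fixingSubgroup ↔ ch n hp2 g = 0 := by
  haveI := Fermat.Agent.Frob.isGalois_Qbar
  have hopen : IsOpen ((chC n hp2).ker : Set GQ) := by
    refine Subgroup.isOpen_mono ?_ (IntermediateField.fixingSubgroup_isOpen (Zf p n))
    intro g hg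
    exact ch_of_Zf n hp2 hg
  have h := InfiniteGalois.fixingSubgroup_fixedField (k := ℚ) (K := Qb)
    ⟨(chC n hp2).ker, Subgroup.isClosed_of_isOpen _ hopen⟩
  show g ∈ (IntermediateField.fixedField (chC n hp2).ker).fixingSubgroup ↔ _
  rw [show (IntermediateField.fixedField (chC n hp2).ker).fixingSubgroup = (chC n hp2).ker from h]
  exact Iff.rfl

theorem EF_le_Zf : EF n hp2 ≤ Zf p n := by
  intro x hx
  apply Fermat.Agent.CFTSec.mem_of_fixed
  intro g hg
  have := (mem_EF_fixing n hp2).mpr (ch_of_Zf n hp2 hg)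
  exact Fermat.Agent.CFTSec.gal_fix this hx

theorem EF_unram : (EF n hp2).IsUnramifiedOutside {pP p} :=
  (Zf_unram p n).of_le (EF_le_Zf n hp2)

theorem EF_total (σ : GQ) : ∃ τ : LG p, ∃ k ∈ (EF n hp2).fixingSubgroup,
    σ = localGaloisToGlobal p τ * k := by
  obtain ⟨τ, k, hk, h⟩ := Zf_total p n σ
  exact ⟨τ, k, (mem_EF_fixing n hp2).mpr (ch_of_Zf n hp2 hk), h⟩

instance EF_normal : (EF n hp2).fixingSubgroup.Normal := by
  constructor
  intro g hg k
  rw [mem_EF_fixing] at hg ⊢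
  have h1 : ch n hp2 (k * g * k⁻¹) = ch n hp2 k + ch n hp2 g + ch n hp2 k⁻¹ := by
    rw [ch_mul, ch_mul]
  have h2 : ch n hp2 k + ch n hp2 k⁻¹ = 0 := by
    rw [← ch_mul, mul_inv_cancel]
    exact congrArg Multiplicative.toAdd (map_one (chC n hp2))
  rw [h1, hg, add_zero, h2]

end cyc

end

end Fermat.Agent.CFT
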