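import Fermat.Agent.CFT.Recip1

set_option autoImplicit false
set_option maxHeartbeats 400000

/-! The logarithm on `ℚ_p` and values of the cyclotomic character at Frobenius elements. -/

namespace Fermat.Agent.CFT

open Finset
open scoped Pointwise

noncomputable section

section local_log

variable {p : ℕ} [hp : Fact p.Prime] (n : ℕ)

/-- reduction of a unit -/
def rU (u : ℚ_[p]) (h : ‖u‖ = 1) : (ZMod (p ^ (n + 1)))ˣ :=
  Units.map (PadicInt.toZModPow (n + 1)).toMonoidHom (PadicInt.mkUnits h)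

theorem rU_val (u : ℚ_[p]) (h : ‖u‖ = 1) : ((rU n u h : (ZMod (p ^ (n + 1)))ˣ) : ZMod (p ^ (n + 1))) =
    PadicInt.toZModPow (n + 1) ⟨u, h.le⟩ := rfl

theorem rU_mul (u v : ℚ_[p]) (hu : ‖u‖ = 1) (hv : ‖v‖ = 1) (huv : ‖u * v‖ = 1) :
    rU n (u * v) huv = rU n u hu * rU n v hv := by
  apply Units.ext
  rw [Units.val_mul, rU_val, rU_val, rU_val, ← map_mul]
  rfl

theorem rU_natCast (k : ℕ) (h : ‖(k : ℚ_[p])‖ = 1) :
    ((rU n (k : ℚ_[p]) h : (ZMod (p ^ (n + 1)))ˣ) : ZMod (p ^ (n + 1))) = k := by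
  rw [rU_val]
  have : (⟨(k : ℚ_[p]), h.le⟩ : ℤ_[p]) = (k : ℤ_[p]) := rfl
  rw [this, map_natCast]

theorem rU_neg_one (h : ‖(-1 : ℚ_[p])‖ = 1) : rU n (-1 : ℚ_[p]) h = -1 := by
  apply Units.ext
  rw [rU_val]
  have : (⟨(-1 : ℚ_[p]), h.le⟩ : ℤ_[p]) = (-1 : ℤ_[p]) := Subtype.ext (by simp)
  rw [this, map_neg, map_one]; rfl

theorem rU_eq_one {u : ℚ_[p]} (h : ‖u‖ = 1) (h1 : ‖u - 1‖ ≤ (p : ℝ) ^ (-(n + 1 : ℕ) : ℤ)) :
    rU n u h = 1 := by
  apply Units.ext
  rw [rU_val, Units.val_one, ← map_one (PadicInt.toZModPow (p := p) (n + 1)), ← sub_eq_zero,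
    ← map_sub, ← RingHom.mem_ker, PadicInt.ker_toZModPow, ← PadicInt.norm_le_pow_iff_mem_span_pow]
  exact h1

/-- unit part -/
def up (a : ℚ_[p]) : ℚ_[p] := a * (p : ℚ_[p]) ^ (-a.valuation)

theorem norm_up {a : ℚ_[p]} (ha : a ≠ 0) : ‖up a‖ = 1 := by
  have hp0 : (p : ℝ) ≠ 0 := by exact_mod_cast hp.out.ne_zero
  rw [up, norm_mul, norm_zpow, Padic.norm_p, Padic.norm_eq_zpow_neg_valuation ha, inv_zpow',
    neg_neg, ← zpow_add₀ hp0, neg_add_cancel, zpow_zero]

theorem up_mul {a b : ℚ_[p]} (ha : a ≠ 0) (hb : b ≠ 0) : up (a * b) = up a * up b := by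
  have hp0 : (p : ℚ_[p]) ≠ 0 := by exact_mod_cast hp.out.ne_zero
  rw [up, up, up, Padic.valuation_mul ha hb, neg_add, zpow_add₀ hp0]
  ring

theorem up_of_norm {a : ℚ_[p]} (h : ‖a‖ = 1) : up a = a := by
  have ha : a ≠ 0 := by rintro rfl; simp at h
  have h1 := Padic.norm_eq_zpow_neg_valuation ha
  rw [h] at h1
  have hp1 : (1 : ℝ) < p := by exact_mod_cast hp.out.one_lt
  have h2 : a.valuation = 0 := by
    have h3 : (p : ℝ) ^ (0 : ℤ) = (p : ℝ) ^ (-a.valuation) := by rw [zpow_zero]; exact h1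
    have := zpow_right_injective₀ (by linarith) hp1.ne' h3
    omega
  rw [up, h2]; simp

/-- elements of the base field -/
theorem exists_base {y : LM p} (hy : y ∈ fix (LM p) (⊤ : Subgroup (LG p))) :
    ∃ a : ℚ_[p], algebraMap ℚ_[p] (PadicAlgCl p) a = ((y.toMul : (PadicAlgCl p)ˣ) : PadicAlgCl p) := by
  haveI : IsGalois ℚ_[p] (PadicAlgCl p) := IsAlgClosure.isGalois ℚ_[p] _
  have h := (InfiniteGalois.mem_range_algebraMap_iff_fixed (k := ℚ_[p]) (K := PadicAlgCl p)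
    ((y.toMul : (PadicAlgCl p)ˣ) : PadicAlgCl p)).mpr (fun f => by
      have := hy f (Subgroup.mem_top f)
      exact congrArg (fun z : LM p => ((z.toMul : (PadicAlgCl p)ˣ) : PadicAlgCl p)) this)
  exact h

/-- the element of the base field -/
def base (y : ↥(fix (LM p) (⊤ : Subgroup (LG p)))) : ℚ_[p] := (exists_base y.2).choose

theorem base_spec (y : ↥(fix (LM p) (⊤ : Subgroup (LG p)))) :
    algebraMap ℚ_[p] (PadicAlgCl p) (base y) = ((y.1.toMul : (PadicAlgCl p)ˣ) : PadicAlgCl p) :=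
  (exists_base y.2).choose_spec

theorem base_eq {y : ↥(fix (LM p) (⊤ : Subgroup (LG p)))} {a : ℚ_[p]}
    (h : algebraMap ℚ_[p] (PadicAlgCl p) a = ((y.1.toMul : (PadicAlgCl p)ˣ) : PadicAlgCl p)) :
    base y = a :=
  (algebraMap ℚ_[p] (PadicAlgCl p)).injective ((base_spec y).trans h.symm)

theorem base_ne_zero (y : ↥(fix (LM p) (⊤ : Subgroup (LG p)))) : base y ≠ 0 := by
  intro h
  have := base_spec y
  rw [h, map_zero] at this
  exact Units.ne_zero _ this.symm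

theorem norm_base (y : ↥(fix (LM p) (⊤ : Subgroup (LG p)))) : ‖base y‖ = nmL y.1 := by
  rw [nmL, ← base_spec, PadicAlgCl.norm_extends]

theorem base_add (y z : ↥(fix (LM p) (⊤ : Subgroup (LG p)))) : base (y + z) = base y * base z := by
  apply base_eq
  rw [map_mul, base_spec, base_spec]
  rfl

variable (hp2 : 2 < p)

/-- the local logarithm, killing `p` -/
def lgL : ↥(fix (LM p) (⊤ : Subgroup (LG p))) →+ ZMod (p ^ n) where
  toFun y := (lgz p n hp2 (rU n (up (base y)) (norm_up (base_ne_zero y)))).toAdd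
  map_zero' := by
    have h1 : base (0 : ↥(fix (LM p) (⊤ : Subgroup (LG p)))) = 1 := base_eq (map_one _)
    have h2 : rU n (up (base (0 : ↥(fix (LM p) (⊤ : Subgroup (LG p))))))
        (norm_up (base_ne_zero _)) = 1 := by
      apply rU_eq_one
      rw [h1, up_of_norm norm_one, sub_self, norm_zero]
      positivity
    rw [h2, map_one]; rfl
  map_add' y z := by
    have h1 : rU n (up (base (y + z))) (norm_up (base_ne_zero _)) =
        rU n (up (base y)) (norm_up (base_ne_zero y)) *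
        rU n (up (base z)) (norm_up (base_ne_zero z)) := by
      apply Units.ext
      rw [Units.val_mul, rU_val, rU_val, rU_val, ← map_mul]
      congr 1
      apply Subtype.ext
      show up (base (y + z)) = up (base y) * up (base z)
      rw [base_add, up_mul (base_ne_zero y) (base_ne_zero z)]
    rw [h1, map_mul]; rfl

theorem lgL_apply (y : ↥(fix (LM p) (⊤ : Subgroup (LG p)))) {u : ℚ_[p]} (hu : ‖u‖ = 1)
    (h : up (base y) = u) : lgL n hp2 y = (lgz p n hp2 (rU n u hu)).toAdd := by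
  subst h; rfl

theorem lgL_eq_zero (y : ↥(fix (LM p) (⊤ : Subgroup (LG p))))
    (h : ‖((y.1.toMul : (PadicAlgCl p)ˣ) : PadicAlgCl p) - 1‖ ≤ (p : ℝ) ^ (-(n + 1 : ℕ) : ℤ)) :
    lgL n hp2 y = 0 := by
  have h1 : ‖base y - 1‖ ≤ (p : ℝ) ^ (-(n + 1 : ℕ) : ℤ) := by
    rw [← PadicAlgCl.norm_extends, map_sub, base_spec, map_one]; exact h
  have h2 : ‖base y‖ = 1 := by
    have h3 : ‖base y - 1‖ < ‖(1 : ℚ_[p])‖ := by
      rw [norm_one]
      refine h1.trans_lt ?_
      have hp1 : (1 : ℝ) < p := by exact_mod_cast hp.out.one_lt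
      exact zpow_lt_one_of_neg₀ hp1 (by omega)
    have h4 := IsUltrametricDist.norm_add_eq_max_of_norm_ne_norm h3.ne
    rw [sub_add_cancel, max_eq_right h3.le, norm_one] at h4
    exact h4
  rw [lgL_apply n hp2 y h2 (up_of_norm h2), rU_eq_one n h2 h1, map_one]; rfl

end local_log

section frob

variable (p : ℕ) [hp : Fact p.Prime] (n : ℕ)

/-- local Frobenius elements exist -/
theorem exists_phi (q : ℕ) [hq : Fact q.Prime] : ∃ φ : LG q, ∀ z : PadicAlgCl q, ‖z‖ ≤ 1 →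
    ‖φ z - z ^ q‖ < 1 := by
  obtain ⟨g, hg⟩ := Fermat.Agent.Frob.exists_isFrobeniusAt_Qbar (padicPlace q) hq.out (padicPlace_liesOver q)
  obtain ⟨φ, -, h⟩ := Fermat.Agent.CFTSec.exists_local_frob hg
  exact ⟨φ, h⟩

theorem cyc_frob {q : ℕ} [hq : Fact q.Prime] (hpq : p ≠ q) {φ : LG q}
    (hφ : ∀ z : PadicAlgCl q, ‖z‖ ≤ 1 → ‖φ z - z ^ q‖ < 1) (σ : GQ) :
    ((cyc p n (σ⁻¹ * localGaloisToGlobal q φ * σ) : (ZMod (p ^ (n + 1)))ˣ) :
      ZMod (p ^ (n + 1))) = q := by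
  apply cyc_eq
  have hcomm : cyc p n (σ⁻¹ * localGaloisToGlobal q φ * σ) = cyc p n (localGaloisToGlobal q φ) := by
    rw [map_mul, map_mul, map_inv, mul_comm (cyc p n σ)⁻¹, inv_mul_cancel_right]
  have h0 := cyc_spec p n (σ⁻¹ * localGaloisToGlobal q φ * σ)
  have h0' := cyc_spec p n (localGaloisToGlobal q φ)
  rw [hcomm] at h0
  rw [← h0, h0']
  set z := zN p n with hz
  set w := padicEmbedding q z with hw
  have hwN : w ^ (p ^ (n + 1)) = 1 := by rw [hw, ← map_pow, (zN_spec p n).pow_eq_one, map_one]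
  have hwn : ‖w‖ = 1 := by
    have h1 : ‖w‖ ^ (p ^ (n + 1)) = 1 := by rw [← norm_pow, hwN, norm_one]
    exact (pow_eq_one_iff_of_nonneg (norm_nonneg _) (pow_ne_zero _ hp.out.ne_zero)).mp h1
  have hw0 : w ≠ 0 := by rintro h; rw [h] at hwn; simp at hwn
  have h1 := hφ w hwn.le
  have h2 : φ w / w ^ q = 1 := by
    apply Fermat.Agent.CFTSec.eq_one_of_valuation (padicIntegers q) (p := p ^ (n + 1))
    · rw [Nat.cast_pow, map_pow, Fermat.Agent.CFTSec.valuation_padic_nat hpq, one_pow]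
    · rw [div_pow, ← map_pow, hwN, map_one, ← pow_mul, mul_comm, pow_mul, hwN, one_pow, div_one]
    · rw [Fermat.Agent.CFTSec.valuation_padic_lt]
      have e : φ w / w ^ q - 1 = (φ w - w ^ q) / w ^ q := by field_simp
      rw [e, norm_div, norm_pow, hwn, one_pow, div_one]; exact h1
  rw [div_eq_one_iff_eq (pow_ne_zero _ hw0)] at h2
  apply (padicEmbedding q).toRingHom.injective
  show padicEmbedding q _ = padicEmbedding q _
  rw [padicEmbedding_localGaloisToGlobal, map_pow]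
  exact h2

end frob

end

end Fermat.Agent.CFT
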