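import Fermat.Agent.CFT.Recip2

set_option autoImplicit false
set_option maxHeartbeats 400000

/-! The reciprocity map of the cyclotomic tower over the ideles modulo units outside `p`. -/

namespace Fermat.Agent.CFT

open Finset Fermat.Agent.CFTSec
open scoped Pointwise

noncomputable section

/-- a homomorphism from `ℚˣ` killing `-1` and the primes is trivial -/
theorem hom_rat_trivial {M : Type*} [CommGroup M] (F : ℚˣ →* M) (h1 : F (-1) = 1)
    (hq : ∀ (q : ℕ) (hq : q.Prime), F (Units.mk0 (q : ℚ) (by exact_mod_cast hq.ne_zero)) = 1)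
    (x : ℚˣ) : F x = 1 := by
  have hnat : ∀ (k : ℕ) (hk : (k : ℚ) ≠ 0), F (Units.mk0 (k : ℚ) hk) = 1 := by
    intro k
    induction k using induction_on_primes with
    | zero => intro hk; simp at hk
    | one =>
      intro hk
      have : Units.mk0 ((1 : ℕ) : ℚ) hk = 1 := Units.ext (by simp)
      rw [this, map_one]
    | prime_mul p a hp ih =>
      intro hk
      have ha : (a : ℚ) ≠ 0 := by
        rintro h; apply hk; push_cast; rw [h, mul_zero]
      have : Units.mk0 ((p * a : ℕ) : ℚ) hk =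
          Units.mk0 (p : ℚ) (by exact_mod_cast hp.ne_zero) * Units.mk0 (a : ℚ) ha :=
        Units.ext (by simp)
      rw [this, map_mul, hq p hp, ih ha, one_mul]
  have hden : ((x : ℚ).den : ℚ) ≠ 0 := by exact_mod_cast (x : ℚ).den_ne_zero
  have hx : (x : ℚ) * ((x : ℚ).den : ℚ) = ((x : ℚ).num : ℚ) := Rat.mul_den_eq_num _
  have hnum : ((x : ℚ).num : ℚ) ≠ 0 := by rw [← hx]; exact mul_ne_zero x.ne_zero hden
  have h2 : x * Units.mk0 ((x : ℚ).den : ℚ) hden = Units.mk0 ((x : ℚ).num : ℚ) hnum :=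
    Units.ext hx
  have h3 : F (Units.mk0 ((x : ℚ).num : ℚ) hnum) = 1 := by
    have hna : (((x : ℚ).num.natAbs : ℕ) : ℚ) ≠ 0 := by
      intro h
      apply hnum
      have h' : (x : ℚ).num.natAbs = 0 := by exact_mod_cast h
      rw [Int.natAbs_eq_zero.mp h']; simp
    rcases Int.natAbs_eq (x : ℚ).num with h | h
    · have : Units.mk0 ((x : ℚ).num : ℚ) hnum = Units.mk0 (((x : ℚ).num.natAbs : ℕ) : ℚ) hna := by
        apply Units.ext
        show ((x : ℚ).num : ℚ) = (((x : ℚ).num.natAbs : ℕ) : ℚ)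
        rw [← Int.cast_natCast, ← h]
      rw [this, hnat]
    · have : Units.mk0 ((x : ℚ).num : ℚ) hnum =
          -1 * Units.mk0 (((x : ℚ).num.natAbs : ℕ) : ℚ) hna := by
        apply Units.ext
        show ((x : ℚ).num : ℚ) = -1 * (((x : ℚ).num.natAbs : ℕ) : ℚ)
        rw [neg_one_mul, ← Int.cast_natCast, ← Int.cast_neg, ← h]
      rw [this, map_mul, h1, hnat, one_mul]
  rw [← h2, map_mul, hnat, mul_one] at h3
  exact h3

/-- the component at a prime of an idele -/
def cmp {S : Finset Nat.Primes} (q : Nat.Primes) (hq : q ∈ S) : Jm S →+ JQ q where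
  toFun j := j.1.1 ⟨q, hq⟩
  map_zero' := rfl
  map_add' _ _ := rfl

theorem cmp_smul {S : Finset Nat.Primes} (q : Nat.Primes) (hq : q ∈ S) (g : GQ) (j : Jm S) :
    cmp q hq (g • j) = g • cmp q hq j := rfl

theorem cmp_diag {S : Finset Nat.Primes} (q : Nat.Primes) (hq : q ∈ S) (x : QS S) :
    cmp q hq (diag S x) = embQ q x.1 := rfl

/-- the component at a prime of an invariant idele -/
def locS {S : Finset Nat.Primes} (q : Nat.Primes) (hq : q ∈ S) :
    ↥(fix (Jm S) (⊤ : Subgroup GQ)) →+ ↥(fix (LM q) (⊤ : Subgroup (LG q))) where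
  toFun j := ⟨(cmp q hq j.1).1 1, by
    intro τ _
    have h1 : (cmp q hq j.1).1 (localGaloisToGlobal q τ * 1) = τ • (cmp q hq j.1).1 1 :=
      (cmp q hq j.1).2 τ 1
    have h2 : (cmp q hq (localGaloisToGlobal q τ • j.1)).1 1 = (cmp q hq j.1).1 1 := by
      rw [j.2 _ trivial]
    rw [cmp_smul, coind_smul_apply, one_mul] at h2
    rw [mul_one] at h1
    rw [← h1, h2]⟩
  map_zero' := rfl
  map_add' _ _ := rfl

theorem locS_val {S : Finset Nat.Primes} (q : Nat.Primes) (hq : q ∈ S)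
    (j : ↥(fix (Jm S) (⊤ : Subgroup GQ))) : (locS q hq j).1 = (cmp q hq j.1).1 1 := rfl

section r0

variable {p : ℕ} [hp : Fact p.Prime] (n : ℕ) (hp2 : 2 < p)

theorem coprime_of_ne {q : Nat.Primes} (h : p ≠ (q : ℕ)) : Nat.Coprime (q : ℕ) (p ^ (n + 1)) :=
  Nat.Coprime.pow_right _ ((Nat.coprime_primes q.2 hp.out).mpr (Ne.symm h))

/-- the logarithm of a prime -/
def lq (q : Nat.Primes) : ZMod (p ^ n) :=
  if h : p = (q : ℕ) then 0 else
    (lgz p n hp2 (ZMod.unitOfCoprime (q : ℕ) (coprime_of_ne n h))).toAdd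

theorem lq_p : lq n hp2 (pP p) = 0 := dif_pos rfl

theorem lq_of_ne {q : Nat.Primes} (h : p ≠ (q : ℕ)) :
    lq n hp2 q = (lgz p n hp2 (ZMod.unitOfCoprime (q : ℕ) (coprime_of_ne n h))).toAdd :=
  dif_neg h

theorem ch_frob {q : Nat.Primes} (hpq : p ≠ (q : ℕ)) {φ : LG q}
    (hφ : ∀ z : PadicAlgCl q, ‖z‖ ≤ 1 → ‖φ z - z ^ (q : ℕ)‖ < 1) (σ : GQ) :
    ch n hp2 (σ⁻¹ * localGaloisToGlobal q φ * σ) = lq n hp2 q := by
  rw [lq_of_ne n hp2 hpq]
  show (lgz p n hp2 (cyc p n _)).toAdd = _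
  congr 2
  apply Units.ext
  rw [cyc_frob p n hpq hφ σ]
  rfl

theorem chi_hom (g h : GQ) : ch n hp2 (g * h) = ch n hp2 g + ch n hp2 h := ch_mul n hp2 g h

theorem ch_one : ch n hp2 1 = 0 := chi_one (ch n hp2) (ch_mul n hp2)

theorem ch_pow (s : GQ) (i : ℕ) : ch n hp2 (s ^ i) = i * ch n hp2 s :=
  chi_pow (ch n hp2) (ch_mul n hp2) s i

theorem ch_inv (g : GQ) : ch n hp2 g⁻¹ = - ch n hp2 g := by
  have h := ch_mul n hp2 g g⁻¹
  rw [mul_inv_cancel, ch_one] at h
  rw [eq_neg_iff_add_eq_zero, add_comm]; exact h.symm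

theorem cycP_E {s : GQ} (hs : ch n hp2 s = 1) :
    CycP (p ^ n) (EF n hp2).fixingSubgroup (⊤ : Subgroup GQ) s where
  le := le_top
  mem := trivial
  norm g _ k hk := (EF_normal n hp2).conj_mem k hk g
  gen g _ := by
    refine ⟨(ch n hp2 g).val, ZMod.val_lt _, (s ^ (ch n hp2 g).val)⁻¹ * g, ?_, by group⟩
    rw [mem_EF_fixing, ch_mul, ch_inv, ch_pow, hs, mul_one, ZMod.natCast_zmod_val, neg_add_cancel]
  ord i := by
    rw [mem_EF_fixing, ch_pow, hs, mul_one, ZMod.natCast_eq_zero_iff]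

/-- the local logarithm with the prime as an element of `Nat.Primes` -/
def lgP : ↥(fix (LM (pP p : Nat.Primes)) (⊤ : Subgroup (LG (pP p : Nat.Primes)))) →+
    ZMod (p ^ n) := lgL n hp2

/-- the divisor part at the identity -/
def dv {S : Finset Nat.Primes} (q : Nat.Primes) : Jm S →+ ℤ where
  toFun j := j.1.2.1 q 1
  map_zero' := rfl
  map_add' _ _ := rfl

theorem dv_apply {S : Finset Nat.Primes} (q : Nat.Primes) (j : Jm S) : dv q j = j.1.2.1 q 1 := rfl

theorem dv_diag {S : Finset Nat.Primes} (q : Nat.Primes) (x : QS S) :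
    dv q (diag S x) = (divQ x).1 q 1 := rfl

theorem dv_finite {S : Finset Nat.Primes} (j : Jm S) : {q : Nat.Primes | dv q j ≠ 0}.Finite := by
  refine j.1.2.2.2.1.subset ?_
  intro q hq h0
  apply hq
  rw [dv_apply, h0]; rfl

/-- the reciprocity map on invariant ideles -/
def r0 : ↥(fix (Jm {pP p}) (⊤ : Subgroup GQ)) →+ ZMod (p ^ n) where
  toFun j := (∑ᶠ q : Nat.Primes, (dv q j.1) • lq n hp2 q) -
    lgP n hp2 (locS (pP p) (mem_singleton_self _) j)
  map_zero' := by
    have h2 : ∀ q : Nat.Primes, (dv q (0 : ↥(fix (Jm {pP p}) (⊤ : Subgroup GQ))).1) •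
        lq n hp2 q = 0 := by
      intro q
      rw [ZeroMemClass.coe_zero, map_zero, zero_smul]
    simp_rw [h2]
    rw [finsum_zero, map_zero, map_zero, sub_zero]
  map_add' x y := by
    have h2 : ∀ q : Nat.Primes, (dv q (x + y).1) • lq n hp2 q =
        (dv q x.1) • lq n hp2 q + (dv q y.1) • lq n hp2 q := by
      intro q
      rw [AddSubgroup.coe_add, map_add, add_smul]
    have hfin : ∀ z : ↥(fix (Jm {pP p}) (⊤ : Subgroup GQ)),
        (Function.support fun q : Nat.Primes => (dv q z.1) • lq n hp2 q).Finite := by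
      intro z
      refine (dv_finite z.1).subset ?_
      intro q hq h0
      apply hq
      show (dv q z.1) • lq n hp2 q = 0
      rw [h0, zero_smul]
    rw [map_add, map_add]
    simp_rw [h2]
    rw [finsum_add_distrib (hfin x) (hfin y)]
    abel

theorem r0_apply (j : ↥(fix (Jm {pP p}) (⊤ : Subgroup GQ))) : r0 n hp2 j =
    (∑ᶠ q : Nat.Primes, (dv q j.1) • lq n hp2 q) -
    lgP n hp2 (locS (pP p) (mem_singleton_self _) j) := rfl

/-- rational numbers as elements of `QS` -/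
def ratQS (S : Finset Nat.Primes) : ℚˣ →* Multiplicative (QS S) where
  toFun x := Multiplicative.ofAdd ⟨Additive.ofMul (Units.map (algebraMap ℚ Qb).toMonoidHom x),
    ⊥, IntermediateField.isUnramifiedOutside_bot S, by
      rw [mem_fix_of_mem]
      exact IntermediateField.algebraMap_mem _ _⟩
  map_one' := by
    apply congrArg Multiplicative.ofAdd
    apply Subtype.ext
    apply congrArg Additive.ofMul
    exact map_one _
  map_mul' x y := by
    apply congrArg Multiplicative.ofAdd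
    apply Subtype.ext
    apply congrArg Additive.ofMul
    exact map_mul _ _ _

theorem qv_ratQS (S : Finset Nat.Primes) (x : ℚˣ) :
    qv (ratQS S x).toAdd = algebraMap ℚ Qb x := rfl

theorem ratQS_mem (S : Finset Nat.Primes) (x : ℚˣ) (Γ : Subgroup GQ) :
    (ratQS S x).toAdd ∈ fix (QS S) Γ := by
  intro g _
  apply qv_injective
  rw [qv_smul, qv_ratQS]
  exact g.commutes _

theorem exists_ratQS {S : Finset Nat.Primes} {x : QS S} (hx : x ∈ fix (QS S) (⊤ : Subgroup GQ)) :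
    ∃ y : ℚˣ, x = (ratQS S y).toAdd := by
  haveI := Fermat.Agent.Frob.isGalois_Qbar
  obtain ⟨y, hy⟩ := (InfiniteGalois.mem_range_algebraMap_iff_fixed (k := ℚ) (K := Qb) (qv x)).mpr
    (fun f => by
      have := hx f trivial
      exact congrArg qv this)
  have hy0 : y ≠ 0 := by
    rintro rfl
    rw [map_zero] at hy
    exact qv_ne_zero x hy.symm
  exact ⟨Units.mk0 y hy0, qv_injective hy.symm⟩

theorem ordq_neg_one (q : Nat.Primes) (S : Finset Nat.Primes) :
    ordq q (ratQS S (-1)).toAdd.1 = 0 := by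
  apply ordq_eq
  have : ((ratQS S (-1)).toAdd.1.toMul : Qb) = -1 := by
    show qv (ratQS S (-1)).toAdd = -1
    rw [qv_ratQS]; simp
  rw [this, av_neg, av_one]; simp

theorem ordq_prime (q : Nat.Primes) (S : Finset Nat.Primes) {l : ℕ} (hl : l.Prime)
    (h0 : (l : ℚ) ≠ 0) : ordq q (ratQS S (Units.mk0 (l : ℚ) h0)).toAdd.1 =
      if (q : ℕ) = l then 1 else 0 := by
  apply ordq_eq
  have : ((ratQS S (Units.mk0 (l : ℚ) h0)).toAdd.1.toMul : Qb) = (l : Qb) := by
    show qv (ratQS S _).toAdd = _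
    rw [qv_ratQS]; simp
  rw [this]
  split_ifs with h
  · rw [← h, av_q]; simp
  · haveI := Fact.mk hl
    rw [av_prime_eq_one (Ne.symm h)]; simp

theorem lgP_apply (y : ↥(fix (LM (pP p : Nat.Primes)) (⊤ : Subgroup (LG (pP p : Nat.Primes)))))
    {a : ℚ_[p]} (ha : algebraMap ℚ_[p] (PadicAlgCl p) a =
      ((y.1.toMul : (PadicAlgCl (pP p : Nat.Primes))ˣ) : PadicAlgCl (pP p : Nat.Primes)))
    {u : ℚ_[p]} (hu : ‖u‖ = 1) (hau : up a = u) :
    lgP n hp2 y = (lgz p n hp2 (rU n u hu)).toAdd := by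
  have h1 : base (p := p) y = a := base_eq ha
  have h2 := lgL_apply n hp2 y hu (by rw [h1, hau])
  exact h2

theorem locS_ratQS (x : ℚˣ) : algebraMap ℚ_[p] (PadicAlgCl p) ((x : ℚ) : ℚ_[p]) =
    (((locS (pP p) (mem_singleton_self _) ⟨diag {pP p} (ratQS {pP p} x).toAdd,
      diag_mem_fix (ratQS_mem _ x ⊤)⟩).1.toMul : (PadicAlgCl (pP p : Nat.Primes))ˣ) :
      PadicAlgCl (pP p : Nat.Primes)) := by
  rw [locS_val, cmp_diag, embQ_apply]
  have h1 : (1 : GQ) (((ratQS {pP p} x).toAdd.1.toMul : Qbˣ) : Qb) = ((x : ℚ) : Qb) := by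
    show algebraMap ℚ Qb x = _
    exact eq_ratCast _ _
  rw [h1, map_ratCast, map_ratCast]

theorem r0_diag_neg_one : r0 n hp2 ⟨diag {pP p} (ratQS {pP p} (-1)).toAdd,
    diag_mem_fix (ratQS_mem _ (-1) ⊤)⟩ = 0 := by
  rw [r0_apply]
  have h1 : ∀ q : Nat.Primes, (dv q (diag {pP p} (ratQS {pP p} (-1)).toAdd)) • lq n hp2 q = 0 := by
    intro q
    rw [dv_diag]
    by_cases hq : q ∈ ({pP p} : Finset Nat.Primes)
    · rw [divQ_apply_mem _ hq, zero_smul]
    · have : ordq q ((1 : GQ) • (ratQS {pP p} (-1)).toAdd.1) = 0 := by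
        rw [one_smul, ordq_neg_one]
      rw [divQ_apply _ hq, this, zero_smul]
  have h5 : ‖(-1 : ℚ_[p])‖ = 1 := by simp
  have h6 := lgP_apply n hp2 _ (locS_ratQS (p := p) (-1)) (u := -1) h5 (by
    have : (((-1 : ℚˣ) : ℚ) : ℚ_[p]) = -1 := by simp
    rw [this]; exact up_of_norm h5)
  rw [h6, rU_neg_one, lgz_neg_one]
  simp_rw [h1]
  rw [finsum_zero, toAdd_one, sub_zero]

theorem r0_diag_prime (l : Nat.Primes) (hl0 : ((l : ℕ) : ℚ) ≠ 0) :
    r0 n hp2 ⟨diag {pP p} (ratQS {pP p} (Units.mk0 ((l : ℕ) : ℚ) hl0)).toAdd,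
    diag_mem_fix (ratQS_mem _ _ ⊤)⟩ = 0 := by
  rw [r0_apply]
  have h1 : ∀ q : Nat.Primes, (dv q (diag {pP p} (ratQS {pP p} (Units.mk0 ((l : ℕ) : ℚ) hl0)).toAdd)) •
      lq n hp2 q = if q = l then lq n hp2 l else 0 := by
    intro q
    rw [dv_diag]
    by_cases hq : q ∈ ({pP p} : Finset Nat.Primes)
    · have h7 : q = pP p := Finset.mem_singleton.mp hq
      rw [divQ_apply_mem _ hq, zero_smul]
      split_ifs with h8
      · rw [← h8, h7, lq_p]
      · rfl
    · have : ordq q ((1 : GQ) • (ratQS {pP p} (Units.mk0 ((l : ℕ) : ℚ) hl0)).toAdd.1) =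
          if (q : ℕ) = (l : ℕ) then 1 else 0 := by
        rw [one_smul, ordq_prime q _ l.2]
      rw [divQ_apply _ hq, this]
      by_cases h8 : (q : ℕ) = (l : ℕ)
      · have h9 : q = l := Subtype.ext h8
        rw [if_pos h8, if_pos h9, h9, one_smul]
      · have h9 : q ≠ l := fun h => h8 (congrArg Subtype.val h)
        rw [if_neg h8, if_neg h9, zero_smul]
  have h2 : ∑ᶠ q : Nat.Primes, (dv q (diag {pP p} (ratQS {pP p} (Units.mk0 ((l : ℕ) : ℚ) hl0)).toAdd)) •
      lq n hp2 q = lq n hp2 l := by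
    simp_rw [h1]
    rw [finsum_eq_single _ l (fun q hq => if_neg hq), if_pos rfl]
  have h4 : (((Units.mk0 (l : ℚ) hl0 : ℚˣ) : ℚ) : ℚ_[p]) = (l : ℚ_[p]) := by simp
  have h6 : lgP n hp2 (locS (pP p) (mem_singleton_self _) ⟨diag {pP p} (ratQS {pP p}
      (Units.mk0 ((l : ℕ) : ℚ) hl0)).toAdd, diag_mem_fix (ratQS_mem _ _ ⊤)⟩) = lq n hp2 l := by
    by_cases hpl : p = (l : ℕ)
    · have h7 : up ((l : ℕ) : ℚ_[p]) = 1 := by
        rw [← hpl]
        rw [up, Padic.valuation_p, zpow_neg, zpow_one]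
        exact mul_inv_cancel₀ (by exact_mod_cast hp.out.ne_zero)
      have h8 := lgP_apply n hp2 _ (locS_ratQS (p := p) (Units.mk0 ((l : ℕ) : ℚ) hl0)) norm_one
        (by rw [h4, h7])
      rw [rU_eq_one n norm_one (by rw [sub_self, norm_zero]; positivity), map_one] at h8
      have h9 : l = pP p := Subtype.ext hpl.symm
      rw [h8, toAdd_one, h9, lq_p]
    · have h7 : ‖((l : ℕ) : ℚ_[p])‖ = 1 := by
        rw [Padic.norm_natCast_eq_one_iff]
        exact (Nat.coprime_primes hp.out l.2).mpr hpl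
      have h8 := lgP_apply n hp2 _ (locS_ratQS (p := p) (Units.mk0 ((l : ℕ) : ℚ) hl0)) h7
        (by rw [h4]; exact up_of_norm h7)
      rw [h8, lq_of_ne n hp2 (q := l) hpl]
      congr 2
      apply Units.ext
      rw [rU_natCast]
      rfl
  rw [h6, h2, sub_self]

theorem r0_diag {x : QS {pP p}} (hx : x ∈ fix (QS {pP p}) (⊤ : Subgroup GQ)) :
    r0 n hp2 ⟨diag {pP p} x, diag_mem_fix hx⟩ = 0 := by
  obtain ⟨y, rfl⟩ := exists_ratQS hx
  let F : ℚˣ →* Multiplicative (ZMod (p ^ n)) :=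
    { toFun := fun y => Multiplicative.ofAdd (r0 n hp2 ⟨diag {pP p} (ratQS {pP p} y).toAdd,
        diag_mem_fix (ratQS_mem _ y ⊤)⟩)
      map_one' := by
        apply congrArg Multiplicative.ofAdd
        rw [← map_zero (r0 n hp2)]
        congr 1
        apply Subtype.ext
        show diag {pP p} (ratQS {pP p} 1).toAdd = 0
        rw [map_one, toAdd_one, map_zero]
      map_mul' := fun a b => by
        rw [← ofAdd_add]
        apply congrArg Multiplicative.ofAdd
        rw [← map_add]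
        congr 1
        apply Subtype.ext
        show diag {pP p} (ratQS {pP p} (a * b)).toAdd = diag {pP p} (ratQS {pP p} a).toAdd +
          diag {pP p} (ratQS {pP p} b).toAdd
        rw [map_mul, toAdd_mul, map_add] }
  have key : F y = 1 := by
    apply hom_rat_trivial F
    · exact congrArg Multiplicative.ofAdd (r0_diag_neg_one n hp2)
    · intro l hl
      exact congrArg Multiplicative.ofAdd (r0_diag_prime n hp2 ⟨l, hl⟩ _)
  exact ofAdd_eq_one.mp key

end r0

end

end Fermat.Agent.CFT
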