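import Fermat.Agent.CFT.Recip3

set_option autoImplicit false
set_option maxHeartbeats 400000

/-! The reciprocity map kills norms. -/

namespace Fermat.Agent.CFT

open Finset Fermat.Agent.CFTSec
open scoped Pointwise

noncomputable section

theorem near_mul {q : ℕ} [Fact q.Prime] {x y : PadicAlgCl q} {δ : ℝ} (hδ1 : δ < 1)
    (hx : ‖x - 1‖ ≤ δ) (hy : ‖y - 1‖ ≤ δ) : ‖x * y - 1‖ ≤ δ := by
  have hy1 : ‖y‖ ≤ 1 := by
    have : y = (y - 1) + 1 := by ring
    rw [this]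
    refine (IsUltrametricDist.norm_add_le_max _ _).trans (max_le (hy.trans hδ1.le) ?_)
    rw [norm_one]
  have e : x * y - 1 = (x - 1) * y + (y - 1) := by ring
  rw [e]
  refine (IsUltrametricDist.norm_add_le_max _ _).trans (max_le ?_ hy)
  rw [norm_mul]
  calc ‖x - 1‖ * ‖y‖ ≤ ‖x - 1‖ * 1 := mul_le_mul_of_nonneg_left hy1 (norm_nonneg _)
    _ ≤ δ := by rw [mul_one]; exact hx

/-- a translation-invariant sum is killed by the translation -/
theorem sum_shift_zmod {N : ℕ} [NeZero N] (F : ZMod N → ℤ) (h : ZMod N)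
    (hF : ∀ a, F (a + h) = F a) : (∑ a, F a) • h = 0 := by
  have h1 : ∑ a, F (a + h) • (a + h) = ∑ a, F a • a :=
    Equiv.sum_comp (Equiv.addRight h) (fun a => F a • a)
  have h2 : ∑ a, F (a + h) • (a + h) = ∑ a, F a • a + ∑ a, F a • h := by
    rw [← sum_add_distrib]
    exact sum_congr rfl fun a _ => by rw [hF, smul_add]
  rw [h1] at h2
  rw [Finset.sum_smul]
  exact (add_eq_left.mp h2.symm)

theorem sum_range_zmod {N : ℕ} [NeZero N] {M : Type*} [AddCommMonoid M] (f : ℕ → M) :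
    ∑ i ∈ range N, f i = ∑ a : ZMod N, f a.val := by
  refine Finset.sum_nbij' (fun i => (i : ZMod N)) (fun a => a.val) ?_ ?_ ?_ ?_ ?_
  · intro i _; exact mem_univ _
  · intro a _; exact mem_range.mpr (ZMod.val_lt a)
  · intro i hi; exact ZMod.val_natCast_of_lt (mem_range.mp hi)
  · intro a _; exact ZMod.natCast_zmod_val a
  · intro i hi
    rw [ZMod.val_natCast_of_lt (mem_range.mp hi)]

section norm

variable {p : ℕ} [hp : Fact p.Prime] (n : ℕ) (hp2 : 2 < p)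

instance EF_fin : FiniteDimensional ℚ (EF n hp2) := (EF_unram n hp2).1

theorem sum_shift {f : GQ → ℤ} (hf : ∀ g, ∀ k ∈ (EF n hp2).fixingSubgroup, f (g * k) = f g)
    {t : GQ} (ht : ∀ g, f (t * g) = f g) {s : GQ} (hs : ch n hp2 s = 1) :
    (∑ i ∈ range (p ^ n), f (s ^ i)) • ch n hp2 t = 0 := by
  rw [sum_range_zmod]
  apply sum_shift_zmod (fun a => f (s ^ a.val))
  intro a
  have h1 : (t * s ^ a.val)⁻¹ * s ^ (a + ch n hp2 t).val ∈ (EF n hp2).fixingSubgroup := by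
    rw [mem_EF_fixing, ch_mul, ch_inv, ch_mul, ch_pow, ch_pow, hs, mul_one, mul_one,
      ZMod.natCast_zmod_val, ZMod.natCast_zmod_val]
    ring
  have h2 : s ^ (a + ch n hp2 t).val = t * s ^ a.val * ((t * s ^ a.val)⁻¹ *
      s ^ (a + ch n hp2 t).val) := by group
  show f (s ^ (a + ch n hp2 t).val) = f (s ^ a.val)
  rw [h2, hf _ _ h1, ht]

theorem cmp_mem_fix {S : Finset Nat.Primes} {q : Nat.Primes} {hq : q ∈ S} {Γ : Subgroup GQ}
    {y : Jm S} (hy : y ∈ fix (Jm S) Γ) : cmp q hq y ∈ fix (JQ q) Γ := fun g hg => by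
  rw [← cmp_smul, hy g hg]

theorem coind_sum_apply {q : Nat.Primes} {ι : Type*} (s : Finset ι) (f : ι → JQ q) (σ : GQ) :
    (∑ i ∈ s, f i).1 σ = ∑ i ∈ s, (f i).1 σ := by
  rw [AddSubgroup.val_finset_sum, Finset.sum_apply]

/-- part at `p` -/
theorem r0_norm_aux1 {y : Jm {pP p}} (hy : y ∈ fix (Jm {pP p}) (EF n hp2).fixingSubgroup)
    (hy1 : ‖((((cmp (pP p) (mem_singleton_self _) y).1 1).toMul :
      (PadicAlgCl (pP p : Nat.Primes))ˣ) : PadicAlgCl (pP p : Nat.Primes)) - 1‖ ≤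
      (p : ℝ) ^ (-(n + 1 : ℕ) : ℤ)) (s : GQ) (c : ↥(fix (Jm {pP p}) (⊤ : Subgroup GQ)))
    (hc : c.1 = ∑ i ∈ range (p ^ n), s ^ i • y) :
    lgP n hp2 (locS (pP p) (mem_singleton_self _) c) = 0 := by
  apply lgL_eq_zero n hp2 (locS (pP p) (mem_singleton_self _) c)
  rw [locS_val, hc, map_sum, coind_sum_apply]
  have hδ1 : (p : ℝ) ^ (-(n + 1 : ℕ) : ℤ) < 1 := by
    have hp1 : (1 : ℝ) < p := by exact_mod_cast hp.out.one_lt
    exact zpow_lt_one_of_neg₀ hp1 (by omega)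
  refine Finset.sum_induction _ (fun z : LM (pP p : Nat.Primes) =>
    ‖((z.toMul : (PadicAlgCl (pP p : Nat.Primes))ˣ) : PadicAlgCl (pP p : Nat.Primes)) - 1‖ ≤
      (p : ℝ) ^ (-(n + 1 : ℕ) : ℤ)) ?_ ?_ ?_
  · intro a b ha hb
    exact near_mul hδ1 ha hb
  · show ‖(1 : PadicAlgCl (pP p : Nat.Primes)) - 1‖ ≤ _
    rw [sub_self, norm_zero]; positivity
  · intro i _
    rw [cmp_smul, coind_smul_apply, one_mul]
    obtain ⟨τ, k, hk, h⟩ := EF_total n hp2 (s ^ i)
    have h1 : (cmp (pP p) (mem_singleton_self _) y).1 (s ^ i) =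
        τ • (cmp (pP p) (mem_singleton_self _) y).1 1 := by
      rw [h]
      have h2 : (cmp (pP p) (mem_singleton_self _) y).1 (localGaloisToGlobal (pP p : Nat.Primes) τ * k) =
        τ • (cmp (pP p) (mem_singleton_self _) y).1 k :=
        (cmp (pP p) (mem_singleton_self _) y).2 τ k
      have h3 : (cmp (pP p) (mem_singleton_self _) y).1 k =
          (cmp (pP p) (mem_singleton_self _) y).1 1 := by
        have h4 := cmp_mem_fix (hq := mem_singleton_self (pP p)) hy k hk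
        have h5 := congrArg (fun g : JQ (pP p) => g.1 1) h4
        simp only [coind_smul_apply, one_mul] at h5
        exact h5
      rw [← h3]; exact h2
    rw [h1, val_smul_LM]
    have e : τ ((((cmp (pP p) (mem_singleton_self _) y).1 1).toMul :
        (PadicAlgCl (pP p : Nat.Primes))ˣ) : PadicAlgCl (pP p : Nat.Primes)) - 1 =
        τ (((((cmp (pP p) (mem_singleton_self _) y).1 1).toMul :
        (PadicAlgCl (pP p : Nat.Primes))ˣ) : PadicAlgCl (pP p : Nat.Primes)) - 1) := by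
      rw [map_sub, map_one]
    rw [e, Fermat.Agent.CFTLocal.norm_gal]
    exact hy1

/-- part outside `p` -/
theorem r0_norm_aux2 {y : Jm {pP p}} (hy : y ∈ fix (Jm {pP p}) (EF n hp2).fixingSubgroup)
    {s : GQ} (hs : ch n hp2 s = 1) (q : Nat.Primes) :
    (dv q (∑ i ∈ range (p ^ n), s ^ i • y)) • lq n hp2 q = 0 := by
  by_cases hq : p = (q : ℕ)
  · have : q = pP p := Subtype.ext hq.symm
    rw [this, lq_p, smul_zero]
  obtain ⟨φ, hφ⟩ := exists_phi q
  have h1 := ch_frob n hp2 hq hφ 1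
  have h2 : dv q (∑ i ∈ range (p ^ n), s ^ i • y) = ∑ i ∈ range (p ^ n), y.1.2.1 q (s ^ i) := by
    rw [map_sum]
    refine sum_congr rfl fun i _ => ?_
    show y.1.2.1 q (1 * s ^ i) = _
    rw [one_mul]
  rw [h2, ← h1]
  apply sum_shift n hp2 (f := fun g => y.1.2.1 q g) _ _ hs
  · intro g k hk
    exact fix_div hy q g hk
  · intro g
    show y.1.2.1 q (1⁻¹ * localGaloisToGlobal q φ * 1 * g) = _
    rw [inv_one, one_mul, mul_one]
    exact y.1.2.2.1 q φ g

theorem r0_norm {y : Jm {pP p}} (hy : y ∈ fix (Jm {pP p}) (EF n hp2).fixingSubgroup)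
    {s : GQ} (hs : ch n hp2 s = 1) (c : ↥(fix (Jm {pP p}) (⊤ : Subgroup GQ)))
    (hc : c.1 = ∑ i ∈ range (p ^ n), s ^ i • y) : r0 n hp2 c = 0 := by
  have hcyc := cycP_E n hp2 hs
  have hj := cmp_mem_fix (hq := mem_singleton_self (pP p)) hy
  set j := cmp (pP p) (mem_singleton_self _) y with hjdef
  have hδ : (0 : ℝ) < (p : ℝ) ^ (-(n + 1 : ℕ) : ℤ) := by
    have : (0 : ℝ) < p := by exact_mod_cast hp.out.pos
    positivity
  have hδ1 : (p : ℝ) ^ (-(n + 1 : ℕ) : ℤ) < 1 := by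
    have hp1 : (1 : ℝ) < p := by exact_mod_cast hp.out.one_lt
    exact zpow_lt_one_of_neg₀ hp1 (by omega)
  obtain ⟨x, hx⟩ := exists_approx_place (F := EF n hp2) (pP p) hj 1
    (ε := nmL (j.1 1) * (p : ℝ) ^ (-(n + 1 : ℕ) : ℤ)) (mul_pos (nmL_pos _) hδ)
  have hxn : ‖padicEmbedding (pP p : Nat.Primes) ((1 : GQ) (x : Qb))‖ = nmL (j.1 1) := by
    apply norm_eq_of_sub_lt
    refine hx.trans ?_
    calc nmL (j.1 1) * (p : ℝ) ^ (-(n + 1 : ℕ) : ℤ) < nmL (j.1 1) * 1 :=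
          mul_lt_mul_of_pos_left hδ1 (nmL_pos _)
      _ = _ := mul_one _
  have hx0 : x ≠ 0 := by
    rintro rfl
    have : padicEmbedding (pP p : Nat.Primes) ((1 : GQ) ((0 : EF n hp2) : Qb)) = 0 := by simp
    rw [this, norm_zero] at hxn
    exact (nmL_pos (j.1 1)).ne hxn
  have hxp : padicEmbedding (pP p : Nat.Primes) ((1 : GQ) (x : Qb)) ≠ 0 := by
    rw [← norm_pos_iff, hxn]; exact nmL_pos _
  set X := mkQS (EF_unram n hp2) x hx0 with hX
  have hXm : X ∈ fix (QS {pP p}) (EF n hp2).fixingSubgroup := mkQS_mem (EF_unram n hp2) x hx0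
  set y' := y - diag {pP p} X with hy'
  have hy'm : y' ∈ fix (Jm {pP p}) (EF n hp2).fixingSubgroup :=
    (fix _ _).sub_mem hy (diag_mem_fix hXm)
  have hc' : ∑ i ∈ range (p ^ n), s ^ i • y' ∈ fix (Jm {pP p}) (⊤ : Subgroup GQ) :=
    CycP.sum_mem_fix hcyc hy'm
  have hX' : ∑ i ∈ range (p ^ n), s ^ i • X ∈ fix (QS {pP p}) (⊤ : Subgroup GQ) :=
    CycP.sum_mem_fix hcyc hXm
  have hsplit : c = ⟨_, hc'⟩ + ⟨_, diag_mem_fix hX'⟩ := by
    apply Subtype.ext
    rw [AddSubgroup.coe_add, hc]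
    show _ = ∑ i ∈ range (p ^ n), s ^ i • y' + diag {pP p} (∑ i ∈ range (p ^ n), s ^ i • X)
    rw [map_sum, ← sum_add_distrib]
    refine sum_congr rfl fun i _ => ?_
    rw [diag_smul, ← smul_add, hy', sub_add_cancel]
  rw [hsplit, map_add, r0_diag n hp2 hX', add_zero, r0_apply]
  have h1 : ∀ q : Nat.Primes, dv q (∑ i ∈ range (p ^ n), s ^ i • y') • lq n hp2 q = 0 :=
    fun q => r0_norm_aux2 n hp2 hy'm hs q
  simp_rw [h1]
  rw [finsum_zero, zero_sub, neg_eq_zero]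
  apply r0_norm_aux1 n hp2 hy'm _ s _ rfl
  have e : ((((cmp (pP p) (mem_singleton_self _) y').1 1).toMul :
      (PadicAlgCl (pP p : Nat.Primes))ˣ) : PadicAlgCl (pP p : Nat.Primes)) =
      ((((j.1 1)).toMul : (PadicAlgCl (pP p : Nat.Primes))ˣ) : PadicAlgCl (pP p : Nat.Primes)) /
        padicEmbedding (pP p : Nat.Primes) ((1 : GQ) (x : Qb)) := by
    have h2 : cmp (pP p) (mem_singleton_self _) y' = j - embQ (pP p) X.1 := by
      rw [hy', map_sub, cmp_diag]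
    rw [h2]
    have h3 : (j - embQ (pP p) X.1).1 1 = j.1 1 - (embQ (pP p) X.1).1 1 := rfl
    rw [h3, toMul_sub, Units.val_div_eq_div_val, embQ_apply]
    rfl
  rw [e]
  have e2 : ((((j.1 1)).toMul : (PadicAlgCl (pP p : Nat.Primes))ˣ) : PadicAlgCl (pP p : Nat.Primes)) /
        padicEmbedding (pP p : Nat.Primes) ((1 : GQ) (x : Qb)) - 1 =
      (((((j.1 1)).toMul : (PadicAlgCl (pP p : Nat.Primes))ˣ) : PadicAlgCl (pP p : Nat.Primes)) -
        padicEmbedding (pP p : Nat.Primes) ((1 : GQ) (x : Qb))) /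
        padicEmbedding (pP p : Nat.Primes) ((1 : GQ) (x : Qb)) := by
    field_simp
  rw [e2, norm_div, hxn, div_le_iff₀ (nmL_pos _), mul_comm]
  exact hx.le

end norm

end

end Fermat.Agent.CFT
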