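import Fermat.Agent.CFT.Recip4

set_option autoImplicit false
set_option maxHeartbeats 400000

/-! The reciprocity map on idele classes. -/

namespace Fermat.Agent.CFT

open Finset Fermat.Agent.CFTSec
open scoped Pointwise

noncomputable section

variable {p : ℕ} [hp : Fact p.Prime] (n : ℕ) (hp2 : 2 < p) {S : Finset Nat.Primes}
  (hpS : pP p ∈ S)

theorem fix_bot_eq {A : Type*} [AddCommGroup A] [DistribMulAction GQ A] :
    fix A (⊥ : IntermediateField ℚ Qb).fixingSubgroup = fix A (⊤ : Subgroup GQ) := by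
  rw [IntermediateField.fixingSubgroup_bot]

theorem mem_fix_bot {A : Type*} [AddCommGroup A] [DistribMulAction GQ A] {a : A} :
    a ∈ fix A (⊥ : IntermediateField ℚ Qb).fixingSubgroup ↔ a ∈ fix A (⊤ : Subgroup GQ) := by
  rw [fix_bot_eq]

theorem mem_fix_top_bot {A : Type*} [AddCommGroup A] [DistribMulAction GQ A] {a : A}
    (ha : a ∈ fix A (⊤ : Subgroup GQ)) : a ∈ fix A (⊥ : IntermediateField ℚ Qb).fixingSubgroup :=
  mem_fix_bot.mpr ha

include hpS in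
theorem sub0 : ({pP p} : Finset Nat.Primes) ⊆ S := Finset.singleton_subset_iff.mpr hpS

/-- identification of invariants -/
def topBot (A : Type*) [AddCommGroup A] [DistribMulAction GQ A] :
    ↥(fix A (⊤ : Subgroup GQ)) ≃+ ↥(fix A (⊥ : IntermediateField ℚ Qb).fixingSubgroup) :=
  AddEquiv.addSubgroupCongr fix_bot_eq.symm

theorem topBot_val {A : Type*} [AddCommGroup A] [DistribMulAction GQ A]
    (a : ↥(fix A (⊤ : Subgroup GQ))) : (topBot A a).1 = a.1 := rfl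

theorem topBot_symm_val {A : Type*} [AddCommGroup A] [DistribMulAction GQ A]
    (a : ↥(fix A (⊥ : IntermediateField ℚ Qb).fixingSubgroup)) : ((topBot A).symm a).1 = a.1 := rfl

/-- restriction of an invariant idele -/
def res0 : ↥(fix (Jm S) (⊤ : Subgroup GQ)) →+ ↥(fix (Jm {pP p}) (⊤ : Subgroup GQ)) :=
  (topBot (Jm {pP p})).symm.toAddMonoidHom.comp
    ((resJ (IntermediateField.isUnramifiedOutside_bot _) (sub0 hpS)).comp
    (topBot (Jm S)).toAddMonoidHom)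

theorem res0_val (j : ↥(fix (Jm S) (⊤ : Subgroup GQ))) : (res0 hpS j).1 =
    (resJ (IntermediateField.isUnramifiedOutside_bot _) (sub0 hpS) (topBot (Jm S) j)).1 := rfl

/-- the reciprocity map on invariant `S`-ideles -/
def rS : ↥(fix (Jm S) (⊤ : Subgroup GQ)) →+ ZMod (p ^ n) := (r0 n hp2).comp (res0 hpS)

theorem locS_res0 (j : ↥(fix (Jm S) (⊤ : Subgroup GQ))) :
    locS (pP p) (mem_singleton_self _) (res0 hpS j) = locS (pP p) hpS j := rfl

theorem dv_res0 (q : Nat.Primes) (j : ↥(fix (Jm S) (⊤ : Subgroup GQ))) :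
    dv q (res0 hpS j).1 = resD {pP p} j.1 q 1 := rfl

theorem rS_apply (j : ↥(fix (Jm S) (⊤ : Subgroup GQ))) : rS n hp2 hpS j =
    (∑ᶠ q : Nat.Primes, (resD {pP p} j.1 q 1) • lq n hp2 q) - lgP n hp2 (locS (pP p) hpS j) := by
  show r0 n hp2 (res0 hpS j) = _
  rw [r0_apply, locS_res0]
  rfl

theorem rS_diag {x : QS S} (hx : x ∈ fix (QS S) (⊤ : Subgroup GQ)) :
    rS n hp2 hpS ⟨diag S x, diag_mem_fix hx⟩ = 0 := by
  obtain ⟨y, rfl⟩ := exists_ratQS hx
  have h1 : (ratQS S y).toAdd = inclQ (sub0 hpS) (ratQS {pP p} y).toAdd := by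
    apply qv_injective
    rw [qv_inclQ, qv_ratQS, qv_ratQS]
  have h2 : res0 hpS ⟨diag S (ratQS S y).toAdd, diag_mem_fix hx⟩ =
      ⟨diag {pP p} (ratQS {pP p} y).toAdd, diag_mem_fix (ratQS_mem _ y ⊤)⟩ := by
    apply Subtype.ext
    rw [res0_val]
    apply resJ_diag
    show diag S (ratQS S y).toAdd = _
    rw [h1]
  show r0 n hp2 (res0 hpS _) = 0
  rw [h2, r0_diag n hp2 (ratQS_mem _ y ⊤)]

theorem rS_norm {y : Jm S} (hy : y ∈ fix (Jm S) (EF n hp2).fixingSubgroup)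
    {s : GQ} (hs : ch n hp2 s = 1) (c : ↥(fix (Jm S) (⊤ : Subgroup GQ)))
    (hc : c.1 = ∑ i ∈ range (p ^ n), s ^ i • y) : rS n hp2 hpS c = 0 := by
  have hE := EF_unram n hp2
  have hy0 := (resJ hE (sub0 hpS) ⟨y, hy⟩).2
  apply r0_norm n hp2 hy0 hs
  have hmem : ∀ i, s ^ i • y ∈ fix (Jm S) (EF n hp2).fixingSubgroup := by
    intro i
    exact smul_mem_fix _ hy
  have h1 : (∑ i ∈ range (p ^ n), s ^ i • y) ∈ fix (Jm S) (EF n hp2).fixingSubgroup :=
    sum_mem fun i _ => hmem i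
  have h2 : (res0 hpS c).1 = (resJ hE (sub0 hpS) ⟨_, h1⟩).1 := by
    rw [res0_val]
    exact resJ_eq _ _ _ _ _ hc
  rw [h2]
  have h3 : (⟨_, h1⟩ : ↥(fix (Jm S) (EF n hp2).fixingSubgroup)) =
      ∑ i ∈ range (p ^ n), ⟨s ^ i • y, hmem i⟩ := by
    apply Subtype.ext
    rw [AddSubgroup.val_finset_sum]
  rw [h3, map_sum, AddSubgroup.val_finset_sum]
  refine sum_congr rfl fun i _ => ?_
  exact resJ_smul hE (sub0 hpS) (s ^ i) ⟨y, hy⟩ ⟨s ^ i • y, hmem i⟩ rfl

/-- value on a divisor -/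
theorem rS_div (D : DivG S) (j : ↥(fix (Jm S) (⊤ : Subgroup GQ))) (hj1 : ∀ q, j.1.1.1 q = 0)
    (hj2 : j.1.1.2 = D) : rS n hp2 hpS j = ∑ᶠ q : Nat.Primes, (D.1 q 1) • lq n hp2 q := by
  rw [rS_apply]
  have h1 : locS (pP p) hpS j = 0 := by
    apply Subtype.ext
    rw [locS_val]
    show (j.1.1.1 ⟨pP p, hpS⟩).1 1 = 0
    rw [hj1]; rfl
  rw [h1, map_zero, sub_zero]
  refine finsum_congr fun q => ?_
  by_cases hq : q ∈ ({pP p} : Finset Nat.Primes)
  · have hqS : q ∈ S := sub0 hpS hq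
    rw [resD_mem _ hq, D.2.2.2 q hqS]; rfl
  by_cases hqS : q ∈ S
  · rw [resD_T _ hq hqS, hj1, D.2.2.2 q hqS]
    have h2 : ordZ q ((0 : JQ q).1 1) = 0 := by
      apply ordZ_eq
      show nmL (0 : LM q) = _
      rw [nmL_zero]; simp
    rw [h2]; rfl
  · rw [resD_out _ hq hqS, hj2]

/-- value on an idele concentrated at one prime of `S` -/
theorem rS_single (l : Nat.Primes) (hl : l ∈ S) (hlp : l ≠ pP p)
    (j : ↥(fix (Jm S) (⊤ : Subgroup GQ))) (hj1 : ∀ q : S, q.1 ≠ l → j.1.1.1 q = 0)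
    (hj2 : j.1.1.2 = 0) : rS n hp2 hpS j = (ordZ l ((cmp l hl j.1).1 1)) • lq n hp2 l := by
  rw [rS_apply]
  have h1 : locS (pP p) hpS j = 0 := by
    apply Subtype.ext
    rw [locS_val]
    show (j.1.1.1 ⟨pP p, hpS⟩).1 1 = 0
    rw [hj1 _ (Ne.symm hlp)]; rfl
  rw [h1, map_zero, sub_zero]
  have h0 : ∀ q, q ≠ l → resD {pP p} j.1 q 1 • lq n hp2 q = 0 := by
    intro q hql
    by_cases hq : q ∈ ({pP p} : Finset Nat.Primes)
    · rw [resD_mem _ hq, zero_smul]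
    by_cases hqS : q ∈ S
    · rw [resD_T _ hq hqS, hj1 ⟨q, hqS⟩ hql]
      have h2 : ordZ q ((0 : JQ q).1 1) = 0 := by
        apply ordZ_eq
        show nmL (0 : LM q) = _
        rw [nmL_zero]; simp
      rw [h2, zero_smul]
    · rw [resD_out _ hq hqS, hj2]
      exact zero_smul ℤ _
  rw [finsum_eq_single _ l h0]
  congr 1
  have hl' : l ∉ ({pP p} : Finset Nat.Primes) := fun h => hlp (Finset.mem_singleton.mp h)
  rw [resD_T _ hl' hl]
  rfl

/-- value on an idele concentrated at `p` -/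
theorem rS_single_p (j : ↥(fix (Jm S) (⊤ : Subgroup GQ)))
    (hj1 : ∀ q : S, q.1 ≠ pP p → j.1.1.1 q = 0)
    (hj2 : j.1.1.2 = 0) : rS n hp2 hpS j = - lgP n hp2 (locS (pP p) hpS j) := by
  rw [rS_apply]
  have h0 : ∀ q, resD {pP p} j.1 q 1 • lq n hp2 q = 0 := by
    intro q
    by_cases hq : q ∈ ({pP p} : Finset Nat.Primes)
    · rw [resD_mem _ hq, zero_smul]
    by_cases hqS : q ∈ S
    · have hql : q ≠ pP p := fun h => hq (Finset.mem_singleton.mpr h)
      rw [resD_T _ hq hqS, hj1 ⟨q, hqS⟩ hql]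
      have h2 : ordZ q ((0 : JQ q).1 1) = 0 := by
        apply ordZ_eq
        show nmL (0 : LM q) = _
        rw [nmL_zero]; simp
      rw [h2, zero_smul]
    · rw [resD_out _ hq hqS, hj2]
      exact zero_smul ℤ _
  simp_rw [h0]
  rw [finsum_zero, zero_sub]

/-- lifting of invariant classes -/
theorem exists_lift_top (hpS : pP p ∈ S) (c : ↥(fix (Cm S) (⊤ : Subgroup GQ))) :
    ∃ j : ↥(fix (Jm S) (⊤ : Subgroup GQ)), toC S j.1 = c.1 := by
  obtain ⟨x, hx, hxc⟩ := exists_fix_lift ⟨_, hpS⟩ (IntermediateField.isUnramifiedOutside_bot S)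
    (mem_fix_top_bot c.2)
  exact ⟨⟨x, mem_fix_bot.mp hx⟩, hxc⟩

theorem rS_eq_of_toC (j j' : ↥(fix (Jm S) (⊤ : Subgroup GQ))) (h : toC S j.1 = toC S j'.1) :
    rS n hp2 hpS j = rS n hp2 hpS j' := by
  have h1 : toC S (j.1 - j'.1) = 0 := by rw [map_sub, h, sub_self]
  obtain ⟨a, ha⟩ := toC_eq_zero.mp h1
  have ha' : a ∈ fix (QS S) (⊤ : Subgroup GQ) := by
    intro g _
    apply diag_injective ⟨_, hpS⟩
    rw [diag_smul, ha]
    exact (fix (Jm S) ⊤).sub_mem j.2 j'.2 g trivial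
  have h2 : j = j' + ⟨diag S a, diag_mem_fix ha'⟩ := by
    apply Subtype.ext
    show j.1 = j'.1 + diag S a
    rw [ha]; abel
  rw [h2, map_add, rS_diag n hp2 hpS ha', add_zero]

/-- the reciprocity map on invariant idele classes -/
def rC : ↥(fix (Cm S) (⊤ : Subgroup GQ)) →+ ZMod (p ^ n) where
  toFun c := rS n hp2 hpS (exists_lift_top hpS c).choose
  map_zero' := by
    rw [← map_zero (rS n hp2 hpS)]
    apply rS_eq_of_toC
    rw [(exists_lift_top hpS 0).choose_spec]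
    exact (map_zero (toC S)).symm
  map_add' x y := by
    rw [← map_add]
    apply rS_eq_of_toC
    rw [(exists_lift_top hpS (x + y)).choose_spec]
    show (x.1 + y.1) = toC S ((exists_lift_top hpS x).choose.1 + (exists_lift_top hpS y).choose.1)
    rw [map_add, (exists_lift_top hpS x).choose_spec, (exists_lift_top hpS y).choose_spec]

theorem rC_toC (c : ↥(fix (Cm S) (⊤ : Subgroup GQ))) (j : ↥(fix (Jm S) (⊤ : Subgroup GQ)))
    (h : toC S j.1 = c.1) : rC n hp2 hpS c = rS n hp2 hpS j := by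
  apply rS_eq_of_toC
  rw [(exists_lift_top hpS c).choose_spec, h]

/-- the reciprocity map kills norms -/
theorem rC_norm {y : Cm S} (hy : y ∈ fix (Cm S) (EF n hp2).fixingSubgroup)
    {s : GQ} (hs : ch n hp2 s = 1) (c : ↥(fix (Cm S) (⊤ : Subgroup GQ)))
    (hc : c.1 = ∑ i ∈ range (p ^ n), s ^ i • y) : rC n hp2 hpS c = 0 := by
  obtain ⟨x, hx, rfl⟩ := exists_fix_lift ⟨_, hpS⟩ ((EF_unram n hp2).mono (sub0 hpS)) hy
  have hsum : ∑ i ∈ range (p ^ n), s ^ i • x ∈ fix (Jm S) (⊤ : Subgroup GQ) :=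
    CycP.sum_mem_fix (cycP_E n hp2 hs) hx
  rw [rC_toC n hp2 hpS c ⟨_, hsum⟩ (by
    rw [hc, map_sum]
    exact sum_congr rfl fun i _ => (toC_smul _ _))]
  exact rS_norm n hp2 hpS hx hs _ rfl

end

end Fermat.Agent.CFT
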