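import Fermat.Agent.CFT.Cap
import Fermat.Agent.CFT.HM
import Fermat.Agent.CFT.DualAlg

set_option autoImplicit false
set_option maxHeartbeats 400000

/-! The relation between locally trivial classes and homomorphisms to the idele classes. -/

namespace Fermat.Agent.CFT

open Finset Fermat.Agent.CFTSec

noncomputable section

section ext

/-- extension of homomorphisms to modules killed by `p` -/
theorem exists_ext_hom' {H T : Type*} [AddCommGroup H] [AddCommGroup T] {p : ℕ}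
    [hp : Fact p.Prime] [Module (ZMod p) H] [Module (ZMod p) T] (T' : AddSubgroup H)
    (g : T' →+ T) : ∃ f : H →+ T, ∀ t : T', f t = g t := by
  let W : Submodule (ZMod p) H := AddSubgroup.toZModSubmodule p T'
  let g' : W →ₗ[ZMod p] T := AddMonoidHom.toZModLinearMap p (M := W) (M₁ := T) g
  obtain ⟨f, hf⟩ := LinearMap.exists_extend g'
  refine ⟨f.toAddMonoidHom, fun t => ?_⟩
  exact DFunLike.congr_fun hf t

theorem exists_ext_ptors {F T : Type*} [AddCommGroup F] [AddCommGroup T] {p : ℕ}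
    [hp : Fact p.Prime] (hT : ∀ t : T, p • t = 0) {R : AddSubgroup F} (hpR : ∀ f, p • f ∈ R)
    (μ : R →+ T) (hμ : ∀ f, μ ⟨p • f, hpR f⟩ = 0) : ∃ μ' : F →+ T, ∀ r : R, μ' r.1 = μ r := by
  classical
  letI mT : Module (ZMod p) T := AddCommGroup.zmodModule hT
  let P : AddSubgroup F := (mulN F p).range
  letI mV : Module (ZMod p) (F ⧸ P) := AddCommGroup.zmodModule (n := p) (by
    intro x
    induction x using QuotientAddGroup.induction_on with
    | H v =>
      rw [← QuotientAddGroup.mk_nsmul]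
      exact (QuotientAddGroup.eq_zero_iff _).mpr ⟨v, rfl⟩)
  let q : R →+ F ⧸ P := (QuotientAddGroup.mk' P).comp R.subtype
  have hq : ∀ r, q r = 0 → μ r = 0 := by
    intro r hr
    obtain ⟨f, hf⟩ := (QuotientAddGroup.eq_zero_iff _).mp hr
    rw [← hμ f]
    congr 1
    exact Subtype.ext hf.symm
  have hq' : ∀ r r', q r = q r' → μ r = μ r' := by
    intro r r' h
    rw [← sub_eq_zero, ← map_sub]
    exact hq _ (by rw [map_sub, h, sub_self])
  choose s hs using fun y : q.range => y.2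
  let μ1 : q.range →+ T :=
    { toFun := fun y => μ (s y)
      map_zero' := hq _ (by rw [hs]; rfl)
      map_add' := fun y y' => by
        rw [← map_add]
        refine hq' _ _ ?_
        rw [map_add, hs, hs, hs]; rfl }
  obtain ⟨f, hf⟩ := exists_ext_hom' (p := p) q.range μ1
  refine ⟨f.comp (QuotientAddGroup.mk' P), fun r => ?_⟩
  have h1 := hf ⟨q r, r, rfl⟩
  refine h1.trans ?_
  exact hq' _ _ (hs ⟨q r, r, rfl⟩)

/-- extension of homomorphisms which are divisible on `p F` -/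
theorem exists_ext_div {X : Type*} [Fintype X] {A : Type*} [AddCommGroup A] {p : ℕ}
    [hp : Fact p.Prime] {R : AddSubgroup (PM X)} (hpR : ∀ f, p • f ∈ R) (κ : R →+ A)
    (hdiv : ∀ x : X, ∃ a : A, p • a = κ ⟨p • dl x, hpR _⟩) :
    ∃ κ' : PM X →+ A, ∀ r : R, κ' r.1 = κ r := by
  classical
  choose a ha using hdiv
  let κ1 : PM X →+ A := lf a
  have h1 : ∀ f, p • κ1 f = κ ⟨p • f, hpR f⟩ := by
    intro f
    refine pm_hom_ext' (φ := (p : ℕ) • κ1)
      (ψ := AddMonoidHom.mk' (fun f => κ ⟨p • f, hpR f⟩) (fun f f' => by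
        rw [← map_add]; congr 1; exact Subtype.ext (smul_add _ _ _))) (fun x => ?_) f
    show p • κ1 (dl x) = κ ⟨p • dl x, hpR _⟩
    rw [← ha x]
    show p • lf a (dl x) = _
    rw [lf_dl]
  let T : AddSubgroup A := (mulN A p).ker
  let μ : R →+ T :=
    { toFun := fun r => ⟨κ1 r.1 - κ r, by
        show p • (κ1 r.1 - κ r) = 0
        rw [smul_sub, h1, ← map_nsmul, sub_eq_zero]
        rfl⟩
      map_zero' := Subtype.ext (by
        show κ1 0 - κ 0 = 0
        rw [map_zero, map_zero, sub_zero])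
      map_add' := fun r r' => Subtype.ext (by
        show κ1 (r.1 + r'.1) - κ (r + r') = (κ1 r.1 - κ r) + (κ1 r'.1 - κ r')
        rw [map_add, map_add]; abel) }
  obtain ⟨μ', hμ'⟩ := exists_ext_ptors (T := T) (fun t => Subtype.ext t.2) hpR μ (fun f => by
    apply Subtype.ext
    show κ1 (p • f) - κ ⟨p • f, hpR f⟩ = 0
    rw [← h1, map_nsmul, sub_self])
  refine ⟨κ1 - T.subtype.comp μ', fun r => ?_⟩
  show κ1 r.1 - (μ' r.1).1 = κ r
  rw [hμ']
  show κ1 r.1 - (κ1 r.1 - κ r) = κ r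
  abel

end ext

section free

variable {L : IntermediateField ℚ Qb} [hLn : L.fixingSubgroup.Normal] {I : Type*} [Fintype I]
  {A : Type*} [AddCommGroup A] [DistribMulAction GQ A]

/-- equivariant homomorphisms from free modules -/
theorem exists_fh [Fintype (GQ ⧸ L.fixingSubgroup)] (a : I → A)
    (ha : ∀ i, a i ∈ fix A L.fixingSubgroup) :
    ∃ θ : PM (GI (GQ ⧸ L.fixingSubgroup) I) →+ A,
      (∀ (g : GQ) f, θ ((g : GQ ⧸ L.fixingSubgroup) • f) = g • θ f) ∧
      ∀ i, θ (dl (gi 1 i)) = a i := by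
  refine ⟨lf (fun x => x.1.out • a x.2), fun g f => ?_, fun i => ?_⟩
  · refine pm_hom_ext' (φ := (lf (fun x : GI (GQ ⧸ L.fixingSubgroup) I => x.1.out • a x.2)).comp
      (DistribSMul.toAddMonoidHom _ (g : GQ ⧸ L.fixingSubgroup)))
      (ψ := (DistribSMul.toAddMonoidHom A g).comp
        (lf (fun x : GI (GQ ⧸ L.fixingSubgroup) I => x.1.out • a x.2))) (fun x => ?_) f
    show lf (fun x : GI (GQ ⧸ L.fixingSubgroup) I => x.1.out • a x.2)
      ((g : GQ ⧸ L.fixingSubgroup) • dl x) =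
      g • lf (fun x : GI (GQ ⧸ L.fixingSubgroup) I => x.1.out • a x.2) (dl x)
    rw [smul_dl, lf_dl, lf_dl, ← mul_smul]
    refine smul_eq_of_mk (ha _) ?_
    show (QuotientGroup.mk (((g : GQ ⧸ L.fixingSubgroup) * x.1).out) : GQ ⧸ L.fixingSubgroup) =
      QuotientGroup.mk (g * x.1.out)
    rw [QuotientGroup.mk_mul, QuotientGroup.out_eq', QuotientGroup.out_eq']
  · rw [lf_dl]
    show (1 : GQ ⧸ L.fixingSubgroup).out • a i = a i
    have h1 : (QuotientGroup.mk ((1 : GQ ⧸ L.fixingSubgroup).out) : GQ ⧸ L.fixingSubgroup) =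
      QuotientGroup.mk 1 := by rw [QuotientGroup.out_eq']; rfl
    rw [smul_eq_of_mk (ha i) h1, one_smul]

omit [DistribMulAction GQ A] in
theorem dl_eq_smul (x : GI (GQ ⧸ L.fixingSubgroup) I) : dl x = x.1 • dl (gi 1 x.2) := by
  rw [smul_dl, gi_smul, mul_one]
  rfl

end free

/-- the projection -/
abbrev prL (L : IntermediateField ℚ Qb) [L.fixingSubgroup.Normal] : GQ →* GQ ⧸ L.fixingSubgroup :=
  QuotientGroup.mk' L.fixingSubgroup

section rel

variable {S : Finset Nat.Primes} {L : IntermediateField ℚ Qb} [hLn : L.fixingSubgroup.Normal]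
  {F : Type*} [AddCommGroup F] [DistribMulAction (GQ ⧸ L.fixingSubgroup) F]
  {R : AddSubgroup F} [hR : Stab (GQ ⧸ L.fixingSubgroup) R]

/-- level constant cochains -/
def LevC (S : Finset Nat.Primes) {Y : Type*} (b : GQ → Y) : Prop :=
  ∃ E : IntermediateField ℚ Qb, E.IsUnramifiedOutside S ∧
    ∀ g, ∀ s ∈ E.fixingSubgroup, b (g * s) = b g

theorem LevC.mono {Y : Type*} {b : GQ → Y} {E E' : IntermediateField ℚ Qb}
    (h : ∀ g, ∀ s ∈ E.fixingSubgroup, b (g * s) = b g) (hE : E ≤ E') :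
    ∀ g, ∀ s ∈ E'.fixingSubgroup, b (g * s) = b g := fun g s hs =>
  h g s (IntermediateField.fixingSubgroup_antitone hE hs)

/-- the relation -/
def Rel (L : IntermediateField ℚ Qb) [hLn : L.fixingSubgroup.Normal]
    {F : Type*} [AddCommGroup F] [DistribMulAction (GQ ⧸ L.fixingSubgroup) F]
    (R : AddSubgroup F) [hR : Stab (GQ ⧸ L.fixingSubgroup) R]
    (x : GQ → GQ → HM (prL L) F (QS S)) (φ : R →+ Cm S) : Prop :=
  ∃ (b : GQ → HM (prL L) F (QS S)) (β : R →+ Jm S) (βD : F →+ DivG S), LevC S b ∧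
    (∀ g h, x g h = dd b g h) ∧ (∀ r, toC S (β r) = φ r) ∧
    (∀ g r, g • β ((prL L g)⁻¹ • r) - β r = diag S (b g r.1)) ∧ (∀ r, (β r).1.2 = βD r.1)

theorem Rel.sub {x x' : GQ → GQ → HM (prL L) F (QS S)} {φ φ' : R →+ Cm S} (h : Rel L R x φ)
    (h' : Rel L R x' φ') : Rel L R (x - x') (φ - φ') := by
  obtain ⟨b, β, βD, ⟨E, hE, hb⟩, h1, h2, h3, h4⟩ := h
  obtain ⟨b', β', βD', ⟨E', hE', hb'⟩, h1', h2', h3', h4'⟩ := h'
  refine ⟨b - b', β - β', βD - βD', ⟨E ⊔ E', hE.sup hE', fun g s hs => ?_⟩, fun g h => ?_,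
    fun r => ?_, fun g r => ?_, fun r => ?_⟩
  · show b (g * s) - b' (g * s) = b g - b' g
    rw [LevC.mono hb le_sup_left g s hs, LevC.mono hb' le_sup_right g s hs]
  · show x g h - x' g h = (b g - b' g) + g • (b h - b' h) - (b (g * h) - b' (g * h))
    rw [h1, h1', smul_sub]
    show (b g + g • b h - b (g * h)) - (b' g + g • b' h - b' (g * h)) = _
    abel
  · show toC S (β r - β' r) = φ r - φ' r
    rw [map_sub, h2, h2']
  · show g • (β ((prL L g)⁻¹ • r) - β' ((prL L g)⁻¹ • r)) - (β r - β' r) =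
      diag S (b g r.1 - b' g r.1)
    rw [map_sub, ← h3, ← h3', smul_sub]; abel
  · show (β r).1.2 - (β' r).1.2 = βD r.1 - βD' r.1
    rw [h4, h4']

/-- sums of a homomorphism lifting to the `S`-ideles and one extending to `F` -/
def JJQ (L : IntermediateField ℚ Qb) [hLn : L.fixingSubgroup.Normal]
    {F : Type*} [AddCommGroup F] [DistribMulAction (GQ ⧸ L.fixingSubgroup) F]
    (R : AddSubgroup F) [hR : Stab (GQ ⧸ L.fixingSubgroup) R] (φ : R →+ Cm S) : Prop :=
  ∃ ψ : R →+ Jm S, (∀ (g : GQ) r, ψ (prL L g • r) = g • ψ r) ∧ (∀ r, (ψ r).1.2 = 0) ∧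
    ∃ θ : F →+ Cm S, (∀ (g : GQ) f, θ (prL L g • f) = g • θ f) ∧
      ∀ r, φ r = toC S (ψ r) + θ r.1

end rel

section main

variable {S : Finset Nat.Primes} {L : IntermediateField ℚ Qb} [hLn : L.fixingSubgroup.Normal]
  {I : Type*} [Fintype I] {p : ℕ} [hp : Fact p.Prime]
  {R : AddSubgroup (PM (GI (GQ ⧸ L.fixingSubgroup) I))} [hR : Stab (GQ ⧸ L.fixingSubgroup) R]

/-- (3') -/
theorem rel_B2 (hpS : pP p ∈ S) (hL : L.IsUnramifiedOutside S) (hpR : ∀ f, p • f ∈ R)
    {x : GQ → GQ → HM (prL L) (PM (GI (GQ ⧸ L.fixingSubgroup) I)) (QS S)} {φ : R →+ Cm S}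
    (h : Rel L R x φ) (hφ : JJQ L R φ) :
    ∃ b : GQ → HM (prL L) (PM (GI (GQ ⧸ L.fixingSubgroup) I)) (QS S), LevC S b ∧
      (∀ g (r : R), b g r.1 = 0) ∧ ∀ g h, x g h = dd b g h := by
  classical
  haveI := hL.1
  haveI : L.fixingSubgroup.FiniteIndex := finiteIndex_fixingSubgroup L
  haveI : Finite (GQ ⧸ L.fixingSubgroup) := Subgroup.finite_quotient_of_finiteIndex
  haveI : Fintype (GQ ⧸ L.fixingSubgroup) := Fintype.ofFinite _
  obtain ⟨b, β, βD, ⟨E, hE, hb⟩, h1, h2, h3, h4⟩ := h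
  obtain ⟨ψ, hψ1, hψ2, θ, hθ1, hθ2⟩ := hφ
  have hS : S.Nonempty := ⟨_, hpS⟩
  -- lift θ
  have hlift : ∀ i : I, ∃ j ∈ fix (Jm S) L.fixingSubgroup, toC S j = θ (dl (gi 1 i)) := by
    intro i
    refine exists_fix_lift hS hL (fun g hg => ?_)
    rw [← hθ1]
    have : prL L g = 1 := (QuotientGroup.eq_one_iff g).mpr hg
    rw [this, one_smul]
  choose j hj hjθ using hlift
  obtain ⟨Θ, hΘ1, hΘ2⟩ := exists_fh j hj
  have hΘθ : ∀ f, toC S (Θ f) = θ f := by
    intro f
    refine pm_hom_ext' (φ := (toC S).comp Θ) (ψ := θ) (fun x => ?_) f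
    show toC S (Θ (dl x)) = θ (dl x)
    obtain ⟨g, hg⟩ := QuotientGroup.mk_surjective x.1
    have hx : dl x = (g : GQ ⧸ L.fixingSubgroup) • dl (gi 1 x.2) := by rw [hg]; exact dl_eq_smul x
    rw [hx, hΘ1, toC_smul, hΘ2, hjθ]
    exact (hθ1 g _).symm
  -- the difference is principal
  have hker : ∀ r : R, ∃ k : QS S, diag S k = β r - ψ r - Θ r.1 := by
    intro r
    rw [← toC_eq_zero, map_sub, map_sub, h2, hθ2, hΘθ]; abel
  choose κ hκ using hker
  let κh : R →+ QS S := AddMonoidHom.mk' κ (fun r r' => by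
    apply diag_injective hS
    rw [map_add, hκ, hκ, hκ, map_add, map_add]
    show (β r + β r') - (ψ r + ψ r') - Θ (r.1 + r'.1) = _
    rw [map_add]; abel)
  have hκh : ∀ r, diag S (κh r) = β r - ψ r - Θ r.1 := hκ
  have hκb : ∀ g r, g • κh ((prL L g)⁻¹ • r) - κh r = b g r.1 := by
    intro g r
    apply diag_injective hS
    rw [map_sub, diag_smul, hκh, hκh, ← h3]
    have e1 : g • ψ ((prL L g)⁻¹ • r) = ψ r := by rw [← hψ1, smul_inv_smul]
    have e2 : g • Θ (((prL L g)⁻¹ • r : R)).1 = Θ r.1 := by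
      show g • Θ ((prL L g)⁻¹ • r.1) = Θ r.1
      rw [← hΘ1]
      show Θ (prL L g • (prL L g)⁻¹ • r.1) = Θ r.1
      rw [smul_inv_smul]
    rw [smul_sub, smul_sub, e1, e2]; abel
  -- divisibility
  have hdiv : ∀ x, ∃ a : QS S, p • a = κh ⟨p • dl x, hpR _⟩ := by
    intro x
    have h5 : divQ (κh ⟨p • dl x, hpR _⟩) = p • (βD (dl x) - (Θ (dl x)).1.2) := by
      have h6 : divQ (κh ⟨p • dl x, hpR _⟩) = (diag S (κh ⟨p • dl x, hpR _⟩)).1.2 := rfl
      rw [h6, hκh]
      show (β ⟨p • dl x, hpR _⟩).1.2 - (ψ ⟨p • dl x, hpR _⟩).1.2 - (Θ (p • dl x)).1.2 = _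
      rw [hψ2, h4, sub_zero, map_nsmul, map_nsmul, smul_sub]
      rfl
    obtain ⟨a, ha, -⟩ := exists_root_of_div hpS _ _ h5
    exact ⟨a, ha⟩
  obtain ⟨κ', hκ'⟩ := exists_ext_div hpR κh hdiv
  let k' : HM (prL L) (PM (GI (GQ ⧸ L.fixingSubgroup) I)) (QS S) := κ'
  -- level of κ'
  have hlev : ∃ E' : IntermediateField ℚ Qb, E'.IsUnramifiedOutside S ∧
      ∀ x, κ' (dl x) ∈ fix (QS S) E'.fixingSubgroup := by
    have := fun x => exists_field_mem (κ' (dl x))
    choose E' hE' hE'm using this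
    refine ⟨⨆ x, E' x, IsUnramifiedOutside.iSup hE', fun x => ?_⟩
    refine fix_mono (IntermediateField.fixingSubgroup_antitone (le_iSup E' x)) ?_
    intro g hg
    exact Subtype.ext ((mem_fix_of_mem _).mpr (hE'm x) g hg)
  obtain ⟨E', hE', hκE⟩ := hlev
  have hκfix : ∀ s ∈ E'.fixingSubgroup, ∀ f, s • κ' f = κ' f := by
    intro s hs f
    exact pm_hom_ext' (φ := (DistribSMul.toAddMonoidHom (QS S) s).comp κ') (ψ := κ')
      (fun x => hκE x s hs) f
  refine ⟨fun g => b g - (g • k' - k'), ⟨E ⊔ E' ⊔ L, (hE.sup hE').sup hL, fun g s hs => ?_⟩,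
    fun g r => ?_, fun g h => ?_⟩
  · have hs1 : s ∈ E.fixingSubgroup :=
      IntermediateField.fixingSubgroup_antitone (le_sup_left.trans le_sup_left) hs
    have hs2 : s ∈ E'.fixingSubgroup :=
      IntermediateField.fixingSubgroup_antitone (le_sup_right.trans le_sup_left) hs
    have hs3 : s ∈ L.fixingSubgroup := IntermediateField.fixingSubgroup_antitone le_sup_right hs
    have h6 : s • k' = k' := by
      apply HM.ext
      intro f
      show s • κ' ((prL L s)⁻¹ • f) = κ' f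
      have : prL L s = 1 := (QuotientGroup.eq_one_iff s).mpr hs3
      rw [this, inv_one, one_smul, hκfix s hs2]
    show b (g * s) - ((g * s) • k' - k') = b g - (g • k' - k')
    rw [hb g s hs1, mul_smul, h6]
  · show b g r.1 - (g • κ' ((prL L g)⁻¹ • r.1) - κ' r.1) = 0
    have h6 : κ' ((prL L g)⁻¹ • r.1) = κh ((prL L g)⁻¹ • r) := hκ' ((prL L g)⁻¹ • r)
    rw [h6, hκ', hκb, sub_self]
  · rw [h1]
    show b g + g • b h - b (g * h) = (b g - (g • k' - k')) + g • (b h - (h • k' - k')) -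
      (b (g * h) - ((g * h) • k' - k'))
    rw [smul_sub, smul_sub, mul_smul]; abel

end main

end

end Fermat.Agent.CFT
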