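import Fermat.Agent.CFT.Rel1

set_option autoImplicit false
set_option maxHeartbeats 400000

/-! The relation: coboundaries correspond to trivial homomorphisms. -/

namespace Fermat.Agent.CFT

open Finset Fermat.Agent.CFTSec

noncomputable section

theorem ab_aux1 {A : Type*} [AddCommGroup A] {x y z x' y' z' : A}
    (h : x + y - z = x' + y' - z') : z - z' = (x + y) - (x' + y') := by
  have h1 : z = x + y - (x' + y' - z') := by rw [← h]; abel
  rw [h1]; abel

theorem ab_aux2 {A : Type*} [AddCommGroup A] {a b c d : A} (h : a - b = c - d) :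
    b - d = a - c := by
  have h1 : b = a - (c - d) := by rw [← h]; abel
  rw [h1]; abel

/-- Hilbert 90 for `S`-elements -/
theorem h90_QS {S : Finset Nat.Primes} {F : IntermediateField ℚ Qb} (hF : F.IsUnramifiedOutside S)
    (a : F.fixingSubgroup → QS S) (hcoc : ∀ g h, a (g * h) = a g + (g : GQ) • a h)
    {E : IntermediateField ℚ Qb} (hE : E.IsUnramifiedOutside S)
    (haE : ∀ g : F.fixingSubgroup, (g : GQ) ∈ E.fixingSubgroup → a g = 0) :
    ∃ b : QS S, ∀ g : F.fixingSubgroup, a g = (g : GQ) • b - b := by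
  haveI := Fermat.Agent.Frob.isGalois_Qbar
  obtain ⟨N, hFN, hN, -⟩ := exists_galois_unram (hF.sup hE)
  haveI := hN.1
  haveI := finiteIndex_fixingSubgroup N
  let M : Subgroup F.fixingSubgroup := N.fixingSubgroup.subgroupOf F.fixingSubgroup
  haveI : M.FiniteIndex := inferInstance
  have haM : ∀ n ∈ M, a n = 0 := by
    intro n hn
    exact haE n (IntermediateField.fixingSubgroup_antitone (le_sup_right.trans hFN) hn)
  obtain ⟨β, hβ1, hβ2⟩ := hilbert90 (Ω := Qb) M (by
    intro g hg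
    show (g : GQ) ∈ N.fixingSubgroup
    rw [IntermediateField.mem_fixingSubgroup_iff]
    intro x hx
    exact hg x (fun n hn => (IntermediateField.mem_fixingSubgroup_iff N _).mp hn x hx))
    (fun g => (a g).1.toMul) (by
      intro g h
      have := congrArg (fun z : QS S => (z.1.toMul : Qb)) (hcoc g h)
      exact this) (by
      intro n hn
      have := congrArg (fun z : QS S => z.1.toMul) (haM n hn)
      exact this)
  have hβN : (β : Qb) ∈ N := by
    rw [← InfiniteGalois.fixedField_fixingSubgroup N, IntermediateField.mem_fixedField_iff]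
    intro f hf
    have hfF : f ∈ F.fixingSubgroup :=
      IntermediateField.fixingSubgroup_antitone (le_sup_left.trans hFN) hf
    exact hβ1 ⟨f, hfF⟩ hf
  let b : QS S := ⟨Additive.ofMul β, N, hN, (mem_fix_of_mem _).mpr hβN⟩
  refine ⟨b, fun g => ?_⟩
  rw [eq_sub_iff_add_eq]
  apply Subtype.ext
  exact congrArg Additive.ofMul (Units.ext (hβ2 g))

section

variable {S : Finset Nat.Primes} {L : IntermediateField ℚ Qb} [hLn : L.fixingSubgroup.Normal]
  {I : Type*} [Fintype I]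

theorem gi_stab {g : GQ} {x : GI (GQ ⧸ L.fixingSubgroup) I} (h : prL L g • x = x) :
    g ∈ L.fixingSubgroup := by
  have h1 : prL L g * x.1 = x.1 := congrArg (fun y : GI (GQ ⧸ L.fixingSubgroup) I => y.1) h
  exact (QuotientGroup.eq_one_iff g).mp (mul_eq_right.mp h1)

theorem prL_one_of_mem {s : GQ} (hs : s ∈ L.fixingSubgroup) : prL L s = 1 :=
  (QuotientGroup.eq_one_iff s).mpr hs

theorem h1_QS (hL : L.IsUnramifiedOutside S)
    {c : GQ → HM (prL L) (PM (GI (GQ ⧸ L.fixingSubgroup) I)) (QS S)}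
    (hc : c ∈ Z1 GQ (HM (prL L) (PM (GI (GQ ⧸ L.fixingSubgroup) I)) (QS S))) (hlev : LevC S c) :
    c ∈ B1 GQ (HM (prL L) (PM (GI (GQ ⧸ L.fixingSubgroup) I)) (QS S)) := by
  haveI := hL.1
  haveI : L.fixingSubgroup.FiniteIndex := finiteIndex_fixingSubgroup L
  haveI : Finite (GQ ⧸ L.fixingSubgroup) := Subgroup.finite_quotient_of_finiteIndex
  haveI : Fintype (GQ ⧸ L.fixingSubgroup) := Fintype.ofFinite _
  refine hm_h1 (prL L) hc (fun x => ?_)
  obtain ⟨E, hE, hcE⟩ := hlev
  obtain ⟨b, hb⟩ := h90_QS hL (fun g => c g.1 (dl x)) (fun g h => by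
    show c (g.1 * h.1) (dl x) = c g.1 (dl x) + g.1 • c h.1 (dl x)
    rw [hc g.1 h.1, hm_add_apply, hm_smul_apply, prL_one_of_mem g.2, inv_one, one_smul]) hE
    (fun g hg => by
      have h1 : c (1 * g.1) = c 1 := hcE 1 g.1 hg
      rw [one_mul] at h1
      show c g.1 (dl x) = 0
      rw [h1, Z1.one hc]; rfl)
  exact ⟨b, fun u hu => hb ⟨u, gi_stab hu⟩⟩

end

section main

variable {S : Finset Nat.Primes} {L : IntermediateField ℚ Qb} [hLn : L.fixingSubgroup.Normal]
  {I : Type*} [Fintype I] {p : ℕ} [hp : Fact p.Prime]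
  {R : AddSubgroup (PM (GI (GQ ⧸ L.fixingSubgroup) I))} [hR : Stab (GQ ⧸ L.fixingSubgroup) R]

/-- (3'') -/
theorem rel_JJ (hL : L.IsUnramifiedOutside S) (hpR : ∀ f, p • f ∈ R)
    {x : GQ → GQ → HM (prL L) (PM (GI (GQ ⧸ L.fixingSubgroup) I)) (QS S)} {φ : R →+ Cm S}
    (h : Rel L R x φ)
    (hx : ∃ b : GQ → HM (prL L) (PM (GI (GQ ⧸ L.fixingSubgroup) I)) (QS S), LevC S b ∧
      (∀ g (r : R), b g r.1 = 0) ∧ ∀ g h, x g h = dd b g h) : JJQ L R φ := by
  classical
  obtain ⟨b, β, βD, ⟨E, hE, hb⟩, h1, h2, h3, h4⟩ := h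
  obtain ⟨b', ⟨E', hE', hb'⟩, h5, h6⟩ := hx
  have hc : (fun g => b g - b' g) ∈
      Z1 GQ (HM (prL L) (PM (GI (GQ ⧸ L.fixingSubgroup) I)) (QS S)) := by
    intro g h
    have h7 : dd b g h = dd b' g h := by rw [← h1, h6]
    have h8 : b g + g • b h - b (g * h) = b' g + g • b' h - b' (g * h) := h7
    show b (g * h) - b' (g * h) = (b g - b' g) + g • (b h - b' h)
    rw [ab_aux1 h8, smul_sub]; abel
  obtain ⟨κ, hκ⟩ := h1_QS hL hc ⟨E ⊔ E', hE.sup hE', fun g s hs => by
    show b (g * s) - b' (g * s) = b g - b' g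
    rw [LevC.mono hb le_sup_left g s hs, LevC.mono hb' le_sup_right g s hs]⟩
  have hbr : ∀ g (r : R), b g r.1 = g • κ ((prL L g)⁻¹ • r.1) - κ r.1 := by
    intro g r
    have h7 := DFunLike.congr_fun (hκ g) r.1
    have h8 : b g r.1 - b' g r.1 = (g • κ - κ) r.1 := h7
    rw [h5, sub_zero] at h8
    exact h8
  let β' : R →+ Jm S := β - (diag S).comp ((HM.toHom (prL L) κ).comp R.subtype)
  have hβ' : ∀ r, β' r = β r - diag S (κ r.1) := fun r => rfl
  have hβe : ∀ (g : GQ) (r : R), β' (prL L g • r) = g • β' r := by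
    intro g r
    have h7 := h3 g (prL L g • r)
    rw [inv_smul_smul, hbr] at h7
    have h8 : (prL L g)⁻¹ • (prL L g • r : R).1 = r.1 := inv_smul_smul (prL L g) r.1
    rw [h8, map_sub, diag_smul] at h7
    rw [hβ', hβ', smul_sub]
    exact ab_aux2 h7
  let ψD : PM (GI (GQ ⧸ L.fixingSubgroup) I) →+ DivG S := βD - (divH S).comp (HM.toHom (prL L) κ)
  have hψD : ∀ f, ψD f = βD f - divQ (κ f) := fun f => rfl
  have hψr : ∀ r : R, ψD r.1 = (β' r).1.2 := by
    intro r
    rw [hψD, hβ', ← h4]; rfl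
  have hψe : ∀ (g : GQ) f, ψD (prL L g • f) = g • ψD f := by
    intro g f
    apply divG_tf hp.out.ne_zero
    have h7 : p • ψD (prL L g • f) = ψD (prL L g • (⟨p • f, hpR f⟩ : R) : R).1 := by
      rw [← map_nsmul]
      exact congrArg ψD (smul_comm p (prL L g) f)
    have h8 : (p • g • ψD f : DivG S) = g • ψD (⟨p • f, hpR f⟩ : R).1 := by
      show p • g • ψD f = g • ψD (p • f)
      rw [map_nsmul, smul_comm]
    rw [h7, h8, hψr, hψr, hβe]
    rfl
  let Θ : PM (GI (GQ ⧸ L.fixingSubgroup) I) →+ Jm S :=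
    { toFun := fun f => ⟨((0 : ∀ q : S, JQ q.1), ψD f), L, hL, fun s hs => by
        have h7 : s • ψD f = ψD f := by rw [← hψe, prL_one_of_mem hs, one_smul]
        exact Prod.ext (smul_zero s) h7⟩
      map_zero' := by
        apply Subtype.ext
        show ((0 : ∀ q : S, JQ q.1), ψD 0) = 0
        rw [map_zero]; rfl
      map_add' := fun f f' => by
        apply Subtype.ext
        show ((0 : ∀ q : S, JQ q.1), ψD (f + f')) =
          ((0 : ∀ q : S, JQ q.1), ψD f) + ((0 : ∀ q : S, JQ q.1), ψD f')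
        rw [map_add, Prod.mk_add_mk, add_zero] }
  have hΘ : ∀ f, (Θ f).1 = ((0 : ∀ q : S, JQ q.1), ψD f) := fun f => rfl
  have hΘe : ∀ (g : GQ) f, Θ (prL L g • f) = g • Θ f := by
    intro g f
    apply Subtype.ext
    show ((0 : ∀ q : S, JQ q.1), ψD (prL L g • f)) = g • ((0 : ∀ q : S, JQ q.1), ψD f)
    rw [hψe]
    exact Prod.ext (smul_zero g).symm rfl
  refine ⟨β' - Θ.comp R.subtype, fun g r => ?_, fun r => ?_, (toC S).comp Θ, fun g f => ?_,
    fun r => ?_⟩
  · show β' (prL L g • r) - Θ (prL L g • r : R).1 = g • (β' r - Θ r.1)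
    rw [hβe, smul_sub]
    have h7 : Θ (prL L g • r : R).1 = g • Θ r.1 := hΘe g r.1
    rw [h7]
  · show (β' r).1.2 - (Θ r.1).1.2 = 0
    rw [hΘ, hψr, sub_self]
  · show toC S (Θ (prL L g • f)) = g • toC S (Θ f)
    rw [hΘe, toC_smul]
  · show φ r = toC S (β' r - Θ r.1) + toC S (Θ r.1)
    rw [← map_add, sub_add_cancel, hβ', map_sub, toC_diag, sub_zero, h2]

end main

end

end Fermat.Agent.CFT
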