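import Fermat.Agent.CFT.Rel2

set_option autoImplicit false
set_option maxHeartbeats 400000

/-! From homomorphisms to locally trivial classes. -/

namespace Fermat.Agent.CFT

open Finset Fermat.Agent.CFTSec

noncomputable section

section lift

/-- lifting homomorphisms from subgroups of free modules -/
theorem exists_lift_sub {X : Type*} [Finite X] (R : AddSubgroup (PM X)) {A B : Type*}
    [AddCommGroup A] [AddCommGroup B] (s : A →+ B) (φ : R →+ B) (h : ∀ r, ∃ a, s a = φ r) :
    ∃ β : R →+ A, ∀ r, s (β r) = φ r := by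
  haveI : Module.Free ℤ (AddSubgroup.toIntSubmodule R) :=
    Module.Free.of_basis (Submodule.basisOfPid (Module.Free.chooseBasis ℤ (PM X))
      (AddSubgroup.toIntSubmodule R)).2
  haveI : Module.Free ℤ R := (inferInstance : Module.Free ℤ (AddSubgroup.toIntSubmodule R))
  let W : AddSubgroup B := s.range
  let s' : A →ₗ[ℤ] W := (s.rangeRestrict).toIntLinearMap
  let φ' : R →ₗ[ℤ] W := (φ.codRestrict W (fun r => h r)).toIntLinearMap
  obtain ⟨β, hβ⟩ := Module.projective_lifting_property s' φ' s.rangeRestrict_surjective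
  refine ⟨β.toAddMonoidHom, fun r => ?_⟩
  exact congrArg Subtype.val (LinearMap.congr_fun hβ r)

end lift

section push

variable {S : Finset Nat.Primes}

/-- the embedding at `q` -/
def peQ (S : Finset Nat.Primes) (q : Nat.Primes) : QS S →+ LM q where
  toFun x := (embQ q x.1).1 1
  map_zero' := by
    have h : embQ q ((0 : QS S) : Additive Qbˣ) = 0 := by
      have h1 := embQ_add q 0 0
      rw [add_zero] at h1
      exact left_eq_add.mp h1
    rw [h]; rfl
  map_add' x y := by
    show (embQ q (x.1 + y.1)).1 1 = _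
    rw [embQ_add]; rfl

theorem peQ_val (q : Nat.Primes) (x : QS S) :
    ((peQ S q x).toMul : PadicAlgCl q) = padicEmbedding q (x.1.toMul : Qb) := rfl

theorem peQ_smul (q : Nat.Primes) (t : LG q) (x : QS S) :
    peQ S q (localGaloisToGlobal (q : ℕ) t • x) = t • peQ S q x := by
  have h := (embQ q x.1).2 t 1
  show (embQ q (localGaloisToGlobal (q : ℕ) t • x.1)).1 1 = t • (embQ q x.1).1 1
  rw [embQ_smul, ← h]
  show (embQ q x.1).1 (1 * localGaloisToGlobal (q : ℕ) t) = _
  rw [one_mul, mul_one]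

/-- the component at `q` -/
def evJ (q : Nat.Primes) (hq : q ∈ S) : Jm S →+ LM q where
  toFun j := (cmp q hq j).1 1
  map_zero' := by rw [map_zero]; rfl
  map_add' x y := by rw [map_add]; rfl

theorem evJ_smul (q : Nat.Primes) (hq : q ∈ S) (t : LG q) (j : Jm S) :
    evJ q hq (localGaloisToGlobal (q : ℕ) t • j) = t • evJ q hq j := by
  have h := (cmp q hq j).2 t 1
  show (cmp q hq (localGaloisToGlobal (q : ℕ) t • j)).1 1 = t • (cmp q hq j).1 1
  rw [cmp_smul, ← h]
  show (cmp q hq j).1 (1 * localGaloisToGlobal (q : ℕ) t) = _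
  rw [one_mul, mul_one]

theorem evJ_diag (q : Nat.Primes) (hq : q ∈ S) (x : QS S) : evJ q hq (diag S x) = peQ S q x := rfl

/-- the local projection -/
abbrev piq (q : Nat.Primes) (L : IntermediateField ℚ Qb) [L.fixingSubgroup.Normal] :
    LG q →* GQ ⧸ L.fixingSubgroup := (prL L).comp (localGaloisToGlobal (q : ℕ))

variable {L : IntermediateField ℚ Qb} [hLn : L.fixingSubgroup.Normal]
  {F : Type*} [AddCommGroup F] [DistribMulAction (GQ ⧸ L.fixingSubgroup) F]

/-- the map to local homomorphisms -/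
def pushq (q : Nat.Primes) : HM (prL L) F (QS S) →+ HM (piq q L) F (LM q) where
  toFun h := (peQ S q).comp (HM.toHom _ h)
  map_zero' := by
    apply HM.ext
    intro f
    exact map_zero (peQ S q)
  map_add' h h' := by
    apply HM.ext
    intro f
    exact map_add (peQ S q) _ _

theorem pushq_apply (q : Nat.Primes) (h : HM (prL L) F (QS S)) (f : F) :
    pushq q h f = peQ S q (h f) := rfl

theorem pushq_smul (q : Nat.Primes) (t : LG q) (h : HM (prL L) F (QS S)) :
    pushq q (localGaloisToGlobal (q : ℕ) t • h) = t • pushq q h := by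
  apply HM.ext
  intro f
  rw [pushq_apply, hm_smul_apply, hm_smul_apply, pushq_apply, peQ_smul]
  rfl

end push

section lev

variable {S : Finset Nat.Primes} {L : IntermediateField ℚ Qb} [hLn : L.fixingSubgroup.Normal]

/-- homomorphisms to the `S`-elements have a level -/
theorem exists_level_hom {X : Type*} [Finite X] {A : Type*} [AddCommGroup A]
    [DistribMulAction GQ A] (h : PM X →+ smooth S A) : ∃ E : IntermediateField ℚ Qb,
    E.IsUnramifiedOutside S ∧ ∀ s ∈ E.fixingSubgroup, ∀ f, s • h f = h f := by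
  haveI := Fintype.ofFinite X
  have := fun x => mem_smooth.mp (h (dl x)).2
  choose E hE hfix using this
  refine ⟨⨆ x, E x, IsUnramifiedOutside.iSup hE, fun s hs f => ?_⟩
  exact pm_hom_ext' (φ := (DistribSMul.toAddMonoidHom (smooth S A) s).comp h) (ψ := h)
    (fun x => Subtype.ext
      (hfix x s (IntermediateField.fixingSubgroup_antitone (le_iSup E x) hs))) f

/-- homomorphisms from finitely generated groups have a level -/
theorem exists_level_fg {V : Type*} [AddCommGroup V] [Module.Finite ℤ V] {A : Type*}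
    [AddCommGroup A] [DistribMulAction GQ A] (h : V →+ smooth S A) :
    ∃ E : IntermediateField ℚ Qb,
    E.IsUnramifiedOutside S ∧ ∀ s ∈ E.fixingSubgroup, ∀ f, s • h f = h f := by
  have h1 : (⊤ : Submodule ℤ V).FG := Module.Finite.fg_top
  obtain ⟨T, hT⟩ := h1
  have := fun t : T => mem_smooth.mp (h t.1).2
  choose E hE hfix using this
  refine ⟨⨆ x, E x, IsUnramifiedOutside.iSup hE, fun s hs r => ?_⟩
  have h2 : r ∈ (⊤ : Submodule ℤ V) := Submodule.mem_top
  rw [← hT] at h2
  refine Submodule.span_induction (p := fun r _ => s • h r = h r) ?_ ?_ ?_ ?_ h2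
  · intro t ht
    exact Subtype.ext (hfix ⟨t, ht⟩ s
      (IntermediateField.fixingSubgroup_antitone (le_iSup E ⟨t, ht⟩) hs))
  · rw [map_zero, smul_zero]
  · intro x y _ _ hx hy
    rw [map_add, smul_add, hx, hy]
  · intro n x _ hx
    rw [map_zsmul, smul_comm, hx]

theorem finite_sub {X : Type*} [Finite X] (R : AddSubgroup (PM X)) : Module.Finite ℤ R := by
  haveI : Module.Finite ℤ (PM X) := inferInstanceAs (Module.Finite ℤ (X → ℤ))
  exact (inferInstance : Module.Finite ℤ (AddSubgroup.toIntSubmodule R))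

/-- cochains with a level in two variables -/
def Lev2 (S : Finset Nat.Primes) {Y : Type*} (x : GQ → GQ → Y) : Prop :=
  ∃ E : IntermediateField ℚ Qb, E.IsUnramifiedOutside S ∧
    ∀ g h, ∀ s ∈ E.fixingSubgroup, ∀ s' ∈ E.fixingSubgroup, x (g * s) (h * s') = x g h

/-- a common level -/
theorem exists_level_cochain {X : Type*} [Finite X] [DistribMulAction (GQ ⧸ L.fixingSubgroup) (PM X)]
    (hL : L.IsUnramifiedOutside S) {b : GQ → HM (prL L) (PM X) (QS S)} (hb : LevC S b) :
    ∃ E : IntermediateField ℚ Qb, E.IsUnramifiedOutside S ∧ E.fixingSubgroup.Normal ∧ L ≤ E ∧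
      (∀ g, ∀ s ∈ E.fixingSubgroup, b (g * s) = b g) ∧
      ∀ g, ∀ s ∈ E.fixingSubgroup, s • b g = b g := by
  haveI := Fermat.Agent.Frob.isGalois_Qbar
  obtain ⟨E, hE, hbE⟩ := hb
  haveI := hE.1
  haveI := finiteIndex_fixingSubgroup E
  haveI : Finite (GQ ⧸ E.fixingSubgroup) := Subgroup.finite_quotient_of_finiteIndex
  have := fun y : GQ ⧸ E.fixingSubgroup => exists_level_hom (S := S) (HM.toHom _ (b y.out))
  choose E' hE' hfix using this
  obtain ⟨N, hFN, hN, hg⟩ := exists_galois_unram ((hE.sup hL).sup (IsUnramifiedOutside.iSup hE'))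
  have hNn : N.fixingSubgroup.Normal := inferInstance
  refine ⟨N, hN, hNn, (le_sup_right.trans le_sup_left).trans hFN, fun g s hs => ?_,
    fun g s hs => ?_⟩
  · exact hbE g s (IntermediateField.fixingSubgroup_antitone
      ((le_sup_left.trans le_sup_left).trans hFN) hs)
  · have h1 : b g = b (QuotientGroup.mk g : GQ ⧸ E.fixingSubgroup).out := by
      have h2 : (QuotientGroup.mk (QuotientGroup.mk g : GQ ⧸ E.fixingSubgroup).out :
          GQ ⧸ E.fixingSubgroup) = QuotientGroup.mk g := QuotientGroup.out_eq' _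
      have h3 := hbE (QuotientGroup.mk g : GQ ⧸ E.fixingSubgroup).out _ (QuotientGroup.eq.mp h2)
      rw [mul_inv_cancel_left] at h3
      exact h3
    apply HM.ext
    intro f
    have h4 : prL L s = 1 := prL_one_of_mem (IntermediateField.fixingSubgroup_antitone
      ((le_sup_right.trans le_sup_left).trans hFN) hs)
    rw [hm_smul_apply, h4, inv_one, one_smul, h1]
    exact hfix (QuotientGroup.mk g) s (IntermediateField.fixingSubgroup_antitone
      ((le_iSup E' _).trans (le_sup_right.trans hFN)) hs) f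

theorem lev2_dd {X : Type*} [Finite X] [DistribMulAction (GQ ⧸ L.fixingSubgroup) (PM X)]
    (hL : L.IsUnramifiedOutside S) {b : GQ → HM (prL L) (PM X) (QS S)} (hb : LevC S b) :
    Lev2 S (dd b) := by
  obtain ⟨E, hE, hEn, hLE, h1, h2⟩ := exists_level_cochain hL hb
  refine ⟨E, hE, fun g h s hs s' hs' => ?_⟩
  show b (g * s) + (g * s) • b (h * s') - b (g * s * (h * s')) = b g + g • b h - b (g * h)
  have h3 : g * s * (h * s') = (g * h) * (h⁻¹ * s * h * s') := by group
  have h4 : h⁻¹ * s * h * s' ∈ E.fixingSubgroup := by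
    refine mul_mem ?_ hs'
    have := hEn.conj_mem s hs h⁻¹
    rwa [inv_inv] at this
  rw [h1 g s hs, h1 h s' hs', h3, h1 (g * h) _ h4, mul_smul, h2 h s hs]

end lev

section sha

variable {S : Finset Nat.Primes} {L : IntermediateField ℚ Qb} [hLn : L.fixingSubgroup.Normal]
  {F : Type*} [AddCommGroup F] [DistribMulAction (GQ ⧸ L.fixingSubgroup) F]

/-- the locally trivial 2-cocycles with values in the homomorphisms vanishing on `R` -/
structure ShaC (S : Finset Nat.Primes) (L : IntermediateField ℚ Qb)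
    [hLn : L.fixingSubgroup.Normal] {F : Type*} [AddCommGroup F]
    [DistribMulAction (GQ ⧸ L.fixingSubgroup) F] (R : AddSubgroup F)
    (x : GQ → GQ → HM (prL L) F (QS S)) : Prop where
  z2 : x ∈ Z2 GQ (HM (prL L) F (QS S))
  lev : Lev2 S x
  van : ∀ g h (r : R), x g h r.1 = 0
  loc : ∀ q ∈ S, ∃ m : LG q → HM (piq q L) F (LM q),
    (∃ E : IntermediateField ℚ Qb, FiniteDimensional ℚ E ∧ ∀ d, ∀ s,
      localGaloisToGlobal (q : ℕ) s ∈ E.fixingSubgroup → m (d * s) = m d) ∧
    (∀ d (r : R), m d r.1 = 0) ∧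
    ∀ d d', pushq q (x (localGaloisToGlobal (q : ℕ) d) (localGaloisToGlobal (q : ℕ) d')) =
      dd m d d'

end sha

section main

variable {S : Finset Nat.Primes} {L : IntermediateField ℚ Qb} [hLn : L.fixingSubgroup.Normal]
  {I : Type*} [Fintype I] {p : ℕ} [hp : Fact p.Prime]
  {R : AddSubgroup (PM (GI (GQ ⧸ L.fixingSubgroup) I))} [hR : Stab (GQ ⧸ L.fixingSubgroup) R]

theorem exists_div_LM (q : Nat.Primes) (y : LM q) : ∃ z : LM q, p • z = y := by
  obtain ⟨z, hz⟩ := IsAlgClosed.exists_pow_nat_eq (y.toMul : PadicAlgCl q) hp.out.pos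
  have hz0 : z ≠ 0 := by
    rintro rfl
    rw [zero_pow hp.out.ne_zero] at hz
    exact y.toMul.ne_zero hz.symm
  exact ⟨Additive.ofMul (Units.mk0 z hz0), congrArg Additive.ofMul (Units.ext hz)⟩

/-- local triviality -/
theorem loc_triv (hL : L.IsUnramifiedOutside S) (hpR : ∀ f, p • f ∈ R) {q : Nat.Primes}
    (hq : q ∈ S) {b : GQ → HM (prL L) (PM (GI (GQ ⧸ L.fixingSubgroup) I)) (QS S)}
    (hlev : LevC S b) (β : R →+ Jm S)
    (hbβ : ∀ g (r : R), diag S (b g r.1) = g • β ((prL L g)⁻¹ • r) - β r) :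
    ∃ m : LG q → HM (piq q L) (PM (GI (GQ ⧸ L.fixingSubgroup) I)) (LM q),
    (∃ E : IntermediateField ℚ Qb, FiniteDimensional ℚ E ∧ ∀ d, ∀ s,
      localGaloisToGlobal (q : ℕ) s ∈ E.fixingSubgroup → m (d * s) = m d) ∧
    (∀ d (r : R), m d r.1 = 0) ∧
    ∀ d d', pushq q (dd b (localGaloisToGlobal (q : ℕ) d) (localGaloisToGlobal (q : ℕ) d')) =
      dd m d d' := by
  classical
  haveI := hL.1
  haveI : L.fixingSubgroup.FiniteIndex := finiteIndex_fixingSubgroup L
  haveI : Finite (GQ ⧸ L.fixingSubgroup) := Subgroup.finite_quotient_of_finiteIndex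
  haveI : Fintype (GQ ⧸ L.fixingSubgroup) := Fintype.ofFinite _
  let βq : R →+ LM q := (evJ q hq).comp β
  obtain ⟨κ, hκ⟩ := exists_ext_div hpR βq (fun x => exists_div_LM q _)
  let k : HM (piq q L) (PM (GI (GQ ⧸ L.fixingSubgroup) I)) (LM q) := κ
  have hkr : ∀ r : R, k r.1 = evJ q hq (β r) := hκ
  -- level of k
  have hlk : ∃ E : IntermediateField ℚ Qb, FiniteDimensional ℚ E ∧
      ∀ t : LG q, localGaloisToGlobal (q : ℕ) t ∈ E.fixingSubgroup → ∀ f, t • κ f = κ f := by
    have := fun x => exists_level_local q ((κ (dl x)).toMul : PadicAlgCl q)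
    choose E hE hfix using this
    haveI := hE
    refine ⟨⨆ x, E x, inferInstance, fun t ht f => ?_⟩
    exact pm_hom_ext' (φ := (DistribSMul.toAddMonoidHom (LM q) t).comp κ) (ψ := κ)
      (fun x => congrArg Additive.ofMul (Units.ext (hfix x t
        (IntermediateField.fixingSubgroup_antitone (le_iSup E x) ht)))) f
  obtain ⟨Ek, hEk, hkfix⟩ := hlk
  obtain ⟨Eb, hEb, hbE⟩ := hlev
  haveI := hEb.1
  refine ⟨fun d => pushq q (b (localGaloisToGlobal (q : ℕ) d)) - (d • k - k),
    ⟨Eb ⊔ Ek ⊔ L, inferInstance, fun d s hs => ?_⟩, fun d r => ?_, fun d d' => ?_⟩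
  · have hs1 : localGaloisToGlobal (q : ℕ) s ∈ Eb.fixingSubgroup :=
      IntermediateField.fixingSubgroup_antitone (le_sup_left.trans le_sup_left) hs
    have hs2 : localGaloisToGlobal (q : ℕ) s ∈ Ek.fixingSubgroup :=
      IntermediateField.fixingSubgroup_antitone (le_sup_right.trans le_sup_left) hs
    have hs3 : localGaloisToGlobal (q : ℕ) s ∈ L.fixingSubgroup :=
      IntermediateField.fixingSubgroup_antitone le_sup_right hs
    have h6 : s • k = k := by
      apply HM.ext
      intro f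
      show s • κ ((prL L (localGaloisToGlobal (q : ℕ) s))⁻¹ • f) = κ f
      rw [prL_one_of_mem hs3, inv_one, one_smul, hkfix s hs2]
    show pushq q (b (localGaloisToGlobal (q : ℕ) (d * s))) - ((d * s) • k - k) =
      pushq q (b (localGaloisToGlobal (q : ℕ) d)) - (d • k - k)
    rw [map_mul, hbE _ _ hs1, mul_smul, h6]
  · show peQ S q (b (localGaloisToGlobal (q : ℕ) d) r.1) - ((d • k) r.1 - k r.1) = 0
    have h1 : (d • k) r.1 =
        d • evJ q hq (β ((prL L (localGaloisToGlobal (q : ℕ) d))⁻¹ • r)) := by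
      rw [hm_smul_apply, ← hkr]; rfl
    rw [h1, hkr, ← evJ_diag q hq, hbβ, map_sub, evJ_smul, sub_self]
  · show pushq q (b (localGaloisToGlobal (q : ℕ) d) + localGaloisToGlobal (q : ℕ) d •
      b (localGaloisToGlobal (q : ℕ) d') -
      b (localGaloisToGlobal (q : ℕ) d * localGaloisToGlobal (q : ℕ) d')) =
      (pushq q (b (localGaloisToGlobal (q : ℕ) d)) - (d • k - k)) +
      d • (pushq q (b (localGaloisToGlobal (q : ℕ) d')) - (d' • k - k)) -
      (pushq q (b (localGaloisToGlobal (q : ℕ) (d * d'))) - ((d * d') • k - k))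
    rw [map_sub, map_add, pushq_smul, smul_sub, smul_sub, ← mul_smul, map_mul]
    abel

/-- (1') -/
theorem rel_exists (hpS : pP p ∈ S) (hL : L.IsUnramifiedOutside S) (hpR : ∀ f, p • f ∈ R)
    {φ : R →+ Cm S} (hφ : ∀ (g : GQ) r, φ (prL L g • r) = g • φ r) :
    ∃ x, ShaC S L R x ∧ Rel L R x φ := by
  classical
  haveI := hL.1
  haveI : L.fixingSubgroup.FiniteIndex := finiteIndex_fixingSubgroup L
  haveI : Finite (GQ ⧸ L.fixingSubgroup) := Subgroup.finite_quotient_of_finiteIndex
  haveI : Fintype (GQ ⧸ L.fixingSubgroup) := Fintype.ofFinite _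
  have hS : S.Nonempty := ⟨_, hpS⟩
  -- lift to ideles with divisor divisible by p
  let J' : AddSubgroup (Jm S) :=
    { carrier := {j | ∃ D : DivG S, j.1.2 = p • D}
      zero_mem' := ⟨0, by rw [smul_zero]; rfl⟩
      add_mem' := by
        rintro a b ⟨D, hD⟩ ⟨D', hD'⟩
        exact ⟨D + D', by rw [smul_add, ← hD, ← hD']; rfl⟩
      neg_mem' := by
        rintro a ⟨D, hD⟩
        exact ⟨-D, by rw [smul_neg, ← hD]; rfl⟩ }
  obtain ⟨β0, hβ0⟩ := exists_lift_sub R ((toC S).comp J'.subtype) φ (fun r => by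
    obtain ⟨j, hj⟩ := toC_surjective S (φ r)
    obtain ⟨x, D, hxD⟩ := cap (p := p) hpS j
    refine ⟨⟨j - diag S x, D, ?_⟩, ?_⟩
    · show j.1.2 - divQ x = p • D
      rw [hxD]; abel
    · show toC S (j - diag S x) = φ r
      rw [map_sub, toC_diag, sub_zero, hj])
  let β : R →+ Jm S := J'.subtype.comp β0
  have hβ : ∀ r, toC S (β r) = φ r := hβ0
  have hβD : ∀ r, ∃ D : DivG S, (β r).1.2 = p • D := fun r => (β0 r).2
  choose δ hδ using hβD
  let δh : R →+ DivG S := AddMonoidHom.mk' δ (fun r r' => by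
    apply divG_tf hp.out.ne_zero
    rw [smul_add, ← hδ, ← hδ, ← hδ, map_add]; rfl)
  have hδh : ∀ r, (β r).1.2 = p • δh r := hδ
  let βD : PM (GI (GQ ⧸ L.fixingSubgroup) I) →+ DivG S :=
    AddMonoidHom.mk' (fun f => δh ⟨p • f, hpR f⟩) (fun f f' => by
      rw [← map_add]; congr 1; exact Subtype.ext (smul_add _ _ _))
  have hβD : ∀ r : R, (β r).1.2 = βD r.1 := by
    intro r
    rw [hδh, ← map_nsmul]
    rfl
  -- the cocycle of S-elements
  have ha : ∀ (g : GQ) (r : R), ∃ k : QS S, diag S k = g • β ((prL L g)⁻¹ • r) - β r := by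
    intro g r
    rw [← toC_eq_zero, map_sub, toC_smul, hβ, hβ, ← hφ, smul_inv_smul, sub_self]
  choose a0 ha0 using ha
  let a : GQ → R →+ QS S := fun g => AddMonoidHom.mk' (a0 g) (fun r r' => by
    apply diag_injective hS
    rw [map_add, ha0, ha0, ha0, smul_add, map_add, map_add, smul_add]; abel)
  have ha : ∀ g r, diag S (a g r) = g • β ((prL L g)⁻¹ • r) - β r := ha0
  -- divisibility
  have hdiv : ∀ g r, ∃ y : QS S, (mulN (QS S) p) y = a g r := by
    intro g r
    obtain ⟨y, hy, -⟩ := exists_root_of_div hpS (a g r) (g • δh ((prL L g)⁻¹ • r) - δh r) (by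
      have h1 : divQ (a g r) = (diag S (a g r)).1.2 := rfl
      rw [h1, ha, smul_sub, smul_comm p g, ← hδh, ← hδh]
      rfl)
    exact ⟨y, hy⟩
  have hb0 : ∀ g, ∃ b : PM (GI (GQ ⧸ L.fixingSubgroup) I) →+ QS S, ∀ r : R, b r.1 = a g r := by
    intro g
    obtain ⟨a', ha'⟩ := exists_lift_sub R (mulN (QS S) p) (a g) (hdiv g)
    refine ⟨AddMonoidHom.mk' (fun f => a' ⟨p • f, hpR f⟩) (fun f f' => by
      rw [← map_add]; congr 1; exact Subtype.ext (smul_add _ _ _)), fun r => ?_⟩
    rw [← ha']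
    show _ = p • a' r
    rw [← map_nsmul]
    rfl
  let P : (R →+ QS S) → Prop := fun α =>
    ∃ b : PM (GI (GQ ⧸ L.fixingSubgroup) I) →+ QS S, ∀ r : R, b r.1 = α r
  let Bf : (R →+ QS S) → (PM (GI (GQ ⧸ L.fixingSubgroup) I) →+ QS S) := fun α =>
    if h : P α then h.choose else 0
  let b : GQ → HM (prL L) (PM (GI (GQ ⧸ L.fixingSubgroup) I)) (QS S) := fun g => Bf (a g)
  have hbr : ∀ g (r : R), b g r.1 = a g r := by
    intro g
    show ∀ r : R, (Bf (a g)) r.1 = a g r
    have h1 : Bf (a g) = (hb0 g).choose := dif_pos (hb0 g)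
    rw [h1]
    exact (hb0 g).choose_spec
  -- the level
  have hlevβ : ∃ E : IntermediateField ℚ Qb, E.IsUnramifiedOutside S ∧
      ∀ s ∈ E.fixingSubgroup, ∀ r, s • β r = β r := by
    haveI := finite_sub R
    exact exists_level_fg β
  obtain ⟨Eβ, hEβ, hβfix⟩ := hlevβ
  have hlev : LevC S b := by
    refine ⟨Eβ ⊔ L, hEβ.sup hL, fun g s hs => ?_⟩
    have hs1 : s ∈ Eβ.fixingSubgroup := IntermediateField.fixingSubgroup_antitone le_sup_left hs
    have hs2 : s ∈ L.fixingSubgroup := IntermediateField.fixingSubgroup_antitone le_sup_right hs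
    show Bf (a (g * s)) = Bf (a g)
    congr 1
    apply DFunLike.ext
    intro r
    apply diag_injective hS
    rw [ha, ha, map_mul, prL_one_of_mem hs2, mul_one, mul_smul, hβfix s hs1]
  refine ⟨dd b, ⟨B2_le_Z2 (dd_mem_B2 b), lev2_dd hL hlev, fun g h r => ?_, fun q hq => ?_⟩,
    b, β, βD, hlev, fun g h => rfl, hβ, fun g r => ?_, hβD⟩
  · show b g r.1 + (g • b h) r.1 - b (g * h) r.1 = 0
    have h1 : (g • b h) r.1 = g • a h ((prL L g)⁻¹ • r) := by
      rw [hm_smul_apply, ← hbr]; rfl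
    rw [h1, hbr, hbr]
    apply diag_injective hS
    rw [map_sub, map_add, diag_smul, ha, ha, ha, map_zero, smul_sub, ← mul_smul, ← mul_smul,
      map_mul, mul_inv_rev]
    abel
  · exact loc_triv hL hpR hq hlev β (fun g r => by rw [hbr, ha])
  · rw [hbr, ha]

end main

end

end Fermat.Agent.CFT
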