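import Fermat.Agent.CFT.Rel3

set_option autoImplicit false
set_option maxHeartbeats 400000

/-! From locally trivial classes to homomorphisms. -/

namespace Fermat.Agent.CFT

open Finset Fermat.Agent.CFTSec

noncomputable section

/-- local Hilbert 90 -/
theorem h90_loc (q : Nat.Primes) (D : Subgroup (LG q)) (a : D → LM q)
    (hcoc : ∀ g h, a (g * h) = a g + (g : LG q) • a h)
    {E : IntermediateField ℚ Qb} [FiniteDimensional ℚ E]
    (hDE : E.fixingSubgroup.comap (localGaloisToGlobal (q : ℕ)) ≤ D)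
    (haE : ∀ g : D, localGaloisToGlobal (q : ℕ) (g : LG q) ∈ E.fixingSubgroup → a g = 0) :
    ∃ b : LM q, ∀ g : D, a g = (g : LG q) • b - b := by
  haveI := finiteIndex_fixingSubgroup E
  let M' : Subgroup (LG q) := E.fixingSubgroup.comap (localGaloisToGlobal (q : ℕ))
  have hM'o : IsOpen (M' : Set (LG q)) := isOpen_comap_lg q E
  have hM'c : IsClosed (M' : Set (LG q)) := Subgroup.isClosed_of_isOpen _ hM'o
  haveI : M'.FiniteIndex := ⟨by
    show (E.fixingSubgroup.comap (localGaloisToGlobal (q : ℕ))).index ≠ 0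
    rw [Subgroup.index_comap]
    exact (Subgroup.instFiniteIndex_subgroupOf E.fixingSubgroup _).index_ne_zero⟩
  let M : Subgroup D := M'.subgroupOf D
  haveI : M.FiniteIndex := inferInstance
  obtain ⟨β, -, hβ2⟩ := hilbert90 (Ω := PadicAlgCl (q : ℕ)) M (by
    intro g hg
    show (g : LG q) ∈ M'
    have h1 : ((⟨M', hM'c⟩ : ClosedSubgroup (LG q)) : Subgroup (LG q)) = M' := rfl
    rw [← h1, ← InfiniteGalois.fixingSubgroup_fixedField ⟨M', hM'c⟩,
      IntermediateField.mem_fixingSubgroup_iff]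
    intro x hx
    refine hg x (fun n hn => ?_)
    exact (IntermediateField.mem_fixedField_iff _ _).mp hx (n : LG q) hn)
    (fun g => (a g).toMul) (by
      intro g h
      have := congrArg (fun z : LM q => (z.toMul : PadicAlgCl (q : ℕ))) (hcoc g h)
      exact this) (by
      intro n hn
      have := congrArg (fun z : LM q => z.toMul) (haE n hn)
      exact this)
  refine ⟨Additive.ofMul β, fun g => ?_⟩
  rw [eq_sub_iff_add_eq]
  exact congrArg Additive.ofMul (Units.ext (hβ2 g))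

section desc

variable {L : IntermediateField ℚ Qb} [hLn : L.fixingSubgroup.Normal]
  {F : Type*} [AddCommGroup F] [DistribMulAction (GQ ⧸ L.fixingSubgroup) F]
  {A : Type*} [AddCommGroup A] [DistribMulAction GQ A]

/-- forgetting the values are fixed -/
def incH (h : HM (MonoidHom.id (GQ ⧸ L.fixingSubgroup)) F ↥(fix A L.fixingSubgroup)) :
    HM (prL L) F A := (fix A L.fixingSubgroup).subtype.comp (HM.toHom _ h)

theorem incH_apply (h : HM (MonoidHom.id (GQ ⧸ L.fixingSubgroup)) F ↥(fix A L.fixingSubgroup))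
    (f : F) : incH h f = (h f : A) := rfl

theorem incH_smul (g : GQ)
    (h : HM (MonoidHom.id (GQ ⧸ L.fixingSubgroup)) F ↥(fix A L.fixingSubgroup)) :
    incH ((g : GQ ⧸ L.fixingSubgroup) • h) = g • incH h := rfl

theorem incH_add (h h' : HM (MonoidHom.id (GQ ⧸ L.fixingSubgroup)) F ↥(fix A L.fixingSubgroup)) :
    incH (h + h') = incH h + incH h' := rfl

theorem incH_sub (h h' : HM (MonoidHom.id (GQ ⧸ L.fixingSubgroup)) F ↥(fix A L.fixingSubgroup)) :
    incH (h - h') = incH h - incH h' := rfl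

theorem incH_inj {h h' : HM (MonoidHom.id (GQ ⧸ L.fixingSubgroup)) F ↥(fix A L.fixingSubgroup)}
    (H : incH h = incH h') : h = h' := by
  apply HM.ext
  intro f
  exact Subtype.ext (DFunLike.congr_fun H f)

/-- the corestriction -/
def corH (h : HM (prL L) F A) (hh : ∀ f, h f ∈ fix A L.fixingSubgroup) :
    HM (MonoidHom.id (GQ ⧸ L.fixingSubgroup)) F ↥(fix A L.fixingSubgroup) :=
  AddMonoidHom.codRestrict (HM.toHom _ h) (fix A L.fixingSubgroup) hh

theorem incH_corH (h : HM (prL L) F A) (hh : ∀ f, h f ∈ fix A L.fixingSubgroup) :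
    incH (corH h hh) = h := rfl

theorem mk_out_mem (N : Subgroup GQ) (g : GQ) :
    g⁻¹ * (QuotientGroup.mk g : GQ ⧸ N).out ∈ N := by
  have h : (QuotientGroup.mk (QuotientGroup.mk g : GQ ⧸ N).out : GQ ⧸ N) = QuotientGroup.mk g :=
    QuotientGroup.out_eq' _
  exact QuotientGroup.eq.mp h.symm

theorem exists_split2 [Fintype (GQ ⧸ L.fixingSubgroup)] (e : F →+ F)
    (he : ∀ f, ∑ x : GQ ⧸ L.fixingSubgroup, x • e (x⁻¹ • f) = f)
    {y : GQ → GQ → HM (prL L) F A} (hy : y ∈ Z2 GQ (HM (prL L) F A))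
    (hlev : ∀ g h, ∀ s ∈ L.fixingSubgroup, ∀ s' ∈ L.fixingSubgroup, y (g * s) (h * s') = y g h)
    (hfix : ∀ g h f, y g h f ∈ fix A L.fixingSubgroup) :
    ∃ b : GQ → HM (prL L) F A, (∀ g, ∀ s ∈ L.fixingSubgroup, b (g * s) = b g) ∧
      (∀ g f, b g f ∈ fix A L.fixingSubgroup) ∧ ∀ g h, y g h = dd b g h := by
  let yb : (GQ ⧸ L.fixingSubgroup) → (GQ ⧸ L.fixingSubgroup) →
      HM (MonoidHom.id (GQ ⧸ L.fixingSubgroup)) F ↥(fix A L.fixingSubgroup) :=
    fun u v => corH (y u.out v.out) (hfix _ _)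
  have hyb : ∀ u v : GQ, incH (yb (QuotientGroup.mk u) (QuotientGroup.mk v)) = y u v := by
    intro u v
    show y _ _ = y u v
    have h1 := hlev u v _ (mk_out_mem L.fixingSubgroup u) _ (mk_out_mem L.fixingSubgroup v)
    rw [mul_inv_cancel_left, mul_inv_cancel_left] at h1
    exact h1
  have hz : yb ∈ Z2 (GQ ⧸ L.fixingSubgroup)
      (HM (MonoidHom.id (GQ ⧸ L.fixingSubgroup)) F ↥(fix A L.fixingSubgroup)) := by
    intro u v w
    obtain ⟨u, rfl⟩ := QuotientGroup.mk_surjective u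
    obtain ⟨v, rfl⟩ := QuotientGroup.mk_surjective v
    obtain ⟨w, rfl⟩ := QuotientGroup.mk_surjective w
    apply incH_inj
    rw [incH_add, incH_add, incH_smul]
    have h1 := hy u v w
    rw [← hyb, ← hyb, ← hyb, ← hyb] at h1
    exact h1
  obtain ⟨bb, hbb⟩ := hm_z2 e he hz
  refine ⟨fun g => incH (bb (QuotientGroup.mk g)), fun g s hs => ?_, fun g f => ?_,
    fun g h => ?_⟩
  · show incH (bb (QuotientGroup.mk (g * s))) = incH (bb (QuotientGroup.mk g))
    rw [QuotientGroup.mk_mul_of_mem g hs]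
  · exact (bb (QuotientGroup.mk g) f).2
  · rw [← hyb, hbb]
    rfl

theorem exists_split1 [Fintype (GQ ⧸ L.fixingSubgroup)] (e : F →+ F)
    (he : ∀ f, ∑ x : GQ ⧸ L.fixingSubgroup, x • e (x⁻¹ • f) = f)
    {c : GQ → HM (prL L) F A} (hc : c ∈ Z1 GQ (HM (prL L) F A))
    (hlev : ∀ g, ∀ s ∈ L.fixingSubgroup, c (g * s) = c g)
    (hfix : ∀ g f, c g f ∈ fix A L.fixingSubgroup) :
    ∃ k : HM (prL L) F A, (∀ f, k f ∈ fix A L.fixingSubgroup) ∧ ∀ g, c g = g • k - k := by
  let cb : (GQ ⧸ L.fixingSubgroup) →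
      HM (MonoidHom.id (GQ ⧸ L.fixingSubgroup)) F ↥(fix A L.fixingSubgroup) :=
    fun u => corH (c u.out) (hfix _)
  have hcb : ∀ u : GQ, incH (cb (QuotientGroup.mk u)) = c u := by
    intro u
    show c _ = c u
    have h1 := hlev u _ (mk_out_mem L.fixingSubgroup u)
    rw [mul_inv_cancel_left] at h1
    exact h1
  have hz : cb ∈ Z1 (GQ ⧸ L.fixingSubgroup)
      (HM (MonoidHom.id (GQ ⧸ L.fixingSubgroup)) F ↥(fix A L.fixingSubgroup)) := by
    intro u v
    obtain ⟨u, rfl⟩ := QuotientGroup.mk_surjective u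
    obtain ⟨v, rfl⟩ := QuotientGroup.mk_surjective v
    apply incH_inj
    rw [incH_add, incH_smul]
    have h1 := hc u v
    rw [← hcb, ← hcb, ← hcb] at h1
    exact h1
  obtain ⟨k, hk⟩ := hm_z1 e he hz
  refine ⟨incH k, fun f => (k f).2, fun g => ?_⟩
  rw [← hcb, hk]
  rfl

end desc

section loc

variable {L : IntermediateField ℚ Qb} [hLn : L.fixingSubgroup.Normal] {I : Type*} [Fintype I]

theorem h1_loc (hL : FiniteDimensional ℚ L) (q : Nat.Primes)
    {c : LG q → HM (piq q L) (PM (GI (GQ ⧸ L.fixingSubgroup) I)) (LM q)}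
    (hc : c ∈ Z1 (LG q) (HM (piq q L) (PM (GI (GQ ⧸ L.fixingSubgroup) I)) (LM q)))
    (hlev : ∃ E : IntermediateField ℚ Qb, FiniteDimensional ℚ E ∧ ∀ d, ∀ s,
      localGaloisToGlobal (q : ℕ) s ∈ E.fixingSubgroup → c (d * s) = c d) :
    c ∈ B1 (LG q) (HM (piq q L) (PM (GI (GQ ⧸ L.fixingSubgroup) I)) (LM q)) := by
  haveI : L.fixingSubgroup.FiniteIndex := finiteIndex_fixingSubgroup L
  haveI : Finite (GQ ⧸ L.fixingSubgroup) := Subgroup.finite_quotient_of_finiteIndex
  haveI : Fintype (GQ ⧸ L.fixingSubgroup) := Fintype.ofFinite _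
  refine hm_h1 (piq q L) hc (fun x => ?_)
  obtain ⟨E, hE, hcE⟩ := hlev
  obtain ⟨b, hb⟩ := h90_loc q (dN q L.fixingSubgroup) (fun g => c g.1 (dl x)) (fun g h => by
    show c (g.1 * h.1) (dl x) = c g.1 (dl x) + g.1 • c h.1 (dl x)
    have h1 : piq q L g.1 = 1 := prL_one_of_mem g.2
    rw [hc g.1 h.1, hm_add_apply, hm_smul_apply, h1, inv_one, one_smul]) (E := E ⊔ L)
    (fun g hg => IntermediateField.fixingSubgroup_antitone le_sup_right hg)
    (fun g hg => by
      have h1 : c (1 * g.1) = c 1 :=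
        hcE 1 g.1 (IntermediateField.fixingSubgroup_antitone le_sup_left hg)
      rw [one_mul] at h1
      show c g.1 (dl x) = 0
      rw [h1, Z1.one hc]; rfl)
  exact ⟨b, fun u hu => hb ⟨u, gi_stab hu⟩⟩

variable {S : Finset Nat.Primes}
  {R : AddSubgroup (PM (GI (GQ ⧸ L.fixingSubgroup) I))} [hR : Stab (GQ ⧸ L.fixingSubgroup) R]

/-- the local component -/
theorem exists_comp (hL : L.IsUnramifiedOutside S) {q : Nat.Primes}
    {b : GQ → HM (prL L) (PM (GI (GQ ⧸ L.fixingSubgroup) I)) (QS S)}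
    (hblev : ∀ g, ∀ s ∈ L.fixingSubgroup, b (g * s) = b g)
    (hbR : ∀ g h (r : R), dd b g h r.1 = 0)
    {m : LG q → HM (piq q L) (PM (GI (GQ ⧸ L.fixingSubgroup) I)) (LM q)}
    (hmlev : ∃ E : IntermediateField ℚ Qb, FiniteDimensional ℚ E ∧ ∀ d, ∀ s,
      localGaloisToGlobal (q : ℕ) s ∈ E.fixingSubgroup → m (d * s) = m d)
    (hmR : ∀ d (r : R), m d r.1 = 0)
    (hm : ∀ d d', pushq q (dd b (localGaloisToGlobal (q : ℕ) d)
      (localGaloisToGlobal (q : ℕ) d')) = dd m d d') :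
    ∃ β : R →+ JQ q, (∀ r, β r ∈ fix (JQ q) L.fixingSubgroup) ∧
      ∀ (g : GQ) (r : R), g • β ((prL L g)⁻¹ • r) - β r = embQ q (b g r.1).1 := by
  have hn : (fun d => pushq q (b (localGaloisToGlobal (q : ℕ) d)) - m d) ∈
      Z1 (LG q) (HM (piq q L) (PM (GI (GQ ⧸ L.fixingSubgroup) I)) (LM q)) := by
    intro d d'
    have h1 := hm d d'
    have h2 : pushq q (dd b (localGaloisToGlobal (q : ℕ) d) (localGaloisToGlobal (q : ℕ) d')) =
      pushq q (b (localGaloisToGlobal (q : ℕ) d)) +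
        d • pushq q (b (localGaloisToGlobal (q : ℕ) d')) -
        pushq q (b (localGaloisToGlobal (q : ℕ) (d * d'))) := by
      rw [map_mul, ← pushq_smul, ← map_add, ← map_sub]; rfl
    rw [h2] at h1
    have h3 : pushq q (b (localGaloisToGlobal (q : ℕ) d)) +
        d • pushq q (b (localGaloisToGlobal (q : ℕ) d')) -
        pushq q (b (localGaloisToGlobal (q : ℕ) (d * d'))) = m d + d • m d' - m (d * d') := h1
    show pushq q (b (localGaloisToGlobal (q : ℕ) (d * d'))) - m (d * d') =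
      (pushq q (b (localGaloisToGlobal (q : ℕ) d)) - m d) +
      d • (pushq q (b (localGaloisToGlobal (q : ℕ) d')) - m d')
    rw [ab_aux1 h3, smul_sub]; abel
  obtain ⟨E, hE, hmE⟩ := hmlev
  haveI := hL.1
  obtain ⟨k, hk⟩ := h1_loc hL.1 q hn ⟨E ⊔ L, inferInstance, fun d s hs => by
    show pushq q (b (localGaloisToGlobal (q : ℕ) (d * s))) - m (d * s) =
      pushq q (b (localGaloisToGlobal (q : ℕ) d)) - m d
    rw [map_mul, hblev _ _ (IntermediateField.fixingSubgroup_antitone le_sup_right hs),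
      hmE _ _ (IntermediateField.fixingSubgroup_antitone le_sup_left hs)]⟩
  have hkR : ∀ (d : LG q) (r : R), peQ S q (b (localGaloisToGlobal (q : ℕ) d) r.1) =
      d • k ((piq q L d)⁻¹ • r.1) - k r.1 := by
    intro d r
    have h1 := DFunLike.congr_fun (hk d) r.1
    have h2 : peQ S q (b (localGaloisToGlobal (q : ℕ) d) r.1) - m d r.1 =
      d • k ((piq q L d)⁻¹ • r.1) - k r.1 := h1
    rwa [hmR, sub_zero] at h2
  have hcoc : ∀ (g h : GQ) (r : R), b (g * h) r.1 = b g r.1 + g • b h ((prL L g)⁻¹ • r.1) := by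
    intro g h r
    have h1 : b g r.1 + g • b h ((prL L g)⁻¹ • r.1) - b (g * h) r.1 = 0 := hbR g h r
    exact (sub_eq_zero.mp h1).symm
  let B : R → GQ → LM q := fun r σ => k (prL L σ • r.1) + peQ S q (b σ (prL L σ • r.1))
  have hB : ∀ r σ, B r σ = k (prL L σ • r.1) + peQ S q (b σ (prL L σ • r.1)) := fun _ _ => rfl
  have hBt : ∀ r (t : LG q) σ, B r (localGaloisToGlobal (q : ℕ) t * σ) = t • B r σ := by
    intro r t σ
    have h0 : (prL L (localGaloisToGlobal (q : ℕ) t * σ)) • r.1 =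
      (prL L (localGaloisToGlobal (q : ℕ) t * σ) • r : R).1 := rfl
    have h1 : (prL L (localGaloisToGlobal (q : ℕ) t))⁻¹ •
        (prL L (localGaloisToGlobal (q : ℕ) t * σ) • r : R).1 = prL L σ • r.1 := by
      show (prL L (localGaloisToGlobal (q : ℕ) t))⁻¹ •
        (prL L (localGaloisToGlobal (q : ℕ) t * σ)) • r.1 = _
      rw [map_mul, mul_smul, inv_smul_smul]
    have h1' : (piq q L t)⁻¹ •
        (prL L (localGaloisToGlobal (q : ℕ) t * σ) • r : R).1 = prL L σ • r.1 := h1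
    rw [hB, hB, h0, hcoc, map_add, h1, peQ_smul, hkR, h1', smul_add]
    abel
  let β : R →+ JQ q :=
    { toFun := fun r => ⟨B r, fun t σ => hBt r t σ⟩
      map_zero' := by
        apply Subtype.ext
        funext σ
        show k (prL L σ • 0) + peQ S q (b σ (prL L σ • 0)) = 0
        rw [smul_zero, map_zero, map_zero, map_zero, add_zero]
      map_add' := fun r r' => by
        apply Subtype.ext
        funext σ
        show k (prL L σ • (r.1 + r'.1)) + peQ S q (b σ (prL L σ • (r.1 + r'.1))) =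
          (k (prL L σ • r.1) + peQ S q (b σ (prL L σ • r.1))) +
          (k (prL L σ • r'.1) + peQ S q (b σ (prL L σ • r'.1)))
        rw [smul_add, map_add, map_add, map_add]; abel }
  have hβ : ∀ r σ, (β r).1 σ = B r σ := fun _ _ => rfl
  refine ⟨β, fun r s hs => ?_, fun g r => ?_⟩
  · apply Subtype.ext
    funext σ
    show B r (σ * s) = B r σ
    rw [hB, hB, map_mul, prL_one_of_mem hs, mul_one, hblev σ s hs]
  · apply Subtype.ext
    funext σ
    show B ((prL L g)⁻¹ • r) (σ * g) - B r σ = (embQ q (b g r.1).1).1 σ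
    have h1 : prL L (σ * g) • ((prL L g)⁻¹ • r : R).1 = (prL L σ • r : R).1 := by
      show prL L (σ * g) • (prL L g)⁻¹ • r.1 = prL L σ • r.1
      rw [map_mul, mul_smul, smul_inv_smul]
    have h2 : prL L σ • r.1 = (prL L σ • r : R).1 := rfl
    have h3 : (prL L σ)⁻¹ • (prL L σ • r : R).1 = r.1 := inv_smul_smul _ _
    rw [hB, hB, h1, h2, hcoc, h3, map_add]
    have h4 : (embQ q (b g r.1).1).1 σ = peQ S q (σ • b g r.1) := by
      show _ = (embQ q (σ • (b g r.1).1)).1 1
      rw [embQ_smul]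
      show _ = (embQ q (b g r.1).1).1 (1 * σ)
      rw [one_mul]
    rw [h4]; abel

end loc

section main

variable {S : Finset Nat.Primes} {L : IntermediateField ℚ Qb} [hLn : L.fixingSubgroup.Normal]
  {I : Type*} [Fintype I] {p : ℕ} [hp : Fact p.Prime]
  {R : AddSubgroup (PM (GI (GQ ⧸ L.fixingSubgroup) I))} [hR : Stab (GQ ⧸ L.fixingSubgroup) R]

theorem ptors_fix {ζ : Qb} (hζ : IsPrimitiveRoot ζ p) (hζL : ζ ∈ L) {x : QS S} (hx : p • x = 0) :
    x ∈ fix (QS S) L.fixingSubgroup := by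
  intro s hs
  apply Subtype.ext
  refine (mem_fix_of_mem (F := L) x.1).mpr ?_ s hs
  have h1 : ((x.1.toMul : Qb)) ^ p = 1 := by
    have := congrArg (fun z : QS S => (z.1.toMul : Qb)) hx
    exact this
  obtain ⟨i, -, hi⟩ := hζ.eq_pow_of_pow_eq_one h1
  rw [← hi]
  exact pow_mem hζL i

/-- (2') -/
theorem exists_rel (hpS : pP p ∈ S) (hL : L.IsUnramifiedOutside S) {ζ : Qb}
    (hζ : IsPrimitiveRoot ζ p) (hζL : ζ ∈ L) (hpR : ∀ f, p • f ∈ R)
    {x : GQ → GQ → HM (prL L) (PM (GI (GQ ⧸ L.fixingSubgroup) I)) (QS S)} (hx : ShaC S L R x)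
    (hlev : ∀ g h, ∀ s ∈ L.fixingSubgroup, ∀ s' ∈ L.fixingSubgroup, x (g * s) (h * s') = x g h) :
    ∃ φ : R →+ Cm S, (∀ (g : GQ) r, φ (prL L g • r) = g • φ r) ∧ Rel L R x φ := by
  classical
  haveI := hL.1
  haveI : L.fixingSubgroup.FiniteIndex := finiteIndex_fixingSubgroup L
  haveI : Finite (GQ ⧸ L.fixingSubgroup) := Subgroup.finite_quotient_of_finiteIndex
  haveI : Fintype (GQ ⧸ L.fixingSubgroup) := Fintype.ofFinite _
  obtain ⟨e, he⟩ := exists_pr_gi (I := I) (MonoidHom.id (GQ ⧸ L.fixingSubgroup))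
    Function.injective_id
  have hxp : ∀ g h f, p • x g h f = 0 := by
    intro g h f
    rw [← map_nsmul]
    exact hx.van g h ⟨p • f, hpR f⟩
  obtain ⟨b, hb1, hb2, hb3⟩ := exists_split2 e he hx.z2 hlev
    (fun g h f => ptors_fix hζ hζL (hxp g h f))
  have hbR : ∀ g h (r : R), dd b g h r.1 = 0 := by
    intro g h r
    rw [← hb3]; exact hx.van g h r
  -- divisors
  let c : GQ → HM (prL L) (PM (GI (GQ ⧸ L.fixingSubgroup) I)) (DivG S) :=
    fun g => (divH S).comp (HM.toHom _ (b g))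
  have hcv : ∀ g f, c g f = divQ (b g f) := fun _ _ => rfl
  have hdv0 : ∀ y : QS S, p • y = 0 → divQ y = 0 := by
    intro y hy
    apply divG_tf hp.out.ne_zero
    have h1 : (divH S) (p • y) = p • (divH S) y := map_nsmul _ _ _
    rw [hy, map_zero] at h1
    rw [smul_zero]
    exact h1.symm
  have hcZ : c ∈ Z1 GQ (HM (prL L) (PM (GI (GQ ⧸ L.fixingSubgroup) I)) (DivG S)) := by
    intro g h
    apply HM.ext
    intro f
    have h1 := hdv0 _ (hxp g h f)
    rw [hb3] at h1
    have h2 : (divH S) (b g f + g • b h ((prL L g)⁻¹ • f) - b (g * h) f) = 0 := h1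
    rw [map_sub, map_add, sub_eq_zero] at h2
    have h3 : (divH S) (g • b h ((prL L g)⁻¹ • f)) = g • (divH S) (b h ((prL L g)⁻¹ • f)) :=
      divQ_smul g _
    rw [h3] at h2
    exact h2.symm
  obtain ⟨k, hk1, hk2⟩ := exists_split1 e he hcZ (fun g s hs => by
    show (divH S).comp (HM.toHom _ (b (g * s))) = (divH S).comp (HM.toHom _ (b g))
    rw [hb1 g s hs]) (fun g f s hs => by
    rw [hcv, ← divQ_smul, hb2 g f s hs])
  have hkb : ∀ g f, divQ (b g f) = g • k ((prL L g)⁻¹ • f) - k f := by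
    intro g f
    exact DFunLike.congr_fun (hk2 g) f
  -- local components
  have hloc : ∀ q : S, ∃ β : R →+ JQ q.1, (∀ r, β r ∈ fix (JQ q.1) L.fixingSubgroup) ∧
      ∀ (g : GQ) (r : R), g • β ((prL L g)⁻¹ • r) - β r = embQ q.1 (b g r.1).1 := by
    intro q
    obtain ⟨m, hm1, hm2, hm3⟩ := hx.loc q.1 q.2
    exact exists_comp hL hb1 hbR hm1 hm2 (fun d d' => by rw [← hb3, hm3])
  choose βq hβq1 hβq2 using hloc
  let β : R →+ Jm S :=
    { toFun := fun r => ⟨((fun q => βq q r), k r.1), L, hL, fun s hs => Prod.ext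
        (funext fun q => hβq1 q r s hs) (hk1 r.1 s hs)⟩
      map_zero' := by
        apply Subtype.ext
        refine Prod.ext (funext fun q => map_zero (βq q)) ?_
        show k 0 = 0
        exact map_zero k
      map_add' := fun r r' => by
        apply Subtype.ext
        exact Prod.ext (funext fun q => map_add (βq q) r r') (map_add k r.1 r'.1) }
  have hβ : ∀ (g : GQ) (r : R), g • β ((prL L g)⁻¹ • r) - β r = diag S (b g r.1) := by
    intro g r
    apply Subtype.ext
    refine Prod.ext (funext fun q => hβq2 q g r) ?_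
    show g • k ((prL L g)⁻¹ • r.1) - k r.1 = divQ (b g r.1)
    rw [hkb]
  refine ⟨(toC S).comp β, fun g r => ?_, b, β, HM.toHom _ k, ⟨L, hL, hb1⟩, hb3, fun r => rfl, hβ,
    fun r => rfl⟩
  have h1 := congrArg (toC S) (hβ g (prL L g • r))
  rw [inv_smul_smul, map_sub, toC_diag, sub_eq_zero, toC_smul] at h1
  exact h1.symm

end main

end

end Fermat.Agent.CFT
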