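import Fermat.Agent.CFT.Rel4
import Fermat.Agent.CFT.FDual3

set_option autoImplicit false
set_option maxHeartbeats 400000

/-! Tate-Shafarevich groups in degree one and two: function form. -/

namespace Fermat.Agent.CFT

open Finset Fermat.Agent.CFTSec

noncomputable section

section defs

variable {S : Finset Nat.Primes}

theorem LevC.zero {Y : Type*} [Zero Y] : LevC S (0 : GQ → Y) :=
  ⟨⊥, IntermediateField.isUnramifiedOutside_bot S, fun _ _ _ => rfl⟩

theorem LevC.add {Y : Type*} [Add Y] {b b' : GQ → Y} (h : LevC S b) (h' : LevC S b') :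
    LevC S (b + b') := by
  obtain ⟨E, hE, hb⟩ := h
  obtain ⟨E', hE', hb'⟩ := h'
  refine ⟨E ⊔ E', hE.sup hE', fun g s hs => ?_⟩
  show b (g * s) + b' (g * s) = b g + b' g
  rw [LevC.mono hb le_sup_left g s hs, LevC.mono hb' le_sup_right g s hs]

theorem LevC.comp {Y Y' : Type*} {b : GQ → Y} (h : LevC S b) (f : Y → Y') :
    LevC S (fun g => f (b g)) := by
  obtain ⟨E, hE, hb⟩ := h
  exact ⟨E, hE, fun g s hs => congrArg f (hb g s hs)⟩

theorem Lev2.zero {Y : Type*} [Zero Y] : Lev2 S (0 : GQ → GQ → Y) :=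
  ⟨⊥, IntermediateField.isUnramifiedOutside_bot S, fun _ _ _ _ _ _ => rfl⟩

theorem Lev2.add {Y : Type*} [Add Y] {b b' : GQ → GQ → Y} (h : Lev2 S b) (h' : Lev2 S b') :
    Lev2 S (b + b') := by
  obtain ⟨E, hE, hb⟩ := h
  obtain ⟨E', hE', hb'⟩ := h'
  refine ⟨E ⊔ E', hE.sup hE', fun g h s hs s' hs' => ?_⟩
  show b (g * s) (h * s') + b' (g * s) (h * s') = b g h + b' g h
  rw [hb g h s (IntermediateField.fixingSubgroup_antitone le_sup_left hs) s'
    (IntermediateField.fixingSubgroup_antitone le_sup_left hs'),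
    hb' g h s (IntermediateField.fixingSubgroup_antitone le_sup_right hs) s'
    (IntermediateField.fixingSubgroup_antitone le_sup_right hs')]

theorem Lev2.comp {Y Y' : Type*} {b : GQ → GQ → Y} (h : Lev2 S b) (f : Y → Y') :
    Lev2 S (fun g g' => f (b g g')) := by
  obtain ⟨E, hE, hb⟩ := h
  exact ⟨E, hE, fun g g' s hs s' hs' => congrArg f (hb g g' s hs s' hs')⟩

/-- local level -/
def LocLev (q : Nat.Primes) {Y : Type*} (n : LG q → Y) : Prop :=
  ∃ E : IntermediateField ℚ Qb, FiniteDimensional ℚ E ∧ ∀ d, ∀ s,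
    localGaloisToGlobal (q : ℕ) s ∈ E.fixingSubgroup → n (d * s) = n d

theorem LocLev.zero {q : Nat.Primes} {Y : Type*} [Zero Y] : LocLev q (0 : LG q → Y) :=
  ⟨⊥, inferInstance, fun _ _ _ => rfl⟩

theorem LocLev.add {q : Nat.Primes} {Y : Type*} [Add Y] {b b' : LG q → Y} (h : LocLev q b)
    (h' : LocLev q b') : LocLev q (b + b') := by
  obtain ⟨E, hE, hb⟩ := h
  obtain ⟨E', hE', hb'⟩ := h'
  refine ⟨E ⊔ E', inferInstance, fun g s hs => ?_⟩
  show b (g * s) + b' (g * s) = b g + b' g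
  rw [hb g s (IntermediateField.fixingSubgroup_antitone le_sup_left hs),
    hb' g s (IntermediateField.fixingSubgroup_antitone le_sup_right hs)]

theorem LocLev.comp {q : Nat.Primes} {Y Y' : Type*} {b : LG q → Y} (h : LocLev q b) (f : Y → Y') :
    LocLev q (fun g => f (b g)) := by
  obtain ⟨E, hE, hb⟩ := h
  exact ⟨E, hE, fun g s hs => congrArg f (hb g s hs)⟩

variable (S) (V : Type*) [AddCommGroup V] [DistribMulAction GQ V]

/-- cocycles with a level -/
def Z1S : AddSubgroup (GQ → V) where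
  carrier := {c | c ∈ Z1 GQ V ∧ LevC S c}
  zero_mem' := ⟨(Z1 GQ V).zero_mem, LevC.zero⟩
  add_mem' := fun {a b} ha hb => ⟨(Z1 GQ V).add_mem ha.1 hb.1, ha.2.add hb.2⟩
  neg_mem' := fun {a} ha => ⟨(Z1 GQ V).neg_mem ha.1, ha.2.comp _⟩

/-- locally trivial cocycles -/
def Sh1 : AddSubgroup (GQ → V) where
  carrier := {c | (c ∈ Z1 GQ V ∧ LevC S c) ∧ ∀ q ∈ S, ∃ m : V, ∀ d : LG q,
    c (localGaloisToGlobal (q : ℕ) d) = localGaloisToGlobal (q : ℕ) d • m - m}
  zero_mem' := ⟨(Z1S S V).zero_mem, fun q _ => ⟨0, fun d => by rw [smul_zero, sub_zero]; rfl⟩⟩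
  add_mem' := by
    rintro a b ⟨ha, ha'⟩ ⟨hb, hb'⟩
    refine ⟨(Z1S S V).add_mem ha hb, fun q hq => ?_⟩
    obtain ⟨m, hm⟩ := ha' q hq
    obtain ⟨m', hm'⟩ := hb' q hq
    refine ⟨m + m', fun d => ?_⟩
    show a _ + b _ = _
    rw [hm, hm', smul_add]; abel
  neg_mem' := by
    rintro a ⟨ha, ha'⟩
    refine ⟨(Z1S S V).neg_mem ha, fun q hq => ?_⟩
    obtain ⟨m, hm⟩ := ha' q hq
    refine ⟨-m, fun d => ?_⟩
    show - a _ = _
    rw [hm, smul_neg]; abel

/-- 2-cocycles with a level -/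
def Z2S : AddSubgroup (GQ → GQ → V) where
  carrier := {x | x ∈ Z2 GQ V ∧ Lev2 S x}
  zero_mem' := ⟨(Z2 GQ V).zero_mem, Lev2.zero⟩
  add_mem' := fun {a b} ha hb => ⟨(Z2 GQ V).add_mem ha.1 hb.1, ha.2.add hb.2⟩
  neg_mem' := fun {a} ha => ⟨(Z2 GQ V).neg_mem ha.1, ha.2.comp _⟩

/-- 2-coboundaries of cochains with a level -/
def B2S : AddSubgroup (GQ → GQ → V) where
  carrier := {x | ∃ b : GQ → V, LevC S b ∧ ∀ g h, x g h = dd b g h}
  zero_mem' := ⟨0, LevC.zero, fun g h => by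
    show (0 : V) = 0 + g • 0 - 0
    rw [smul_zero, add_zero, sub_zero]⟩
  add_mem' := by
    rintro x y ⟨b, hb, hx⟩ ⟨b', hb', hy⟩
    refine ⟨b + b', hb.add hb', fun g h => ?_⟩
    show x g h + y g h = (b g + b' g) + g • (b h + b' h) - (b (g * h) + b' (g * h))
    rw [hx, hy, smul_add]
    show (b g + g • b h - b (g * h)) + (b' g + g • b' h - b' (g * h)) = _
    abel
  neg_mem' := by
    rintro x ⟨b, hb, hx⟩
    refine ⟨fun g => - b g, hb.comp _, fun g h => ?_⟩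
    show - x g h = - b g + g • (- b h) - (- b (g * h))
    rw [hx, smul_neg]
    show - (b g + g • b h - b (g * h)) = _
    abel

/-- locally trivial 2-cocycles -/
def Sh2 : AddSubgroup (GQ → GQ → V) where
  carrier := {x | (x ∈ Z2 GQ V ∧ Lev2 S x) ∧ ∀ q ∈ S, ∃ n : LG q → V, LocLev q n ∧ ∀ d d',
    x (localGaloisToGlobal (q : ℕ) d) (localGaloisToGlobal (q : ℕ) d') =
      n d + localGaloisToGlobal (q : ℕ) d • n d' - n (d * d')}
  zero_mem' := ⟨(Z2S S V).zero_mem, fun q _ => ⟨0, LocLev.zero, fun d d' => by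
    show (0 : V) = 0 + localGaloisToGlobal (q : ℕ) d • 0 - 0
    rw [smul_zero, add_zero, sub_zero]⟩⟩
  add_mem' := by
    rintro a b ⟨ha, ha'⟩ ⟨hb, hb'⟩
    refine ⟨(Z2S S V).add_mem ha hb, fun q hq => ?_⟩
    obtain ⟨m, hml, hm⟩ := ha' q hq
    obtain ⟨m', hml', hm'⟩ := hb' q hq
    refine ⟨m + m', hml.add hml', fun d d' => ?_⟩
    show a _ _ + b _ _ = (m d + m' d) + localGaloisToGlobal (q : ℕ) d • (m d' + m' d') -
      (m (d * d') + m' (d * d'))
    rw [hm, hm', smul_add]; abel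
  neg_mem' := by
    rintro a ⟨ha, ha'⟩
    refine ⟨(Z2S S V).neg_mem ha, fun q hq => ?_⟩
    obtain ⟨m, hml, hm⟩ := ha' q hq
    refine ⟨fun d => - m d, hml.comp _, fun d d' => ?_⟩
    show - a _ _ = (- m d) + localGaloisToGlobal (q : ℕ) d • (- m d') - (- m (d * d'))
    rw [hm, smul_neg]; abel

end defs

section zeta

variable {S : Finset Nat.Primes} {p : ℕ} [hp : Fact p.Prime] {L : IntermediateField ℚ Qb}
  {ζ : Qb} (hL : L.IsUnramifiedOutside S) (hζ : IsPrimitiveRoot ζ p) (hζL : ζ ∈ L)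

/-- the root of unity -/
def zS : QS S := ⟨Additive.ofMul (Units.mk0 ζ (hζ.ne_zero hp.out.ne_zero)), L, hL,
  (mem_fix_of_mem _).mpr hζL⟩

theorem zS_val : ((zS hL hζ hζL).1.toMul : Qb) = ζ := rfl

theorem p_zS : p • zS hL hζ hζL = 0 := by
  apply Subtype.ext
  refine congrArg Additive.ofMul (Units.ext ?_)
  exact hζ.pow_eq_one

/-- the embedding of `ℤ/p` -/
def zQ : ZMod p →+ QS S := ZMod.lift p ⟨zmultiplesHom _ (zS hL hζ hζL), by
  show ((p : ℤ)) • zS hL hζ hζL = 0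
  rw [natCast_zsmul, p_zS]⟩

theorem zQ_natCast (n : ℕ) : zQ hL hζ hζL (n : ZMod p) = n • zS hL hζ hζL := by
  have h := ZMod.lift_coe p ⟨zmultiplesHom _ (zS hL hζ hζL), by
    show ((p : ℤ)) • zS hL hζ hζL = 0
    rw [natCast_zsmul, p_zS]⟩ (n : ℤ)
  rw [Int.cast_natCast] at h
  refine h.trans ?_
  show (n : ℤ) • zS hL hζ hζL = _
  rw [natCast_zsmul]

theorem zQ_val (a : ZMod p) : ((zQ hL hζ hζL a).1.toMul : Qb) = ζ ^ a.val := by
  have h := zQ_natCast hL hζ hζL a.val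
  rw [ZMod.natCast_zmod_val] at h
  rw [h]
  rfl

theorem zQ_inj : Function.Injective (zQ hL hζ hζL) := by
  rw [injective_iff_map_eq_zero]
  intro a ha
  have h1 := zQ_val hL hζ hζL a
  rw [ha] at h1
  have h2 : ζ ^ a.val = 1 := h1.symm
  have h3 := (hζ.pow_eq_one_iff_dvd _).mp h2
  rw [← ZMod.natCast_zmod_val a]
  exact (ZMod.natCast_eq_zero_iff _ _).mpr h3

theorem zQ_surj (y : QS S) (hy : p • y = 0) : ∃ a, zQ hL hζ hζL a = y := by
  have h1 : (y.1.toMul : Qb) ^ p = 1 := by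
    have := congrArg (fun z : QS S => (z.1.toMul : Qb)) hy
    exact this
  obtain ⟨i, -, hi⟩ := hζ.eq_pow_of_pow_eq_one h1
  refine ⟨i, ?_⟩
  rw [zQ_natCast]
  apply Subtype.ext
  exact congrArg Additive.ofMul (Units.ext hi)

theorem zQ_smul (g : GQ) (c : ZMod p) (hc : g ζ = ζ ^ c.val) (a : ZMod p) :
    g • zQ hL hζ hζL a = zQ hL hζ hζL (c * a) := by
  apply Subtype.ext
  refine congrArg Additive.ofMul (Units.ext ?_)
  show g ((zQ hL hζ hζL a).1.toMul : Qb) = ((zQ hL hζ hζL (c * a)).1.toMul : Qb)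
  rw [zQ_val, zQ_val, map_pow, hc, ← pow_mul]
  rw [← pow_mod_orderOf ζ (c.val * a.val), ← hζ.eq_orderOf, ZMod.val_mul]

theorem peQ_inj (q : Nat.Primes) : Function.Injective (peQ S q) := by
  rw [injective_iff_map_eq_zero]
  intro x hx
  have h1 : padicEmbedding q (x.1.toMul : Qb) = 1 := by
    rw [← peQ_val, hx]; rfl
  have h2 : (x.1.toMul : Qb) = 1 := (padicEmbedding q).injective (h1.trans (map_one _).symm)
  apply Subtype.ext
  exact congrArg Additive.ofMul (Units.ext h2)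

theorem zL_surj (q : Nat.Primes) (y : LM q) (hy : p • y = 0) :
    ∃ a, peQ S q (zQ hL hζ hζL a) = y := by
  have h1 : (y.toMul : PadicAlgCl (q : ℕ)) ^ p = 1 := by
    have := congrArg (fun z : LM q => (z.toMul : PadicAlgCl (q : ℕ))) hy
    exact this
  have h2 : IsPrimitiveRoot (padicEmbedding q ζ) p :=
    hζ.map_of_injective (f := (padicEmbedding q : Qb →+* PadicAlgCl (q : ℕ)))
      (padicEmbedding q : Qb →+* PadicAlgCl (q : ℕ)).injective
  obtain ⟨i, -, hi⟩ := h2.eq_pow_of_pow_eq_one h1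
  refine ⟨i, ?_⟩
  rw [zQ_natCast]
  have h3 : padicEmbedding q ((i • zS hL hζ hζL : QS S).1.toMul : Qb) = padicEmbedding q ζ ^ i :=
    map_pow (padicEmbedding q) ζ i
  exact congrArg Additive.ofMul (Units.ext (h3.trans hi))

end zeta

end

end Fermat.Agent.CFT
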