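import Fermat.Agent.CFT.Sha1

set_option autoImplicit false
set_option maxHeartbeats 400000

/-! Transfer between the module `W` and homomorphisms to the `S`-elements. -/

namespace Fermat.Agent.CFT

open Finset Fermat.Agent.CFTSec

noncomputable section

/-- duality data -/
structure PData (p : ℕ) [hp : Fact p.Prime] (ζ : Qb) {V W : Type*} [AddCommGroup V]
    [AddCommGroup W] [DistribMulAction GQ V] [DistribMulAction GQ W] (B : V →+ W →+ ZMod p) :
    Prop where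
  tors : ∀ v : V, p • v = 0
  equi : ∀ (g : GQ) (c : ZMod p), g ζ = ζ ^ c.val → ∀ v w, B (g • v) (g • w) = c * B v w
  sep : ∀ w, (∀ v, B v w = 0) → w = 0
  surj : ∀ f : V →+ ZMod p, ∃ w, ∀ v, f v = B v w

section aux

variable {p : ℕ} [hp : Fact p.Prime] {ζ : Qb} {V W : Type*} [AddCommGroup V]
    [AddCommGroup W] [DistribMulAction GQ V] [DistribMulAction GQ W] {B : V →+ W →+ ZMod p}
    (hB : PData p ζ B) {F : Type*} [AddCommGroup F] (π : F →+ V) (σ : V → F)
    (hσ : ∀ v, π (σ v) = v)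

include hB hσ in
theorem exists_w_aux {A : Type*} [AddCommGroup A] (z : ZMod p →+ A) (hz : Function.Injective z)
    (hz2 : ∀ y : A, p • y = 0 → ∃ a, z a = y) (h : F →+ A) (hR : ∀ f, π f = 0 → h f = 0) :
    ∃ w, ∀ f, h f = z (B (π f) w) := by
  have h1 : ∀ v, ∃ a, z a = h (σ v) := by
    intro v
    apply hz2
    rw [← map_nsmul]
    apply hR
    rw [map_nsmul]
    exact hB.tors _
  choose a ha using h1
  let ah : V →+ ZMod p := AddMonoidHom.mk' a (fun v v' => by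
    apply hz
    rw [map_add, ha, ha, ha]
    have h2 : h (σ (v + v') - (σ v + σ v')) = 0 := by
      apply hR
      rw [map_sub, map_add, hσ, hσ, hσ, sub_self]
    rw [map_sub, map_add, sub_eq_zero] at h2
    exact h2)
  obtain ⟨w, hw⟩ := hB.surj ah
  refine ⟨w, fun f => ?_⟩
  rw [← hw]
  show h f = z (a (π f))
  rw [ha, ← sub_eq_zero, ← map_sub]
  apply hR
  rw [map_sub, hσ, sub_self]

end aux

section main

variable {S : Finset Nat.Primes} {p : ℕ} [hp : Fact p.Prime] {ζ : Qb}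
  {L : IntermediateField ℚ Qb} [hLn : L.fixingSubgroup.Normal]
  (hL : L.IsUnramifiedOutside S) (hζ : IsPrimitiveRoot ζ p) (hζL : ζ ∈ L)
  {V W : Type*} [AddCommGroup V] [AddCommGroup W] [DistribMulAction GQ V] [DistribMulAction GQ W]
  {B : V →+ W →+ ZMod p} (hB : PData p ζ B)
  {F : Type*} [AddCommGroup F] [DistribMulAction (GQ ⧸ L.fixingSubgroup) F]
  (π : F →+ V) (hπ : ∀ (g : GQ) f, π (prL L g • f) = g • π f)
  (σ : V → F) (hσ : ∀ v, π (σ v) = v)

variable (B) in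
/-- the embedding of `W` -/
def jG : W →+ HM (prL L) F (QS S) where
  toFun w := (zQ hL hζ hζL).comp ((B.flip w).comp π)
  map_zero' := by
    apply HM.ext
    intro f
    show zQ hL hζ hζL (B (π f) 0) = 0
    rw [map_zero, map_zero]
  map_add' w w' := by
    apply HM.ext
    intro f
    show zQ hL hζ hζL (B (π f) (w + w')) = zQ hL hζ hζL (B (π f) w) + zQ hL hζ hζL (B (π f) w')
    rw [map_add, map_add]

theorem jG_apply (w : W) (f : F) : jG hL hζ hζL B π w f = zQ hL hζ hζL (B (π f) w) := rfl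

include hB hπ in
theorem jG_smul (g : GQ) (w : W) :
    jG hL hζ hζL B π (g • w) = g • jG hL hζ hζL B π w := by
  apply HM.ext
  intro f
  obtain ⟨i, hi1, hi⟩ := hζ.eq_pow_of_pow_eq_one (ξ := g ζ) (by
    rw [← map_pow, hζ.pow_eq_one, map_one])
  have hc : g ζ = ζ ^ ((i : ZMod p)).val := by rw [ZMod.val_natCast_of_lt hi1, hi]
  rw [hm_smul_apply, jG_apply, jG_apply, zQ_smul hL hζ hζL g _ hc, ← hB.equi g _ hc, ← hπ,
    smul_inv_smul]

include hB hσ in
theorem jG_inj : Function.Injective (jG hL hζ hζL B π : W →+ HM (prL L) F (QS S)) := by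
  rw [injective_iff_map_eq_zero]
  intro w hw
  apply hB.sep
  intro v
  apply zQ_inj hL hζ hζL
  have := DFunLike.congr_fun hw (σ v)
  rw [jG_apply, hσ] at this
  rw [this, map_zero]
  rfl

include hB hσ in
theorem jGq_inj (q : Nat.Primes) : Function.Injective
    (fun w : W => pushq q (jG hL hζ hζL B π w : HM (prL L) F (QS S))) := by
  intro w w' h
  apply jG_inj hL hζ hζL hB π σ hσ
  apply HM.ext
  intro f
  exact peQ_inj q (DFunLike.congr_fun h f)

include hB hσ in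
theorem exists_jG (h : HM (prL L) F (QS S)) (hR : ∀ f, π f = 0 → h f = 0) :
    ∃ w, h = jG hL hζ hζL B π w := by
  obtain ⟨w, hw⟩ := exists_w_aux hB π σ hσ (zQ hL hζ hζL) (zQ_inj hL hζ hζL)
    (zQ_surj hL hζ hζL) (HM.toHom _ h) hR
  exact ⟨w, HM.ext _ hw⟩

include hB hσ in
theorem exists_jGq (q : Nat.Primes) (h : HM (piq q L) F (LM q)) (hR : ∀ f, π f = 0 → h f = 0) :
    ∃ w, h = pushq q (jG hL hζ hζL B π w : HM (prL L) F (QS S)) := by
  obtain ⟨w, hw⟩ := exists_w_aux hB π σ hσ ((peQ S q).comp (zQ hL hζ hζL))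
    ((peQ_inj q).comp (zQ_inj hL hζ hζL))
    (zL_surj hL hζ hζL q) (HM.toHom _ h) hR
  exact ⟨w, HM.ext _ hw⟩

include hB hπ in
theorem jG_dd (b : GQ → W) (g h : GQ) : jG hL hζ hζL B π (dd b g h) =
    dd (fun g => jG hL hζ hζL B π (b g) : GQ → HM (prL L) F (QS S)) g h := by
  show jG hL hζ hζL B π (b g + g • b h - b (g * h)) = _
  rw [map_sub, map_add, jG_smul hL hζ hζL hB π hπ]
  rfl

include hB hπ in
theorem jG_ddq (q : Nat.Primes) (n : LG q → W) (d d' : LG q) :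
    pushq q (jG hL hζ hζL B π (n d + localGaloisToGlobal (q : ℕ) d • n d' - n (d * d')) :
      HM (prL L) F (QS S)) =
    dd (fun d => pushq q (jG hL hζ hζL B π (n d) : HM (prL L) F (QS S))) d d' := by
  rw [map_sub, map_add, jG_smul hL hζ hζL hB π hπ, map_sub, map_add, pushq_smul]
  rfl

variable {R : AddSubgroup F} (hRπ : ∀ f, f ∈ R ↔ π f = 0)

include hB hπ hRπ in
/-- (C1) -/
theorem shaC_of_sh2 {x : GQ → GQ → W} (hx : x ∈ Sh2 S W) :
    ShaC S L R (fun g h => jG hL hζ hζL B π (x g h) : GQ → GQ → HM (prL L) F (QS S)) := by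
  obtain ⟨⟨h1, h2⟩, h3⟩ := hx
  refine ⟨fun g h k => ?_, h2.comp _, fun g h r => ?_, fun q hq => ?_⟩
  · show jG hL hζ hζL B π (x g h) + jG hL hζ hζL B π (x (g * h) k) =
      g • jG hL hζ hζL B π (x h k) + jG hL hζ hζL B π (x g (h * k))
    rw [← jG_smul hL hζ hζL hB π hπ, ← map_add, ← map_add, h1]
  · show jG hL hζ hζL B π (x g h) r.1 = 0
    rw [jG_apply, (hRπ r.1).mp r.2, map_zero]
    show zQ hL hζ hζL 0 = 0
    rw [map_zero]
  · obtain ⟨n, hn1, hn2⟩ := h3 q hq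
    refine ⟨fun d => pushq q (jG hL hζ hζL B π (n d)),
      hn1.comp (fun w => pushq q (jG hL hζ hζL B π w)), fun d r => ?_, fun d d' => ?_⟩
    · show peQ S q (jG hL hζ hζL B π (n d) r.1) = 0
      rw [jG_apply, (hRπ r.1).mp r.2, map_zero]
      show peQ S q (zQ hL hζ hζL 0) = 0
      rw [map_zero, map_zero]
    · show pushq q (jG hL hζ hζL B π (x _ _)) = _
      rw [hn2]
      exact jG_ddq hL hζ hζL hB π hπ q n d d'

include hB hπ hσ hRπ in
/-- (C2) -/
theorem sh2_of_shaC {X : GQ → GQ → HM (prL L) F (QS S)} (hX : ShaC S L R X) :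
    ∃ x ∈ Sh2 S W, ∀ g h, X g h = jG hL hζ hζL B π (x g h) := by
  have h1 : ∀ g h, ∃ w, X g h = jG hL hζ hζL B π w := fun g h =>
    exists_jG hL hζ hζL hB π σ hσ _ (fun f hf => hX.van g h ⟨f, (hRπ f).mpr hf⟩)
  choose x hx using h1
  refine ⟨x, ⟨⟨fun g h k => ?_, ?_⟩, fun q hq => ?_⟩, hx⟩
  · apply jG_inj hL hζ hζL hB π σ hσ
    rw [map_add, map_add, jG_smul hL hζ hζL hB π hπ, ← hx, ← hx, ← hx, ← hx]
    exact hX.z2 g h k
  · obtain ⟨E, hE, hlev⟩ := hX.lev
    refine ⟨E, hE, fun g h s hs s' hs' => ?_⟩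
    apply jG_inj hL hζ hζL hB π σ hσ
    rw [← hx, ← hx, hlev g h s hs s' hs']
  · obtain ⟨m, ⟨E, hE, hm1⟩, hm2, hm3⟩ := hX.loc q hq
    have h2 : ∀ d, ∃ w, m d = pushq q (jG hL hζ hζL B π w : HM (prL L) F (QS S)) := fun d =>
      exists_jGq hL hζ hζL hB π σ hσ q _ (fun f hf => hm2 d ⟨f, (hRπ f).mpr hf⟩)
    choose n hn using h2
    refine ⟨n, ⟨E, hE, fun d s hs => ?_⟩, fun d d' => ?_⟩
    · apply jGq_inj hL hζ hζL hB π σ hσ q
      show pushq q (jG hL hζ hζL B π (n (d * s))) = pushq q (jG hL hζ hζL B π (n d))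
      rw [← hn, ← hn, hm1 d s hs]
    · apply jGq_inj hL hζ hζL hB π σ hσ q
      show pushq q (jG hL hζ hζL B π (x _ _)) = pushq q (jG hL hζ hζL B π _)
      rw [← hx, hm3, jG_ddq hL hζ hζL hB π hπ q n d d']
      have h3 : (fun d => pushq q (jG hL hζ hζL B π (n d) : HM (prL L) F (QS S))) = m :=
        funext fun d => (hn d).symm
      rw [h3]

include hB hπ hσ hRπ in
/-- (C3) -/
theorem b2s_iff {x : GQ → GQ → W} : x ∈ B2S S W ↔
    ∃ b : GQ → HM (prL L) F (QS S), LevC S b ∧ (∀ g (r : R), b g r.1 = 0) ∧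
      ∀ g h, jG hL hζ hζL B π (x g h) = dd b g h := by
  constructor
  · rintro ⟨b, hb, hx⟩
    refine ⟨fun g => jG hL hζ hζL B π (b g), hb.comp _, fun g r => ?_, fun g h => ?_⟩
    · show jG hL hζ hζL B π (b g) r.1 = 0
      rw [jG_apply, (hRπ r.1).mp r.2, map_zero]
      show zQ hL hζ hζL 0 = 0
      rw [map_zero]
    · rw [hx, jG_dd hL hζ hζL hB π hπ]
  · rintro ⟨b, ⟨E, hE, hb⟩, hbR, hx⟩
    have h2 : ∀ g, ∃ w, b g = jG hL hζ hζL B π w := fun g =>
      exists_jG hL hζ hζL hB π σ hσ _ (fun f hf => hbR g ⟨f, (hRπ f).mpr hf⟩)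
    choose c hc using h2
    refine ⟨c, ⟨E, hE, fun g s hs => ?_⟩, fun g h => ?_⟩
    · apply jG_inj hL hζ hζL hB π σ hσ
      rw [← hc, ← hc, hb g s hs]
    · apply jG_inj hL hζ hζL hB π σ hσ
      rw [hx, jG_dd hL hζ hζL hB π hπ]
      have h3 : (fun g => jG hL hζ hζL B π (c g) : GQ → HM (prL L) F (QS S)) = b :=
        funext fun d => (hc d).symm
      rw [h3]

end main

end

end Fermat.Agent.CFT
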