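import Fermat.Agent.CFT.Sha2

set_option autoImplicit false
set_option maxHeartbeats 400000

/-! Transfer of the finite level groups. -/

namespace Fermat.Agent.CFT

open Finset Fermat.Agent.CFTSec

noncomputable section

section one

variable {S : Finset Nat.Primes} {L : IntermediateField ℚ Qb} [hLn : L.fixingSubgroup.Normal]
  (hL : L.IsUnramifiedOutside S)
  {V : Type*} [AddCommGroup V] [DistribMulAction GQ V]
  {F : Type*} [AddCommGroup F] [DistribMulAction (GQ ⧸ L.fixingSubgroup) F]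
  (π : F →+ V) (hπ : ∀ (g : GQ) f, π (prL L g • f) = g • π f)
  (σ : V → F) (hσ : ∀ v, π (σ v) = v)
  {R : AddSubgroup F} (hRπ : ∀ f, f ∈ R ↔ π f = 0)

include hL hπ hRπ in
theorem sh1_of_llh {C : (GQ ⧸ L.fixingSubgroup) → F} (hC : C ∈ LLh S L R) :
    (fun g : GQ => π (C (prL L g))) ∈ Sh1 S V := by
  obtain ⟨h1, h2⟩ := hC
  refine ⟨⟨fun g h => ?_, ⟨L, hL, fun g s hs => ?_⟩⟩, fun q hq => ?_⟩
  · have h3 := (hRπ _).mp (h1 (prL L g) (prL L h))
    have h4 : π (C (prL L g) + prL L g • C (prL L h) - C (prL L g * prL L h)) = 0 := h3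
    rw [map_sub, map_add, hπ, sub_eq_zero] at h4
    show π (C (prL L (g * h))) = π (C (prL L g)) + g • π (C (prL L h))
    rw [map_mul, h4]
  · show π (C (prL L (g * s))) = π (C (prL L g))
    rw [map_mul, prL_one_of_mem hs, mul_one]
  · obtain ⟨m, hm⟩ := h2 q hq
    refine ⟨π m, fun d => ?_⟩
    have h3 := (hRπ _).mp (hm (QuotientGroup.mk d))
    rw [iotaD_mk, map_sub, map_sub, sub_eq_zero] at h3
    have h4 : π (prL L (localGaloisToGlobal (q : ℕ) d) • m) = localGaloisToGlobal (q : ℕ) d • π m :=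
      hπ _ _
    exact h3.trans (congrArg (fun z => z - π m) h4)

/-- the comparison map -/
def llhMap (hL : L.IsUnramifiedOutside S) (π : F →+ V)
    (hπ : ∀ (g : GQ) f, π (prL L g • f) = g • π f) (hRπ : ∀ f, f ∈ R ↔ π f = 0) :
    LLh S L R →+ (↥(Sh1 S V) ⧸ (B1 GQ V).addSubgroupOf (Sh1 S V)) where
  toFun C := QuotientAddGroup.mk ⟨fun g : GQ => π (C.1 (prL L g)), sh1_of_llh hL π hπ hRπ C.2⟩
  map_zero' := by
    rw [QuotientAddGroup.eq_zero_iff, AddSubgroup.mem_addSubgroupOf]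
    exact ⟨0, fun g => by
      show π 0 = _
      rw [map_zero, smul_zero, sub_zero]⟩
  map_add' C C' := by
    rw [← QuotientAddGroup.mk_add]
    congr 1
    apply Subtype.ext
    funext g
    exact map_add π _ _

include hσ in
theorem llhMap_ker : (llhMap hL π hπ hRπ : LLh S L R →+ _).ker =
    (BBg (GQ ⧸ L.fixingSubgroup) R).addSubgroupOf (LLh S L R) := by
  ext C
  rw [AddMonoidHom.mem_ker, AddSubgroup.mem_addSubgroupOf]
  show (QuotientAddGroup.mk _ : ↥(Sh1 S V) ⧸ (B1 GQ V).addSubgroupOf (Sh1 S V)) = 0 ↔ _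
  rw [QuotientAddGroup.eq_zero_iff, AddSubgroup.mem_addSubgroupOf]
  constructor
  · rintro ⟨v, hv⟩
    refine ⟨σ v, fun g => ?_⟩
    obtain ⟨g, rfl⟩ := QuotientGroup.mk_surjective g
    rw [hRπ, map_sub, map_sub, hσ]
    have h1 : π ((g : GQ ⧸ L.fixingSubgroup) • σ v) = g • v := by
      have := hπ g (σ v)
      rw [hσ] at this
      exact this
    have h2 : π (C.1 (g : GQ ⧸ L.fixingSubgroup)) = g • v - v := hv g
    rw [h1, h2, sub_self]
  · rintro ⟨m, hm⟩
    refine ⟨π m, fun g => ?_⟩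
    have h1 := (hRπ _).mp (hm (prL L g))
    rw [map_sub, map_sub, sub_eq_zero, hπ] at h1
    exact h1

include hσ in
theorem llhMap_surj (hlev : ∀ c ∈ Sh1 S V, ∀ s ∈ L.fixingSubgroup, c s = 0) :
    Function.Surjective (llhMap hL π hπ hRπ : LLh S L R →+ _) := by
  intro y
  obtain ⟨c, rfl⟩ := QuotientAddGroup.mk_surjective y
  have hc := c.2
  have h0 : ∀ g : GQ, c.1 (QuotientGroup.mk g : GQ ⧸ L.fixingSubgroup).out = c.1 g := by
    intro g
    have h1 := mk_out_mem L.fixingSubgroup g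
    have h2 := hc.1.1 g (g⁻¹ * (QuotientGroup.mk g : GQ ⧸ L.fixingSubgroup).out)
    rw [mul_inv_cancel_left, hlev c.1 hc _ h1, smul_zero, add_zero] at h2
    exact h2
  let C : (GQ ⧸ L.fixingSubgroup) → F := fun u => σ (c.1 u.out)
  have hC : ∀ g : GQ, π (C (QuotientGroup.mk g)) = c.1 g := by
    intro g
    show π (σ _) = _
    rw [hσ, h0]
  have hCL : C ∈ LLh S L R := by
    refine ⟨fun g h => ?_, fun q hq => ?_⟩
    · obtain ⟨g, rfl⟩ := QuotientGroup.mk_surjective g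
      obtain ⟨h, rfl⟩ := QuotientGroup.mk_surjective h
      rw [hRπ]
      show π (C (QuotientGroup.mk g) + (QuotientGroup.mk g : GQ ⧸ L.fixingSubgroup) •
        C (QuotientGroup.mk h) - C (QuotientGroup.mk (g * h))) = 0
      have h1 : π ((QuotientGroup.mk g : GQ ⧸ L.fixingSubgroup) • C (QuotientGroup.mk h)) =
        g • π (C (QuotientGroup.mk h)) := hπ g _
      rw [map_sub, map_add, h1, hC, hC, hC, hc.1.1, sub_self]
    · obtain ⟨m, hm⟩ := hc.2 q hq
      refine ⟨σ m, fun d => ?_⟩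
      obtain ⟨d, rfl⟩ := QuotientGroup.mk_surjective d
      rw [hRπ, iotaD_mk, map_sub, map_sub, hC]
      have h0' : π (σ m) = m := hσ m
      have h1 : π ((QuotientGroup.mk (localGaloisToGlobal (q : ℕ) d) : GQ ⧸ L.fixingSubgroup) •
        σ m) = localGaloisToGlobal (q : ℕ) d • m := by
        have := hπ (localGaloisToGlobal (q : ℕ) d) (σ m)
        rw [hσ] at this
        exact this
      rw [h1, h0', hm, sub_self]
  refine ⟨⟨C, hCL⟩, ?_⟩
  show QuotientAddGroup.mk _ = QuotientAddGroup.mk _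
  congr 1
  apply Subtype.ext
  funext g
  exact hC g

include hL hπ hσ hRπ in
/-- the comparison -/
theorem card_llh (hlev : ∀ c ∈ Sh1 S V, ∀ s ∈ L.fixingSubgroup, c s = 0) :
    Nonempty ((↥(LLh S L R) ⧸ (BBg (GQ ⧸ L.fixingSubgroup) R).addSubgroupOf (LLh S L R)) ≃
      (↥(Sh1 S V) ⧸ (B1 GQ V).addSubgroupOf (Sh1 S V))) := by
  rw [← llhMap_ker hL π hπ σ hσ hRπ]
  exact ⟨(QuotientAddGroup.quotientKerEquivOfSurjective _
    (llhMap_surj hL π hπ σ hσ hRπ hlev)).toEquiv⟩

end one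

section two

variable {S : Finset Nat.Primes} {L : IntermediateField ℚ Qb} [hLn : L.fixingSubgroup.Normal]
  {F : Type*} [AddCommGroup F] [DistribMulAction (GQ ⧸ L.fixingSubgroup) F]
  {R : AddSubgroup F} [hR : Stab (GQ ⧸ L.fixingSubgroup) R]

/-- restrict the target -/
def toFix {X : Type*} [AddCommGroup X] [DistribMulAction (GQ ⧸ L.fixingSubgroup) X] {A : Type*}
    [AddCommGroup A] [DistribMulAction GQ A] (φ : X →+ A)
    (hφ : ∀ (g : GQ) r, φ (prL L g • r) = g • φ r) : X →+ ↥(fix A L.fixingSubgroup) :=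
  φ.codRestrict _ (fun r s hs => by rw [← hφ, prL_one_of_mem hs, one_smul])

theorem toFix_val {X : Type*} [AddCommGroup X] [DistribMulAction (GQ ⧸ L.fixingSubgroup) X]
    {A : Type*} [AddCommGroup A] [DistribMulAction GQ A] (φ : X →+ A)
    (hφ : ∀ (g : GQ) r, φ (prL L g • r) = g • φ r) (r : X) : (toFix φ hφ r).1 = φ r := rfl

theorem toFix_smul {X : Type*} [AddCommGroup X] [DistribMulAction (GQ ⧸ L.fixingSubgroup) X]
    {A : Type*} [AddCommGroup A] [DistribMulAction GQ A] (φ : X →+ A)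
    (hφ : ∀ (g : GQ) r, φ (prL L g • r) = g • φ r) (g : GQ ⧸ L.fixingSubgroup) (r : X) :
    toFix φ hφ (g • r) = g • toFix φ hφ r := by
  obtain ⟨g, rfl⟩ := QuotientGroup.mk_surjective g
  exact Subtype.ext (hφ g r)

theorem ofFix_smul {X : Type*} [AddCommGroup X] [DistribMulAction (GQ ⧸ L.fixingSubgroup) X]
    {A : Type*} [AddCommGroup A] [DistribMulAction GQ A] (φ : X →+ ↥(fix A L.fixingSubgroup))
    (hφ : ∀ (g : GQ ⧸ L.fixingSubgroup) r, φ (g • r) = g • φ r) (g : GQ) (r : X) :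
    (φ (prL L g • r)).1 = g • (φ r).1 :=
  congrArg Subtype.val (hφ (prL L g) r)

theorem jjq_iff {φ : R →+ ↥(fix (Cm S) L.fixingSubgroup)} :
    JJQ L R ((fix (Cm S) L.fixingSubgroup).subtype.comp φ) ↔ φ ∈ JJh S L R := by
  constructor
  · rintro ⟨ψ, h1, h2, θ, h3, h4⟩
    refine ⟨toFix ψ h1, toFix_smul ψ h1, fun r => h2 r, toFix θ h3, toFix_smul θ h3,
      fun r => Subtype.ext (h4 r)⟩
  · rintro ⟨ψ, h1, h2, θ, h3, h4⟩
    exact ⟨(fix (Jm S) L.fixingSubgroup).subtype.comp ψ, ofFix_smul ψ h1, fun r => h2 r,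
      (fix (Cm S) L.fixingSubgroup).subtype.comp θ, ofFix_smul θ h3,
      fun r => congrArg Subtype.val (h4 r)⟩

end two

section level

variable {S : Finset Nat.Primes} {K M : IntermediateField ℚ Qb} {p : ℕ} [hp : Fact p.Prime]
  {V : Type*} [AddCommGroup V] [DistribMulAction GQ V]

/-- locally trivial cocycles are trivial on a fixed subgroup -/
theorem sh1_level [hKn : K.fixingSubgroup.Normal] (hVp : ∀ v : V, p • v = 0)
    (hVK : ∀ s ∈ K.fixingSubgroup, ∀ v : V, s • v = v) (hKM : K ≤ M)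
    (hM : ∀ χ : HomX S K p, ∀ g : K.fixingSubgroup, (g : GQ) ∈ M.fixingSubgroup → χ.1.1 g = 1)
    {c : GQ → V} (hc : c ∈ Sh1 S V) {s : GQ} (hs : s ∈ M.fixingSubgroup) : c s = 0 := by
  letI mV : Module (ZMod p) V := AddCommGroup.zmodModule hVp
  refine eq_zero_of_dual (p := p) (fun f => ?_)
  obtain ⟨⟨h1, E, hE, h2⟩, h3⟩ := hc
  have hsK : s ∈ K.fixingSubgroup := IntermediateField.fixingSubgroup_antitone hKM hs
  let χ0 : K.fixingSubgroup →* Multiplicative (ZMod p) :=
    MonoidHom.mk' (fun g => Multiplicative.ofAdd (f (c g))) (fun g h => by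
      rw [← ofAdd_add, ← map_add]
      congr 2
      show c (g.1 * h.1) = c g.1 + c h.1
      rw [h1, hVK g.1 g.2])
  have hone : c 1 = 0 := Z1.one h1
  let χ : HomX S K p := ⟨⟨χ0, E, hE, fun g hg => by
    show Multiplicative.ofAdd (f (c g)) = 1
    have h4 := h2 1 g hg
    rw [one_mul, hone] at h4
    rw [h4, map_zero]; rfl⟩, fun q hq σ τ g hg => by
    show Multiplicative.ofAdd (f (c g)) = 1
    obtain ⟨m, hm⟩ := h3 q hq
    have h5 : c g.1 = σ⁻¹ • (c (localGaloisToGlobal q τ) +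
        localGaloisToGlobal q τ • c σ - c σ) := by
      have h6 : c (σ * g.1) = c (localGaloisToGlobal q τ * σ) := by
        rw [hg]; congr 1; group
      rw [h1, h1] at h6
      have h7 : σ • c g.1 = c (localGaloisToGlobal q τ) + localGaloisToGlobal q τ • c σ - c σ := by
        rw [← h6]; abel
      rw [← h7, inv_smul_smul]
    have h8 : localGaloisToGlobal q τ ∈ K.fixingSubgroup := by
      have := hKn.conj_mem g.1 g.2 σ
      rw [hg] at this
      have h9 : σ * (σ⁻¹ * localGaloisToGlobal q τ * σ) * σ⁻¹ = localGaloisToGlobal q τ := by group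
      rwa [h9] at this
    have h10 : c g.1 = 0 := by
      rw [h5, hm τ, hVK _ h8, hVK _ h8, sub_self, zero_add, sub_self, smul_zero]
    rw [h10, map_zero]; rfl⟩
  have h4 := hM χ ⟨s, hsK⟩ hs
  exact h4

end level

end

end Fermat.Agent.CFT
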