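import Fermat.Agent.CFT.Sha3
import Fermat.Agent.CFT.EMain
import Fermat.Agent.CFT.Good

set_option autoImplicit false
set_option maxHeartbeats 400000

/-! The Tate-Shafarevich groups have the same cardinality. -/

namespace Fermat.Agent.CFT

open Finset Fermat.Agent.CFTSec

noncomputable section

section level

variable {p : ℕ} [hp : Fact p.Prime] (hp2 : 2 < p) {S : Finset Nat.Primes} (hpS : pP p ∈ S)
  {K L : IntermediateField ℚ Qb} (hL : L.IsUnramifiedOutside S) [hLn : L.fixingSubgroup.Normal]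
  {ζ : Qb} (hζ : IsPrimitiveRoot ζ p) (hζL : ζ ∈ L)
  {V W : Type*} [AddCommGroup V] [AddCommGroup W] [DistribMulAction GQ V] [DistribMulAction GQ W]
  [Fintype V] {B : V →+ W →+ ZMod p} (hB : PData p ζ B)
  (π : PM (GI (GQ ⧸ L.fixingSubgroup) V) →+ V) (hπ : ∀ (g : GQ) f, π (prL L g • f) = g • π f)
  (hσ : ∀ v, π (dl (gi 1 v)) = v)
  {R : AddSubgroup (PM (GI (GQ ⧸ L.fixingSubgroup) V))} [hR : Stab (GQ ⧸ L.fixingSubgroup) R]
  (hRπ : ∀ f, f ∈ R ↔ π f = 0)

include hB hRπ in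
theorem hpR_of (f : PM (GI (GQ ⧸ L.fixingSubgroup) V)) : p • f ∈ R := by
  rw [hRπ, map_nsmul]
  exact hB.tors _

include hpS hL hζ hζL hB hπ hσ hRπ in
theorem level_up {T : Type*} [Finite T]
    (hfin : Finite (↥(AAh S L R) ⧸ (JJh S L R).addSubgroupOf (AAh S L R)))
    (x : T → GQ → GQ → W) (hx : ∀ t, x t ∈ Sh2 S W)
    (hxl : ∀ t g h, ∀ s ∈ L.fixingSubgroup, ∀ s' ∈ L.fixingSubgroup,
      x t (g * s) (h * s') = x t g h)
    (hinj : ∀ t t', x t - x t' ∈ B2S S W → t = t') :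
    Nat.card T ≤ Nat.card (↥(AAh S L R) ⧸ (JJh S L R).addSubgroupOf (AAh S L R)) := by
  have h1 : ∀ t, ∃ φ : R →+ Cm S, (∀ (g : GQ) r, φ (prL L g • r) = g • φ r) ∧
      Rel L R (fun g h => jG hL hζ hζL B π (x t g h)) φ := fun t =>
    exists_rel hpS hL hζ hζL (hpR_of hB π hRπ)
      (shaC_of_sh2 hL hζ hζL hB π hπ hRπ (hx t)) (fun g h s hs s' hs' => by
        show jG hL hζ hζL B π (x t (g * s) (h * s')) = jG hL hζ hζL B π (x t g h)
        rw [hxl t g h s hs s' hs'])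
  choose φ hφ1 hφ2 using h1
  let a : T → AAh S L R := fun t => ⟨toFix (φ t) (hφ1 t), toFix_smul (φ t) (hφ1 t)⟩
  refine Nat.card_le_card_of_injective
    (fun t => (QuotientAddGroup.mk (a t) :
      (↥(AAh S L R) ⧸ (JJh S L R).addSubgroupOf (AAh S L R)))) ?_
  intro t' t h
  have h2 := QuotientAddGroup.eq.mp h
  rw [AddSubgroup.mem_addSubgroupOf] at h2
  have h3 : (a t).1 - (a t').1 ∈ JJh S L R := by
    have h4 : (a t).1 - (a t').1 = ((-a t' + a t : AAh S L R)).1 := by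
      show (a t).1 - (a t').1 = - (a t').1 + (a t).1
      abel
    rw [h4]; exact h2
  have h5 : JJQ L R (φ t - φ t') := jjq_iff.mpr h3
  obtain ⟨b, hb1, hb2, hb3⟩ := rel_B2 hpS hL (hpR_of hB π hRπ) ((hφ2 t).sub (hφ2 t')) h5
  refine (hinj t t' ?_).symm
  refine (b2s_iff hL hζ hζL hB π hπ (fun v => dl (gi 1 v)) hσ hRπ).mpr ⟨b, hb1, hb2,
    fun g h => ?_⟩
  rw [← hb3]
  show jG hL hζ hζL B π (x t g h - x t' g h) = jG hL hζ hζL B π (x t g h) -
    jG hL hζ hζL B π (x t' g h)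
  exact map_sub _ _ _

include hpS hL hζ hζL hB hπ hσ hRπ in
theorem level_down : ∃ Φ : (↥(AAh S L R) ⧸ (JJh S L R).addSubgroupOf (AAh S L R)) →
    (↥(Sh2 S W) ⧸ (B2S S W).addSubgroupOf (Sh2 S W)), Function.Injective Φ := by
  have h1 : ∀ φ : AAh S L R, ∃ x ∈ Sh2 S W,
      Rel L R (fun g h => jG hL hζ hζL B π (x g h))
        ((fix (Cm S) L.fixingSubgroup).subtype.comp φ.1) := by
    intro φ
    obtain ⟨X, hX1, hX2⟩ := rel_exists (φ := (fix (Cm S) L.fixingSubgroup).subtype.comp φ.1)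
      hpS hL (hpR_of hB π hRπ) (ofFix_smul φ.1 φ.2)
    obtain ⟨x, hx, hxX⟩ := sh2_of_shaC hL hζ hζL hB π hπ (fun v => dl (gi 1 v)) hσ hRπ hX1
    refine ⟨x, hx, ?_⟩
    have h2 : (fun g h => jG hL hζ hζL B π (x g h)) = X := by
      funext g h
      exact (hxX g h).symm
    rw [h2]; exact hX2
  choose x hx hxr using h1
  refine ⟨fun y => QuotientAddGroup.mk ⟨x y.out, hx y.out⟩, fun y y' h => ?_⟩
  have h2 := QuotientAddGroup.eq.mp h.symm
  rw [AddSubgroup.mem_addSubgroupOf] at h2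
  have h3 : x y.out - x y'.out ∈ B2S S W := by
    have h4 : x y.out - x y'.out = - x y'.out + x y.out := by abel
    rw [h4]; exact h2
  obtain ⟨b, hb1, hb2, hb3⟩ := (b2s_iff hL hζ hζL hB π hπ (fun v => dl (gi 1 v)) hσ hRπ).mp h3
  have h5 := rel_JJ hL (hpR_of hB π hRπ) ((hxr y.out).sub (hxr y'.out)) ⟨b, hb1, hb2,
    fun g h => by
      rw [← hb3]
      show jG hL hζ hζL B π (x y.out g h) - jG hL hζ hζL B π (x y'.out g h) =
        jG hL hζ hζL B π (x y.out g h - x y'.out g h)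
      exact (map_sub _ _ _).symm⟩
  have h6 : y.out.1 - y'.out.1 ∈ JJh S L R := jjq_iff.mp h5
  have h7 : (QuotientAddGroup.mk y'.out :
      (↥(AAh S L R) ⧸ (JJh S L R).addSubgroupOf (AAh S L R))) = QuotientAddGroup.mk y.out := by
    rw [QuotientAddGroup.eq, AddSubgroup.mem_addSubgroupOf]
    have h4 : y.out.1 - y'.out.1 = ((- y'.out + y.out : AAh S L R)).1 := by
      show y.out.1 - y'.out.1 = - y'.out.1 + y.out.1
      abel
    rw [← h4]; exact h6
  have e1 : (QuotientAddGroup.mk y'.out :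
      (↥(AAh S L R) ⧸ (JJh S L R).addSubgroupOf (AAh S L R))) = y' := Quotient.out_eq' y'
  have e2 : (QuotientAddGroup.mk y.out :
      (↥(AAh S L R) ⧸ (JJh S L R).addSubgroupOf (AAh S L R))) = y := Quotient.out_eq' y
  rw [e1, e2] at h7
  exact h7.symm

include hL in
omit [Fintype V] in
theorem exists_pi [Fintype V] (hVL : ∀ s ∈ L.fixingSubgroup, ∀ v : V, s • v = v) :
    ∃ π : PM (GI (GQ ⧸ L.fixingSubgroup) V) →+ V,
    (∀ (g : GQ) f, π (prL L g • f) = g • π f) ∧ ∀ v, π (dl (gi 1 v)) = v := by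
  haveI := hL.1
  haveI : L.fixingSubgroup.FiniteIndex := finiteIndex_fixingSubgroup L
  haveI : Finite (GQ ⧸ L.fixingSubgroup) := Subgroup.finite_quotient_of_finiteIndex
  haveI : Fintype (GQ ⧸ L.fixingSubgroup) := Fintype.ofFinite _
  exact exists_fh (fun v : V => v) (fun v s hs => hVL s hs v)

end level

/-- the main count -/
theorem sha_count {p : ℕ} [hp : Fact p.Prime] (hp2 : 2 < p) {S : Finset Nat.Primes}
    (hpS : pP p ∈ S) {ζ : Qb} (hζ : IsPrimitiveRoot ζ p)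
    {V W : Type*} [AddCommGroup V] [AddCommGroup W] [DistribMulAction GQ V]
    [DistribMulAction GQ W] [Finite V] {B : V →+ W →+ ZMod p} (hB : PData p ζ B)
    (hV : ∃ E : IntermediateField ℚ Qb, E.IsUnramifiedOutside S ∧
      ∀ s ∈ E.fixingSubgroup, ∀ v : V, s • v = v) :
    Finite (↥(Sh1 S V) ⧸ (B1 GQ V).addSubgroupOf (Sh1 S V)) ∧
    Finite (↥(Sh2 S W) ⧸ (B2S S W).addSubgroupOf (Sh2 S W)) ∧
    Nat.card (↥(Sh2 S W) ⧸ (B2S S W).addSubgroupOf (Sh2 S W)) =
      Nat.card (↥(Sh1 S V) ⧸ (B1 GQ V).addSubgroupOf (Sh1 S V)) := by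
  classical
  haveI := Fermat.Agent.Frob.isGalois_Qbar
  haveI : Fintype V := Fintype.ofFinite V
  obtain ⟨EV, hEV, hEVf⟩ := hV
  have hZ : (Zf p 0).IsUnramifiedOutside S := (Zf_unram (p := p) 0).mono (sub0 hpS)
  have hζZ : ζ ∈ Zf p 0 := by
    have h1 : IsPrimitiveRoot (zN p 0) p := by
      have := zN_spec p 0
      rwa [zero_add, pow_one] at this
    obtain ⟨i, -, hi⟩ := h1.eq_pow_of_pow_eq_one hζ.pow_eq_one
    rw [← hi]
    exact pow_mem (zN_mem p 0) i
  obtain ⟨K, hKle, hK, hKg⟩ := exists_galois_unram (hEV.sup hZ)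
  haveI hKn : K.fixingSubgroup.Normal := inferInstance
  have hζK : ζ ∈ K := hKle (le_sup_right (a := EV) hζZ)
  have hVK : ∀ s ∈ K.fixingSubgroup, ∀ v : V, s • v = v := fun s hs =>
    hEVf s (IntermediateField.fixingSubgroup_antitone (le_sup_left.trans hKle) hs)
  obtain ⟨M, hM, hKM, hMn, hMχ, hMtr⟩ := exists_trace hp2 hpS hK hζ hζK
  have hgood := fun q : S => exists_good hp2 hpS q.1 q.2
  choose m c a hg1 hg2 using hgood
  have hE : ∀ q : S, (EF (m q) hp2).IsUnramifiedOutside S := fun q =>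
    (EF_unram (m q) hp2).mono (sub0 hpS)
  let L0 : IntermediateField ℚ Qb := M ⊔ ⨆ q : S, EF (m q) hp2
  have hL0 : L0.IsUnramifiedOutside S := hM.sup (IsUnramifiedOutside.iSup hE)
  -- level statement
  have key : ∀ L : IntermediateField ℚ Qb, L.IsUnramifiedOutside S → ∀ [L.fixingSubgroup.Normal],
      L0 ≤ L → ∀ (π : PM (GI (GQ ⧸ L.fixingSubgroup) V) →+ V)
      (_ : ∀ (g : GQ) f, π (prL L g • f) = g • π f) (_ : ∀ v, π (dl (gi 1 v)) = v)
      [Stab (GQ ⧸ L.fixingSubgroup) π.ker],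
      Nat.card (↥(AAh S L π.ker) ⧸ (JJh S L π.ker).addSubgroupOf (AAh S L π.ker)) =
        Nat.card (↥(Sh1 S V) ⧸ (B1 GQ V).addSubgroupOf (Sh1 S V)) ∧
      Finite (↥(Sh1 S V) ⧸ (B1 GQ V).addSubgroupOf (Sh1 S V)) := by
    intro L hL hLn hL0L π hπ hσ hR
    have hML : M ≤ L := le_sup_left.trans hL0L
    have hKL : K ≤ L := hKM.trans hML
    have hRπ : ∀ f, f ∈ π.ker ↔ π f = 0 := fun f => AddMonoidHom.mem_ker
    haveI : Finite (PM (GI (GQ ⧸ L.fixingSubgroup) V) ⧸ π.ker) :=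
      Finite.of_injective _ (QuotientAddGroup.kerLift_injective π)
    have h1 := fdual_count (K := K) hp2 hpS hL hζ (hKL hζK) (R := π.ker) (hpR_of hB π hRπ)
      (fun h hh f => by
        obtain ⟨k, hk, rfl⟩ := hh
        rw [hRπ, map_sub]
        have h2 : π ((QuotientGroup.mk' L.fixingSubgroup) k • f) = k • π f := hπ k f
        rw [h2, hVK k hk, sub_self])
      (fun hfin c => hMtr L hL hLn hML hfin c) hKL
      (fun q hq => ⟨m ⟨q, hq⟩, c ⟨q, hq⟩, a ⟨q, hq⟩, hg1 ⟨q, hq⟩, hg2 ⟨q, hq⟩,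
        IntermediateField.fixingSubgroup_antitone
          ((le_iSup (fun q : S => EF (m q) hp2) ⟨q, hq⟩).trans (le_sup_right.trans hL0L))⟩)
    obtain ⟨e⟩ := card_llh hL π hπ (fun v => dl (gi 1 v)) hσ hRπ (fun c hc s hs =>
      sh1_level hB.tors hVK hKM hMχ hc (IntermediateField.fixingSubgroup_antitone hML hs))
    haveI := h1.2
    exact ⟨h1.1.trans (Nat.card_congr e), Finite.of_equiv _ e⟩
  have stabker : ∀ (L : IntermediateField ℚ Qb) [L.fixingSubgroup.Normal]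
      (π : PM (GI (GQ ⧸ L.fixingSubgroup) V) →+ V)
      (_ : ∀ (g : GQ) f, π (prL L g • f) = g • π f), Stab (GQ ⧸ L.fixingSubgroup) π.ker := by
    intro L hLn π hπ
    refine ⟨fun g f hf => ?_⟩
    obtain ⟨g, rfl⟩ := QuotientGroup.mk_surjective g
    have h2 : π ((QuotientGroup.mk g : GQ ⧸ L.fixingSubgroup) • f) = g • π f := hπ g f
    rw [AddMonoidHom.mem_ker] at hf ⊢
    rw [h2, hf, smul_zero]
  -- the base level
  obtain ⟨L, hLle, hL, hLg⟩ := exists_galois_unram hL0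
  haveI hLn : L.fixingSubgroup.Normal := inferInstance
  have hKL : K ≤ L := hKM.trans (le_sup_left.trans hLle)
  obtain ⟨π, hπ, hσ⟩ := exists_pi hL (fun s hs => hVK s (IntermediateField.fixingSubgroup_antitone
    hKL hs))
  haveI := stabker L π hπ
  obtain ⟨hc1, hf1⟩ := key L hL hLle π hπ hσ
  haveI := hf1
  -- finiteness
  have up : ∀ T : Finset (↥(Sh2 S W) ⧸ (B2S S W).addSubgroupOf (Sh2 S W)),
      T.card ≤ Nat.card (↥(Sh1 S V) ⧸ (B1 GQ V).addSubgroupOf (Sh1 S V)) := by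
    intro T
    let x : T → GQ → GQ → W := fun t => (t.1.out).1
    have hx : ∀ t, x t ∈ Sh2 S W := fun t => (t.1.out).2
    have hlv := fun t => (hx t).1.2
    choose E hE hEl using hlv
    obtain ⟨L', hL'le, hL', hL'g⟩ := exists_galois_unram (hL0.sup (IsUnramifiedOutside.iSup hE))
    haveI hLn' : L'.fixingSubgroup.Normal := inferInstance
    have hL0L' : L0 ≤ L' := le_sup_left.trans hL'le
    have hKL' : K ≤ L' := hKM.trans (le_sup_left.trans hL0L')
    obtain ⟨π', hπ', hσ'⟩ := exists_pi hL' (fun s hs => hVK s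
      (IntermediateField.fixingSubgroup_antitone hKL' hs))
    haveI := stabker L' π' hπ'
    obtain ⟨hc', hf'⟩ := key L' hL' hL0L' π' hπ' hσ'
    have hpos : 0 < Nat.card (↥(Sh1 S V) ⧸ (B1 GQ V).addSubgroupOf (Sh1 S V)) := Nat.card_pos
    have hfin : Finite (↥(AAh S L' π'.ker) ⧸
        (JJh S L' π'.ker).addSubgroupOf (AAh S L' π'.ker)) :=
      Nat.finite_of_card_ne_zero (by rw [hc']; exact hpos.ne')
    have h1 := level_up hpS hL' hζ (hKL' hζK) hB π' hπ' hσ' (fun f => AddMonoidHom.mem_ker) hfin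
      x hx (fun t g h s hs s' hs' => hEl t g h s
        (IntermediateField.fixingSubgroup_antitone
          ((le_iSup E t).trans (le_sup_right.trans hL'le)) hs) s'
        (IntermediateField.fixingSubgroup_antitone
          ((le_iSup E t).trans (le_sup_right.trans hL'le)) hs')) (fun t t' h => by
        have h2 : (QuotientAddGroup.mk t'.1.out :
            (↥(Sh2 S W) ⧸ (B2S S W).addSubgroupOf (Sh2 S W))) =
            QuotientAddGroup.mk t.1.out := by
          rw [QuotientAddGroup.eq, AddSubgroup.mem_addSubgroupOf]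
          have h4 : ((- t'.1.out + t.1.out : Sh2 S W)).1 = x t - x t' := by
            show - x t' + x t = x t - x t'
            abel
          rw [h4]; exact h
        have e1 : (QuotientAddGroup.mk t'.1.out :
            (↥(Sh2 S W) ⧸ (B2S S W).addSubgroupOf (Sh2 S W))) = t'.1 := Quotient.out_eq' t'.1
        have e2 : (QuotientAddGroup.mk t.1.out :
            (↥(Sh2 S W) ⧸ (B2S S W).addSubgroupOf (Sh2 S W))) = t.1 := Quotient.out_eq' t.1
        rw [e1, e2] at h2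
        exact Subtype.ext h2.symm)
    rw [hc', Nat.card_eq_fintype_card, Fintype.card_coe] at h1
    exact h1
  have hfin2 : Finite (↥(Sh2 S W) ⧸ (B2S S W).addSubgroupOf (Sh2 S W)) := by
    by_contra hinf
    rw [not_finite_iff_infinite] at hinf
    obtain ⟨T, hT⟩ := Infinite.exists_subset_card_eq
      (↥(Sh2 S W) ⧸ (B2S S W).addSubgroupOf (Sh2 S W))
      (Nat.card (↥(Sh1 S V) ⧸ (B1 GQ V).addSubgroupOf (Sh1 S V)) + 1)
    have := up T
    omega
  refine ⟨hf1, hfin2, le_antisymm ?_ ?_⟩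
  · haveI := Fintype.ofFinite (↥(Sh2 S W) ⧸ (B2S S W).addSubgroupOf (Sh2 S W))
    have := up Finset.univ
    rwa [Finset.card_univ, ← Nat.card_eq_fintype_card] at this
  · rw [← hc1]
    obtain ⟨Φ, hΦ⟩ := level_down hpS hL hζ (hKL hζK) hB π hπ hσ (fun f => AddMonoidHom.mem_ker)
    exact Nat.card_le_card_of_injective Φ hΦ

end

end Fermat.Agent.CFT
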