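import Fermat.Agent.CFT.Sha4
import Fermat.Prelude.Def_GroupCohomology_ContinuousUnramified

set_option autoImplicit false
set_option maxHeartbeats 400000

/-! The comparison with the groups in the statement. -/

namespace Fermat.Agent.CFT

open Finset Fermat.Agent.CFTSec CategoryTheory groupCohomology ExtCitation

noncomputable section

section res

variable {k G H : Type} [CommRing k] [Group G] [Group H]

theorem locRes_zero_iff (f : H →* G) (A : Rep k G) (c : cocycles₁ A) :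
    (groupCohomology.map f (𝟙 (Rep.res f A)) 1).hom ((H1π A).hom c) = 0 ↔
      ∃ m : A, ∀ h, c (f h) = A.ρ (f h) m - m := by
  have h0 : (groupCohomology.map f (𝟙 (Rep.res f A)) 1).hom ((H1π A).hom c) =
      (H1π (Rep.res f A)).hom (mapCocycles₁ f (𝟙 (Rep.res f A)) c) :=
    H1π_comp_map_apply f (𝟙 (Rep.res f A)) c
  rw [h0]
  refine (H1π_eq_zero_iff _).trans ⟨?_, ?_⟩
  · rintro ⟨m, hm⟩
    exact ⟨m, fun h => (congr_fun hm h).symm⟩
  · rintro ⟨m, hm⟩
    exact ⟨m, funext fun h => (hm h).symm⟩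

/-- averaging for 1-cocycles -/
theorem avg1 {p : ℕ} [hp : Fact p.Prime] {C : Type*} [Group C] [Finite C]
    (hC : ¬ p ∣ Nat.card C) {A : Type*} [AddCommGroup A] [DistribMulAction C A]
    (hA : ∀ a : A, p • a = 0) {c : C → A} (hc : ∀ g h, c (g * h) = c g + g • c h) :
    ∃ m : A, ∀ g, c g = g • m - m := by
  classical
  haveI := Fintype.ofFinite C
  have hcop : Nat.Coprime (Nat.card C) p :=
    ((Nat.Prime.coprime_iff_not_dvd hp.out).mpr hC).symm
  obtain ⟨u, v, huv⟩ := Nat.isCoprime_iff_coprime.mpr hcop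
  have hu : ∀ a : A, u • (Nat.card C • a) = a := by
    intro a
    have h1 : (u * (Nat.card C : ℤ) + v * (p : ℤ)) • a = a := by rw [huv, one_smul]
    rw [add_smul, mul_smul, mul_smul, natCast_zsmul, natCast_zsmul, hA, smul_zero, add_zero] at h1
    exact h1
  refine ⟨- (u • ∑ h, c h), fun g => ?_⟩
  have h2 : ∑ h, c (g * h) = ∑ h, c h := Fintype.sum_equiv (Equiv.mulLeft g) _ _ (fun h => rfl)
  have h3 : ∑ h, c h = Nat.card C • c g + g • ∑ h, c h := by
    rw [smul_sum, ← h2]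
    simp_rw [hc g]
    rw [sum_add_distrib, sum_const, card_univ, Nat.card_eq_fintype_card]
  have h4 : Nat.card C • c g = ∑ h, c h - g • ∑ h, c h := by
    rw [eq_sub_iff_add_eq]; exact h3.symm
  rw [← hu (c g), h4, smul_neg, smul_comm g, smul_sub]
  abel

/-- averaging for 2-cocycles -/
theorem avg2 {p : ℕ} [hp : Fact p.Prime] {C : Type*} [Group C] [Finite C]
    (hC : ¬ p ∣ Nat.card C) {A : Type*} [AddCommGroup A] [DistribMulAction C A]
    (hA : ∀ a : A, p • a = 0) {x : C → C → A}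
    (hx : ∀ g h k, x g h + x (g * h) k = g • x h k + x g (h * k)) :
    ∃ n : C → A, (∀ g s, (∀ k, x (g * s) k = x g k) → n (g * s) = n g) ∧
      ∀ g h, x g h = n g + g • n h - n (g * h) := by
  classical
  haveI := Fintype.ofFinite C
  have hcop : Nat.Coprime (Nat.card C) p :=
    ((Nat.Prime.coprime_iff_not_dvd hp.out).mpr hC).symm
  obtain ⟨u, v, huv⟩ := Nat.isCoprime_iff_coprime.mpr hcop
  have hu : ∀ a : A, u • (Nat.card C • a) = a := by
    intro a
    have h1 : (u * (Nat.card C : ℤ) + v * (p : ℤ)) • a = a := by rw [huv, one_smul]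
    rw [add_smul, mul_smul, mul_smul, natCast_zsmul, natCast_zsmul, hA, smul_zero, add_zero] at h1
    exact h1
  refine ⟨fun g => u • ∑ k, x g k, fun g s h => ?_, fun g h => ?_⟩
  · show u • ∑ k, x (g * s) k = u • ∑ k, x g k
    simp_rw [h]
  · have h2 : ∑ k, x g (h * k) = ∑ k, x g k :=
      Fintype.sum_equiv (Equiv.mulLeft h) _ _ (fun k => rfl)
    have h3 : Nat.card C • x g h + ∑ k, x (g * h) k = g • ∑ k, x h k + ∑ k, x g k := by
      rw [smul_sum, ← h2, ← sum_add_distrib]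
      simp_rw [← hx g h]
      rw [sum_add_distrib, sum_const, card_univ, Nat.card_eq_fintype_card]
    have h4 : Nat.card C • x g h = g • ∑ k, x h k + ∑ k, x g k - ∑ k, x (g * h) k := by
      rw [eq_sub_iff_add_eq]; exact h3
    show x g h = u • ∑ k, x g k + g • (u • ∑ k, x h k) - u • ∑ k, x (g * h) k
    rw [smul_comm g, ← smul_add, ← smul_sub]
    rw [← hu (x g h), h4]
    congr 1
    abel

theorem arch_card : Finite archimedeanDecomposition ∧ Nat.card archimedeanDecomposition ∣ 2 := by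
  have h1 : complexConjugation ^ 2 = 1 := complexConjugation_sq
  have h2 : orderOf complexConjugation ∣ 2 := orderOf_dvd_of_pow_eq_one h1
  have h3 : Nat.card archimedeanDecomposition = orderOf complexConjugation :=
    Nat.card_zpowers complexConjugation
  have h4 : orderOf complexConjugation ≠ 0 := fun h => by rw [h] at h2; omega
  exact ⟨Nat.finite_of_card_ne_zero (by rw [h3]; exact h4), by rw [h3]; exact h2⟩

end res

section rep

variable {p : ℕ} [hp : Fact p.Prime] (A : Rep (ZMod p) GQ)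

/-- the action -/
@[reducible] def repAct : DistribMulAction GQ A where
  smul g a := A.ρ g a
  one_smul a := by show A.ρ 1 a = a; rw [map_one]; rfl
  mul_smul g h a := by show A.ρ (g * h) a = A.ρ g (A.ρ h a); rw [map_mul]; rfl
  smul_zero g := map_zero (A.ρ g)
  smul_add g a b := map_add (A.ρ g) a b

theorem tors_rep (a : A) : p • a = 0 := by
  rw [← Nat.cast_smul_eq_nsmul (ZMod p), CharP.cast_eq_zero, zero_smul]

theorem not_dvd_arch (hp2 : p ≠ 2) : ¬ p ∣ Nat.card archimedeanDecomposition := by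
  intro h
  have h1 := (Nat.prime_dvd_prime_iff_eq hp.out Nat.prime_two).mp (h.trans arch_card.2)
  exact hp2 h1

variable (S : Finset Nat.Primes)

theorem locTotal_zero_iff (c : cocycles₁ A) :
    (H1π A).hom c ∈ LinearMap.ker (locTotal (extArithLoc S) A) ↔
      ∀ v, ∃ m : A, ∀ h : extArithLocalGroups S v,
        c (extArithLoc S v h) = A.ρ (extArithLoc S v h) m - m := by
  rw [LinearMap.mem_ker]
  constructor
  · intro h v
    have h1 := congrFun h v
    exact (locRes_zero_iff (extArithLoc S v) A c).mp h1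
  · intro h
    funext v
    exact (locRes_zero_iff (extArithLoc S v) A c).mpr (h v)

theorem card_sha1 (hp2 : p ≠ 2) : letI := repAct A
    Nonempty ((↥(Sh1 S A) ⧸ (B1 GQ A).addSubgroupOf (Sh1 S A)) ≃ ↥(sha₁ S A)) := by
  letI := repAct A
  have hcoc : ∀ c : Sh1 S A, c.1 ∈ cocycles₁ A := by
    intro c
    rw [mem_cocycles₁_iff]
    intro g h
    have h1 : c.1 (g * h) = c.1 g + A.ρ g (c.1 h) := c.2.1.1 g h
    rw [h1, add_comm]
  have hmem : ∀ c : Sh1 S A, (H1π A).hom ⟨c.1, hcoc c⟩ ∈ sha₁ S A := by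
    intro c
    refine ⟨(mem_continuousH1S_iff S A _).mpr ⟨⟨c.1, hcoc c⟩, c.2.1.2, rfl⟩, ?_⟩
    refine (locTotal_zero_iff A S ⟨c.1, hcoc c⟩).mpr (fun v => ?_)
    rcases v with u | q
    · haveI := arch_card.1
      obtain ⟨m, hm⟩ := avg1 (C := archimedeanDecomposition) (not_dvd_arch hp2) (tors_rep A)
        (c := fun g => c.1 g) (fun g h => c.2.1.1 g h)
      exact ⟨m, hm⟩
    · exact c.2.2 q.1 q.2
  let f : ↥(Sh1 S A) →+ ↥(sha₁ S A) := AddMonoidHom.mk' (fun c => ⟨_, hmem c⟩) (fun c c' =>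
    Subtype.ext (map_add (H1π A).hom ⟨c.1, hcoc c⟩ ⟨c'.1, hcoc c'⟩))
  have hker : f.ker = (B1 GQ A).addSubgroupOf (Sh1 S A) := by
    ext c
    rw [AddMonoidHom.mem_ker, AddSubgroup.mem_addSubgroupOf]
    have h1 : f c = 0 ↔ (H1π A).hom ⟨c.1, hcoc c⟩ = 0 := by
      rw [← Submodule.coe_eq_zero]; rfl
    rw [h1]
    refine (H1π_eq_zero_iff _).trans ⟨?_, ?_⟩
    · rintro ⟨m, hm⟩
      exact ⟨m, fun h => (congr_fun hm h).symm⟩
    · rintro ⟨m, hm⟩
      exact ⟨m, funext fun h => (hm h).symm⟩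
  have hsurj : Function.Surjective f := by
    rintro ⟨x, hx1, hx2⟩
    obtain ⟨c, hc, rfl⟩ := (mem_continuousH1S_iff S A _).mp hx1
    have h2 := (locTotal_zero_iff A S c).mp hx2
    have h3 : c.1 ∈ Sh1 S A := by
      refine ⟨⟨fun g h => ?_, hc⟩, fun q hq => h2 (Sum.inr ⟨q, hq⟩)⟩
      have h4 := (mem_cocycles₁_iff c.1).mp c.2 g h
      rw [h4, add_comm]; rfl
    exact ⟨⟨c.1, h3⟩, Subtype.ext rfl⟩
  rw [← hker]
  exact ⟨(QuotientAddGroup.quotientKerEquivOfSurjective f hsurj).toEquiv⟩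

theorem locRes2_zero_iff {H : Type} [Group H] (f : H →* GQ) (x : ↥(levelCocyclesS₂ S A)) :
    locRes₂S S A f (continuousH2Sπ S A x) = 0 ↔
      ∃ n : H → A, IsLevelConstant₁ f n ∧ ∀ d d', x.1 (f d, f d') =
        n d + A.ρ (f d) (n d') - n (d * d') := by
  have h1 : locRes₂S S A f (continuousH2Sπ S A x) = continuousH2π f (Rep.res f A)
      (levelCocycles₂Map f (rH := MonoidHom.id _) (fun _ => rfl)
        (LinearMap.id : A →ₗ[ZMod p] Rep.res f A) (fun _ _ => rfl)
        (levelCocyclesS₂ToLevelCocycles₂ S A x)) := rfl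
  rw [h1, continuousH2π_eq_zero_iff]
  refine (mem_levelCoboundaries₂_iff f (Rep.res f A) _).trans ⟨?_, ?_⟩
  · rintro ⟨n, hn, hx⟩
    refine ⟨n, hn, fun d d' => ?_⟩
    have h2 := congrFun hx (d, d')
    have h3 : A.ρ (f d) (n d') - n (d * d') + n d = x.1 (f d, f d') := by
      rw [d₁₂_hom_apply] at h2
      exact h2
    rw [← h3]; abel
  · rintro ⟨n, hn, hx⟩
    refine ⟨n, hn, ?_⟩
    funext d
    rw [d₁₂_hom_apply]
    show A.ρ (f d.1) (n d.2) - n (d.1 * d.2) + n d.1 = x.1 (f d.1, f d.2)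
    rw [hx]; abel

theorem card_sha2 (hp2 : p ≠ 2) : letI := repAct A
    Nonempty ((↥(Sh2 S A) ⧸ (B2S S A).addSubgroupOf (Sh2 S A)) ≃ ↥(sha₂ S A)) := by
  letI := repAct A
  have hcoc : ∀ x : Sh2 S A, (fun g : GQ × GQ => x.1 g.1 g.2) ∈ levelCocyclesS₂ S A := by
    intro x
    refine ⟨?_, ?_⟩
    · refine (mem_cocycles₂_iff _).mpr (fun g h k => ?_)
      have h1 : x.1 g h + x.1 (g * h) k = A.ρ g (x.1 h k) + x.1 g (h * k) := x.2.1.1 g h k
      rw [add_comm]; exact h1
    · obtain ⟨E, hE, hlev⟩ := x.2.1.2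
      exact ⟨E, hE, fun g g' s s' hs hs' => hlev g g' s hs s' hs'⟩
  let y : Sh2 S A → ↥(levelCocyclesS₂ S A) := fun x => ⟨_, hcoc x⟩
  have hmem : ∀ x : Sh2 S A, continuousH2Sπ S A (y x) ∈ sha₂ S A := by
    intro x
    show locTotal₂S S A (continuousH2Sπ S A (y x)) = 0
    funext v
    rw [locTotal₂S_apply]
    refine (locRes2_zero_iff A S (extArithLoc S v) (y x)).mpr ?_
    rcases v with u | q
    · haveI := arch_card.1
      obtain ⟨n, hn1, hn2⟩ := avg2 (C := archimedeanDecomposition) (not_dvd_arch hp2) (tors_rep A)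
        (x := fun g h => x.1 g h) (fun g h k => x.2.1.1 g h k)
      obtain ⟨E, hE, hlev⟩ := x.2.1.2
      refine ⟨n, ⟨E, hE.1, fun g s hs => hn1 g s (fun k => ?_)⟩, hn2⟩
      have h1 := hlev (extArithLoc S (Sum.inl u) g) (extArithLoc S (Sum.inl u) k)
        (extArithLoc S (Sum.inl u) s) hs 1 (one_mem _)
      rw [mul_one] at h1
      exact h1
    · obtain ⟨n, hn1, hn2⟩ := x.2.2 q.1 q.2
      exact ⟨n, hn1, hn2⟩
  let f : ↥(Sh2 S A) →+ ↥(sha₂ S A) := AddMonoidHom.mk' (fun c => ⟨_, hmem c⟩) (fun c c' =>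
    Subtype.ext (map_add (continuousH2Sπ S A) (y c) (y c')))
  have hker : f.ker = (B2S S A).addSubgroupOf (Sh2 S A) := by
    ext x
    rw [AddMonoidHom.mem_ker, AddSubgroup.mem_addSubgroupOf]
    have h1 : f x = 0 ↔ continuousH2Sπ S A (y x) = 0 := by
      rw [← Submodule.coe_eq_zero]; rfl
    rw [h1, continuousH2Sπ_eq_zero_iff]
    refine (mem_levelCoboundariesS₂_iff S A _).trans ⟨?_, ?_⟩
    · rintro ⟨b, hb, hx⟩
      refine ⟨b, hb, fun g h => ?_⟩
      have h2 := congrFun hx (g, h)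
      rw [d₁₂_hom_apply] at h2
      have h3 : A.ρ g (b h) - b (g * h) + b g = x.1 g h := h2
      rw [← h3]
      show _ = b g + A.ρ g (b h) - b (g * h)
      abel
    · rintro ⟨b, hb, hx⟩
      refine ⟨b, hb, ?_⟩
      funext g
      rw [d₁₂_hom_apply]
      show A.ρ g.1 (b g.2) - b (g.1 * g.2) + b g.1 = x.1 g.1 g.2
      rw [hx]
      show _ = b g.1 + A.ρ g.1 (b g.2) - b (g.1 * g.2)
      abel
  have hsurj : Function.Surjective f := by
    rintro ⟨x, hx⟩
    obtain ⟨y0, rfl⟩ := Submodule.mkQ_surjective _ x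
    have h2 : ∀ v, locRes₂S S A (extArithLoc S v) (continuousH2Sπ S A y0) = 0 := fun v =>
      congrFun (show locTotal₂S S A (continuousH2Sπ S A y0) = 0 from hx) v
    have h3 : (fun g h => y0.1 (g, h)) ∈ Sh2 S A := by
      refine ⟨⟨fun g h k => ?_, ?_⟩, fun q hq => ?_⟩
      · have h4 := (mem_cocycles₂_iff y0.1).mp y0.2.1 g h k
        show y0.1 (g, h) + y0.1 (g * h, k) = A.ρ g (y0.1 (h, k)) + y0.1 (g, h * k)
        rw [← h4, add_comm]
      · obtain ⟨E, hE, hlev⟩ := y0.2.2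
        exact ⟨E, hE, fun g g' s hs s' hs' => hlev g g' s s' hs hs'⟩
      · obtain ⟨n, hn1, hn2⟩ := (locRes2_zero_iff A S _ y0).mp (h2 (Sum.inr ⟨q, hq⟩))
        exact ⟨n, hn1, hn2⟩
    exact ⟨⟨_, h3⟩, Subtype.ext rfl⟩
  rw [← hker]
  exact ⟨(QuotientAddGroup.quotientKerEquivOfSurjective f hsurj).toEquiv⟩

end rep

end

end Fermat.Agent.CFT
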