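import Fermat.Agent.CFT.TN1

set_option autoImplicit false
set_option maxHeartbeats 400000

/-! Tate-Nakayama, part 2: homomorphisms from lattices are norms. -/

namespace Fermat.Agent.CFT

open Finset

/-- stable subgroups -/
class Stab (G : Type*) [Group G] {F : Type*} [AddCommGroup F] [DistribMulAction G F]
    (B : AddSubgroup F) : Prop where
  smul_mem : ∀ (g : G) (b : F), b ∈ B → g • b ∈ B

section

variable {G : Type*} [Group G] {F : Type*} [AddCommGroup F] [DistribMulAction G F]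

instance stabAction (B : AddSubgroup F) [hB : Stab G B] : DistribMulAction G B where
  smul g b := ⟨g • (b : F), hB.smul_mem g b b.2⟩
  one_smul b := Subtype.ext (one_smul G (b : F))
  mul_smul g h b := Subtype.ext (mul_smul g h (b : F))
  smul_zero g := Subtype.ext (smul_zero g)
  smul_add g b b' := Subtype.ext (smul_add g (b : F) b')

theorem coe_stab_smul (B : AddSubgroup F) [hB : Stab G B] (g : G) (b : B) :
    ((g • b : B) : F) = g • (b : F) := rfl

instance stab_sub (B : AddSubgroup F) [hB : Stab G B] (P : Subgroup G) : Stab P B :=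
  ⟨fun g b hb => hB.smul_mem (g : G) b hb⟩

/-- exact division of homomorphisms -/
theorem exists_div_hom {B : Type*} [AddCommGroup B] {p : ℤ} (hp : p ≠ 0) (h : B →+ ℤ)
    (hd : ∀ b, p ∣ h b) : ∃ h' : B →+ ℤ, ∀ b, h b = p * h' b := by
  choose f hf using hd
  refine ⟨AddMonoidHom.mk' f (fun a b => ?_), hf⟩
  apply mul_left_cancel₀ hp
  rw [← hf, map_add, hf a, hf b]; ring

theorem dvd_of_zsmul_mem {p : ℕ} [hp : Fact p.Prime] {B : AddSubgroup F} {f : F} (hf : f ∉ B)
    (hpf : p • f ∈ B) {n : ℤ} (hn : n • f ∈ B) : (p : ℤ) ∣ n := by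
  by_contra hcon
  have hcop : IsCoprime (p : ℤ) n :=
    (Nat.prime_iff_prime_int.mp hp.out).coprime_iff_not_dvd.mpr hcon
  obtain ⟨a, b, hab⟩ := hcop
  apply hf
  have : f = a • ((p : ℤ) • f) + b • (n • f) := by
    rw [smul_smul, smul_smul, ← add_smul, hab, one_smul]
  rw [this]
  exact B.add_mem (B.zsmul_mem (by rwa [natCast_zsmul]) a) (B.zsmul_mem hn b)

end

section normprop

variable {Q : Type*} [Group Q] [Fintype Q] {p : ℕ} [hp : Fact p.Prime]
  {F : Type*} [AddCommGroup F] [DistribMulAction Q F]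
  {Y : Type*} [AddCommGroup Y] [DistribMulAction Q Y]

/-- equivariant homomorphisms are norms -/
def NormProp (Q : Type*) [Group Q] [Fintype Q] (B Y : Type*) [AddCommGroup B]
    [DistribMulAction Q B] [AddCommGroup Y] [DistribMulAction Q Y] : Prop :=
  ∀ φ : B →+ Y, (∀ (g : Q) (b : B), φ (g • b) = g • φ b) →
    ∃ γ : B →+ Y, ∀ b, φ b = ∑ x : Q, x • γ (x⁻¹ • b)

theorem normProp_of_proj (e : F →+ F) (he : ∀ f, ∑ x : Q, x • e (x⁻¹ • f) = f) :
    NormProp Q F Y := by
  intro φ hφ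
  refine ⟨φ.comp e, fun b => ?_⟩
  conv_lhs => rw [← he b]
  rw [map_sum]
  exact sum_congr rfl fun x _ => hφ x _

theorem normProp_step (hY0 : ∀ a ∈ fix Y (⊤ : Subgroup Q), ∃ b : Y, a = ∑ x : Q, x • b)
    (hY1 : Z1 Q Y ≤ B1 Q Y) (B B1' : AddSubgroup F) [hB : Stab Q B] [hB1 : Stab Q B1']
    [Module.Free ℤ B1'] (hBB : B ≤ B1') (f : F) (hf : f ∉ B) (hf1 : f ∈ B1') (hpf : p • f ∈ B)
    (hfix : ∀ g : Q, g • f - f ∈ B) (hgen : ∀ b ∈ B1', ∃ n : ℤ, b - n • f ∈ B)
    (hprop : NormProp Q B1' Y) : NormProp Q B Y := by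
  intro φ hφ
  -- the cocycle
  have hc : (fun g : Q => φ ⟨g • f - f, hfix g⟩) ∈ Z1 Q Y := by
    intro g h
    show φ ⟨(g * h) • f - f, hfix (g * h)⟩ = φ ⟨g • f - f, hfix g⟩ + g • φ ⟨h • f - f, hfix h⟩
    rw [← hφ, ← map_add]
    congr 1
    apply Subtype.ext
    show (g * h) • f - f = (g • f - f) + g • (h • f - f)
    rw [smul_sub, mul_smul]; abel
  obtain ⟨y, hy⟩ := hY1 hc
  have hy' : ∀ g : Q, φ ⟨g • f - f, hfix g⟩ = g • y - y := hy
  -- the invariant element
  set yp := φ ⟨p • f, hpf⟩ with hyp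
  have hy0 : (p : ℤ) • y - yp ∈ fix Y (⊤ : Subgroup Q) := by
    rintro g -
    have h1 : g • yp = yp + (p : ℤ) • (g • y - y) := by
      rw [hyp, ← hφ, ← hy', ← map_zsmul, ← map_add]
      congr 1
      apply Subtype.ext
      show g • (p • f) = p • f + (p : ℤ) • (g • f - f)
      rw [smul_sub, natCast_zsmul, natCast_zsmul, smul_comm]; abel
    rw [smul_sub, h1, smul_comm g (p : ℤ) y]
    rw [smul_sub]; abel
  obtain ⟨y1, hy1⟩ := hY0 _ hy0
  -- splitting
  let m : (B × ℤ) →ₗ[ℤ] B1' :=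
    { toFun := fun z => ⟨(z.1 : F) + z.2 • f, B1'.add_mem (hBB z.1.2) (B1'.zsmul_mem hf1 _)⟩
      map_add' := by
        intro a b
        apply Subtype.ext
        show ((a.1 + b.1 : B) : F) + (a.2 + b.2) • f = ((a.1 : F) + a.2 • f) + ((b.1 : F) + b.2 • f)
        rw [AddSubgroup.coe_add, add_smul]; abel
      map_smul' := by
        intro c a
        apply Subtype.ext
        show ((c • a.1 : B) : F) + (c * a.2) • f = c • ((a.1 : F) + a.2 • f)
        rw [smul_add, mul_smul]; rfl }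
  have hm : Function.Surjective m := by
    intro b
    obtain ⟨n, hn⟩ := hgen b b.2
    refine ⟨(⟨_, hn⟩, n), Subtype.ext ?_⟩
    show (b : F) - n • f + n • f = b
    abel
  obtain ⟨s, hs⟩ := Module.projective_lifting_property m (LinearMap.id : B1' →ₗ[ℤ] B1') hm
  let β : B1' →+ B := (AddMonoidHom.fst B ℤ).comp s.toAddMonoidHom
  let lam : B1' →+ ℤ := (AddMonoidHom.snd B ℤ).comp s.toAddMonoidHom
  have hβ : ∀ b : B1', (b : F) = (β b : F) + lam b • f := by
    intro b
    have := congrArg (fun l : B1' →ₗ[ℤ] B1' => ((l b : B1') : F)) hs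
    exact this.symm
  have hlamdiff : ∀ (g : Q) (b : B1'), (p : ℤ) ∣ lam (g • b) - lam b := by
    intro g b
    apply dvd_of_zsmul_mem hf hpf
    have h1 := hβ b
    have h2 := hβ (g • b)
    have h3 : g • (b : F) = g • (β b : F) + lam b • g • f := by
      conv_lhs => rw [h1]
      rw [smul_add, smul_comm]
    have h4 : (lam (g • b) - lam b) • f = g • (β b : F) - (β (g • b) : F) +
        lam b • (g • f - f) := by
      have h5 : (β (g • b) : F) + lam (g • b) • f = g • (β b : F) + lam b • g • f := by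
        rw [← h2, ← h3]; rfl
      rw [sub_smul, smul_sub]
      have h6 : lam (g • b) • f = g • (β b : F) + lam b • g • f - (β (g • b) : F) := by
        rw [← h5]; abel
      rw [h6]; abel
    rw [h4]
    exact B.add_mem (B.sub_mem (hB.smul_mem g _ (β b).2) (β (g • b)).2) (B.zsmul_mem (hfix g) _)
  have hlamB : ∀ b : B, (p : ℤ) ∣ lam ⟨b, hBB b.2⟩ := by
    intro b
    apply dvd_of_zsmul_mem hf hpf
    have h1 := hβ ⟨b, hBB b.2⟩
    have h2 : lam ⟨b, hBB b.2⟩ • f = (b : F) - (β ⟨b, hBB b.2⟩ : F) := by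
      have h3 : (b : F) = (β ⟨b, hBB b.2⟩ : F) + lam ⟨b, hBB b.2⟩ • f := h1
      rw [eq_sub_iff_add_eq, add_comm]; exact h3.symm
    rw [h2]
    exact B.sub_mem b.2 (β _).2
  have hp0 : (p : ℤ) ≠ 0 := by exact_mod_cast hp.out.ne_zero
  -- δ
  have hδ : ∀ x : Q, ∃ δ : B1' →+ ℤ, ∀ b, lam b - lam (x⁻¹ • b) = p * δ b := by
    intro x
    obtain ⟨δ, hδ⟩ := exists_div_hom hp0 (lam - lam.comp (DistribSMul.toAddMonoidHom B1' x⁻¹))
      (fun b => by
        have := hlamdiff x⁻¹ b
        rw [← dvd_neg, neg_sub] at this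
        exact this)
    exact ⟨δ, hδ⟩
  choose δ hδ using hδ
  obtain ⟨μ, hμ⟩ := exists_div_hom hp0 (lam.comp (AddSubgroup.inclusion hBB)) hlamB
  have hμ' : ∀ b : B, lam ⟨b, hBB b.2⟩ = p * μ b := hμ
  let ψ : B1' →+ Y := φ.comp β + (zmultiplesHom Y y).comp lam
  have hψ : ∀ b, ψ b = φ (β b) + lam b • y := fun b => rfl
  let T : B1' →+ Y := ∑ x : Q, (zmultiplesHom Y (x • y1)).comp (δ x)
  have hT : ∀ b, T b = ∑ x : Q, δ x b • x • y1 := by
    intro b
    simp only [T, AddMonoidHom.finsetSum_apply]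
    rfl
  -- equivariance
  have hψg : ∀ (g : Q) (b : B1') (k : ℤ), lam (g • b) - lam b = p * k →
      ψ (g • b) = g • ψ b + k • ((p : ℤ) • y - yp) := by
    intro g b k hk
    rw [hψ, hψ, smul_add]
    have h1 : β (g • b) = g • β b + lam b • (⟨g • f - f, hfix g⟩ : B) - k • (⟨p • f, hpf⟩ : B) := by
      apply Subtype.ext
      show (β (g • b) : F) = g • (β b : F) + lam b • (g • f - f) - k • (p • f)
      have h2 := hβ (g • b)
      have h3 : (β (g • b) : F) = g • (b : F) - lam (g • b) • f := by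
        rw [show g • (b : F) = ((g • b : B1') : F) from rfl, h2]; abel
      rw [h3, hβ b, smul_add, smul_comm g (lam b) f, smul_sub, ← natCast_zsmul, smul_smul,
        show lam (g • b) = lam b + p * k by omega, add_smul, mul_comm k (p : ℤ)]
      abel
    rw [h1, map_sub, map_add, hφ, map_zsmul, map_zsmul, hy', ← hyp, smul_comm g (lam b) y,
      show lam (g • b) = lam b + p * k by omega, add_smul, mul_comm (p : ℤ) k, mul_smul, smul_sub,
      smul_sub]
    abel
  have hTg : ∀ (g : Q) (b : B1') (k : ℤ), lam (g • b) - lam b = p * k →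
      T (g • b) = g • T b + k • ((p : ℤ) • y - yp) := by
    intro g b k hk
    rw [hT, hT, hy1, smul_sum, smul_sum]
    have h1 : ∑ x : Q, g • δ x b • x • y1 = ∑ x : Q, δ (g⁻¹ * x) b • x • y1 := by
      refine Fintype.sum_equiv (Equiv.mulLeft g) _ _ (fun x => ?_)
      simp only [Equiv.coe_mulLeft, inv_mul_cancel_left]
      rw [smul_comm g, mul_smul]
    rw [h1, ← sum_add_distrib]
    refine sum_congr rfl fun x _ => ?_
    rw [← add_smul]
    congr 1
    apply mul_left_cancel₀ hp0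
    rw [mul_add, ← hδ, ← hδ, ← hk, smul_smul, mul_inv_rev, inv_inv]
    ring
  obtain ⟨γ2, hγ2⟩ := hprop (ψ - T) (by
    intro g b
    obtain ⟨k, hk⟩ := hlamdiff g b
    show ψ (g • b) - T (g • b) = g • (ψ b - T b)
    rw [hψg g b k hk, hTg g b k hk, smul_sub g]
    abel)
  refine ⟨γ2.comp (AddSubgroup.inclusion hBB) - (zmultiplesHom Y y1).comp μ, fun b => ?_⟩
  have h1 := hγ2 ⟨b, hBB b.2⟩
  rw [AddMonoidHom.sub_apply, hψ, hT, hμ'] at h1
  have h2 : β ⟨b, hBB b.2⟩ = b - μ b • (⟨p • f, hpf⟩ : B) := by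
    apply Subtype.ext
    show (β ⟨b, hBB b.2⟩ : F) = (b : F) - μ b • (p • f)
    have h3 : (b : F) = (β ⟨b, hBB b.2⟩ : F) + lam ⟨b, hBB b.2⟩ • f := hβ ⟨b, hBB b.2⟩
    rw [hμ', mul_comm, mul_smul, natCast_zsmul] at h3
    rw [eq_sub_iff_add_eq]; exact h3.symm
  rw [h2, map_sub, map_zsmul, ← hyp] at h1
  have h3 : ∑ x : Q, δ x ⟨b, hBB b.2⟩ • x • y1 =
      μ b • ((p : ℤ) • y - yp) - ∑ x : Q, μ (x⁻¹ • b) • x • y1 := by
    rw [hy1, smul_sum, ← sum_sub_distrib]
    refine sum_congr rfl fun x _ => ?_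
    rw [← sub_smul]
    congr 1
    apply mul_left_cancel₀ hp0
    rw [← hδ, mul_sub, ← hμ', ← hμ']
    rfl
  rw [h3] at h1
  have h4 : φ b = ∑ x : Q, x • γ2 (x⁻¹ • ⟨b, hBB b.2⟩) - ∑ x : Q, μ (x⁻¹ • b) • x • y1 := by
    rw [← h1, mul_smul, smul_sub, smul_comm (μ b) (p : ℤ) y]
    abel
  rw [h4, ← sum_sub_distrib]
  refine sum_congr rfl fun x _ => ?_
  rw [AddMonoidHom.sub_apply, smul_sub]
  congr 1
  exact smul_comm _ _ _

/-- the action on the quotient by a stable subgroup -/
def quotAct (B : AddSubgroup F) [hB : Stab Q B] : MulAction Q (F ⧸ B) where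
  smul g := QuotientAddGroup.map B B (DistribSMul.toAddMonoidHom F g) (fun b hb => hB.smul_mem g b hb)
  one_smul c := by
    obtain ⟨x, rfl⟩ := QuotientAddGroup.mk'_surjective B c
    show QuotientAddGroup.mk' B ((1 : Q) • x) = _
    rw [one_smul]
  mul_smul g h c := by
    obtain ⟨x, rfl⟩ := QuotientAddGroup.mk'_surjective B c
    show QuotientAddGroup.mk' B ((g * h) • x) = QuotientAddGroup.mk' B (g • h • x)
    rw [mul_smul]

theorem normProp_all [Module.Free ℤ F] [Module.Finite ℤ F] (hQ : IsPGroup p Q)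
    (hY0 : ∀ a ∈ fix Y (⊤ : Subgroup Q), ∃ b : Y, a = ∑ x : Q, x • b)
    (hY1 : Z1 Q Y ≤ B1 Q Y) (e : F →+ F) (he : ∀ f, ∑ x : Q, x • e (x⁻¹ • f) = f) (n : ℕ) :
    ∀ (B : AddSubgroup F) [hB : Stab Q B] [Finite (F ⧸ B)], (∀ f : F, p • f ∈ B) →
      Nat.card (F ⧸ B) = n → NormProp Q B Y := by
  induction n using Nat.strong_induction_on with
  | _ n ih =>
  intro B hB hfin hpB hcard
  by_cases htop : B = ⊤
  · subst htop
    intro φ hφ
    let t : F →+ (⊤ : AddSubgroup F) := AddSubgroup.topEquiv.symm.toAddMonoidHom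
    have ht : ∀ f, ((t f : (⊤ : AddSubgroup F)) : F) = f := fun f => rfl
    obtain ⟨γ, hγ⟩ := normProp_of_proj (Y := Y) e he (φ.comp t) (fun g b => by
      show φ (t (g • b)) = g • φ (t b)
      rw [← hφ]; rfl)
    refine ⟨γ.comp (⊤ : AddSubgroup F).subtype, fun b => ?_⟩
    have := hγ b
    exact this
  · -- a fixed vector
    letI := quotAct (Q := Q) B
    have h0 : (0 : F ⧸ B) ∈ MulAction.fixedPoints Q (F ⧸ B) := by
      intro g
      show QuotientAddGroup.map B B _ _ (0 : F ⧸ B) = 0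
      exact map_zero _
    obtain ⟨f0, hf0⟩ : ∃ f0 : F, f0 ∉ B := by
      by_contra hcon
      push Not at hcon
      exact htop (eq_top_iff.mpr fun x _ => hcon x)
    have hdvd : p ∣ Nat.card (F ⧸ B) := by
      have h1 : addOrderOf (QuotientAddGroup.mk f0 : F ⧸ B) = p := by
        apply addOrderOf_eq_prime
        · rw [← QuotientAddGroup.mk_nsmul, QuotientAddGroup.eq_zero_iff]; exact hpB f0
        · rw [ne_eq, QuotientAddGroup.eq_zero_iff]; exact hf0
      rw [← h1]
      exact addOrderOf_dvd_natCard _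
    obtain ⟨b, hb, hb0⟩ := hQ.exists_fixed_point_of_prime_dvd_card_of_fixed_point (F ⧸ B) hdvd h0
    obtain ⟨f, rfl⟩ := QuotientAddGroup.mk'_surjective B b
    have hf : f ∉ B := by
      intro h
      exact hb0 (((QuotientAddGroup.eq_zero_iff f).mpr h).symm)
    have hfix : ∀ g : Q, g • f - f ∈ B := by
      intro g
      have h1 : QuotientAddGroup.mk' B (g • f) = QuotientAddGroup.mk' B f := hb g
      rw [← QuotientAddGroup.eq_zero_iff, QuotientAddGroup.mk_sub, sub_eq_zero]
      exact h1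
    let B' : AddSubgroup F :=
      { carrier := {x | ∃ n : ℤ, x - n • f ∈ B}
        zero_mem' := ⟨0, by simp⟩
        add_mem' := by
          rintro x y ⟨n, hn⟩ ⟨m, hm⟩
          refine ⟨n + m, ?_⟩
          rw [add_smul, show x + y - (n • f + m • f) = (x - n • f) + (y - m • f) by abel]
          exact B.add_mem hn hm
        neg_mem' := by
          rintro x ⟨n, hn⟩
          refine ⟨-n, ?_⟩
          rw [neg_smul, show -x - -(n • f) = -(x - n • f) by abel]
          exact B.neg_mem hn }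
    haveI hB' : Stab Q B' := ⟨by
      rintro g x ⟨n, hn⟩
      refine ⟨n, ?_⟩
      have h1 : g • x - n • f = g • (x - n • f) + n • (g • f - f) := by
        rw [smul_sub, smul_comm g n f, smul_sub]; abel
      rw [h1]
      exact B.add_mem (hB.smul_mem g _ hn) (B.zsmul_mem (hfix g) n)⟩
    have hBB' : B ≤ B' := fun x hx => ⟨0, by simpa using hx⟩
    have hfB' : f ∈ B' := ⟨1, by simp⟩
    haveI hfin' : Finite (F ⧸ B') := by
      refine Finite.of_surjective (QuotientAddGroup.map B B' (AddMonoidHom.id F) hBB') ?_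
      intro x
      obtain ⟨y, rfl⟩ := QuotientAddGroup.mk'_surjective B' x
      exact ⟨QuotientAddGroup.mk' B y, rfl⟩
    have hlt : Nat.card (F ⧸ B') < n := by
      rw [← hcard]
      show B'.index < B.index
      rw [← AddSubgroup.relIndex_mul_index hBB']
      have h1 : B'.index ≠ 0 := AddSubgroup.index_ne_zero_of_finite
      have h2 : B.relIndex B' ≠ 1 := by
        rw [ne_eq, AddSubgroup.relIndex_eq_one]
        intro h
        exact hf (h hfB')
      have h3 : B.relIndex B' ≠ 0 := by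
        intro h0
        have h4 : B.index ≠ 0 := AddSubgroup.index_ne_zero_of_finite
        rw [← AddSubgroup.relIndex_mul_index hBB', h0, zero_mul] at h4
        exact h4 rfl
      have h4 : 1 < B.relIndex B' := by omega
      exact lt_mul_of_one_lt_left (Nat.pos_of_ne_zero h1) h4
    haveI : Module.Free ℤ (AddSubgroup.toIntSubmodule B') :=
      Module.Free.of_basis (Submodule.basisOfPid (Module.Free.chooseBasis ℤ F)
        (AddSubgroup.toIntSubmodule B')).2
    haveI : Module.Free ℤ B' :=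
      (inferInstance : Module.Free ℤ (AddSubgroup.toIntSubmodule B'))
    exact normProp_step hY0 hY1 B B' hBB' f hf hfB' (hpB f) hfix (fun b hb => hb)
      (ih _ hlt B' (fun g => hBB' (hpB g)) rfl)

end normprop

end Fermat.Agent.CFT
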