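import Fermat.Agent.CFT.TN2

set_option autoImplicit false
set_option maxHeartbeats 400000

/-! Tate-Nakayama, part 3: the pairing. -/

namespace Fermat.Agent.CFT

open Finset

section pairing

variable {G : Type*} [Group G] [Fintype G] {F : Type*} [AddCommGroup F] [DistribMulAction G F]
  {C : Type*} [AddCommGroup C] [DistribMulAction G C]

/-- cap product -/
def phiR {B : Type*} [AddCommGroup B] [DistribMulAction G B] (u : G → G → C) (ρ : G → B →+ ℤ) :
    B →+ C where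
  toFun r := ∑ x, ∑ y, ρ y (x⁻¹ • r) • u x y
  map_zero' := by simp
  map_add' r r' := by
    simp only [smul_add, map_add, add_smul, sum_add_distrib]

theorem phiR_apply {B : Type*} [AddCommGroup B] [DistribMulAction G B] (u : G → G → C)
    (ρ : G → B →+ ℤ) (r : B) : phiR u ρ r = ∑ x, ∑ y, ρ y (x⁻¹ • r) • u x y := rfl

theorem phiR_equi {B : Type*} [AddCommGroup B] [DistribMulAction G B] {u : G → G → C}
    (hu : u ∈ Z2 G C) {ρ : G → B →+ ℤ} (hρ : ∀ s, ∑ y, ρ y (y • s) = ∑ y, ρ y s) (g : G) (r : B) :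
    phiR u ρ (g • r) = g • phiR u ρ r := by
  rw [phiR_apply, phiR_apply, smul_sum]
  have h1 : ∑ x, g • ∑ y, ρ y (x⁻¹ • r) • u x y =
      ∑ x, ∑ y, (ρ y (x⁻¹ • r) • u (g * x) y + (ρ y (x⁻¹ • r) • u g x -
        ρ y (x⁻¹ • r) • u g (x * y))) := by
    refine sum_congr rfl fun x _ => ?_
    rw [smul_sum]
    refine sum_congr rfl fun y _ => ?_
    rw [smul_comm g, ← smul_sub, ← smul_add]
    congr 1
    have := hu g x y
    rw [← add_sub_assoc, add_comm (u (g * x) y), this]; abel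
  rw [h1]
  simp only [sum_add_distrib, sum_sub_distrib]
  have h2 : ∑ x, ∑ y, ρ y (x⁻¹ • g • r) • u x y = ∑ x, ∑ y, ρ y (x⁻¹ • r) • u (g * x) y := by
    refine (Fintype.sum_equiv (Equiv.mulLeft g) _ _ (fun x => ?_)).symm
    simp only [Equiv.coe_mulLeft]
    refine sum_congr rfl fun y _ => ?_
    rw [smul_smul]
    congr 3
    group
  rw [h2]
  have h3 : ∑ x, ∑ y, ρ y (x⁻¹ • r) • u g (x * y) = ∑ x, ∑ y, ρ y (x⁻¹ • r) • u g x := by
    rw [sum_comm]
    have h4 : ∀ y, ∑ x, ρ y (x⁻¹ • r) • u g (x * y) = ∑ x, ρ y (y • x⁻¹ • r) • u g x := by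
      intro y
      refine Fintype.sum_equiv (Equiv.mulRight y) _ _ (fun x => ?_)
      simp only [Equiv.coe_mulRight]
      congr 2
      rw [smul_smul]
      congr 1
      group
    rw [sum_congr rfl fun y _ => h4 y, sum_comm]
    refine sum_congr rfl fun x _ => ?_
    rw [← sum_smul, ← sum_smul, hρ]
  rw [h3]; abel

variable {R : AddSubgroup F} [hR : Stab G R]

/-- the boundary cocycle of a lift -/
def rr (c : G → F) (hc : ∀ g h, dd c g h ∈ R) (g h : G) : R := ⟨dd c g h, hc g h⟩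

theorem dd_cocycle (c : G → F) (g h k : G) :
    dd c g h + dd c (g * h) k = g • dd c h k + dd c g (h * k) := by
  simp only [dd, smul_sub, smul_add, mul_smul, mul_assoc]; abel

theorem rr_mem (c : G → F) (hc : ∀ g h, dd c g h ∈ R) : rr c hc ∈ Z2 G R := by
  intro g h k
  apply Subtype.ext
  exact dd_cocycle c g h k

theorem map_mem_Z2 {B : Type*} [AddCommGroup B] [DistribMulAction G B] {x : G → G → B}
    (hx : x ∈ Z2 G B) (φ : B →+ C) (hφ : ∀ (g : G) b, φ (g • b) = g • φ b) :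
    (fun g h => φ (x g h)) ∈ Z2 G C := by
  intro g h k
  simp only [← hφ, ← map_add]
  rw [hx g h k]

theorem map_mem_B2 {B : Type*} [AddCommGroup B] [DistribMulAction G B] {x : G → G → B}
    (hx : x ∈ B2 G B) (φ : B →+ C) (hφ : ∀ (g : G) b, φ (g • b) = g • φ b) :
    (fun g h => φ (x g h)) ∈ B2 G C := by
  obtain ⟨b, hb⟩ := hx
  refine ⟨fun g => φ (b g), fun g h => ?_⟩
  simp only [hb, map_add, map_sub, hφ]

/-- norms pair trivially -/
theorem nrm_pair {B : Type*} [AddCommGroup B] [DistribMulAction G B] {r : G → G → B}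
    (hr : r ∈ Z2 G B) (γ : B →+ C) :
    (fun g h => ∑ x : G, x • γ (x⁻¹ • r g h)) ∈ B2 G C := by
  refine ⟨fun g => ∑ x : G, x • γ (r x⁻¹ g), fun g h => ?_⟩
  have h1 : ∀ x : G, γ (x⁻¹ • r g h) = γ (r (x⁻¹ * g) h) - γ (r x⁻¹ (g * h)) + γ (r x⁻¹ g) := by
    intro x
    rw [← map_sub, ← map_add]
    congr 1
    have := hr x⁻¹ g h
    rw [eq_comm, ← sub_eq_iff_eq_add.mpr this.symm]
    abel
  simp only [h1, smul_add, smul_sub, sum_add_distrib, sum_sub_distrib]
  have h2 : ∑ x : G, x • γ (r (x⁻¹ * g) h) = g • ∑ x : G, x • γ (r x⁻¹ h) := by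
    rw [smul_sum]
    refine (Fintype.sum_equiv (Equiv.mulLeft g) _ _ (fun x => ?_)).symm
    simp only [Equiv.coe_mulLeft]
    rw [mul_smul, show (g * x)⁻¹ * g = x⁻¹ by group]
  rw [h2]; abel

/-- main identity -/
theorem cap_identity {B : Type*} [AddCommGroup B] [DistribMulAction G B] {u : G → G → C}
    (hu : u ∈ Z2 G C) {r : G → G → B} (hr : r ∈ Z2 G B) {ρ : G → B →+ ℤ}
    (hρ : ∀ s, ∑ y, ρ y (y • s) = ∑ y, ρ y s) :
    (fun g h => phiR u ρ (r g h)) - (∑ t : G, ∑ y, ρ y (r y t⁻¹)) • u ∈ B2 G C := by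
  refine ⟨fun g => (∑ x, ∑ y, ρ y (r x⁻¹ g) • u x y) - ∑ t, (∑ y, ρ y (r y t⁻¹)) • u g t,
    fun g h => ?_⟩
  set z : G → ℤ := fun t => ∑ y, ρ y (r y t⁻¹) with hz
  set β : G → C := fun g => ∑ x, ∑ y, ρ y (r x⁻¹ g) • u x y with hβ
  show phiR u ρ (r g h) - (∑ t, z t) • u g h = (β g - ∑ t, z t • u g t) +
    g • (β h - ∑ t, z t • u h t) - (β (g * h) - ∑ t, z t • u (g * h) t)
  -- step 1
  have s1 : phiR u ρ (r g h) = (∑ x, ∑ y, ρ y (r (x⁻¹ * g) h) • u x y) - β (g * h) + β g := by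
    rw [phiR_apply, hβ]
    simp only [← sum_sub_distrib, ← sum_add_distrib]
    refine sum_congr rfl fun x _ => sum_congr rfl fun y _ => ?_
    rw [← sub_smul, ← add_smul, ← map_sub, ← map_add]
    congr 2
    have := hr x⁻¹ g h
    rw [eq_comm, ← sub_eq_iff_eq_add.mpr this.symm]
    abel
  have s2 : (∑ x, ∑ y, ρ y (r (x⁻¹ * g) h) • u x y) =
      ∑ x, ∑ y, ρ y (r x⁻¹ h) • u (g * x) y := by
    refine (Fintype.sum_equiv (Equiv.mulLeft g) _ _ (fun x => ?_)).symm
    simp only [Equiv.coe_mulLeft]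
    rw [show (g * x)⁻¹ * g = x⁻¹ by group]
  have s3 : (∑ x, ∑ y, ρ y (r x⁻¹ h) • u (g * x) y) = g • β h +
      ((∑ x, ∑ y, ρ y (r x⁻¹ h) • u g (x * y)) - ∑ x, ∑ y, ρ y (r x⁻¹ h) • u g x) := by
    rw [hβ]
    simp only [smul_sum, ← sum_sub_distrib, ← sum_add_distrib]
    refine sum_congr rfl fun x _ => sum_congr rfl fun y _ => ?_
    rw [smul_comm g, ← smul_sub, ← smul_add]
    congr 1
    have := hu g x y
    rw [eq_comm, ← sub_eq_iff_eq_add'.mpr this]
    abel
  have s4 : (∑ x, ∑ y, ρ y (r x⁻¹ h) • u g (x * y)) =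
      ∑ t, (∑ y, ρ y (r (y * t⁻¹) h)) • u g t := by
    rw [sum_comm]
    have h4 : ∀ y, ∑ x, ρ y (r x⁻¹ h) • u g (x * y) = ∑ t, ρ y (r (y * t⁻¹) h) • u g t := by
      intro y
      refine Fintype.sum_equiv (Equiv.mulRight y) _ _ (fun x => ?_)
      simp only [Equiv.coe_mulRight]
      rw [show y * (x * y)⁻¹ = x⁻¹ by group]
    rw [sum_congr rfl fun y _ => h4 y, sum_comm]
    exact sum_congr rfl fun t _ => by rw [← sum_smul]
  have s5 : ∀ t, (∑ y, ρ y (r (y * t⁻¹) h)) = (∑ y, ρ y (r t⁻¹ h)) + (z (h⁻¹ * t) - z t) := by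
    intro t
    have h5 : ∀ y, ρ y (r (y * t⁻¹) h) = ρ y (y • r t⁻¹ h) + (ρ y (r y (t⁻¹ * h)) - ρ y (r y t⁻¹)) := by
      intro y
      rw [← map_sub, ← map_add]
      congr 1
      have := hr y t⁻¹ h
      rw [← sub_eq_iff_eq_add'.mpr this]
      abel
    rw [sum_congr rfl fun y _ => h5 y, sum_add_distrib, sum_sub_distrib, hρ]
    simp only [hz]
    rw [show (h⁻¹ * t)⁻¹ = t⁻¹ * h by group]
  have s6 : (∑ t, (∑ y, ρ y (r (y * t⁻¹) h)) • u g t) =
      (∑ x, ∑ y, ρ y (r x⁻¹ h) • u g x) + ∑ t, z t • (u g (h * t) - u g t) := by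
    have h6 : ∑ t, z t • u g (h * t) = ∑ t, z (h⁻¹ * t) • u g t := by
      refine Fintype.sum_equiv (Equiv.mulLeft h) _ _ (fun t => ?_)
      simp only [Equiv.coe_mulLeft, inv_mul_cancel_left]
    simp only [smul_sub, sum_sub_distrib, h6, s5, add_smul, sub_smul, sum_add_distrib, ← sum_smul]
  have s7 : ∑ t, z t • (u g (h * t) - u g t) = (∑ t, z t) • u g h + ∑ t, z t • u (g * h) t -
      g • ∑ t, z t • u h t - ∑ t, z t • u g t := by
    rw [smul_sum, sum_smul, ← sum_add_distrib, ← sum_sub_distrib, ← sum_sub_distrib]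
    refine sum_congr rfl fun t _ => ?_
    rw [smul_comm g, ← smul_add, ← smul_sub, ← smul_sub]
    congr 1
    rw [hu g h t]; abel
  rw [s1, s2, s3, s4, s6, s7, smul_sub]
  abel

/-- second identity -/
theorem cap_identity2 {p : ℤ} {c : G → F} (hc : ∀ g h, dd c g h ∈ R) {ρ : G → R →+ ℤ}
    {f : G → F →+ ℤ} (hf : ∀ s, ∑ y, f y (y • s) = ∑ y, f y s)
    (hρf : ∀ y (s : R), p * ρ y s = f y s) :
    p * (∑ t : G, ∑ y, ρ y (rr c hc y t⁻¹)) = Fintype.card G * ∑ y, f y (c y) := by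
  rw [mul_sum]
  have h1 : ∀ t : G, p * ∑ y, ρ y (rr c hc y t⁻¹) =
      ∑ y, f y (c y) + ∑ y, f y (c t⁻¹) - ∑ y, f y (c (y * t⁻¹)) := by
    intro t
    rw [mul_sum, ← hf (c t⁻¹), ← sum_add_distrib, ← sum_sub_distrib]
    refine sum_congr rfl fun y _ => ?_
    rw [hρf]
    show f y (dd c y t⁻¹) = _
    rw [dd, map_sub, map_add]
  rw [sum_congr rfl fun t _ => h1 t, sum_sub_distrib, sum_add_distrib, sum_const, card_univ,
    nsmul_eq_mul]
  have h2 : ∑ t : G, ∑ y, f y (c (y * t⁻¹)) = ∑ t : G, ∑ y, f y (c t⁻¹) := by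
    rw [sum_comm]
    conv_rhs => rw [sum_comm]
    refine sum_congr rfl fun y _ => ?_
    refine Fintype.sum_equiv (Equiv.mulRight y⁻¹) _ _ (fun t => ?_)
    simp only [Equiv.coe_mulRight]
    congr 2
    group
  rw [h2]; ring

end pairing

section dual

/-- the quotient as a module over `ZMod p` -/
@[reducible] def zmodQ {F : Type*} [AddCommGroup F] (p : ℕ) (R : AddSubgroup F)
    (hp : ∀ f : F, p • f ∈ R) : Module (ZMod p) (F ⧸ R) :=
  AddCommGroup.zmodModule (fun x => by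
    obtain ⟨f, rfl⟩ := QuotientAddGroup.mk'_surjective R x
    rw [← map_nsmul]
    exact (QuotientAddGroup.eq_zero_iff _).mpr (hp f))

variable {G : Type*} [Group G] [Fintype G] {F : Type*} [AddCommGroup F] [DistribMulAction G F]
  {p : ℕ} [hp : Fact p.Prime] {R : AddSubgroup F} [hR : Stab G R]

/-- action on the quotient as homomorphisms -/
def actQ (R : AddSubgroup F) [hR : Stab G R] (g : G) : F ⧸ R →+ F ⧸ R :=
  QuotientAddGroup.map R R (DistribSMul.toAddMonoidHom F g) (fun b hb => hR.smul_mem g b hb)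

theorem actQ_mk (g : G) (f : F) :
    actQ R g (QuotientAddGroup.mk' R f) = QuotientAddGroup.mk' R (g • f) := rfl

omit [Fintype G] in
theorem exists_functional_abs {V : Type*} [AddCommGroup V] [Module (ZMod p) V] (a : G → V →+ V)
    (c : G → V) (hc : ¬ ∃ v, ∀ g, c g = a g v - v) :
    ∃ Λ : (G → V) →+ ZMod p, Λ c ≠ 0 ∧ ∀ v, Λ (fun g => a g v - v) = 0 := by
  let δ : V →ₗ[ZMod p] (G → V) := AddMonoidHom.toZModLinearMap p
    (Pi.addMonoidHom (fun g => a g - AddMonoidHom.id V))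
  have hδ : ∀ (v : V) (g : G), δ v g = a g v - v := fun _ _ => rfl
  have hc' : c ∉ LinearMap.range δ := by
    rintro ⟨v, hv⟩
    exact hc ⟨v, fun g => (congrFun hv g).symm⟩
  obtain ⟨Λ, hΛ1, hΛ2⟩ := Submodule.exists_dual_map_eq_bot_of_notMem hc' inferInstance
  refine ⟨Λ.toAddMonoidHom, hΛ1, fun v => ?_⟩
  have : Λ (δ v) ∈ Submodule.map Λ (LinearMap.range δ) := ⟨_, ⟨_, rfl⟩, rfl⟩
  rw [hΛ2] at this
  exact this

/-- (D1) -/
theorem exists_functional1 (hpR : ∀ f : F, p • f ∈ R) (c : G → F)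
    (hnc : ¬ ∃ m : F, ∀ g, c g - (g • m - m) ∈ R) :
    ∃ f : G → F →+ ZMod p, (∀ y, ∀ r ∈ R, f y r = 0) ∧
      (∀ s, ∑ y, f y (y • s) = ∑ y, f y s) ∧ ∑ y, f y (c y) ≠ 0 := by
  classical
  letI := zmodQ p R hpR
  obtain ⟨Λ, hΛ1, hΛ2⟩ := exists_functional_abs (p := p) (G := G) (V := F ⧸ R) (actQ R)
    (fun g => QuotientAddGroup.mk' R (c g)) (by
      rintro ⟨v, hv⟩
      obtain ⟨m, rfl⟩ := QuotientAddGroup.mk'_surjective R v
      apply hnc
      refine ⟨m, fun g => ?_⟩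
      have h1 : QuotientAddGroup.mk' R (c g) = QuotientAddGroup.mk' R (g • m) -
        QuotientAddGroup.mk' R m := hv g
      rw [← map_sub, ← sub_eq_zero, ← map_sub] at h1
      exact (QuotientAddGroup.eq_zero_iff _).mp h1)
  refine ⟨fun y => (Λ.comp (AddMonoidHom.single (fun _ : G => F ⧸ R) y)).comp
    (QuotientAddGroup.mk' R), ?_, ?_, ?_⟩
  · intro y r hr
    show Λ (Pi.single y (QuotientAddGroup.mk' R r)) = 0
    rw [show QuotientAddGroup.mk' R r = 0 from (QuotientAddGroup.eq_zero_iff r).mpr hr]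
    rw [Pi.single_zero, map_zero]
  · intro s
    rw [← sub_eq_zero, ← sum_sub_distrib]
    show ∑ y, (Λ (Pi.single y (QuotientAddGroup.mk' R (y • s))) -
      Λ (Pi.single y (QuotientAddGroup.mk' R s))) = 0
    have h1 := hΛ2 (QuotientAddGroup.mk' R s)
    rw [← h1, ← Finset.univ_sum_single (fun g => actQ R g (QuotientAddGroup.mk' R s) -
      QuotientAddGroup.mk' R s), map_sum]
    refine sum_congr rfl fun y _ => ?_
    rw [← map_sub, ← Pi.single_sub]
    rfl
  · show ∑ y, Λ (Pi.single y (QuotientAddGroup.mk' R (c y))) ≠ 0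
    rw [← map_sum, Finset.univ_sum_single]
    exact hΛ1

/-- (D2) -/
theorem exists_functional2 (hpR : ∀ f : F, p • f ∈ R) (f : G → F →+ ZMod p)
    (hf : ∀ y, ∀ r ∈ R, f y r = 0)
    (hfc : ∀ c : G → F, (∀ g h, dd c g h ∈ R) → ∑ y, f y (c y) = 0) :
    ∃ h : G → G → F →+ ZMod p, (∀ y z, ∀ r ∈ R, h y z r = 0) ∧
      ∀ y v, f y v = ∑ z, h y z v + ∑ x, h x y (x • v) - ∑ x, h x (x⁻¹ * y) v := by
  classical
  letI := zmodQ p R hpR
  let V := F ⧸ R
  let d : (G → V) →ₗ[ZMod p] (G → G → V) := AddMonoidHom.toZModLinearMap p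
    (Pi.addMonoidHom (fun g => Pi.addMonoidHom (fun h =>
      (Pi.evalAddMonoidHom (fun _ => V) g + (actQ R g).comp (Pi.evalAddMonoidHom (fun _ => V) h) -
        Pi.evalAddMonoidHom (fun _ => V) (g * h)))))
  have hd : ∀ (c : G → V) g h, d c g h = c g + actQ R g (c h) - c (g * h) := fun _ _ _ => rfl
  let f' : G → V →+ ZMod p := fun y => QuotientAddGroup.lift R (f y) (fun r hr => hf y r hr)
  have hf' : ∀ y v, f' y (QuotientAddGroup.mk' R v) = f y v := fun _ _ => rfl
  let Λ : (G → V) →ₗ[ZMod p] ZMod p := AddMonoidHom.toZModLinearMap p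
    (∑ y, (f' y).comp (Pi.evalAddMonoidHom (fun _ => V) y))
  have hΛ : ∀ c, Λ c = ∑ y, f' y (c y) := by
    intro c
    show (∑ y, (f' y).comp (Pi.evalAddMonoidHom (fun _ => V) y)) c = _
    rw [AddMonoidHom.finsetSum_apply]
    rfl
  have hker : LinearMap.ker d ≤ LinearMap.ker Λ := by
    intro c hc
    rw [LinearMap.mem_ker] at hc ⊢
    choose c0 hc0 using fun g => QuotientAddGroup.mk'_surjective R (c g)
    have h1 : ∀ g h, dd c0 g h ∈ R := by
      intro g h
      have h2 := congrFun (congrFun hc g) h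
      rw [hd, ← hc0, ← hc0, ← hc0, actQ_mk, ← map_add, ← map_sub] at h2
      exact (QuotientAddGroup.eq_zero_iff _).mp h2
    rw [hΛ, ← hfc c0 h1]
    exact sum_congr rfl fun y _ => by rw [← hf', hc0]
  obtain ⟨Λ', hΛ'⟩ : ∃ Λ' : (G → G → V) →ₗ[ZMod p] ZMod p, Λ'.comp d = Λ := by
    obtain ⟨l, hl⟩ := (d.rangeRestrict).exists_rightInverse_of_surjective d.range_rangeRestrict
    obtain ⟨m, hm⟩ := LinearMap.exists_extend (Λ.comp l)
    refine ⟨m, LinearMap.ext fun c => ?_⟩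
    show m (d c) = Λ c
    have h1 : m (d c) = (Λ.comp l) (d.rangeRestrict c) := by
      rw [← hm]; rfl
    rw [h1]
    have h2 : l (d.rangeRestrict c) - c ∈ LinearMap.ker d := by
      rw [LinearMap.mem_ker, map_sub, sub_eq_zero]
      have := congrArg (fun t => t (d.rangeRestrict c)) hl
      exact congrArg Subtype.val this
    have h3 := hker h2
    rw [LinearMap.mem_ker, map_sub, sub_eq_zero] at h3
    exact h3
  refine ⟨fun y z => ((Λ'.toAddMonoidHom.comp (AddMonoidHom.single (fun _ : G => G → V) y)).comp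
    (AddMonoidHom.single (fun _ : G => V) z)).comp (QuotientAddGroup.mk' R), ?_, ?_⟩
  · intro y z r hr
    show Λ' (Pi.single y (Pi.single z (QuotientAddGroup.mk' R r))) = 0
    rw [show QuotientAddGroup.mk' R r = 0 from (QuotientAddGroup.eq_zero_iff r).mpr hr,
      Pi.single_zero, Pi.single_zero, map_zero]
  · intro y v
    set vb := QuotientAddGroup.mk' R v with hvb
    have h1 : f y v = Λ (Pi.single y vb) := by
      rw [hΛ, Finset.sum_eq_single y, Pi.single_eq_same, hvb, hf']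
      · intro z _ hz
        rw [Pi.single_eq_of_ne hz, map_zero]
      · intro h; exact absurd (mem_univ _) h
    rw [h1, ← hΛ']
    show Λ' (d (Pi.single y vb)) = ∑ z, Λ' (Pi.single y (Pi.single z (QuotientAddGroup.mk' R v))) +
      ∑ x, Λ' (Pi.single x (Pi.single y (QuotientAddGroup.mk' R (x • v)))) -
        ∑ x, Λ' (Pi.single x (Pi.single (x⁻¹ * y) (QuotientAddGroup.mk' R v)))
    rw [← map_sum, ← map_sum, ← map_sum, ← map_add, ← map_sub]
    congr 1
    funext g h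
    rw [hd]
    simp only [Pi.add_apply, Pi.sub_apply, Finset.sum_apply]
    congr 1
    · congr 1
      · rcases eq_or_ne g y with rfl | hg
        · rw [Pi.single_eq_same, Finset.sum_eq_single h]
          · rw [Pi.single_eq_same, Pi.single_eq_same]
          · intro z _ hz
            rw [Pi.single_eq_same, Pi.single_eq_of_ne hz.symm]
          · intro h; exact absurd (mem_univ _) h
        · rw [Pi.single_eq_of_ne hg]
          symm
          refine Finset.sum_eq_zero fun z _ => ?_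
          rw [Pi.single_eq_of_ne hg]; rfl
      · rw [Finset.sum_eq_single g]
        · rw [Pi.single_eq_same]
          rcases eq_or_ne h y with rfl | hh
          · rw [Pi.single_eq_same, Pi.single_eq_same, hvb, actQ_mk]
          · rw [Pi.single_eq_of_ne hh, Pi.single_eq_of_ne hh, map_zero]
        · intro x _ hx
          rw [Pi.single_eq_of_ne hx.symm]; rfl
        · intro h; exact absurd (mem_univ _) h
    · rw [Finset.sum_eq_single g]
      · rw [Pi.single_eq_same]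
        rcases eq_or_ne (g * h) y with rfl | hh
        · rw [inv_mul_cancel_left, Pi.single_eq_same, Pi.single_eq_same]
        · rw [Pi.single_eq_of_ne hh, Pi.single_eq_of_ne]
          rintro rfl
          exact hh (by group)
      · intro x _ hx
        rw [Pi.single_eq_of_ne hx.symm]; rfl
      · intro h; exact absurd (mem_univ _) h

end dual

end Fermat.Agent.CFT
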