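import Fermat.Agent.CFT.Primes

set_option autoImplicit false
set_option maxHeartbeats 400000

/-! Unramified primes: values of the absolute values. -/

namespace Fermat.Agent.CFT

open NumberField IsDedekindDomain Fermat.Agent.Frob Fermat.Agent.Mink
open scoped Pointwise WithZero

section generic

variable {L : Type} [Field L] [CharZero L] [Algebra ℚ L] [IsGalois ℚ L]

attribute [-instance] DivisionRing.toRatAlgebra in
theorem inertia_trivial (K : IntermediateField ℚ L) [FiniteDimensional ℚ K] [IsGalois ℚ K]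
    (A : ValuationSubring L) {ℓ : ℕ} (hℓ : ℓ.Prime) (hA : A.LiesOverPrime ℓ)
    (hI : A.inertiaSubgroupIn ℚ ≤ K.fixingSubgroup) (τ : K ≃ₐ[ℚ] K)
    (hτ : ∀ x : 𝓞 K, τ • x - x ∈ (center A).comap (incl K)) : τ = 1 := by
  obtain ⟨g, hg⟩ := AlgEquiv.restrictNormalHom_surjective (F := ℚ) (K₁ := K) L τ
  have hop := (InfiniteGalois.isOpen_and_normal_iff_finite_and_isGalois K).mpr
    ⟨inferInstance, inferInstance⟩
  haveI : K.fixingSubgroup.Normal := hop.2
  obtain ⟨h, hh, hhg⟩ := exists_mul_mem_inertia A hℓ hA K.fixingSubgroup hop.1 g (by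
    intro b hb
    have hbK : (b : L) ∈ K := by
      rw [← InfiniteGalois.fixedField_fixingSubgroup K, IntermediateField.mem_fixedField_iff]
      intro f hf
      exact congrArg Subtype.val (hb f hf)
    have hbi : IsIntegral ℤ (⟨(b : L), hbK⟩ : K) := by
      have := b.2
      rw [mem_integralClosure_iff] at this
      exact (isIntegral_algHom_iff (IsScalarTower.toAlgHom ℤ K L)
        (algebraMap K L).injective).mp this
    have h3 := hτ ⟨⟨(b : L), hbK⟩, hbi⟩
    rw [Ideal.mem_comap, mem_center_iff] at h3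
    rw [mem_center_iff]
    have h4 : ((incl K (τ • (⟨⟨(b : L), hbK⟩, hbi⟩ : 𝓞 K) - (⟨⟨(b : L), hbK⟩, hbi⟩ : 𝓞 K)) :
        integralClosure ℤ L) : L) = ((g • b - b : integralClosure ℤ L) : L) := by
      show ((τ (⟨(b : L), hbK⟩ : K) : K) : L) - (b : L) = g (b : L) - (b : L)
      congr 1
      rw [← hg]
      exact AlgEquiv.restrictNormal_commutes g K ⟨(b : L), hbK⟩
    exact (congrArg A.valuation h4).symm.trans_lt h3)
  have h5 : g ∈ K.fixingSubgroup := by
    have := hI hhg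
    have h6 := K.fixingSubgroup.mul_mem (K.fixingSubgroup.inv_mem hh) this
    rwa [inv_mul_cancel_left] at h6
  rw [← hg]
  ext x
  have h7 : g (x : L) = x := (IntermediateField.mem_fixingSubgroup_iff K g).mp h5 x x.2
  have h8 := AlgEquiv.restrictNormal_commutes g K x
  show ((AlgEquiv.restrictNormal g K x : K) : L) = x
  exact h8.trans h7

theorem notMem_sq_of_inertia (K : Type) [Field K] [CharZero K] [inst : Algebra ℚ K]
    [FiniteDimensional ℚ K] [IsGalois ℚ K] (P : Ideal (𝓞 K)) [hP : P.IsPrime] {p : ℕ} (hp : p.Prime)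
    (hpP : (p : 𝓞 K) ∈ P)
    (hI : ∀ τ : K ≃ₐ[ℚ] K, (∀ x : 𝓞 K, τ • x - x ∈ P) → τ = 1) : (p : 𝓞 K) ∉ P ^ 2 := by
  have hinst : inst = DivisionRing.toRatAlgebra := Subsingleton.elim _ _
  subst hinst
  haveI : NumberField K := ⟨⟩
  have h2 : Ideal.inertia (K ≃ₐ[ℚ] K) P = ⊥ := by
    rw [eq_bot_iff]
    intro τ hτ
    rw [Subgroup.mem_bot]
    exact hI τ hτ
  have hPu : P.under ℤ = Ideal.span {(p : ℤ)} := by
    have hmax : (Ideal.span {(p : ℤ)}).IsMaximal := by
      apply PrincipalIdealRing.isMaximal_of_irreducible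
      exact (Nat.prime_iff_prime_int.mp hp).irreducible
    symm
    apply hmax.eq_of_le (Ideal.IsPrime.ne_top inferInstance)
    rw [Ideal.span_singleton_le_iff_mem, Ideal.mem_comap]
    simpa using hpP
  have hp0 : P.under ℤ ≠ ⊥ := by
    rw [hPu, ne_eq, Ideal.span_singleton_eq_bot]
    exact_mod_cast hp.ne_zero
  have h1 : Algebra.IsUnramifiedAt ℤ P := by
    rw [← Ideal.ramificationIdx_eq_one_iff,
      ← Ideal.ramificationIdxIn_eq_ramificationIdx (P.under ℤ) _ (K ≃ₐ[ℚ] K),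
      ← Ideal.card_inertia_eq_ramificationIdxIn (G := K ≃ₐ[ℚ] K) (P.under ℤ) P, h2]
    simp
  have hPbot : P ≠ ⊥ := by
    rintro rfl
    apply hp0
    simp
  have hle : (P.under ℤ).map (algebraMap ℤ (𝓞 K)) ≤ P := Ideal.map_comap_le
  have h3 : Ideal.ramificationIdx' (P.under ℤ) P = 1 := by
    rw [Ideal.IsDedekindDomain.ramificationIdx'_eq_one_iff hPbot hle]
    let _ := Localization.AtPrime.algebraOfLiesOver (P.under ℤ) P
    exact ((Algebra.isUnramifiedAt_iff_map_eq ℤ (P.under ℤ) P).mp h1).2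
  intro hmem
  have h4 := (Ideal.ramificationIdx'_ne_one_iff hle).mpr (by
    rw [hPu, Ideal.map_span, Set.image_singleton, Ideal.span_singleton_le_iff_mem]
    simpa using hmem)
  exact h4 h3

end generic

section

variable {S : Finset Nat.Primes}

theorem smul_liesOver {A : ValuationSubring Qb} {ℓ : ℕ} (hA : A.LiesOverPrime ℓ) (g : GQ) :
    (g • A).LiesOverPrime ℓ := by
  show _ ∈ (g • A).nonunits
  have h1 : (ℓ : Qb) ∈ A.nonunits := hA
  rw [mem_nonunits_iff_valuation] at h1 ⊢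
  by_cases h0 : (ℓ : Qb) = 0
  · rw [h0, map_zero]; exact zero_lt_one
  have key : ∀ (B : ValuationSubring Qb), B.valuation (ℓ : Qb) < 1 ↔ (ℓ : Qb)⁻¹ ∉ B := by
    intro B
    rw [← ValuationSubring.valuation_le_one_iff, map_inv₀, inv_le_one₀, not_le]
    exact zero_lt_iff.mpr ((Valuation.ne_zero_iff _).mpr h0)
  rw [key] at h1 ⊢
  rw [ValuationSubring.mem_pointwise_smul_iff_inv_smul_mem]
  have : g⁻¹ • (ℓ : Qb)⁻¹ = (ℓ : Qb)⁻¹ := by
    rw [AlgEquiv.smul_def, map_inv₀, map_natCast]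
  rwa [this]

theorem valuation_smul_lt (A : ValuationSubring Qb) (g : GQ) (x : Qb) :
    (g • A).valuation x < 1 ↔ A.valuation (g⁻¹ x) < 1 := by
  rcases eq_or_ne x 0 with rfl | h0
  · simp
  have key : ∀ (B : ValuationSubring Qb) (y : Qb), y ≠ 0 → (B.valuation y < 1 ↔ y⁻¹ ∉ B) := by
    intro B y hy
    rw [← ValuationSubring.valuation_le_one_iff, map_inv₀, inv_le_one₀, not_le]
    exact zero_lt_iff.mpr ((Valuation.ne_zero_iff _).mpr hy)
  rw [key _ _ h0, key _ _ (by rwa [ne_eq, EmbeddingLike.map_eq_zero_iff]),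
    ValuationSubring.mem_pointwise_smul_iff_inv_smul_mem, AlgEquiv.smul_def, map_inv₀]

/-- images of unramified fields -/
theorem IsUnramifiedOutside.map_gal {F : IntermediateField ℚ Qb} (hF : F.IsUnramifiedOutside S)
    (σ : GQ) : (F.map (σ : Qb →ₐ[ℚ] Qb)).IsUnramifiedOutside S := by
  haveI := hF.1
  refine ⟨?_, fun q hq A hA g hg => ?_⟩
  · exact (IntermediateField.intermediateFieldMap σ F).toLinearEquiv.finiteDimensional
  · rw [IntermediateField.mem_fixingSubgroup_iff]
    rintro _ ⟨x, hx, rfl⟩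
    have h1 := Fermat.Agent.Mink.conj_mem_inertia A σ⁻¹ g hg
    rw [inv_inv] at h1
    have h2 := hF.2 q hq (σ⁻¹ • A) (smul_liesOver hA _) h1
    rw [IntermediateField.mem_fixingSubgroup_iff] at h2
    have h3 := h2 x hx
    have h4 : g (σ x) = σ ((σ⁻¹ * g * σ) x) := by
      show _ = σ (σ⁻¹ (g (σ x)))
      exact (AlgEquiv.apply_symm_apply σ _).symm
    show g (σ x) = σ x
    rw [h4, h3]

theorem IsUnramifiedOutside.iSup {ι : Type*} [Finite ι] {f : ι → IntermediateField ℚ Qb}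
    (hf : ∀ i, (f i).IsUnramifiedOutside S) : (⨆ i, f i).IsUnramifiedOutside S := by
  refine ⟨?_, fun q hq A hA => ?_⟩
  · haveI := fun i => (hf i).1
    exact IntermediateField.finiteDimensional_iSup_of_finite
  · rw [← IntermediateField.le_iff_le]
    apply iSup_le
    intro i
    rw [IntermediateField.le_iff_le]
    exact (hf i).2 q hq A hA

/-- the Galois closure of an unramified field is unramified -/
theorem exists_galois_unram {F : IntermediateField ℚ Qb} (hF : F.IsUnramifiedOutside S) :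
    ∃ N : IntermediateField ℚ Qb, F ≤ N ∧ N.IsUnramifiedOutside S ∧
      @IsGalois ℚ _ N _ N.algebra' := by
  haveI := hF.1
  haveI := isGalois_Qbar
  have h1 : Normal ℚ (IntermediateField.normalClosure ℚ F Qb) := normalClosure.normal ℚ F Qb
  haveI h2 : FiniteDimensional ℚ (IntermediateField.normalClosure ℚ F Qb) := inferInstance
  refine ⟨IntermediateField.normalClosure ℚ F Qb, IntermediateField.le_normalClosure F,
    ⟨h2, fun q hq A hA g hg => ?_⟩, @IsGalois.mk _ _ _ _ _ inferInstance h1⟩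
  have h3 : IntermediateField.normalClosure ℚ F Qb ≤ IntermediateField.fixedField
      (Subgroup.zpowers g) := by
    rw [show IntermediateField.normalClosure ℚ F Qb = _ from
      IntermediateField.normalClosure_def'' F]
    apply iSup_le
    intro f
    rintro _ ⟨x, hx, rfl⟩
    rw [IntermediateField.mem_fixedField_iff]
    rintro _ ⟨n, rfl⟩
    have h4 := ((IsUnramifiedOutside.map_gal hF f).2 q hq A hA)
    have h5 := (F.map (f : Qb →ₐ[ℚ] Qb)).fixingSubgroup.zpow_mem (h4 hg) n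
    rw [IntermediateField.mem_fixingSubgroup_iff] at h5
    exact h5 _ ⟨x, hx, rfl⟩
  rw [IntermediateField.mem_fixingSubgroup_iff]
  intro x hx
  have := h3 hx
  rw [IntermediateField.mem_fixedField_iff] at this
  exact this g (Subgroup.mem_zpowers g)

/-- values of the absolute value are powers of `q` if `q` is unramified -/
theorem exists_av_eq_zpow {F : IntermediateField ℚ Qb} (hF : F.IsUnramifiedOutside S)
    (q : Nat.Primes) (hq : q ∉ S) [hqf : Fact (q : ℕ).Prime] (σ : GQ) {x : Qb} (hx : x ∈ F)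
    (hx0 : x ≠ 0) : ∃ k : ℤ, av q (σ x) = ((q : ℕ) : ℝ) ^ (-k) := by
  obtain ⟨N, hFN, hN, hNg⟩ := exists_galois_unram hF
  haveI := hN.1
  haveI := isGalois_Qbar
  set v := primeOf q N σ with hv
  have hA' := smul_liesOver (padicPlace_liesOver q) σ⁻¹
  have hv2 : v.asIdeal = (center (σ⁻¹ • padicPlace (q : ℕ))).comap (incl N) := by
    ext y
    rw [mem_primeOf, Ideal.mem_comap, mem_center_iff, valuation_smul_lt, inv_inv,
      valuation_lt_one_iff_av]
    rfl
  have hnot : ((q : ℕ) : 𝓞 N) ∉ v.asIdeal ^ 2 := by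
    haveI := v.isPrime
    refine @notMem_sq_of_inertia N _ _ N.algebra' hN.1 hNg v.asIdeal _ _ q.2
      (natCast_mem_primeOf q N σ) ?_
    intro τ hτ
    refine @inertia_trivial Qb _ _ _ _ N hN.1 hNg _ _ q.2 hA' (hN.2 q hq _ hA') τ ?_
    intro x
    have := hτ x
    rwa [hv2] at this
  have hval : v.valuation N ((q : ℕ) : N) = WithZero.exp (-1 : ℤ) := by
    have h1 : v.valuation N (algebraMap (𝓞 N) N ((q : ℕ) : 𝓞 N)) = v.intValuation ((q : ℕ) : 𝓞 N) :=
      HeightOneSpectrum.valuation_of_algebraMap v _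
    rw [map_natCast] at h1
    rw [h1]
    have h2 : v.intValuation ((q : ℕ) : 𝓞 N) ≤ WithZero.exp (-((1 : ℕ) : ℤ)) := by
      rw [HeightOneSpectrum.intValuation_le_pow_iff_mem, pow_one]
      exact natCast_mem_primeOf q N σ
    have h3 : ¬ v.intValuation ((q : ℕ) : 𝓞 N) ≤ WithZero.exp (-((2 : ℕ) : ℤ)) := by
      rw [HeightOneSpectrum.intValuation_le_pow_iff_mem]; exact hnot
    have h0 : v.intValuation ((q : ℕ) : 𝓞 N) ≠ 0 :=
      HeightOneSpectrum.intValuation_ne_zero v _ (by exact_mod_cast q.2.ne_zero)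
    obtain ⟨a, ha⟩ : ∃ a : ℤ, v.intValuation ((q : ℕ) : 𝓞 N) = WithZero.exp a :=
      ⟨WithZero.log _, (WithZero.exp_log h0).symm⟩
    rw [ha] at h2 h3 ⊢
    rw [WithZero.exp_le_exp] at h2 h3
    congr 1
    push_cast at h2 h3
    omega
  have hxN : x ∈ N := hFN hx
  have hx0' : (⟨x, hxN⟩ : N) ≠ 0 := fun h => hx0 (congrArg Subtype.val h)
  have hq0 : ((q : ℕ) : N) ≠ 0 := by exact_mod_cast q.2.ne_zero
  obtain ⟨b, hb⟩ : ∃ b : ℤ, v.valuation N ⟨x, hxN⟩ = WithZero.exp b :=
    ⟨WithZero.log _, (WithZero.exp_log ((Valuation.ne_zero_iff _).mpr hx0')).symm⟩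
  refine ⟨-b, ?_⟩
  have h1 := (av_eq_iff q N σ (x := ⟨x, hxN⟩) (y := ((q : ℕ) : N) ^ (-b)) hx0'
    (zpow_ne_zero _ hq0)).mpr (by
      rw [map_zpow₀, ← hv, hval, hb, ← WithZero.exp_zsmul]
      congr 1
      simp)
  have e2 : (((((q : ℕ) : N)) ^ (-b) : N) : Qb) = ((q : ℕ) : Qb) ^ (-b) := by push_cast; rfl
  rw [e2, map_zpow₀, av_zpow, map_natCast, av_q] at h1
  rw [h1, neg_neg, inv_zpow', neg_neg]

end

end Fermat.Agent.CFT
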